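import Fermat.Agent.S27x.Spec.Disc
import Fermat.Agent.Lib.RiemannRoch.Consequences
import Fermat.Prelude.Def_AlgebraicCurve_BaseChangeGalois

/-!
# P-S19, BLOCK A, (A0): the abstract geometric setting (helper33)

No modular objects.  Every geometry leaf of BLOCK A is stated against

* `RRBundle K F g` : the Riemann-Roch package of a function field `F / K` of genus `g` all of whose
  places have degree one (a canonical divisor `W` with `l(D) = deg D + 1 - g + l(W - D)`), with the
  consequences `RRBundle.le_finrank` (Riemann's inequality) and `RRBundle.finrank_eq` (equality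
  for `deg D ≥ 2g - 1`);
* `GeoSetting A O k κ` : the variables of `S27x/Spec/Disc.lean` bundled: `R : C0.RedSetup A O k κ`
  with surjective reduction, a specialisation map of places `sp` with conservation of number
  `Inj.SpCompat R (Disc.spD sp)`, surjective, the cartesian property of `O`, the two Riemann-Roch
  packages with the SAME genus `g`, and a distinguished place `oo`;
* `InertiaData G` : a group `S` of `K`-semilinear automorphisms of `F` (Prelude
  `AlgebraicCurve.SemilinearAut K F`) preserving `A` and `O`, inducing the identity on the special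
  fibre (`res (s f) = res f`, `sp (s Q) = sp Q`) and fixing `oo`; `InertiaData.fixedRing` is the
  subring `A^S` of `A` (for us: `S` = inertia, `A^S = inertiaInt P`).

The instances (`IsAlgClosed`, `HasPrincipalDivisors`, `FiniteResidue`) are instance parameters,
so that downstream files only repeat the `variable` line below.
-/

set_option autoImplicit false
set_option linter.unusedSectionVars false
set_option linter.style.haveILetI false

noncomputable section

namespace Fermat.Agent.S19x.Geo

open AlgebraicCurve IsLocalRing Module
open Fermat.Agent.Gateway.C0 Fermat.Agent.Gateway.Red Fermat.Agent.S27x.Spec.Inj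
  Fermat.Agent.S27x.Spec.Disc Fermat.Agent.Lib.RiemannRoch

universe u v w z

/-! ### The Riemann-Roch package -/

/-- Riemann-Roch for a function field `F / K` of genus `g` all of whose places have degree one:
there is a canonical divisor. -/
structure RRBundle (K : Type u) (F : Type v) [Field K] [Field F] [Algebra K F] (g : ℕ) : Prop where
  /-- all places are rational -/
  deg_one : ∀ v : Place K F, v.deg = 1
  /-- functions without poles are constant -/
  ell_zero : finrank K (riemannRochSpace (0 : Divisor K F)) = 1
  /-- Riemann-Roch with a canonical divisor -/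
  exists_canonical : ∃ W : Divisor K F, ∀ D : Divisor K F,
    (finrank K (riemannRochSpace D) : ℤ) =
      Divisor.degree D + 1 - g + finrank K (riemannRochSpace (W - D))

namespace RRBundle

variable {K : Type u} {F : Type v} [Field K] [Field F] [Algebra K F] {g : ℕ}
variable [HasPrincipalDivisors K F] [∀ v : Place K F, v.FiniteResidue] [Nonempty (Place K F)]

/-- Riemann's inequality. -/
theorem le_finrank (B : RRBundle K F g) (D : Divisor K F) :
    Divisor.degree D + 1 - g ≤ (finrank K (riemannRochSpace D) : ℤ) := by
  obtain ⟨W, hW⟩ := B.exists_canonical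
  have := hW D
  have h0 : (0 : ℤ) ≤ finrank K (riemannRochSpace (W - D)) := Int.natCast_nonneg _
  omega

/-- the degree of a canonical divisor is `2g - 2` -/
theorem degree_canonical (B : RRBundle K F g) {W : Divisor K F}
    (hW : ∀ D : Divisor K F, (finrank K (riemannRochSpace D) : ℤ) =
      Divisor.degree D + 1 - g + finrank K (riemannRochSpace (W - D))) :
    Divisor.degree W = 2 * (g : ℤ) - 2 := by
  have h1 := hW 0
  have h2 := hW W
  rw [sub_zero, map_zero, B.ell_zero] at h1
  rw [sub_self, B.ell_zero] at h2
  push_cast at h1 h2
  omega

/-- `l(D) = deg D + 1 - g` for `deg D ≥ 2g - 1`. -/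
theorem finrank_eq (B : RRBundle K F g) {D : Divisor K F}
    (hD : 2 * (g : ℤ) - 1 ≤ Divisor.degree D) :
    (finrank K (riemannRochSpace D) : ℤ) = Divisor.degree D + 1 - g := by
  obtain ⟨W, hW⟩ := B.exists_canonical
  have hdeg := B.degree_canonical hW
  have h0 : riemannRochSpace (W - D) = ⊥ :=
    riemannRochSpace_eq_bot_of_degree_neg (by rw [map_sub]; omega)
  have := hW D
  rw [h0, finrank_bot] at this
  simpa using this

/-- the degree of the reduced divisor of a finite set of places -/
theorem degree_sum_single (B : RRBundle K F g) (U : Finset (Place K F)) :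
    Divisor.degree (∑ Q ∈ U, Finsupp.single Q (1 : ℤ)) = U.card := by
  rw [map_sum]
  simp only [Divisor.degree_single, B.deg_one, Nat.cast_one, mul_one]
  rw [Finset.sum_const, nsmul_eq_mul, mul_one]

end RRBundle

/-! ### The geometric setting -/

/-- **The abstract geometric setting of BLOCK A** (= the variables of `S27x/Spec/Disc.lean`,
bundled). -/
structure GeoSetting {K : Type u} [Field K] (A : ValuationSubring K)
    {F : Type v} [Field F] [Algebra K F] (O : ValuationSubring F)
    (k : Type w) (κ : Type z) [Field k] [Field κ] [Algebra k κ] where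
  /-- the reduction data -/
  R : RedSetup A O k κ
  /-- the reduction of functions is surjective -/
  res_surj : Function.Surjective R.res
  /-- the specialisation of places -/
  sp : Place K F → Place k κ
  /-- conservation of number: `sp (div f) = div (res f)` for `|f| = 1` -/
  spCompat : SpCompat R (spD sp)
  /-- every place of the special fibre is a specialisation -/
  sp_surj : Function.Surjective sp
  /-- the cartesian property: `V ∩ O` is a finitely generated `A`-module -/
  cart : ∀ V : Submodule K F, FiniteDimensional K V → (R.lat V).FG
  /-- the common genus of the two fibres -/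
  g : ℕ
  /-- Riemann-Roch on the generic fibre -/
  rrF : RRBundle K F g
  /-- Riemann-Roch on the special fibre -/
  rrκ : RRBundle k κ g
  /-- the distinguished place (for us: the cusp at infinity) -/
  oo : Place K F

namespace GeoSetting

variable {K : Type u} [Field K] {A : ValuationSubring K}
  {F : Type v} [Field F] [Algebra K F] {O : ValuationSubring F}
  {k : Type w} {κ : Type z} [Field k] [Field κ] [Algebra k κ]
  (G : GeoSetting A O k κ)

/-- the specialisation of the distinguished place -/
def oob : Place k κ := G.sp G.oo

theorem sp_oo : G.sp G.oo = G.oob := rfl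

include G in
theorem nonempty_placeF : Nonempty (Place K F) := ⟨G.oo⟩

include G in
theorem nonempty_placeκ : Nonempty (Place k κ) := ⟨G.oob⟩

/-- the specialisation of divisors -/
def spDiv : Divisor K F →+ Divisor k κ := spD G.sp

theorem spDiv_apply (D : Divisor K F) : G.spDiv D = Finsupp.mapDomain G.sp D := rfl

theorem spDiv_single (Q : Place K F) (n : ℤ) :
    G.spDiv (Finsupp.single Q n) = Finsupp.single (G.sp Q) n :=
  Finsupp.mapDomain_single

theorem spDiv_nonneg {E : Divisor K F} (hE : 0 ≤ E) : 0 ≤ G.spDiv E := spD_nonneg G.sp hE

/-- the specialisation of divisors preserves the degree -/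
theorem degree_spDiv (D : Divisor K F) : Divisor.degree (G.spDiv D) = Divisor.degree D := by
  classical
  rw [spDiv_apply]
  induction D using Finsupp.induction_linear with
  | zero => simp
  | add D E hD hE => rw [Finsupp.mapDomain_add, map_add, map_add, hD, hE]
  | single P n =>
    rw [Finsupp.mapDomain_single, Divisor.degree_single, Divisor.degree_single,
      G.rrF.deg_one, G.rrκ.deg_one]

/-- **Upper semicontinuity**: `l(D) ≤ l(sp D)`. -/
theorem finrank_rrs_le [HasPrincipalDivisors K F] [∀ v : Place K F, v.FiniteResidue]
    [HasPrincipalDivisors k κ] [∀ v : Place k κ, v.FiniteResidue] (D : Divisor K F) :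
    finrank K (riemannRochSpace D) ≤ finrank k (riemannRochSpace (G.spDiv D)) :=
  haveI := G.nonempty_placeF
  haveI := G.nonempty_placeκ
  G.R.finrank_le_of_fg (riemannRochSpace D) (G.R.lat (riemannRochSpace D)) (fun _ => Iff.rfl)
    (G.cart _ inferInstance) (riemannRochSpace (G.spDiv D))
    (fun _ hx => res_mem_rrs G.spCompat hx.2 hx.1)

end GeoSetting

/-! ### Inertia -/

/-- **Inertia data**: a group `S` of `K`-semilinear automorphisms of `F` preserving `A` and `O`,
inducing the identity on the special fibre and fixing the distinguished place. -/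
structure InertiaData {K : Type u} [Field K] {A : ValuationSubring K}
    {F : Type v} [Field F] [Algebra K F] {O : ValuationSubring F}
    {k : Type w} {κ : Type z} [Field k] [Field κ] [Algebra k κ]
    (G : GeoSetting A O k κ) where
  /-- the group (for us: the inertia group of `A`) -/
  S : Subgroup (SemilinearAut K F)
  /-- `S` preserves `A` -/
  base_mem : ∀ s ∈ S, ∀ a ∈ A, SemilinearAut.baseAut s a ∈ A
  /-- `S` preserves the Gauss valuation ring -/
  smul_mem : ∀ s ∈ S, ∀ f ∈ O, s • f ∈ O
  /-- `S` acts trivially on the residue function field -/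
  res_smul : ∀ (s) (hs : s ∈ S) (f : F) (hf : f ∈ O),
    G.R.res ⟨s • f, smul_mem s hs f hf⟩ = G.R.res ⟨f, hf⟩
  /-- `S` preserves the residue discs -/
  sp_smul : ∀ s ∈ S, ∀ Q : Place K F, G.sp (s • Q) = G.sp Q
  /-- the distinguished place is fixed -/
  smul_oo : ∀ s ∈ S, s • G.oo = G.oo

namespace InertiaData

variable {K : Type u} [Field K] {A : ValuationSubring K}
  {F : Type v} [Field F] [Algebra K F] {O : ValuationSubring F}
  {k : Type w} {κ : Type z} [Field k] [Field κ] [Algebra k κ]
  {G : GeoSetting A O k κ} (I : InertiaData G)

/-- The subring `A^S` of `A` (for us: `inertiaInt P`). -/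
def fixedRing : Subring A where
  carrier := {a | ∀ s ∈ I.S, SemilinearAut.baseAut s (a : K) = a}
  zero_mem' := fun s _ => by simp
  one_mem' := fun s _ => by simp
  add_mem' := fun {a b} ha hb s hs => by
    rw [Subring.coe_add, map_add, ha s hs, hb s hs]
  mul_mem' := fun {a b} ha hb s hs => by
    rw [Subring.coe_mul, map_mul, ha s hs, hb s hs]
  neg_mem' := fun {a} ha s hs => by
    rw [Subring.coe_neg, map_neg, ha s hs]

theorem mem_fixedRing {a : A} :
    a ∈ I.fixedRing ↔ ∀ s ∈ I.S, SemilinearAut.baseAut s (a : K) = a := Iff.rfl

/-- the `S`-fixed functions -/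
def IsFixed (f : F) : Prop := ∀ s ∈ I.S, s • f = f

/-- the `S`-fixed places -/
def IsFixedPlace (Q : Place K F) : Prop := ∀ s ∈ I.S, s • Q = Q

theorem isFixedPlace_oo : I.IsFixedPlace G.oo := I.smul_oo

theorem isFixed_algebraMap {a : A} (ha : a ∈ I.fixedRing) :
    I.IsFixed (algebraMap K F (a : K)) := by
  intro s hs
  rw [SemilinearAut.smul_algebraMap, ha s hs]

/-- `S` acts trivially on the residue field of `A`. -/
theorem π_baseAut (s : SemilinearAut K F) (hs : s ∈ I.S) (a : A) :
    G.R.π ⟨SemilinearAut.baseAut s (a : K), I.base_mem s hs a a.2⟩ = G.R.π a := by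
  have h1 := I.res_smul s hs (algebraMap K F (a : K)) (G.R.algebraMap_mem a)
  rw [G.R.res_algebraMap] at h1
  have h2 : (⟨s • algebraMap K F (a : K), I.smul_mem s hs _ (G.R.algebraMap_mem a)⟩ : O) =
      ⟨algebraMap K F ((⟨SemilinearAut.baseAut s (a : K), I.base_mem s hs a a.2⟩ : A) : K),
        G.R.algebraMap_mem _⟩ :=
    Subtype.ext (SemilinearAut.smul_algebraMap s (a : K))
  rw [h2, G.R.res_algebraMap] at h1
  exact (algebraMap k κ).injective h1

end InertiaData

end Fermat.Agent.S19x.Geo
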