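/-
P-S19, BLOCK A, shared definitions (helper22): the value of a function at a place and the monic
polynomial `ρ_D(T) = ∏_Q (T - z(Q)) ^ (D Q)` attached to an effective divisor `D` and a function
`z` regular on its support.  THE common encoding of effective divisors used by the chart (L4),
the Residual Theorem (L6) and the assembly (L8).
-/
import Fermat.Agent.S19x.Geo.Setting

set_option autoImplicit false
set_option linter.unusedSectionVars false
set_option linter.unusedVariables false
set_option linter.deprecated false

noncomputable section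

namespace Fermat.Agent.S19x.Geo

open AlgebraicCurve Polynomial
open Fermat.Agent.Gateway.Red

variable {K : Type*} [Field K] {F : Type*} [Field F] [Algebra K F]

/-- The value `z(Q)` of the function `z` at the place `Q` (junk value `0` if `z` is not regular
with a rational value at `Q`). -/
def valAt (Q : Place K F) (z : F) : K :=
  open Classical in if h : ∃ c : K, HasValue Q z c then h.choose else 0

theorem hasValue_valAt {Q : Place K F} {z : F} (h : ∃ c : K, HasValue Q z c) :
    HasValue Q z (valAt Q z) := by
  unfold valAt
  rw [dif_pos h]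
  exact h.choose_spec

theorem valAt_eq {Q : Place K F} {z : F} {c : K} (h : HasValue Q z c) : valAt Q z = c :=
  (hasValue_valAt ⟨c, h⟩).unique h

/-- `ρ_D(T) = ∏_{Q ∈ supp D} (T - z(Q)) ^ (D Q)` (exponents truncated at `0`). -/
def divPoly (z : F) (D : Divisor K F) : K[X] :=
  ∏ Q ∈ D.support, (X - C (valAt Q z)) ^ (D Q).toNat

theorem divPoly_zero (z : F) : divPoly z (0 : Divisor K F) = 1 := by
  simp [divPoly]

theorem divPoly_monic (z : F) (D : Divisor K F) : (divPoly z D).Monic :=
  monic_prod_of_monic _ _ fun Q _ => (monic_X_sub_C _).pow _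

theorem natDegree_divPoly (z : F) (D : Divisor K F) :
    (divPoly z D).natDegree = ∑ Q ∈ D.support, (D Q).toNat := by
  unfold divPoly
  rw [natDegree_prod_of_monic _ _ fun Q _ => (monic_X_sub_C _).pow _]
  refine Finset.sum_congr rfl fun Q _ => ?_
  rw [(monic_X_sub_C _).natDegree_pow, natDegree_X_sub_C, mul_one]

/-- the product over any finite set containing the support -/
theorem divPoly_eq_prod_of_subset (z : F) (D : Divisor K F) {s : Finset (Place K F)}
    (hs : D.support ⊆ s) : divPoly z D = ∏ Q ∈ s, (X - C (valAt Q z)) ^ (D Q).toNat := by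
  unfold divPoly
  refine Finset.prod_subset hs fun Q _ hQ => ?_
  rw [Finsupp.notMem_support_iff.mp hQ, Int.toNat_zero, pow_zero]

theorem divPoly_add (z : F) {D E : Divisor K F} (hD : 0 ≤ D) (hE : 0 ≤ E) :
    divPoly z (D + E) = divPoly z D * divPoly z E := by
  classical
  have h1 : (D + E).support ⊆ D.support ∪ E.support := Finsupp.support_add
  rw [divPoly_eq_prod_of_subset z (D + E) h1,
    divPoly_eq_prod_of_subset z D Finset.subset_union_left,
    divPoly_eq_prod_of_subset z E Finset.subset_union_right, ← Finset.prod_mul_distrib]
  refine Finset.prod_congr rfl fun Q _ => ?_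
  rw [← pow_add, Finsupp.add_apply, Int.toNat_add (hD Q) (hE Q)]

theorem divPoly_single (z : F) (Q : Place K F) (n : ℕ) :
    divPoly z (Finsupp.single Q (n : ℤ)) = (X - C (valAt Q z)) ^ n := by
  classical
  rcases Nat.eq_zero_or_pos n with rfl | hn
  · simp [divPoly]
  · have hne : (n : ℤ) ≠ 0 := by exact_mod_cast hn.ne'
    unfold divPoly
    rw [Finsupp.support_single_ne_zero _ hne, Finset.prod_singleton, Finsupp.single_eq_same,
      Int.toNat_natCast]

/-- the degree of an effective divisor all of whose places are rational -/
theorem natDegree_divPoly_of_nonneg (z : F) {D : Divisor K F} (hD : 0 ≤ D)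
    (hdeg : ∀ v : Place K F, v.deg = 1) :
    ((divPoly z D).natDegree : ℤ) = Divisor.degree D := by
  classical
  rw [natDegree_divPoly]
  have h1 : Divisor.degree D = ∑ Q ∈ D.support, D Q := by
    conv_lhs => rw [← Finsupp.sum_single D]
    rw [Finsupp.sum, map_sum]
    refine Finset.sum_congr rfl fun Q _ => ?_
    rw [Divisor.degree_single, hdeg, Nat.cast_one, mul_one]
  rw [h1, Nat.cast_sum]
  refine Finset.sum_congr rfl fun Q _ => ?_
  exact Int.toNat_of_nonneg (hD Q)

end Fermat.Agent.S19x.Geo
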