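/-
P-S19, BLOCK A (architect helper22): the TARGET statements of the geometry leaves, as structures
over the abstract setting `GeoSetting` / `InertiaData` of `Geo/Setting.lean`, in the common
divisor encoding `divPoly` of `Geo/DivPoly.lean`.

* `RedMap G`        : a reduction map on classes induced by `sp` (L1 provides it);
* `ChartOut I ρ`    : what the chart leaf (L4 = F1) exports for ONE base divisor `D`;
* `ResidualOut I`   : what the Residual Theorem (L6) exports for ONE configuration `(W0, Dc, m)`;
* `AbsSumChart I ρ` : the abstract one-chart three-term group law (what L8a derives from two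
  charts and two residual outputs, and what the concrete leaf turns into `Assemble.SumChart`).
-/
import Fermat.Agent.S19x.Geo.DivPoly

set_option autoImplicit false
set_option linter.unusedSectionVars false
set_option linter.unusedVariables false

noncomputable section

namespace Fermat.Agent.S19x.Geo

open AlgebraicCurve Polynomial
open Fermat.Agent.Gateway.Red

universe u v w z

variable {K : Type u} [Field K] {A : ValuationSubring K}
  {F : Type v} [Field F] [Algebra K F] {O : ValuationSubring F}
  {k : Type w} {κ : Type z} [Field k] [Field κ] [Algebra k κ]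

/-- `a ∈ t • A` (inside `K`). -/
def DvdInA (A : ValuationSubring K) (t a : K) : Prop := ∃ c ∈ A, a = t * c

/-- the specialisation of divisors of degree zero -/
def GeoSetting.spDegZero (G : GeoSetting A O k κ) :
    Divisor.degZero (K := K) (F := F) →+ Divisor.degZero (K := k) (F := κ) :=
  (G.spDiv.comp (AddSubgroup.subtype _)).codRestrict _ fun D => by
    rw [Divisor.mem_degZero]
    show Divisor.degree (G.spDiv (D : Divisor K F)) = 0
    rw [G.degree_spDiv]
    exact Divisor.mem_degZero.mp D.2

theorem GeoSetting.coe_spDegZero (G : GeoSetting A O k κ)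
    (D : Divisor.degZero (K := K) (F := F)) :
    ((G.spDegZero D : Divisor.degZero (K := k) (F := κ)) : Divisor k κ) = G.spDiv D := rfl

/-- A reduction map on divisor classes induced by the specialisation of places. -/
structure RedMap (G : GeoSetting A O k κ) where
  /-- the reduction map -/
  red : Pic0 K F →+ Pic0 k κ
  /-- it is induced by `sp` -/
  red_mk : ∀ D : Divisor.degZero (K := K) (F := F), red (Pic0.mk D) = Pic0.mk (G.spDegZero D)

variable {G : GeoSetting A O k κ}

/-- the multiple `m • oo` of the distinguished place -/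
def GeoSetting.mulOo (G : GeoSetting A O k κ) (m : ℕ) : Divisor K F :=
  Finsupp.single G.oo (m : ℤ)

/-- the element of `K` is an `S`-fixed element of `A` -/
def InertiaData.IsFixedInt (I : InertiaData G) (a : K) : Prop :=
  ∃ ha : a ∈ A, (⟨a, ha⟩ : A) ∈ I.fixedRing

/-- **Target of the chart leaf (L4)** for one base divisor `D` (effective, of degree `g`,
`S`-fixed, with non-special reduction consisting of `g` distinct points at which `res z` is
unramified with distinct values): the classes of the kernel of reduction are represented by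
unique effective divisors `E x` near `D`, and the lower coefficients of `ρ_{E x} - ρ_D` are
integral, injective, `S`-equivariant coordinates. -/
structure ChartOut (I : InertiaData G) (ρ : RedMap G) where
  /-- the coordinate function -/
  z : F
  /-- the base divisor -/
  D : Divisor K F
  D_nonneg : 0 ≤ D
  D_deg : Divisor.degree D = G.g
  /-- `ρ_D` has `S`-fixed integral coefficients -/
  rhoD_fixed : ∀ l : ℕ, I.IsFixedInt ((divPoly z D).coeff l)
  /-- the effective representative of `x + [D]` (only used for `ρ.red x = 0`) -/
  E : Pic0 K F → Divisor K F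
  E_nonneg : ∀ x, ρ.red x = 0 → 0 ≤ E x
  E_deg : ∀ x, ρ.red x = 0 → Divisor.degree (E x) = G.g
  E_class : ∀ x, ρ.red x = 0 → ∃ h : E x - D ∈ Divisor.degZero, Pic0.mk ⟨E x - D, h⟩ = x
  E_sp : ∀ x, ρ.red x = 0 → G.spDiv (E x) = G.spDiv D
  /-- uniqueness: an effective divisor near `D` (same specialisation) in the class `x + [D]` is
  `E x`; in particular every effective divisor with the specialisation of `D` is an `E x`. -/
  E_unique : ∀ E' : Divisor K F, 0 ≤ E' → G.spDiv E' = G.spDiv D →
    ∀ h : E' - D ∈ Divisor.degZero, ρ.red (Pic0.mk ⟨E' - D, h⟩) = 0 ∧ E (Pic0.mk ⟨E' - D, h⟩) = E'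
  /-- the coordinates lie in the maximal ideal -/
  coord_mem : ∀ x, ρ.red x = 0 → ∀ l : Fin G.g,
    (divPoly z (E x)).coeff l - (divPoly z D).coeff l ∈ A.nonunits
  /-- the coordinates are injective on the kernel of reduction -/
  coord_inj : ∀ x y, ρ.red x = 0 → ρ.red y = 0 →
    (∀ l : Fin G.g, (divPoly z (E x)).coeff l = (divPoly z (E y)).coeff l) → x = y
  /-- the coordinates are `S`-equivariant -/
  coord_smul : ∀ s ∈ I.S, ∀ x, ρ.red x = 0 → ∀ l : Fin G.g,
    (divPoly z (E (s • x))).coeff l = SemilinearAut.baseAut s ((divPoly z (E x)).coeff l)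

/-- the coordinates of a class in a chart -/
def ChartOut.coord {I : InertiaData G} {ρ : RedMap G} (C : ChartOut I ρ) (x : Pic0 K F)
    (l : Fin G.g) : K :=
  (divPoly C.z (C.E x)).coeff l - (divPoly C.z C.D).coeff l

/-- **Target of the Residual Theorem (L6)** for one configuration: fixed part `W0` (effective, of
degree `dW`, multiplicities allowed), base residual `Dc` (effective of degree `g`), pole order `m`
at `oo`.  For every effective `W` with the specialisation of `W0` the residual `Es` of `W` in
`|m oo|` exists, specialises like `Dc`, and the lower coefficients of `ρ_Es - ρ_Dc` are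
approximated to every order by polynomials over `A^S` (zero constant term) in the lower
coefficients of `ρ_W - ρ_W0`. -/
structure ResidualOut (I : InertiaData G) where
  /-- the coordinate function -/
  z : F
  /-- the pole order at `oo` -/
  m : ℕ
  /-- the fixed part of the base divisor -/
  W0 : Divisor K F
  /-- the base residual -/
  Dc : Divisor K F
  /-- the degree of `W0` -/
  dW : ℕ
  W0_nonneg : 0 ≤ W0
  W0_deg : Divisor.degree W0 = dW
  Dc_nonneg : 0 ≤ Dc
  Dc_deg : Divisor.degree Dc = G.g
  base_principal : Divisor.IsPrincipal (W0 + Dc - G.mulOo m)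
  spec : ∀ n : ℕ, ∃ Θ : Fin G.g → MvPolynomial (Fin dW) I.fixedRing,
    (∀ l, MvPolynomial.constantCoeff (Θ l) = 0) ∧
    ∀ W : Divisor K F, 0 ≤ W → G.spDiv W = G.spDiv W0 →
      ∃ Es : Divisor K F, 0 ≤ Es ∧ Divisor.degree Es = G.g ∧
        Divisor.IsPrincipal (W + Es - G.mulOo m) ∧ G.spDiv Es = G.spDiv Dc ∧
        ∀ t ∈ A, (∀ j : Fin dW,
            DvdInA A t ((divPoly z W).coeff j - (divPoly z W0).coeff j)) →
          ∀ l : Fin G.g, DvdInA A (t ^ (n + 1))
            ((divPoly z Es).coeff l - (divPoly z Dc).coeff l -
              MvPolynomial.aeval (fun j : Fin dW => (divPoly z W).coeff j - (divPoly z W0).coeff j)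
                (Θ l))

/-- **The abstract one-chart three-term group law** on the kernel of reduction. -/
structure AbsSumChart (I : InertiaData G) (ρ : RedMap G) where
  /-- the coordinates on the kernel of reduction -/
  X0 : Pic0 K F → Fin G.g → K
  X0_mem : ∀ x, ρ.red x = 0 → ∀ l, X0 x l ∈ A.nonunits
  X0_inj : ∀ x y, ρ.red x = 0 → ρ.red y = 0 → X0 x = X0 y → x = y
  X0_smul : ∀ s ∈ I.S, ∀ x, ρ.red x = 0 → ∀ l,
    X0 (s • x) l = SemilinearAut.baseAut s (X0 x l)
  sum3 : ∀ n : ℕ, ∃ Φ : Fin G.g → MvPolynomial (Fin G.g ⊕ (Fin G.g ⊕ Fin G.g)) I.fixedRing,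
    ∀ x y d, ρ.red x = 0 → ρ.red y = 0 → ρ.red d = 0 → ∀ t ∈ A,
      (∀ l, DvdInA A t (X0 x l)) → (∀ l, DvdInA A t (X0 y l)) → (∀ l, DvdInA A t (X0 d l)) →
      ∀ l, DvdInA A (t ^ (n + 1))
        (X0 (x + y + d) l -
          MvPolynomial.aeval (Sum.elim (X0 x) (Sum.elim (X0 y) (X0 d))) (Φ l))

end Fermat.Agent.S19x.Geo
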