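/-
P-S19, BLOCK A (architect helper22): the two TOP-LEVEL targets of the block, as closed `Prop`s.

* `L1Target`  : what the Gateway-red instantiation (L1 + FixData for the inertia group) delivers
                at every good level `M` prime to `ℓ` and every place `P` of `Qbar` over `ℓ`:
                the abstract setting `(G, I, ρ)` for `K = Qbar`, `A = P`, `F = FBar Qbar M`,
                with `I.S ⊇` the image of the inertia group of `P`, and the two descent
                hypotheses (`LatticeFixed.FixData`, `F` spanned by its fixed elements).
* `AbsTarget` : the abstract main theorem of the block (no modular objects): in every such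
                setting (universe zero) there is a one-chart three-term group law on the kernel
                of reduction, and every point of the special fibre has an `S`-fixed lift.

`Geo/AMain.lean` deduces `Final.ATarget` from these two (through the concrete transfer).
-/
import Fermat.Agent.S19x.Geo.Targets
import Fermat.Agent.S19x.Geo.LatticeFixed
import Fermat.Agent.S19x.Final.S19OfBlocks

set_option autoImplicit false
set_option linter.unusedSectionVars false
set_option linter.unusedVariables false

noncomputable section

namespace Fermat.Agent.S19x.Geo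

open AlgebraicCurve ModularCurve
open Fermat.Agent.Gateway.Red

local notation "Qbar" => AlgebraicClosure ℚ

/-- **What L1 delivers.** -/
def L1Target : Prop :=
  ∀ (M : ℕ) [NeZero M] (ℓ : ℕ) [Fact ℓ.Prime], ¬ ℓ ∣ M → IsGoodLevel M ℓ →
    ∀ (P : ValuationSubring Qbar), P.LiesOverPrime ℓ →
    ∃ (k κ : Type) (_ : Field k) (_ : Field κ) (_ : Algebra k κ) (_ : IsAlgClosed k)
      (O : ValuationSubring (modularFunctionFieldBar M))
      (_ : HasPrincipalDivisors Qbar (modularFunctionFieldBar M))
      (_ : ∀ v : Place Qbar (modularFunctionFieldBar M), v.FiniteResidue)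
      (_ : HasPrincipalDivisors k κ) (_ : ∀ v : Place k κ, v.FiniteResidue)
      (G : GeoSetting P O k κ) (I : InertiaData G) (ρ : RedMap G),
      (∀ σ ∈ P.inertiaSubgroupIn ℚ, arithmeticGalois (modularFunctionFieldFull M) σ ∈ I.S) ∧
      LatticeFixed.FixData G.R (I.S : Set (SemilinearAut Qbar (modularFunctionFieldBar M))) ∧
      Submodule.span Qbar {f : modularFunctionFieldBar M |
        LatticeFixed.IsFixed (I.S : Set (SemilinearAut Qbar (modularFunctionFieldBar M))) f} = ⊤

/-- **The abstract main theorem of BLOCK A** (in universe zero). -/
def AbsTarget : Prop :=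
  ∀ {K : Type} [Field K] {A : ValuationSubring K} {F : Type} [Field F] [Algebra K F]
    {O : ValuationSubring F} {k κ : Type} [Field k] [Field κ] [Algebra k κ] [IsAlgClosed k]
    [HasPrincipalDivisors K F] [∀ v : Place K F, v.FiniteResidue]
    [HasPrincipalDivisors k κ] [∀ v : Place k κ, v.FiniteResidue]
    (G : GeoSetting A O k κ) (I : InertiaData G) (ρ : RedMap G),
    LatticeFixed.FixData G.R (I.S : Set (SemilinearAut K F)) →
    Submodule.span K {f : F | LatticeFixed.IsFixed (I.S : Set (SemilinearAut K F)) f} = ⊤ →
    Nonempty (AbsSumChart I ρ) ∧
      ∀ w : Place k κ, ∃ Q : Place K F, G.sp Q = w ∧ I.IsFixedPlace Q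

end Fermat.Agent.S19x.Geo
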