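import Mathlib
import Fermat.Agent.S19x.Hens.DecompResidue

/-!
# P-S19 (block A, sub-leaf of L8): the valuation of `Qbar` over `ℓ` has rank one  (helper15)

`P` a valuation subring of `Qbar = AlgebraicClosure ℚ` over the rational prime `ℓ`.  Every element
`t` of the maximal ideal of `P` has a power divisible by `ℓ` in `P`:

* `exists_pow_eq_mul` : `t ∈ 𝔪_P → ∃ N > 0, ∃ w ∈ P, t ^ N = ℓ * w`;
* `exists_pow_eq_pow_mul` : `t ∈ 𝔪_P → ∀ n, ∃ N, ∃ w ∈ P, t ^ N = ℓ ^ n * w`.

Proof: `t` is a root of a primitive polynomial `q ∈ ℤ[X]`; if `j` is the least index with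
`ℓ ∤ q_j` then `t ^ j * (q_j + t * (…)) = - ∑_{i<j} q_i t ^ i ∈ ℓ P` and `q_j + t * (…)` is a unit
of `P`.
-/

set_option autoImplicit false

open Polynomial
open Fermat.Agent.S56x.Flat.InertiaField

namespace Fermat.Agent.S19x.Geo.RankOne

local notation "Qbar" => AlgebraicClosure ℚ

variable (P : ValuationSubring Qbar) {ℓ : ℕ}

/-- A finite sum of elements of `P` lies in `P`. -/
theorem sum_mem_valuationSubring {ι : Type*} (s : Finset ι) (f : ι → Qbar)
    (h : ∀ i ∈ s, f i ∈ P) : ∑ i ∈ s, f i ∈ P :=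
  P.toSubring.sum_mem h

/-- **Rank one.** A power of any element of the maximal ideal of `P` is divisible by `ℓ`. -/
theorem exists_pow_eq_mul (hℓ : ℓ.Prime) (hP : P.LiesOverPrime ℓ) (t : Qbar)
    (ht : t ∈ P.nonunits) : ∃ N : ℕ, 0 < N ∧ ∃ w ∈ P, t ^ N = (ℓ : Qbar) * w := by
  have hℓP : ((ℓ : ℕ) : Qbar) ∈ P.nonunits := hP
  have : CharZero Qbar := algebraRat.charZero Qbar
  have htP : t ∈ P := (P.mem_nonunits_iff_exists_mem_maximalIdeal.mp ht).1
  -- a primitive integer polynomial killing `t`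
  have hQalg : Algebra.IsAlgebraic ℚ Qbar := AlgebraicClosure.isAlgebraic ℚ
  have htalg : IsAlgebraic ℤ t :=
    (IsFractionRing.isAlgebraic_iff ℤ ℚ Qbar).mpr (Algebra.IsAlgebraic.isAlgebraic t)
  obtain ⟨q0, hq0, hq0t⟩ := htalg
  set q := q0.primPart with hq
  have hqprim : q.IsPrimitive := q0.isPrimitive_primPart
  have hqt : aeval t q = 0 := by
    have h1 : q0 = C q0.content * q := q0.eq_C_content_mul_primPart
    rw [h1, map_mul, aeval_C] at hq0t
    rcases mul_eq_zero.mp hq0t with h2 | h2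
    · exfalso
      have h3 : q0.content = 0 := by
        have : (algebraMap ℤ Qbar) q0.content = (algebraMap ℤ Qbar) 0 := by rw [h2, map_zero]
        exact (algebraMap ℤ Qbar).injective_int this
      exact hq0 (content_eq_zero_iff.mp h3)
    · exact h2
  -- some coefficient is prime to `ℓ`
  have hex : ∃ i, ¬ (ℓ : ℤ) ∣ q.coeff i := by
    by_contra hcon
    have hcon : ∀ i, (ℓ : ℤ) ∣ q.coeff i := fun i => by
      by_contra h
      exact hcon ⟨i, h⟩
    have h1 : C (ℓ : ℤ) ∣ q := (C_dvd_iff_dvd_coeff _ _).mpr hcon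
    have h2 := hqprim _ h1
    rw [Int.isUnit_iff] at h2
    have h3 := hℓ.one_lt
    omega
  classical
  let j := Nat.find hex
  have hj : ¬ (ℓ : ℤ) ∣ q.coeff j := Nat.find_spec hex
  have hlt : ∀ i, i < j → (ℓ : ℤ) ∣ q.coeff i := fun i hi => by
    by_contra h
    exact Nat.find_min hex hi h
  -- split the evaluation
  rw [aeval_eq_sum_range] at hqt
  set n := q.natDegree with hn
  rw [← Finset.sum_filter_add_sum_filter_not (Finset.range (n + 1)) (fun i => i < j)] at hqt
  -- the low part is divisible by `ℓ`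
  have hlow : ∃ a ∈ P, ∑ i ∈ (Finset.range (n + 1)).filter (fun i => i < j), q.coeff i • t ^ i
      = (ℓ : Qbar) * a := by
    choose! c hc using fun i (hi : i < j) => hlt i hi
    refine ⟨∑ i ∈ (Finset.range (n + 1)).filter (fun i => i < j), (c i : Qbar) * t ^ i, ?_, ?_⟩
    · refine sum_mem_valuationSubring P _ _ fun i _ => ?_
      exact P.mul_mem _ _ (intCast_mem P (c i)) (P.pow_mem htP i)
    · rw [Finset.mul_sum]
      refine Finset.sum_congr rfl fun i hi => ?_
      have hij : i < j := (Finset.mem_filter.mp hi).2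
      rw [zsmul_eq_mul, hc i hij]
      push_cast
      ring
  -- the high part is `t ^ j` times a unit
  have hhigh : ∃ u ∈ P, u ∉ P.nonunits ∧
      ∑ i ∈ (Finset.range (n + 1)).filter (fun i => ¬ i < j), q.coeff i • t ^ i = t ^ j * u := by
    have hjmem : j ∈ (Finset.range (n + 1)).filter (fun i => ¬ i < j) := by
      rw [Finset.mem_filter, Finset.mem_range]
      refine ⟨?_, lt_irrefl j⟩
      have hne : q.coeff j ≠ 0 := by
        intro h0
        rw [h0] at hj
        exact hj (dvd_zero _)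
      exact Nat.lt_succ_of_le (le_natDegree_of_ne_zero hne)
    set s := (Finset.range (n + 1)).filter (fun i => ¬ i < j) with hs
    set r : Qbar := ∑ i ∈ s.erase j, (q.coeff i : Qbar) * t ^ (i - j - 1) with hr
    have hrP : r ∈ P := by
      refine sum_mem_valuationSubring P _ _ fun i _ => ?_
      exact P.mul_mem _ _ (intCast_mem P _) (P.pow_mem htP _)
    refine ⟨(q.coeff j : Qbar) + t * r, ?_, ?_, ?_⟩
    · exact P.add_mem _ _ (intCast_mem P _) (P.mul_mem _ _ htP hrP)
    · intro hu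
      have h1 : t * r ∈ P.nonunits := Fermat.Agent.Lib.mul_mem_nonunits_of_mem P ht hrP
      have h2 : ((q.coeff j : ℤ) : Qbar) ∈ P.nonunits := by
        have : ((q.coeff j : ℤ) : Qbar) = ((q.coeff j : Qbar) + t * r) - t * r := by ring
        rw [this]
        exact P.nonunits.sub_mem hu h1
      exact Fermat.Agent.Lib.intCast_not_mem_nonunits P hℓ hℓP hj h2
    · rw [← Finset.add_sum_erase s _ hjmem, mul_add, hr, Finset.mul_sum, Finset.mul_sum,
        zsmul_eq_mul]
      congr 1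
      · ring
      · refine Finset.sum_congr rfl fun i hi => ?_
        have hi1 : i ≠ j := (Finset.mem_erase.mp hi).1
        have hi2 : ¬ i < j := (Finset.mem_filter.mp (Finset.mem_erase.mp hi).2).2
        have hi3 : i = j + 1 + (i - j - 1) := by omega
        have hi4 : t ^ i = t ^ j * t * t ^ (i - j - 1) := by
          conv_lhs => rw [hi3, pow_add, pow_succ]
        rw [zsmul_eq_mul, hi4]
        ring
  obtain ⟨a, haP, ha⟩ := hlow
  obtain ⟨u, huP, hu, hu'⟩ := hhigh
  rw [ha, hu'] at hqt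
  obtain ⟨hu0, huinv⟩ := inv_mem_of_notMem_nonunits P huP hu
  refine ⟨j + 1, Nat.succ_pos j, t * (-a * u⁻¹), ?_, ?_⟩
  · exact P.mul_mem _ _ htP (P.mul_mem _ _ (P.neg_mem _ haP) huinv)
  · have h1 : t ^ j * u = -((ℓ : Qbar) * a) := by
      rw [eq_neg_iff_add_eq_zero, add_comm]
      exact hqt
    have h2 : t ^ j = -((ℓ : Qbar) * a) * u⁻¹ := by
      rw [← h1]
      field_simp
    rw [pow_succ, h2]
    ring

/-- **Rank one**, arbitrary precision: a power of any element of the maximal ideal of `P` is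
divisible by `ℓ ^ n`. -/
theorem exists_pow_eq_pow_mul (hℓ : ℓ.Prime) (hP : P.LiesOverPrime ℓ) (t : Qbar)
    (ht : t ∈ P.nonunits) (n : ℕ) : ∃ N : ℕ, ∃ w ∈ P, t ^ N = (ℓ : Qbar) ^ n * w := by
  obtain ⟨N, -, w, hw, h⟩ := exists_pow_eq_mul P hℓ hP t ht
  refine ⟨N * n, w ^ n, P.pow_mem hw n, ?_⟩
  rw [pow_mul, h, mul_pow]

/-- Monotone form: all sufficiently high powers of `t ∈ 𝔪_P` are divisible by `ℓ ^ n`. -/
theorem exists_forall_pow_eq_pow_mul (hℓ : ℓ.Prime) (hP : P.LiesOverPrime ℓ) (t : Qbar)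
    (ht : t ∈ P.nonunits) (n : ℕ) :
    ∃ N : ℕ, ∀ m, N ≤ m → ∃ w ∈ P, t ^ m = (ℓ : Qbar) ^ n * w := by
  have htP : t ∈ P := (P.mem_nonunits_iff_exists_mem_maximalIdeal.mp ht).1
  obtain ⟨N, w, hw, h⟩ := exists_pow_eq_pow_mul P hℓ hP t ht n
  refine ⟨N, fun m hm => ⟨w * t ^ (m - N), P.mul_mem _ _ hw (P.pow_mem htP _), ?_⟩⟩
  obtain ⟨k, rfl⟩ := Nat.exists_eq_add_of_le hm
  rw [pow_add, h, Nat.add_sub_cancel_left]
  ring

/-- Uniform version for a finite family of elements of the maximal ideal. -/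
theorem exists_forall_pow_eq_pow_mul_of_finite (hℓ : ℓ.Prime) (hP : P.LiesOverPrime ℓ)
    {ι : Type*} [Finite ι] (t : ι → Qbar) (ht : ∀ i, t i ∈ P.nonunits) (n : ℕ) :
    ∃ N : ℕ, ∀ i m, N ≤ m → ∃ w ∈ P, t i ^ m = (ℓ : Qbar) ^ n * w := by
  have := Fintype.ofFinite ι
  choose N hN using fun i => exists_forall_pow_eq_pow_mul P hℓ hP (t i) (ht i) n
  refine ⟨Finset.univ.sup N, fun i m hm => hN i m ?_⟩
  exact le_trans (Finset.le_sup (Finset.mem_univ i)) hm

end Fermat.Agent.S19x.Geo.RankOne
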