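/-
P-S19, BLOCK A, leaf (L8b) (helper22): the formal ASSEMBLY of the interface structure
`LocalChartData` from a one-chart description of the group law on the kernel of reduction.

`SumChart P J actJ` : the group `J` (think `JZero M`) with its Galois action carries a subgroup
`J1` (the kernel of reduction), integral inertia-equivariant coordinates `X0` on `J1`,
inertia-fixed lifts of all cosets of `J1`, and a THREE-term addition law
`X0 (x + y + d) ≈ Φ_n (X0 x, X0 y, X0 d)` with polynomials `Φ_n` over `O^ur = inertiaInt P`,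
the error being divisible by `t ^ (n + 1)` as soon as all the coordinates are divisible by `t`.

`nonempty_localChartData` : for every finite group `X` mapping injectively and equivariantly to
`J`, such a chart gives `LocalChartData ℓ P X act` (coordinates of `Q` relative to an inertia-fixed
base point of its coset), provided `P` has rank one over `ℓ` (`hrank`).
-/
import Mathlib
import Fermat.Agent.S19x.Iface

set_option autoImplicit false
set_option linter.unusedSectionVars false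
set_option linter.unusedVariables false

noncomputable section

namespace Fermat.Agent.S19x.Geo.Assemble

open Fermat.Agent.S56x.Flat.InertiaField Fermat.Agent.S19x

local notation "Qbar" => AlgebraicClosure ℚ
local notation "Γℚ" => (AlgebraicClosure ℚ ≃ₐ[ℚ] AlgebraicClosure ℚ)

/-- `a ∈ t • P`. -/
def DvdIn (P : ValuationSubring Qbar) (t a : Qbar) : Prop := ∃ w ∈ P, a = t * w

theorem DvdIn.refl (P : ValuationSubring Qbar) (t : Qbar) : DvdIn P t t :=
  ⟨1, P.one_mem, (mul_one t).symm⟩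

theorem DvdIn.trans {P : ValuationSubring Qbar} {a b c : Qbar} (h1 : DvdIn P a b)
    (h2 : DvdIn P b c) : DvdIn P a c := by
  obtain ⟨w1, hw1, rfl⟩ := h1
  obtain ⟨w2, hw2, rfl⟩ := h2
  exact ⟨w1 * w2, P.mul_mem _ _ hw1 hw2, by ring⟩

theorem DvdIn.zero (P : ValuationSubring Qbar) (t : Qbar) : DvdIn P t 0 :=
  ⟨0, P.zero_mem, (mul_zero t).symm⟩

/-- In a valuation ring, of two elements one divides the other. -/
theorem dvdIn_total (P : ValuationSubring Qbar) (a b : Qbar) : DvdIn P a b ∨ DvdIn P b a := by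
  by_cases hb : b = 0
  · left
    subst hb
    exact DvdIn.zero P a
  by_cases ha : a = 0
  · right
    subst ha
    exact DvdIn.zero P b
  rcases P.mem_or_inv_mem (b / a) with h | h
  · left
    exact ⟨b / a, h, by field_simp⟩
  · right
    exact ⟨(b / a)⁻¹, h, by field_simp⟩

/-- Finitely many elements of the maximal ideal of a valuation ring are all divisible by one
element of the maximal ideal. -/
theorem exists_common_divisor (P : ValuationSubring Qbar) (S : Finset Qbar)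
    (hS : ∀ a ∈ S, a ∈ P.nonunits) : ∃ t ∈ P.nonunits, ∀ a ∈ S, DvdIn P t a := by
  classical
  induction S using Finset.induction_on with
  | empty =>
    refine ⟨0, ?_, fun a ha => absurd ha (Finset.notMem_empty a)⟩
    rw [ValuationSubring.mem_nonunits_iff, map_zero]
    exact zero_lt_one
  | insert b S hb ih =>
    obtain ⟨t, ht, hdiv⟩ := ih fun a ha => hS a (Finset.mem_insert_of_mem ha)
    rcases dvdIn_total P t b with h | h
    · refine ⟨t, ht, fun a ha => ?_⟩
      rcases Finset.mem_insert.mp ha with rfl | ha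
      · exact h
      · exact hdiv a ha
    · refine ⟨b, hS b (Finset.mem_insert_self b S), fun a ha => ?_⟩
      rcases Finset.mem_insert.mp ha with rfl | ha
      · exact DvdIn.refl P _
      · exact h.trans (hdiv a ha)

/-- The one-chart description of the group law on the kernel of reduction. -/
structure SumChart (P : ValuationSubring Qbar) (J : Type) [AddCommGroup J]
    (actJ : Γℚ → J → J) where
  /-- number of coordinates -/
  g : ℕ
  /-- the kernel of reduction -/
  J1 : AddSubgroup J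
  /-- the coordinates (only their values on `J1` matter) -/
  X0 : J → Fin g → Qbar
  X0_mem : ∀ x ∈ J1, ∀ i, X0 x i ∈ P.nonunits
  X0_inj : ∀ x ∈ J1, ∀ y ∈ J1, X0 x = X0 y → x = y
  X0_inertia : ∀ σ ∈ P.inertiaSubgroupIn ℚ, ∀ x ∈ J1, ∀ i, X0 (actJ σ x) i = σ (X0 x i)
  /-- inertia acts trivially modulo the kernel of reduction -/
  inertia_J1 : ∀ σ ∈ P.inertiaSubgroupIn ℚ, ∀ x, actJ σ x - x ∈ J1
  /-- every coset of the kernel of reduction contains an inertia-fixed point -/
  fixed_lift : ∀ x : J, ∃ p : J, (∀ σ ∈ P.inertiaSubgroupIn ℚ, actJ σ p = p) ∧ x - p ∈ J1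
  /-- the three-term addition law, to every order, with unramified coefficients -/
  sum3 : ∀ n : ℕ, ∃ Φ : Fin g → MvPolynomial (Fin g ⊕ (Fin g ⊕ Fin g)) (inertiaInt P),
    ∀ x ∈ J1, ∀ y ∈ J1, ∀ d ∈ J1, ∀ t ∈ P,
      (∀ i, DvdIn P t (X0 x i)) → (∀ i, DvdIn P t (X0 y i)) → (∀ i, DvdIn P t (X0 d i)) →
      ∀ i, DvdIn P (t ^ (n + 1))
        (X0 (x + y + d) i -
          MvPolynomial.aeval (Sum.elim (X0 x) (Sum.elim (X0 y) (X0 d))) (Φ i))

section Main

variable {ℓ : ℕ} {P : ValuationSubring Qbar} {J : Type} [AddCommGroup J] {actJ : Γℚ → J → J}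

theorem actJ_zero (hadd : ∀ σ x y, actJ σ (x + y) = actJ σ x + actJ σ y) (σ : Γℚ) :
    actJ σ 0 = 0 := by
  have h := hadd σ 0 0
  rw [add_zero] at h
  exact left_eq_add.mp h

theorem actJ_neg (hadd : ∀ σ x y, actJ σ (x + y) = actJ σ x + actJ σ y) (σ : Γℚ) (x : J) :
    actJ σ (-x) = -actJ σ x := by
  have h := hadd σ x (-x)
  rw [add_neg_cancel, actJ_zero hadd] at h
  exact (neg_eq_of_add_eq_zero_right h.symm).symm

theorem actJ_sub (hadd : ∀ σ x y, actJ σ (x + y) = actJ σ x + actJ σ y) (σ : Γℚ) (x y : J) :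
    actJ σ (x - y) = actJ σ x - actJ σ y := by
  rw [sub_eq_add_neg, hadd, actJ_neg hadd, ← sub_eq_add_neg]

variable (C : SumChart P J actJ)
  {X : Type} [AddCommGroup X] (ι : X →+ J)

/-- the subgroup `T1 = X ∩ J1`. -/
def T1 : AddSubgroup X := C.J1.comap ι

/-- an inertia-fixed base point for every coset. -/
def pcQ (c : X ⧸ T1 C ι) : J := (C.fixed_lift (ι c.out)).choose

/-- an inertia-fixed base point for the coset of `Q`. -/
def pc (Q : X) : J := pcQ C ι (QuotientAddGroup.mk Q)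

theorem pc_fixed (Q : X) : ∀ σ ∈ P.inertiaSubgroupIn ℚ, actJ σ (pc C ι Q) = pc C ι Q :=
  (C.fixed_lift (ι ((QuotientAddGroup.mk Q : X ⧸ T1 C ι).out))).choose_spec.1

theorem sub_pc_mem (Q : X) : ι Q - pc C ι Q ∈ C.J1 := by
  have h1 : ι ((QuotientAddGroup.mk Q : X ⧸ T1 C ι).out) - pc C ι Q ∈ C.J1 :=
    (C.fixed_lift (ι ((QuotientAddGroup.mk Q : X ⧸ T1 C ι).out))).choose_spec.2
  obtain ⟨h, hh⟩ := QuotientAddGroup.mk_out_eq_add (T1 C ι) Q
  have h2 : ι (h : X) ∈ C.J1 := h.2
  have h3 : ι Q - pc C ι Q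
      = (ι ((QuotientAddGroup.mk Q : X ⧸ T1 C ι).out) - pc C ι Q) - ι (h : X) := by
    rw [hh, map_add]
    abel
  rw [h3]
  exact C.J1.sub_mem h1 h2

theorem pc_eq_of_sub_mem {Q Q' : X} (h : Q - Q' ∈ T1 C ι) : pc C ι Q = pc C ι Q' := by
  have : (QuotientAddGroup.mk Q : X ⧸ T1 C ι) = QuotientAddGroup.mk Q' := by
    rw [QuotientAddGroup.eq]
    have h' : -Q + Q' = -(Q - Q') := by abel
    rw [h']
    exact (T1 C ι).neg_mem h
  unfold pc
  rw [this]

/-- the coordinates of `Q` relative to the base point of its coset. -/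
def coord (Q : X) : Fin C.g → Qbar := C.X0 (ι Q - pc C ι Q)

variable {C ι}

theorem coord_mem (Q : X) (i : Fin C.g) : coord C ι Q i ∈ P.nonunits :=
  C.X0_mem _ (sub_pc_mem C ι Q) i

variable (hadd : ∀ σ x y, actJ σ (x + y) = actJ σ x + actJ σ y)
  {act : Γℚ → X → X} (hιact : ∀ σ Q, ι (act σ Q) = actJ σ (ι Q))
include hadd hιact

theorem inertia_coset {σ : Γℚ} (hσ : σ ∈ P.inertiaSubgroupIn ℚ) (Q : X) :
    act σ Q - Q ∈ T1 C ι := by
  show ι (act σ Q - Q) ∈ C.J1
  rw [map_sub, hιact]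
  exact C.inertia_J1 σ hσ _

theorem coord_inertia {σ : Γℚ} (hσ : σ ∈ P.inertiaSubgroupIn ℚ) (Q : X) (i : Fin C.g) :
    coord C ι (act σ Q) i = σ (coord C ι Q i) := by
  have h1 : pc C ι (act σ Q) = pc C ι Q := pc_eq_of_sub_mem C ι (inertia_coset hadd hιact hσ Q)
  unfold coord
  rw [h1, hιact, ← C.X0_inertia σ hσ _ (sub_pc_mem C ι Q) i, actJ_sub hadd,
    pc_fixed C ι Q σ hσ]

omit hadd hιact in
theorem coord_inj (hι : Function.Injective ι) {Q Q' : X} (h : Q - Q' ∈ T1 C ι)
    (hc : coord C ι Q = coord C ι Q') : Q = Q' := by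
  have h1 : pc C ι Q = pc C ι Q' := pc_eq_of_sub_mem C ι h
  unfold coord at hc
  rw [h1] at hc
  have h2 := C.X0_inj _ (by rw [← h1]; exact sub_pc_mem C ι Q) _ (sub_pc_mem C ι Q') hc
  exact hι (sub_left_injective h2)

theorem add_approx [Finite X]
    (hrank : ∀ t ∈ P.nonunits, ∃ N : ℕ, DvdIn P (ℓ : Qbar) (t ^ N)) (t1 t2 : X) (n : ℕ) :
    ∃ F : Fin C.g → MvPolynomial (Fin C.g ⊕ Fin C.g) (inertiaInt P),
      ∀ Q1 Q2, Q1 - t1 ∈ T1 C ι → Q2 - t2 ∈ T1 C ι → ∀ i, ∃ w ∈ P,
        coord C ι (Q1 + Q2) i -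
            MvPolynomial.aeval (Sum.elim (coord C ι Q1) (coord C ι Q2)) (F i)
          = (ℓ : Qbar) ^ n * w := by
  classical
  have := Fintype.ofFinite X
  set p1 := pc C ι t1 with hp1
  set p2 := pc C ι t2 with hp2
  set p3 := pc C ι (t1 + t2) with hp3
  set δ : J := p1 + p2 - p3 with hδdef
  have hδ : δ ∈ C.J1 := by
    have h1 := sub_pc_mem C ι t1
    have h2 := sub_pc_mem C ι t2
    have h3 := sub_pc_mem C ι (t1 + t2)
    have : δ = (ι (t1 + t2) - p3) - ((ι t1 - p1) + (ι t2 - p2)) := by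
      rw [hδdef, map_add]
      abel
    rw [this]
    exact C.J1.sub_mem h3 (C.J1.add_mem h1 h2)
  have hδfix : ∀ σ ∈ P.inertiaSubgroupIn ℚ, actJ σ δ = δ := by
    intro σ hσ
    rw [hδdef, actJ_sub hadd, hadd, pc_fixed C ι t1 σ hσ, pc_fixed C ι t2 σ hσ,
      pc_fixed C ι (t1 + t2) σ hσ]
  have hδint : ∀ c, C.X0 δ c ∈ inertiaInt P := by
    intro c
    refine ⟨P.nonunits_subset (C.X0_mem δ hδ c), fun σ hσ => ?_⟩
    rw [← C.X0_inertia σ hσ δ hδ c, hδfix σ hσ]
  -- a common divisor of all the coordinates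
  let S : Finset Qbar :=
    (Finset.univ.image fun Qi : X × Fin C.g => coord C ι Qi.1 Qi.2) ∪
      (Finset.univ.image fun c : Fin C.g => C.X0 δ c)
  have hS : ∀ a ∈ S, a ∈ P.nonunits := by
    intro a ha
    rcases Finset.mem_union.mp ha with h | h
    · obtain ⟨Qi, -, rfl⟩ := Finset.mem_image.mp h
      exact coord_mem Qi.1 Qi.2
    · obtain ⟨c, -, rfl⟩ := Finset.mem_image.mp h
      exact C.X0_mem δ hδ c
  obtain ⟨t, ht, hdiv⟩ := exists_common_divisor P S hS
  have hdivc : ∀ (Q : X) (i : Fin C.g), DvdIn P t (coord C ι Q i) := fun Q i =>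
    hdiv _ (Finset.mem_union_left _ (Finset.mem_image.mpr ⟨(Q, i), Finset.mem_univ _, rfl⟩))
  have hdivδ : ∀ c : Fin C.g, DvdIn P t (C.X0 δ c) := fun c =>
    hdiv _ (Finset.mem_union_right _ (Finset.mem_image.mpr ⟨c, Finset.mem_univ _, rfl⟩))
  obtain ⟨N, w0, hw0, hN⟩ := hrank t ht
  obtain ⟨Φ, hΦ⟩ := C.sum3 (N * n)
  let sub : Fin C.g ⊕ (Fin C.g ⊕ Fin C.g) → MvPolynomial (Fin C.g ⊕ Fin C.g) (inertiaInt P) :=
    Sum.elim (fun a => MvPolynomial.X (Sum.inl a))
      (Sum.elim (fun b => MvPolynomial.X (Sum.inr b))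
        (fun c => MvPolynomial.C ⟨C.X0 δ c, hδint c⟩))
  refine ⟨fun i => MvPolynomial.bind₁ sub (Φ i), ?_⟩
  intro Q1 Q2 h1 h2 i
  have e1 : pc C ι Q1 = p1 := pc_eq_of_sub_mem C ι h1
  have e2 : pc C ι Q2 = p2 := pc_eq_of_sub_mem C ι h2
  have e3 : pc C ι (Q1 + Q2) = p3 := by
    apply pc_eq_of_sub_mem C ι
    have : Q1 + Q2 - (t1 + t2) = (Q1 - t1) + (Q2 - t2) := by abel
    rw [this]
    exact (T1 C ι).add_mem h1 h2
  have hx : ι Q1 - p1 ∈ C.J1 := by rw [← e1]; exact sub_pc_mem C ι Q1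
  have hy : ι Q2 - p2 ∈ C.J1 := by rw [← e2]; exact sub_pc_mem C ι Q2
  have hsum : ι (Q1 + Q2) - p3 = (ι Q1 - p1) + (ι Q2 - p2) + δ := by
    rw [hδdef, map_add]
    abel
  have hcx : coord C ι Q1 = C.X0 (ι Q1 - p1) := by unfold coord; rw [e1]
  have hcy : coord C ι Q2 = C.X0 (ι Q2 - p2) := by unfold coord; rw [e2]
  have hcs : coord C ι (Q1 + Q2) = C.X0 ((ι Q1 - p1) + (ι Q2 - p2) + δ) := by
    unfold coord; rw [e3, hsum]
  obtain ⟨w, hw, hwe⟩ := hΦ _ hx _ hy _ hδ t (P.nonunits_subset ht)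
    (fun j => by rw [← hcx]; exact hdivc Q1 j) (fun j => by rw [← hcy]; exact hdivc Q2 j)
    hdivδ i
  have haeval : MvPolynomial.aeval (Sum.elim (coord C ι Q1) (coord C ι Q2))
        (MvPolynomial.bind₁ sub (Φ i))
      = MvPolynomial.aeval
          (Sum.elim (C.X0 (ι Q1 - p1)) (Sum.elim (C.X0 (ι Q2 - p2)) (C.X0 δ))) (Φ i) := by
    rw [MvPolynomial.aeval_bind₁]
    have hfun : (fun v => (MvPolynomial.aeval (Sum.elim (coord C ι Q1) (coord C ι Q2))) (sub v))
        = Sum.elim (C.X0 (ι Q1 - p1)) (Sum.elim (C.X0 (ι Q2 - p2)) (C.X0 δ)) := by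
      funext v
      rcases v with a | b | c
      · simp [sub, hcx]
      · simp [sub, hcy]
      · simp only [sub, Sum.elim_inr, MvPolynomial.aeval_C]
        rfl
    rw [hfun]
  refine ⟨w0 ^ n * t * w, P.mul_mem _ _ (P.mul_mem _ _ (P.pow_mem hw0 n)
    (P.nonunits_subset ht)) hw, ?_⟩
  rw [hcs, haeval, hwe, pow_succ, pow_mul, hN]
  ring

omit hιact in
/-- **Assembly**: a one-chart description of the group law on the kernel of reduction gives the
interface structure `LocalChartData` for every finite group mapping injectively and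
equivariantly to `J`. -/
theorem nonempty_localChartData [Finite X] (C : SumChart P J actJ) (ι : X →+ J)
    (hιact : ∀ σ Q, ι (act σ Q) = actJ σ (ι Q)) (hι : Function.Injective ι)
    (hrank : ∀ t ∈ P.nonunits, ∃ N : ℕ, DvdIn P (ℓ : Qbar) (t ^ N)) :
    Nonempty (LocalChartData ℓ P X act) :=
  ⟨{ g := C.g
     T1 := T1 C ι
     coord := coord C ι
     coord_mem := coord_mem
     coord_inertia := fun σ hσ Q i => coord_inertia hadd hιact hσ Q i
     inertia_coset := fun σ hσ Q => inertia_coset hadd hιact hσ Q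
     coord_inj := fun Q Q' h hc => coord_inj hι h hc
     add_approx := fun t1 t2 n => add_approx hadd hιact hrank t1 t2 n }⟩

end Main

end Fermat.Agent.S19x.Geo.Assemble
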