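/-
P-S19, BLOCK A (helper98): the CONCRETE TRANSFER.

From the abstract one-chart three-term group law `AbsSumChart I ρ` of `Geo/Targets.lean`
(stated over a `GeoSetting P O k κ` with `K = ℚ̄`, `A = P`, an `InertiaData I` and a reduction
map `ρ`) and the DICTIONARY between `I.S` and the inertia group of `P`
(`I.S` = image of `P.inertiaSubgroupIn ℚ` under a Galois action `gal : Γℚ →* SemilinearAut ℚ̄ F`
inducing `σ` on `ℚ̄`), together with `S`-fixed lifts of the classes of the special fibre, we get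

* `red_smul`     : `ρ.red (s • x) = ρ.red x` for `s ∈ I.S`;
* `fixedToInt`   : the ring homomorphism `I.fixedRing →+* inertiaInt P`;
* `sumChart`     : `Assemble.SumChart P (Pic0 ℚ̄ F) (fun σ x => gal σ • x)`;
* `nonempty_localChartData` : for every finite `Γℚ`-stable subgroup `T` of `Pic0 ℚ̄ F`, the
  interface structure `LocalChartData ℓ P T (restricted action)`, given rank one (`hrank`).
-/
import Fermat.Agent.S19x.Geo.Targets
import Fermat.Agent.S19x.Geo.Assemble
import Fermat.Agent.S19x.Geo.FixedLift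
import Fermat.Prelude.Def_ModularCurve_ArithmeticGalois

set_option autoImplicit false
set_option linter.unusedSectionVars false
set_option linter.unusedVariables false

noncomputable section

namespace Fermat.Agent.S19x.Geo.Transfer

open AlgebraicCurve
open Fermat.Agent.S19x Fermat.Agent.S19x.Geo Fermat.Agent.S56x.Flat.InertiaField

local notation "Qbar" => AlgebraicClosure ℚ
local notation "Γℚ" => (AlgebraicClosure ℚ ≃ₐ[ℚ] AlgebraicClosure ℚ)

universe w z

variable {P : ValuationSubring Qbar} {F : Type} [Field F] [Algebra Qbar F]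
  {O : ValuationSubring F} {k : Type w} {κ : Type z} [Field k] [Field κ] [Algebra k κ]
  {G : GeoSetting P O k κ}

/-! ### `DvdInA` versus `Assemble.DvdIn` -/

theorem dvdIn_iff (t a : Qbar) : Assemble.DvdIn P t a ↔ DvdInA P t a := Iff.rfl

/-! ### The reduction map is invariant under `I.S` -/

theorem spDiv_smul (I : InertiaData G) {s : SemilinearAut Qbar F} (hs : s ∈ I.S)
    (D : Divisor Qbar F) : G.spDiv (s • D) = G.spDiv D := by
  rw [GeoSetting.spDiv_apply, GeoSetting.spDiv_apply, SemilinearAut.divisor_smul_def,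
    ← Finsupp.mapDomain_comp]
  congr 1
  funext Q
  exact I.sp_smul s hs Q

/-- `ρ.red (s • x) = ρ.red x` for `s ∈ I.S`. -/
theorem red_smul (I : InertiaData G) (ρ : RedMap G) {s : SemilinearAut Qbar F} (hs : s ∈ I.S)
    (x : Pic0 Qbar F) : ρ.red (s • x) = ρ.red x := by
  obtain ⟨D, rfl⟩ := Pic0.mk_surjective x
  rw [SemilinearAut.pic0_smul_mk, ρ.red_mk, ρ.red_mk]
  refine congrArg Pic0.mk (Subtype.ext ?_)
  rw [GeoSetting.coe_spDegZero, GeoSetting.coe_spDegZero, SemilinearAut.coe_degZeroSMulHom]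
  exact spDiv_smul I hs _

/-! ### The dictionary -/

/-- The dictionary between the abstract group `I.S` and the inertia group of `P`. -/
structure Dict (I : InertiaData G) where
  /-- the Galois action on the function field -/
  gal : Γℚ →* SemilinearAut Qbar F
  /-- it induces the Galois action on the constants -/
  baseAut_gal : ∀ (σ : Γℚ) (a : Qbar), SemilinearAut.baseAut (gal σ) a = σ a
  /-- `I.S` contains the image of inertia -/
  gal_mem : ∀ σ ∈ P.inertiaSubgroupIn ℚ, gal σ ∈ I.S

namespace Dict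

variable {I : InertiaData G} (d : Dict I)
include d

/-- an element of `I.fixedRing` is an element of `inertiaInt P` -/
theorem coe_mem_inertiaInt (a : I.fixedRing) : (((a : P) : Qbar)) ∈ inertiaInt P := by
  refine ⟨(a : P).2, fun t ht => ?_⟩
  have h := a.2 (d.gal t) (d.gal_mem t ht)
  rwa [d.baseAut_gal] at h

/-- an element of `inertiaInt P` is an `S`-fixed integer, when `I.S` is exactly the image of
inertia -/
theorem isFixedInt_of_mem (hS : ∀ s ∈ I.S, ∃ σ ∈ P.inertiaSubgroupIn ℚ, d.gal σ = s) {a : Qbar}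
    (ha : a ∈ inertiaInt P) : I.IsFixedInt a := by
  refine ⟨ha.1, fun s hs => ?_⟩
  obtain ⟨σ, hσ, rfl⟩ := hS s hs
  show SemilinearAut.baseAut (d.gal σ) a = a
  rw [d.baseAut_gal]
  exact ha.2 σ hσ

/-- `I.fixedRing →+* inertiaInt P`. -/
def fixedToInt : I.fixedRing →+* inertiaInt P where
  toFun a := ⟨((a : P) : Qbar), d.coe_mem_inertiaInt a⟩
  map_one' := rfl
  map_mul' _ _ := rfl
  map_zero' := rfl
  map_add' _ _ := rfl

@[simp] theorem coe_fixedToInt (a : I.fixedRing) : ((d.fixedToInt a : inertiaInt P) : Qbar)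
    = ((a : P) : Qbar) := rfl

theorem algebraMap_comp_fixedToInt :
    (algebraMap (inertiaInt P) Qbar).comp d.fixedToInt = algebraMap I.fixedRing Qbar :=
  RingHom.ext fun _ => rfl

/-- evaluation is compatible with the change of coefficients `I.fixedRing → inertiaInt P`. -/
theorem aeval_map {σ : Type*} (f : σ → Qbar) (p : MvPolynomial σ I.fixedRing) :
    MvPolynomial.aeval f (MvPolynomial.map d.fixedToInt p) = MvPolynomial.aeval f p := by
  rw [MvPolynomial.aeval_def, MvPolynomial.aeval_def, MvPolynomial.eval₂_map,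
    d.algebraMap_comp_fixedToInt]

end Dict

/-! ### Fixed lifts of classes from fixed lifts of places -/

/-- **Fixed lifts of classes.**  If every place of the special fibre has an `S`-fixed lift, then
every class of the special fibre is the reduction of an `S`-fixed class. -/
theorem exists_fixed_class_of_places [HasPrincipalDivisors Qbar F] (I : InertiaData G)
    (ρ : RedMap G) (hplace : ∀ w : Place k κ, ∃ Q : Place Qbar F, G.sp Q = w ∧ I.IsFixedPlace Q)
    (c : Pic0 k κ) : ∃ p : Pic0 Qbar F, ρ.red p = c ∧ ∀ s ∈ I.S, s • p = p := by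
  obtain ⟨D, h, hmk, -, hfix⟩ := FixedLift.exists_fixed_lift_class (sp := G.sp)
    (I.S : Set (SemilinearAut Qbar F)) hplace
    (fun Q => by rw [G.rrκ.deg_one, G.rrF.deg_one]) c
  refine ⟨Pic0.mk D, ?_, fun s hs => hfix s hs⟩
  rw [ρ.red_mk, ← hmk]
  exact congrArg Pic0.mk (Subtype.ext rfl)

/-! ### The chart -/

/-- **The concrete one-chart description of the group law** on the kernel of reduction of
`Pic0 ℚ̄ F`, in the shape consumed by `Assemble.nonempty_localChartData`. -/
def sumChart {I : InertiaData G} {ρ : RedMap G} (d : Dict I)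
    (hlift : ∀ c : Pic0 k κ, ∃ p : Pic0 Qbar F, ρ.red p = c ∧ ∀ s ∈ I.S, s • p = p)
    (C : AbsSumChart I ρ) :
    Assemble.SumChart P (Pic0 Qbar F) (fun σ x => d.gal σ • x) where
  g := G.g
  J1 := ρ.red.ker
  X0 := C.X0
  X0_mem := fun x hx i => C.X0_mem x (AddMonoidHom.mem_ker.mp hx) i
  X0_inj := fun x hx y hy h =>
    C.X0_inj x y (AddMonoidHom.mem_ker.mp hx) (AddMonoidHom.mem_ker.mp hy) h
  X0_inertia := fun σ hσ x hx i => by
    rw [C.X0_smul (d.gal σ) (d.gal_mem σ hσ) x (AddMonoidHom.mem_ker.mp hx) i, d.baseAut_gal]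
  inertia_J1 := fun σ hσ x => by
    rw [AddMonoidHom.mem_ker, map_sub, red_smul I ρ (d.gal_mem σ hσ), sub_self]
  fixed_lift := fun x => by
    obtain ⟨p, hp, hfix⟩ := hlift (ρ.red x)
    refine ⟨p, fun σ hσ => hfix _ (d.gal_mem σ hσ), ?_⟩
    rw [AddMonoidHom.mem_ker, map_sub, hp, sub_self]
  sum3 := fun n => by
    obtain ⟨Φ, hΦ⟩ := C.sum3 n
    refine ⟨fun i => MvPolynomial.map d.fixedToInt (Φ i), ?_⟩
    intro x hx y hy e he t ht h1 h2 h3 i
    rw [d.aeval_map]
    exact hΦ x y e (AddMonoidHom.mem_ker.mp hx) (AddMonoidHom.mem_ker.mp hy)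
      (AddMonoidHom.mem_ker.mp he) t ht h1 h2 h3 i

/-- **Transfer**: the abstract chart, the dictionary, the fixed lifts of classes and rank one give
the interface structure `LocalChartData` for every finite `Γℚ`-stable subgroup `T` of
`Pic0 ℚ̄ F` (with the restricted action). -/
theorem nonempty_localChartData {ℓ : ℕ} {I : InertiaData G} {ρ : RedMap G} (d : Dict I)
    (hlift : ∀ c : Pic0 k κ, ∃ p : Pic0 Qbar F, ρ.red p = c ∧ ∀ s ∈ I.S, s • p = p)
    (C : AbsSumChart I ρ)
    (hrank : ∀ t ∈ P.nonunits, ∃ N : ℕ, Assemble.DvdIn P (ℓ : Qbar) (t ^ N))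
    (T : AddSubgroup (Pic0 Qbar F)) [Finite T]
    (hT : ∀ (σ : Γℚ) (x : Pic0 Qbar F), x ∈ T → d.gal σ • x ∈ T) :
    Nonempty (LocalChartData ℓ P T (fun σ x => ⟨d.gal σ • (x : Pic0 Qbar F), hT σ x x.2⟩)) :=
  Assemble.nonempty_localChartData (J := Pic0 Qbar F) (actJ := fun σ x => d.gal σ • x)
    (fun σ x y => smul_add (d.gal σ) x y) (sumChart d hlift C) T.subtype
    (fun σ Q => rfl) Subtype.val_injective hrank

/-! ### The modular case -/

section Modular

open ModularCurve

variable {M : ℕ} {OM : ValuationSubring (modularFunctionFieldBar M)}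
  {GM : GeoSetting P OM k κ}

/-- The dictionary for `F = modularFunctionFieldBar M` with the arithmetic Galois action, from
the description of `I.S` as the image of inertia. -/
def dictOfArithmeticGalois (I : InertiaData GM)
    (hS : ∀ σ ∈ P.inertiaSubgroupIn ℚ, arithmeticGalois (modularFunctionFieldFull M) σ ∈ I.S) :
    Dict I where
  gal := arithmeticGalois (modularFunctionFieldFull M)
  baseAut_gal := fun _ _ => rfl
  gal_mem := hS

/-- **Transfer, modular form**: the literal shape of `Final.ATarget` for one level `M`, one place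
`P` and one finite stable subgroup `T` of `JZero M`. -/
theorem nonempty_localChartData_JZero {ℓ : ℕ} {I : InertiaData GM} {ρ : RedMap GM}
    (hS : ∀ σ ∈ P.inertiaSubgroupIn ℚ, arithmeticGalois (modularFunctionFieldFull M) σ ∈ I.S)
    (hlift : ∀ c : Pic0 k κ, ∃ p : JZero M, ρ.red p = c ∧ ∀ s ∈ I.S, s • p = p)
    (C : AbsSumChart I ρ)
    (hrank : ∀ t ∈ P.nonunits, ∃ N : ℕ, Assemble.DvdIn P (ℓ : Qbar) (t ^ N))
    (T : AddSubgroup (JZero M)) [Finite T]
    (hT : ∀ (σ : Γℚ) (x : JZero M), x ∈ T → σ • x ∈ T) :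
    Nonempty (LocalChartData ℓ P T (fun σ x => ⟨σ • (x : JZero M), hT σ x x.2⟩)) :=
  nonempty_localChartData (dictOfArithmeticGalois I hS) hlift C hrank T hT

/-- **Transfer, modular form, with fixed lifts of places.** -/
theorem nonempty_localChartData_JZero_of_places [HasPrincipalDivisors Qbar (modularFunctionFieldBar M)]
    {ℓ : ℕ} {I : InertiaData GM} {ρ : RedMap GM}
    (hS : ∀ σ ∈ P.inertiaSubgroupIn ℚ, arithmeticGalois (modularFunctionFieldFull M) σ ∈ I.S)
    (hplace : ∀ w : Place k κ, ∃ Q : Place Qbar (modularFunctionFieldBar M),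
      GM.sp Q = w ∧ I.IsFixedPlace Q)
    (C : AbsSumChart I ρ)
    (hrank : ∀ t ∈ P.nonunits, ∃ N : ℕ, Assemble.DvdIn P (ℓ : Qbar) (t ^ N))
    (T : AddSubgroup (JZero M)) [Finite T]
    (hT : ∀ (σ : Γℚ) (x : JZero M), x ∈ T → σ • x ∈ T) :
    Nonempty (LocalChartData ℓ P T (fun σ x => ⟨σ • (x : JZero M), hT σ x x.2⟩)) :=
  nonempty_localChartData_JZero hS (exists_fixed_class_of_places I ρ hplace) C hrank T hT

/-- Rank one in the shape of `hrank`, from `t ^ N = ℓ * w`. -/
theorem hrank_of_pow_eq_mul {ℓ : ℕ}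
    (h : ∀ t ∈ P.nonunits, ∃ N : ℕ, 0 < N ∧ ∃ w ∈ P, t ^ N = (ℓ : Qbar) * w) :
    ∀ t ∈ P.nonunits, ∃ N : ℕ, Assemble.DvdIn P (ℓ : Qbar) (t ^ N) := fun t ht => by
  obtain ⟨N, -, w, hw, hN⟩ := h t ht
  exact ⟨N, w, hw, hN⟩

end Modular

end Fermat.Agent.S19x.Geo.Transfer
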