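/-
P-S19, BLOCK A (architect helper22): the TOP of the block.

`aTarget_of (h1 : L1Target) (h2 : AbsTarget) : Final.ATarget` : the Gateway-red instantiation
(`L1Target`) and the abstract main theorem (`AbsTarget`) give integral local charts on every
finite Galois-stable subgroup of `J₀(M)(ℚ̄)`, through the concrete transfer `Geo/Transfer` and
rank one (`Geo/RankOne`).
-/
import Fermat.Agent.S19x.Geo.AMainTargets
import Fermat.Agent.S19x.Geo.Transfer
import Fermat.Agent.S19x.Geo.RankOne

set_option autoImplicit false
set_option linter.unusedSectionVars false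
set_option linter.unusedVariables false

noncomputable section

namespace Fermat.Agent.S19x.Geo

open AlgebraicCurve ModularCurve
open Fermat.Agent.Gateway.Red

local notation "Qbar" => AlgebraicClosure ℚ

/-- **BLOCK A** from its two top-level targets. -/
theorem aTarget_of (h1 : L1Target) (h2 : AbsTarget) : Final.ATarget := by
  intro M _ ℓ _ hℓM hgood P hP T _ n hTn hT
  obtain ⟨k, κ, ik, iκ, ialg, iclosed, O, ipd, ifr, ipdκ, ifrκ, G, I, ρ, hS, hD, hF⟩ :=
    h1 M ℓ hℓM hgood P hP
  obtain ⟨⟨C⟩, hplace⟩ := h2 G I ρ hD hF
  exact Transfer.nonempty_localChartData_JZero_of_places hS hplace C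
    (Transfer.hrank_of_pow_eq_mul
      (RankOne.exists_pow_eq_mul P (Fact.out : ℓ.Prime) hP)) T hT

end Fermat.Agent.S19x.Geo
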