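import Fermat.Agent.S27x.Lift.JacInj

/-!
# P-S19, block A, leaf L5: the kernel lemma with multiplicities

Generalisation of `S27x/Lift/JacInj` (case `n = 1`) in which the *fixed* part of the base divisor
may carry multiplicities.  `κ / k` a function field, `P` a place, `Uvar`, `Ufix` disjoint finite
sets of places different from `P`, `μ : Place k κ → ℕ` the multiplicities on `Ufix`, `z : κ`
regular off `P`, unramified with pairwise distinct values `val Q` at the points of
`Uvar ∪ Ufix`.  Put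

  `Rvar := ∏_{Q ∈ Uvar} (T - val Q)`,   `Rfix := ∏_{Q ∈ Ufix} (T - val Q) ^ μ Q`,

and let `u, u' : κ` be regular off `P` with `div u = Uvar + ∑ μ Q • Q` off `P` and
`u * u' = Rfix(z) * Rvar(z)`.  A kernel vector of the Jacobian of the factorisation system at the
residue solution is a triple `(v, v', dR)` with `v`, `v'` regular off `P`, pole orders at `P`
bounded by those of `u`, `u'`, `deg dR < #Uvar` and

  `v * u' + u * v' = Rfix(z) * dR(z)`.

`jac_kernel` : if `l(Uvar) = 1` then `v = c • u` for a constant `c`, and if moreover `v = 0` then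
`dR = 0` and `v' = 0`.  Only orders at places are used; the multiplicities on `Ufix` are
irrelevant because `u'` is a unit at the points of `Ufix`.
-/

set_option autoImplicit false
set_option linter.unusedSectionVars false
set_option linter.style.haveILetI false

noncomputable section

open AlgebraicCurve Polynomial Module

namespace Fermat.Agent.S19x.Geo.JacKerMult

open Fermat.Agent.S27x.Lift.NiceRep Fermat.Agent.S24.ZP Fermat.Agent.S27x.Lift.JacInj

variable {k κ : Type*} [Field k] [Field κ] [Algebra k κ]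

/-! ### The root polynomial with multiplicities -/

/-- `∏_{Q ∈ U} (T - val Q) ^ μ Q`. -/
def rootPolyMult (val : Place k κ → k) (U : Finset (Place k κ)) (μ : Place k κ → ℕ) : k[X] :=
  ∏ Q ∈ U, (X - C (val Q)) ^ μ Q

theorem aeval_rootPolyMult (val : Place k κ → k) (U : Finset (Place k κ)) (μ : Place k κ → ℕ)
    (z : κ) :
    aeval z (rootPolyMult val U μ) = ∏ Q ∈ U, (z - algebraMap k κ (val Q)) ^ μ Q := by
  unfold rootPolyMult
  rw [map_prod]
  refine Finset.prod_congr rfl fun Q _ => ?_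
  rw [map_pow, map_sub, aeval_X, aeval_C]

theorem monic_rootPolyMult (val : Place k κ → k) (U : Finset (Place k κ)) (μ : Place k κ → ℕ) :
    (rootPolyMult val U μ).Monic :=
  monic_prod_of_monic _ _ fun Q _ => (monic_X_sub_C (val Q)).pow _

theorem natDegree_rootPolyMult (val : Place k κ → k) (U : Finset (Place k κ))
    (μ : Place k κ → ℕ) : (rootPolyMult val U μ).natDegree = ∑ Q ∈ U, μ Q := by
  unfold rootPolyMult
  rw [natDegree_prod_of_monic _ _ fun Q _ => (monic_X_sub_C (val Q)).pow _]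
  refine Finset.sum_congr rfl fun Q _ => ?_
  rw [natDegree_pow, natDegree_X_sub_C, mul_one]

/-- with all multiplicities `1` this is `rootPoly`. -/
theorem rootPolyMult_one (val : Place k κ → k) (U : Finset (Place k κ)) :
    rootPolyMult val U (fun _ => 1) = rootPoly val U := by
  unfold rootPolyMult rootPoly
  simp

/-- the effective divisor `∑_{Q ∈ U} μ Q • Q`. -/
def multDiv (U : Finset (Place k κ)) (μ : Place k κ → ℕ) : Divisor k κ :=
  ∑ Q ∈ U, Finsupp.single Q (μ Q : ℤ)

open Classical in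
theorem multDiv_apply (U : Finset (Place k κ)) (μ : Place k κ → ℕ) (w : Place k κ) :
    multDiv U μ w = if w ∈ U then (μ w : ℤ) else 0 := by
  unfold multDiv
  rw [Finsupp.finsetSum_apply]
  simp only [Finsupp.single_apply]
  rw [Finset.sum_ite_eq' U w (fun Q => (μ Q : ℤ))]

theorem multDiv_apply_of_mem {U : Finset (Place k κ)} {μ : Place k κ → ℕ} {w : Place k κ}
    (h : w ∈ U) : multDiv U μ w = μ w := by
  classical
  rw [multDiv_apply, if_pos h]

theorem multDiv_apply_of_notMem {U : Finset (Place k κ)} {μ : Place k κ → ℕ} {w : Place k κ}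
    (h : w ∉ U) : multDiv U μ w = 0 := by
  classical
  rw [multDiv_apply, if_neg h]

/-- for a finitely supported multiplicity function `m`, with `U := m.support`. -/
theorem multDiv_support_apply (m : Place k κ →₀ ℕ) (w : Place k κ) :
    multDiv m.support m w = m w := by
  classical
  rw [multDiv_apply]
  split_ifs with h
  · rfl
  · rw [Finsupp.notMem_support_iff.mp h, Nat.cast_zero]

theorem multDiv_nonneg (U : Finset (Place k κ)) (μ : Place k κ → ℕ) (w : Place k κ) :
    0 ≤ multDiv U μ w := by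
  classical
  rw [multDiv_apply]
  split_ifs
  · exact Nat.cast_nonneg _
  · exact le_refl _

section Ord

variable {Uvar Ufix : Finset (Place k κ)} {z : κ} {val : Place k κ → k}
  (H : Unram Uvar Ufix z val) (μ : Place k κ → ℕ)
include H

theorem aeval_rootPolyMult_ne_zero : aeval z (rootPolyMult val Ufix μ) ≠ 0 := by
  rw [aeval_rootPolyMult]
  exact Finset.prod_ne_zero_iff.mpr fun Q' hQ' => pow_ne_zero _ (H.sub_ne_zero (Or.inr hQ'))

open Classical in
theorem ord_aeval_rootPolyMult {Q : Place k κ} (hQ : Q ∈ Uvar ∨ Q ∈ Ufix) :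
    Q.ord (aeval z (rootPolyMult val Ufix μ)) = if Q ∈ Ufix then (μ Q : ℤ) else 0 := by
  rw [aeval_rootPolyMult, ord_prod Q Ufix _ fun Q' hQ' =>
    pow_ne_zero _ (H.sub_ne_zero (Or.inr hQ'))]
  have : ∀ Q' ∈ Ufix, Q.ord ((z - algebraMap k κ (val Q')) ^ μ Q') =
      if Q' = Q then (μ Q : ℤ) else 0 := by
    intro Q' hQ'
    rw [ord_pow]
    split_ifs with h
    · subst h
      rw [H.unif Q' hQ, mul_one]
    · rw [H.ord_sub_of_ne hQ (Or.inr hQ') h, mul_zero]
  rw [Finset.sum_congr rfl this, Finset.sum_ite_eq' Ufix Q]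

theorem ord_fixM_of_mem_fix {Q : Place k κ} (hQ : Q ∈ Ufix) :
    Q.ord (aeval z (rootPolyMult val Ufix μ)) = μ Q := by
  classical
  rw [ord_aeval_rootPolyMult H μ (Or.inr hQ), if_pos hQ]

theorem ord_fixM_of_mem_var {Q : Place k κ} (hQ : Q ∈ Uvar) :
    Q.ord (aeval z (rootPolyMult val Ufix μ)) = 0 := by
  classical
  rw [ord_aeval_rootPolyMult H μ (Or.inl hQ),
    if_neg (fun h => (Finset.disjoint_left.mp H.disj hQ) h)]

end Ord

/-! ### The kernel of the Jacobian -/

section Kernel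

variable {P : Place k κ} {Uvar Ufix : Finset (Place k κ)} {μ : Place k κ → ℕ} {z : κ}
  {val : Place k κ → k} {u u' v v' : κ} {dR : k[X]}

/-- The residue solution `(u, u', Rvar)` of the factorisation system, with multiplicities `μ`
on the fixed part. -/
structure ResSolM (P : Place k κ) (Uvar Ufix : Finset (Place k κ)) (μ : Place k κ → ℕ) (z : κ)
    (val : Place k κ → k) (u u' : κ) : Prop where
  unram : Unram Uvar Ufix z val
  P_notMem_var : P ∉ Uvar
  P_notMem_fix : P ∉ Ufix
  z_reg : ∀ w : Place k κ, w ≠ P → z ∈ w.toValuationSubring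
  u_ne : u ≠ 0
  u'_ne : u' ≠ 0
  ord_u : ∀ w : Place k κ, w ≠ P → w.ord u = finDiv Uvar w + multDiv Ufix μ w
  prod : u * u' = aeval z (rootPolyMult val Ufix μ) * aeval z (rootPoly val Uvar)

/-- A kernel vector `(v, v', dR)` of the Jacobian at the residue solution. -/
structure KerVecM (P : Place k κ) (Uvar Ufix : Finset (Place k κ)) (μ : Place k κ → ℕ) (z : κ)
    (val : Place k κ → k) (u u' v v' : κ) (dR : k[X]) : Prop where
  v_reg : ∀ w : Place k κ, w ≠ P → v ∈ w.toValuationSubring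
  v_P : OrdGE P v (P.ord u)
  v'_reg : ∀ w : Place k κ, w ≠ P → v' ∈ w.toValuationSubring
  v'_P : OrdGE P v' (P.ord u')
  deg : dR.degree < (Uvar.card : WithBot ℕ)
  eq : v * u' + u * v' = aeval z (rootPolyMult val Ufix μ) * aeval z dR

namespace ResSolM

variable (S : ResSolM P Uvar Ufix μ z val u u')
include S

theorem ne_P_of_mem {Q : Place k κ} (hQ : Q ∈ Uvar ∨ Q ∈ Ufix) : Q ≠ P := by
  rintro rfl
  rcases hQ with h | h
  · exact S.P_notMem_var h
  · exact S.P_notMem_fix h

theorem fix_ne_zero : aeval z (rootPolyMult val Ufix μ) ≠ 0 :=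
  aeval_rootPolyMult_ne_zero S.unram μ

theorem var_ne_zero : aeval z (rootPoly val Uvar) ≠ 0 :=
  S.unram.aeval_rootPoly_ne_zero fun _ h => Or.inl h

theorem ord_u_of_mem_var {Q : Place k κ} (hQ : Q ∈ Uvar) : Q.ord u = 1 := by
  rw [S.ord_u Q (S.ne_P_of_mem (Or.inl hQ)), finDiv_apply_of_mem hQ,
    multDiv_apply_of_notMem (fun h' => (Finset.disjoint_left.mp S.unram.disj hQ) h')]
  ring

theorem ord_u_of_mem_fix {Q : Place k κ} (hQ : Q ∈ Ufix) : Q.ord u = μ Q := by
  rw [S.ord_u Q (S.ne_P_of_mem (Or.inr hQ)), multDiv_apply_of_mem hQ,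
    finDiv_apply_of_notMem (fun h' => (Finset.disjoint_left.mp S.unram.disj h') hQ)]
  ring

theorem ord_u_of_notMem {w : Place k κ} (hP : w ≠ P) (h1 : w ∉ Uvar) (h2 : w ∉ Ufix) :
    w.ord u = 0 := by
  rw [S.ord_u w hP, finDiv_apply_of_notMem h1, multDiv_apply_of_notMem h2]
  ring

theorem ord_u'_of_mem {Q : Place k κ} (hQ : Q ∈ Uvar ∨ Q ∈ Ufix) : Q.ord u' = 0 := by
  have h1 := congrArg Q.ord S.prod
  rw [Q.ord_mul S.u_ne S.u'_ne, Q.ord_mul S.fix_ne_zero S.var_ne_zero] at h1
  rcases hQ with h | h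
  · rw [S.ord_u_of_mem_var h, ord_fixM_of_mem_var S.unram μ h,
      S.unram.ord_var_of_mem_var h] at h1
    linarith
  · rw [S.ord_u_of_mem_fix h, ord_fixM_of_mem_fix S.unram μ h,
      S.unram.ord_var_of_mem_fix h] at h1
    linarith

variable (T : KerVecM P Uvar Ufix μ z val u u' v v' dR)
include T

/-- `v/u + v'/u' = dR(z) / Rvar(z)`. -/
theorem sum_eq : v / u + v' / u' = aeval z dR / aeval z (rootPoly val Uvar) := by
  rw [div_add_div _ _ S.u_ne S.u'_ne, div_eq_div_iff (mul_ne_zero S.u_ne S.u'_ne) S.var_ne_zero,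
    T.eq, S.prod]
  ring

theorem ordGE_h' {Q : Place k κ} (hQ : Q ∈ Uvar ∨ Q ∈ Ufix) : OrdGE Q (v' / u') 0 := by
  rw [div_eq_mul_inv]
  have h1 : OrdGE Q v' 0 := OrdGE.of_mem (T.v'_reg Q (S.ne_P_of_mem hQ))
  have h2 : OrdGE Q u'⁻¹ (-0) := OrdGE.inv (S.ord_u'_of_mem hQ)
  exact (h1.mul h2).mono (by norm_num)

theorem ordGE_psi_fix {Q : Place k κ} (hQ : Q ∈ Ufix) :
    OrdGE Q (aeval z dR / aeval z (rootPoly val Uvar)) 0 := by
  rw [div_eq_mul_inv]
  have h1 : OrdGE Q (aeval z dR) 0 :=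
    OrdGE.aeval (OrdGE.of_mem (S.z_reg Q (S.ne_P_of_mem (Or.inr hQ)))) dR
  have h2 : OrdGE Q (aeval z (rootPoly val Uvar))⁻¹ (-0) :=
    OrdGE.inv (S.unram.ord_var_of_mem_fix hQ)
  exact (h1.mul h2).mono (by norm_num)

theorem ordGE_psi_var {Q : Place k κ} (hQ : Q ∈ Uvar) :
    OrdGE Q (aeval z dR / aeval z (rootPoly val Uvar)) (-1) := by
  rw [div_eq_mul_inv]
  have h1 : OrdGE Q (aeval z dR) 0 :=
    OrdGE.aeval (OrdGE.of_mem (S.z_reg Q (S.ne_P_of_mem (Or.inl hQ)))) dR
  have h2 : OrdGE Q (aeval z (rootPoly val Uvar))⁻¹ (-1) :=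
    OrdGE.inv (S.unram.ord_var_of_mem_var hQ)
  exact (h1.mul h2).mono (by norm_num)

/-- `h = v / u` lies in `L(Uvar)`. -/
theorem h_mem : v / u ∈ riemannRochSpace (finDiv Uvar) := by
  rw [mem_riemannRochSpace_iff_ordGE]
  intro w
  have hh : v / u = aeval z dR / aeval z (rootPoly val Uvar) - v' / u' := by
    rw [← S.sum_eq T]; ring
  by_cases hwP : w = P
  · subst hwP
    rw [finDiv_apply_of_notMem S.P_notMem_var, div_eq_mul_inv]
    have h2 : OrdGE w u⁻¹ (-(w.ord u)) := OrdGE.inv rfl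
    exact (T.v_P.mul h2).mono (by simp)
  by_cases hv : w ∈ Uvar
  · rw [finDiv_apply_of_mem hv, hh]
    exact (S.ordGE_psi_var T hv).sub ((S.ordGE_h' T (Or.inl hv)).mono (by norm_num))
  by_cases hf : w ∈ Ufix
  · rw [finDiv_apply_of_notMem hv, hh]
    exact ((S.ordGE_psi_fix T hf).sub (S.ordGE_h' T (Or.inr hf))).mono (by norm_num)
  · rw [finDiv_apply_of_notMem hv, div_eq_mul_inv]
    have h1 : OrdGE w v 0 := OrdGE.of_mem (T.v_reg w hwP)
    have h2 : OrdGE w u⁻¹ (-0) := OrdGE.inv (S.ord_u_of_notMem hwP hv hf)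
    exact (h1.mul h2).mono (by norm_num)

/-- First half of the injectivity of the Jacobian: `v` is a constant multiple of `u`. -/
theorem exists_smul_eq (hl : finrank k (riemannRochSpace (finDiv Uvar)) = 1) :
    ∃ c : k, v = c • u := by
  have h1 : (1 : κ) ∈ riemannRochSpace (finDiv Uvar) := by
    rw [mem_riemannRochSpace_iff_ordGE]
    intro w
    refine Or.inr ?_
    rw [Place.ord_one]
    have := finDiv_nonneg Uvar w
    simp only [Finsupp.coe_zero, Pi.zero_apply] at this
    omega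
  have hne : (⟨1, h1⟩ : riemannRochSpace (finDiv Uvar)) ≠ 0 := by
    intro h0
    have := congrArg Subtype.val h0
    simp at this
  obtain ⟨c, hc⟩ := (finrank_eq_one_iff_of_nonzero' _ hne).mp hl ⟨v / u, S.h_mem T⟩
  refine ⟨c, ?_⟩
  have hc' : c • (1 : κ) = v / u := congrArg Subtype.val hc
  rw [eq_div_iff S.u_ne] at hc'
  rw [← hc', smul_mul_assoc, one_mul]

/-- Second half: if `v = 0` then `dR = 0` and `v' = 0`. -/
theorem eq_zero_of_v_eq_zero (hv : v = 0) : dR = 0 ∧ v' = 0 := by
  classical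
  have hsum := S.sum_eq T
  rw [hv, zero_div, zero_add] at hsum
  -- `dR` vanishes at the values of the points of `Uvar`
  have hroot : ∀ Q ∈ Uvar, dR.eval (val Q) = 0 := by
    intro Q hQ
    have hQP : Q ≠ P := S.ne_P_of_mem (Or.inl hQ)
    have h1 : OrdGE Q (aeval z dR / aeval z (rootPoly val Uvar)) 0 := by
      rw [← hsum]; exact S.ordGE_h' T (Or.inl hQ)
    have h2 : OrdGE Q (aeval z (rootPoly val Uvar)) 1 :=
      OrdGE.of_le (S.unram.ord_var_of_mem_var hQ).ge
    have h4 : OrdGE Q (aeval z dR) 1 := by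
      have := h1.mul h2
      rw [div_mul_cancel₀ _ S.var_ne_zero] at this
      exact this.mono (by norm_num)
    obtain ⟨q, hq⟩ := Polynomial.X_sub_C_dvd_sub_C_eval (a := val Q) (p := dR)
    have hq' : algebraMap k κ (dR.eval (val Q)) =
        aeval z dR - (z - algebraMap k κ (val Q)) * aeval z q := by
      have := congrArg (aeval z) hq
      rw [map_sub, map_mul, map_sub, aeval_X, aeval_C, aeval_C] at this
      rw [← this]; ring
    have h6 : OrdGE Q ((z - algebraMap k κ (val Q)) * aeval z q) (1 + 0) :=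
      (OrdGE.of_le (S.unram.unif Q (Or.inl hQ)).ge).mul
        (OrdGE.aeval (OrdGE.of_mem (S.z_reg Q hQP)) q)
    have h7 : OrdGE Q (algebraMap k κ (dR.eval (val Q))) 1 := by
      rw [hq']; exact h4.sub (h6.mono (by norm_num))
    exact eq_zero_of_ord_algebraMap_pos Q h7
  have hdR : dR = 0 := by
    by_contra hne
    have hdeg : dR.natDegree < Uvar.card := (natDegree_lt_iff_degree_lt hne).mpr T.deg
    have hinj : Set.InjOn val (Uvar : Set (Place k κ)) := fun a ha b hb hab =>
      S.unram.inj (Or.inl ha) (Or.inl hb) hab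
    have hcard : (Uvar.image val).card = Uvar.card := Finset.card_image_of_injOn hinj
    apply hne
    refine eq_zero_of_natDegree_lt_card_of_eval_eq_zero' dR (Uvar.image val) ?_ (by rwa [hcard])
    intro c hc
    obtain ⟨Q, hQ, rfl⟩ := Finset.mem_image.mp hc
    exact hroot Q hQ
  refine ⟨hdR, ?_⟩
  rw [hdR, map_zero, zero_div] at hsum
  exact (div_eq_zero_iff.mp hsum).resolve_right S.u'_ne

/-- **The Jacobian of the factorisation system with multiplicities is injective at the residue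
solution** (modulo the normalisation of `u`). -/
theorem jac_kernel (hl : finrank k (riemannRochSpace (finDiv Uvar)) = 1) :
    (∃ c : k, v = c • u) ∧ (v = 0 → dR = 0 ∧ v' = 0) :=
  ⟨S.exists_smul_eq T hl, S.eq_zero_of_v_eq_zero T⟩

/-- Normalised form: if some `k`-linear functional `φ` with `φ u ≠ 0` kills `v`, the kernel
vector is zero. -/
theorem kerVec_eq_zero (hl : finrank k (riemannRochSpace (finDiv Uvar)) = 1)
    (φ : κ →ₗ[k] k) (hφu : φ u ≠ 0) (hφv : φ v = 0) : v = 0 ∧ dR = 0 ∧ v' = 0 := by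
  obtain ⟨c, hc⟩ := S.exists_smul_eq T hl
  have hc0 : c = 0 := by
    rw [hc, map_smul, smul_eq_mul] at hφv
    exact (mul_eq_zero.mp hφv).resolve_right hφu
  have hv : v = 0 := by rw [hc, hc0, zero_smul]
  exact ⟨hv, S.eq_zero_of_v_eq_zero T hv⟩

end ResSolM

end Kernel

end Fermat.Agent.S19x.Geo.JacKerMult
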