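import Fermat.Agent.S19x.Geo.NiceRepL
import Fermat.Agent.S19x.Geo.JacKerMult

/-!
# P-S19, block A: from the special fibre base configuration to the two residue solutions

Glue `L3 → L5 / L6`, special fibre only, any characteristic.  From
`c : NiceRepL.BaseCfg oo m m' e` we produce the two residue solutions in the shape of
`Geo/JacKerMult.lean`:

* `Cfg1` : `Uvar = c.D1`, `Ufix = c.D0 ∪ supp c.C0`, `μ = 3` on `c.D0` and `μ = c.C0` elsewhere,
  `u = c.u0`, `u' = Rfix(z) Rvar(z) / u`  (`resSolM1`);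
* `Cfg2` : `Uvar = c.D0`, `Ufix = c.D1 ∪ supp c.C0'`, `μ = 1` on `c.D1` and `μ = c.C0'` elsewhere,
  `u = c.u0'`, `u' = Rfix(z) Rvar(z) / u`  (`resSolM2`);

together with the bookkeeping needed by the Residual Theorem: the multiplicity divisors
(`multDiv_fix1`, `multDiv_fix2`), the number of parameters (`sum_mu1`, `sum_mu2`), and the
Riemann-Roch spaces containing `u`, `u'` (`u0_mem`, `u1'_mem`, ...).
-/

set_option autoImplicit false
set_option linter.unusedSectionVars false
set_option linter.style.haveILetI false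

noncomputable section

open AlgebraicCurve Polynomial Module

namespace Fermat.Agent.S19x.Geo.BaseCfgResSol

open Fermat.Agent.Lib.RiemannRoch Fermat.Agent.S27x.Lift.NiceRep Fermat.Agent.S27x.Lift.JacInj
  Fermat.Agent.S19x.Geo.NiceRepL Fermat.Agent.S19x.Geo.JacKerMult

variable {k κ : Type*} [Field k] [Field κ] [Algebra k κ]
  {oo : Place k κ} {m m' : ℕ} {e : ℤ}

/-! ### Generic construction -/

section Generic

variable (z : κ) (val : Place k κ → k) (Uvar D : Finset (Place k κ)) (C : Divisor k κ) (a : ℕ)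

open Classical in
/-- the support of the fixed part: `D ∪ supp C`. -/
def fixSupp : Finset (Place k κ) := D ∪ C.support

open Classical in
/-- the multiplicities of the fixed part: `a` on `D`, `C` elsewhere. -/
def fixMult : Place k κ → ℕ := fun Q => if Q ∈ D then a else (C Q).toNat

/-- the cofactor `u' = Rfix(z) Rvar(z) / u`. -/
def cofactor (u : κ) : κ :=
  aeval z (rootPolyMult val (fixSupp D C) (fixMult D C a)) * aeval z (rootPoly val Uvar) / u

variable {D C}

theorem mem_fixSupp {Q : Place k κ} : Q ∈ fixSupp D C ↔ Q ∈ D ∨ Q ∈ C.support := by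
  classical
  unfold fixSupp
  exact Finset.mem_union

theorem fixMult_of_mem {Q : Place k κ} (hQ : Q ∈ D) : fixMult D C a Q = a := by
  classical
  unfold fixMult
  rw [if_pos hQ]

theorem fixMult_of_notMem {Q : Place k κ} (hQ : Q ∉ D) : fixMult D C a Q = (C Q).toNat := by
  classical
  unfold fixMult
  rw [if_neg hQ]

/-- the multiplicity divisor of the fixed part is `C + a D`. -/
theorem multDiv_fix (hC : 0 ≤ C) (hCD : ∀ Q ∈ D, C Q = 0) :
    multDiv (fixSupp D C) (fixMult D C a) = C + (a : ℤ) • finDiv D := by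
  classical
  ext w
  rw [multDiv_apply, Finsupp.add_apply, Finsupp.smul_apply, smul_eq_mul]
  by_cases hwD : w ∈ D
  · rw [if_pos (mem_fixSupp.mpr (Or.inl hwD)), fixMult_of_mem a hwD, hCD w hwD,
      finDiv_apply_of_mem hwD]
    ring
  · rw [finDiv_apply_of_notMem hwD, fixMult_of_notMem a hwD]
    by_cases hwC : w ∈ C.support
    · rw [if_pos (mem_fixSupp.mpr (Or.inr hwC)), Int.toNat_of_nonneg (hC w)]
      ring
    · rw [if_neg (fun h => (mem_fixSupp.mp h).elim hwD hwC), Finsupp.notMem_support_iff.mp hwC]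
      ring

/-- the residue solution attached to `(Uvar, D, C, a, u)`. -/
theorem resSolM_of {u : κ} (hu : u ≠ 0)
    (hdisj : Disjoint Uvar D) (hCnn : 0 ≤ C)
    (hCD : ∀ Q ∈ D, C Q = 0) (hCvar : ∀ Q ∈ Uvar, C Q = 0) (hCoo : C oo = 0)
    (hooD : oo ∉ D) (hoovar : oo ∉ Uvar)
    (hz : z ∈ riemannRochSpace (Finsupp.single oo e))
    (hinj : Set.InjOn val {Q : Place k κ | Q ∈ Uvar ∨ Q ∈ D ∨ Q ∈ C.support})
    (hord : ∀ Q : Place k κ, Q ∈ Uvar ∨ Q ∈ D ∨ Q ∈ C.support →
      Q.ord (z - algebraMap k κ (val Q)) = 1)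
    (hordu : ∀ w : Place k κ, w ≠ oo → w.ord u = C w + (a : ℤ) * finDiv D w + finDiv Uvar w) :
    ResSolM oo Uvar (fixSupp D C) (fixMult D C a) z val u (cofactor z val Uvar D C a u) := by
  classical
  have hmem : ∀ Q : Place k κ, Q ∈ Uvar ∨ Q ∈ fixSupp D C →
      Q ∈ Uvar ∨ Q ∈ D ∨ Q ∈ C.support := by
    intro Q hQ
    rcases hQ with h | h
    · exact Or.inl h
    · exact Or.inr (mem_fixSupp.mp h)
  have hunram : Unram Uvar (fixSupp D C) z val := by
    refine ⟨?_, fun Q hQ Q' hQ' h => hinj (hmem Q hQ) (hmem Q' hQ') h,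
      fun Q hQ => hord Q (hmem Q hQ)⟩
    rw [Finset.disjoint_left]
    intro Q hQ hQf
    rcases mem_fixSupp.mp hQf with h | h
    · exact Finset.disjoint_left.mp hdisj hQ h
    · exact (Finsupp.mem_support_iff.mp h) (hCvar Q hQ)
  have hfix0 : aeval z (rootPolyMult val (fixSupp D C) (fixMult D C a)) ≠ 0 :=
    aeval_rootPolyMult_ne_zero hunram _
  have hvar0 : aeval z (rootPoly val Uvar) ≠ 0 :=
    hunram.aeval_rootPoly_ne_zero fun _ h => Or.inl h
  refine ⟨hunram, hoovar, ?_, ?_, hu, ?_, ?_, ?_⟩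
  · intro h
    rcases mem_fixSupp.mp h with h | h
    · exact hooD h
    · exact (Finsupp.mem_support_iff.mp h) hCoo
  · intro w hw
    have h1 := mem_riemannRochSpace_iff_ordGE.mp hz w
    rw [Finsupp.single_apply, if_neg (Ne.symm hw), neg_zero] at h1
    exact h1.mem
  · unfold cofactor
    exact div_ne_zero (mul_ne_zero hfix0 hvar0) hu
  · intro w hw
    rw [hordu w hw, multDiv_fix a hCnn hCD, Finsupp.add_apply, Finsupp.smul_apply, smul_eq_mul]
    ring
  · unfold cofactor
    field_simp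

end Generic

/-! ### The two configurations -/

section Cfg

variable (c : BaseCfg (k := k) (κ := κ) oo m m' e)

/-- the support of the fixed part of `Cfg1` : `D0 ∪ supp C0`. -/
def fix1 : Finset (Place k κ) := fixSupp c.D0 c.C0

/-- the multiplicities of `Cfg1` : `3` on `D0`, `C0` elsewhere. -/
def mu1 : Place k κ → ℕ := fixMult c.D0 c.C0 3

/-- the cofactor of `Cfg1`. -/
def u1' : κ := cofactor c.z c.val c.D1 c.D0 c.C0 3 c.u0

/-- the support of the fixed part of `Cfg2` : `D1 ∪ supp C0'`. -/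
def fix2 : Finset (Place k κ) := fixSupp c.D1 c.C0'

/-- the multiplicities of `Cfg2` : `1` on `D1`, `C0'` elsewhere. -/
def mu2 : Place k κ → ℕ := fixMult c.D1 c.C0' 1

/-- the cofactor of `Cfg2`. -/
def u2' : κ := cofactor c.z c.val c.D0 c.D1 c.C0' 1 c.u0'

theorem multDiv_fix1 : multDiv (fix1 c) (mu1 c) = c.C0 + (3 : ℤ) • finDiv c.D0 := by
  have := multDiv_fix (D := c.D0) (C := c.C0) 3 c.C0_nonneg (fun Q hQ => c.C0_eq_zero Q (Or.inl hQ))
  simpa [fix1, mu1] using this

theorem multDiv_fix2 : multDiv (fix2 c) (mu2 c) = c.C0' + finDiv c.D1 := by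
  have := multDiv_fix (D := c.D1) (C := c.C0') 1 c.C0'_nonneg
    (fun Q hQ => c.C0'_eq_zero Q (Or.inr (Or.inl hQ)))
  simpa [fix2, mu2] using this

/-- **The residue solution of `Cfg1`.** -/
theorem resSolM1 : ResSolM oo c.D1 (fix1 c) (mu1 c) c.z c.val c.u0 (u1' c) := by
  classical
  refine resSolM_of (e := e) c.z c.val c.D1 3 c.u0_ne_zero c.disjoint_D0_D1.symm c.C0_nonneg
    (fun Q hQ => c.C0_eq_zero Q (Or.inl hQ)) (fun Q hQ => c.C0_eq_zero Q (Or.inr (Or.inl hQ)))
    (c.C0_eq_zero oo (Or.inr (Or.inr rfl))) c.oo_notMem_D0 c.oo_notMem_D1 c.z_mem ?_ ?_ ?_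
  · intro Q hQ Q' hQ' h
    refine c.val_injOn ?_ ?_ h
    · rcases hQ with h | h | h
      · exact Or.inr (Or.inl h)
      · exact Or.inl h
      · exact Or.inr (Or.inr (Or.inl h))
    · rcases hQ' with h | h | h
      · exact Or.inr (Or.inl h)
      · exact Or.inl h
      · exact Or.inr (Or.inr (Or.inl h))
  · intro Q hQ
    apply c.ord_z
    rcases hQ with h | h | h
    · exact Or.inr (Or.inl h)
    · exact Or.inl h
    · exact Or.inr (Or.inr (Or.inl h))
  · intro w hw
    rw [c.ord_u0 w, Finsupp.single_apply, if_neg (Ne.symm hw)]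
    push_cast
    ring

/-- **The residue solution of `Cfg2`.** -/
theorem resSolM2 : ResSolM oo c.D0 (fix2 c) (mu2 c) c.z c.val c.u0' (u2' c) := by
  classical
  refine resSolM_of (e := e) c.z c.val c.D0 1 c.u0'_ne_zero c.disjoint_D0_D1 c.C0'_nonneg
    (fun Q hQ => c.C0'_eq_zero Q (Or.inr (Or.inl hQ))) (fun Q hQ => c.C0'_eq_zero Q (Or.inl hQ))
    (c.C0'_eq_zero oo (Or.inr (Or.inr rfl))) c.oo_notMem_D1 c.oo_notMem_D0 c.z_mem ?_ ?_ ?_
  · intro Q hQ Q' hQ' h
    refine c.val_injOn ?_ ?_ h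
    · rcases hQ with h | h | h
      · exact Or.inl h
      · exact Or.inr (Or.inl h)
      · exact Or.inr (Or.inr (Or.inr h))
    · rcases hQ' with h | h | h
      · exact Or.inl h
      · exact Or.inr (Or.inl h)
      · exact Or.inr (Or.inr (Or.inr h))
  · intro Q hQ
    apply c.ord_z
    rcases hQ with h | h | h
    · exact Or.inl h
    · exact Or.inr (Or.inl h)
    · exact Or.inr (Or.inr (Or.inr h))
  · intro w hw
    rw [c.ord_u0' w, Finsupp.single_apply, if_neg (Ne.symm hw)]
    push_cast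
    ring


/-! ### Bookkeeping: pole orders and the number of parameters -/

theorem ord_u0_oo : oo.ord c.u0 = -(m : ℤ) := by
  rw [c.ord_u0 oo, c.C0_eq_zero oo (Or.inr (Or.inr rfl)), finDiv_apply_of_notMem c.oo_notMem_D0,
    finDiv_apply_of_notMem c.oo_notMem_D1, Finsupp.single_eq_same]
  ring

theorem ord_u0'_oo : oo.ord c.u0' = -(m' : ℤ) := by
  rw [c.ord_u0' oo, c.C0'_eq_zero oo (Or.inr (Or.inr rfl)), finDiv_apply_of_notMem c.oo_notMem_D0,
    finDiv_apply_of_notMem c.oo_notMem_D1, Finsupp.single_eq_same]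
  ring

/-- `u0 ∈ L(m oo - 3 D0 - D1)`. -/
theorem u0_mem : c.u0 ∈ riemannRochSpace
    (Finsupp.single oo (m : ℤ) - (3 : ℤ) • finDiv c.D0 - finDiv c.D1) := by
  classical
  rw [mem_riemannRochSpace_iff]
  intro v
  right
  rw [c.ord_u0 v, Finsupp.sub_apply, Finsupp.sub_apply, Finsupp.smul_apply, smul_eq_mul,
    Finsupp.single_apply, Finsupp.single_apply]
  have := c.C0_nonneg v
  simp only [Finsupp.coe_zero, Pi.zero_apply] at this
  split_ifs <;> linarith

/-- `u0' ∈ L(m' oo - D1 - D0)`. -/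
theorem u0'_mem : c.u0' ∈ riemannRochSpace
    (Finsupp.single oo (m' : ℤ) - finDiv c.D1 - finDiv c.D0) := by
  classical
  rw [mem_riemannRochSpace_iff]
  intro v
  right
  rw [c.ord_u0' v, Finsupp.sub_apply, Finsupp.sub_apply, Finsupp.single_apply,
    Finsupp.single_apply]
  have := c.C0'_nonneg v
  simp only [Finsupp.coe_zero, Pi.zero_apply] at this
  split_ifs <;> linarith

end Cfg

section Orders

/-- pole order of a product of powers of `z - a`. -/
theorem ordGE_prod_pow (w : Place k κ) {z : κ} {e : ℤ} (he : 0 ≤ e) (hz : OrdGE w z (-e))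
    (val : Place k κ → k) (U : Finset (Place k κ)) (μ : Place k κ → ℕ) :
    OrdGE w (∏ Q ∈ U, (z - algebraMap k κ (val Q)) ^ μ Q) (-(e * ∑ Q ∈ U, (μ Q : ℤ))) := by
  classical
  have h1 : ∀ Q : Place k κ, OrdGE w (z - algebraMap k κ (val Q)) (-e) :=
    fun Q => hz.sub ((OrdGE.algebraMap w (val Q)).mono (by omega))
  have h2 : ∀ (Q : Place k κ) (n : ℕ),
      OrdGE w ((z - algebraMap k κ (val Q)) ^ n) (-(e * (n : ℤ))) := by
    intro Q n
    induction n with
    | zero =>
      rw [pow_zero]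
      refine Or.inr ?_
      rw [Place.ord_one]
      simp
    | succ n ih =>
      rw [pow_succ]
      refine (ih.mul (h1 Q)).mono ?_
      push_cast
      linarith
  induction U using Finset.induction_on with
  | empty =>
    rw [Finset.prod_empty, Finset.sum_empty]
    refine Or.inr ?_
    rw [Place.ord_one]
    simp
  | insert Q U hQ ih =>
    rw [Finset.prod_insert hQ, Finset.sum_insert hQ]
    refine ((h2 Q (μ Q)).mul ih).mono ?_
    linarith

end Orders

section Count

variable [HasPrincipalDivisors k κ] [∀ v : Place k κ, v.FiniteResidue] [IsAlgClosed k]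
  (c : BaseCfg (k := k) (κ := κ) oo m m' e)

theorem degree_multDiv (U : Finset (Place k κ)) (μ : Place k κ → ℕ) :
    Divisor.degree (multDiv U μ) = ∑ Q ∈ U, (μ Q : ℤ) := by
  unfold multDiv
  rw [map_sum]
  refine Finset.sum_congr rfl fun Q _ => ?_
  haveI : Nonempty (Place k κ) := ⟨Q⟩
  rw [Divisor.degree_single, deg_eq_one Q]
  simp

/-- the number of parameters of `Cfg1` : `∑ μ1 = m - g`. -/
theorem sum_mu1 : (∑ Q ∈ fix1 c, (mu1 c Q : ℤ)) = (m : ℤ) - genusFF k κ := by
  haveI : Nonempty (Place k κ) := ⟨oo⟩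
  rw [← degree_multDiv, multDiv_fix1, map_add, map_zsmul,
    degree_finDiv deg_eq_one, c.card_D0, smul_eq_mul]
  have hdiv : divOf (K := k) c.u0 = c.C0 + (3 : ℤ) • finDiv c.D0 + finDiv c.D1 -
      Finsupp.single oo (m : ℤ) := by
    classical
    ext v
    rw [divOf_apply c.u0_ne_zero, c.ord_u0 v, Finsupp.sub_apply, Finsupp.add_apply,
      Finsupp.add_apply, Finsupp.smul_apply, smul_eq_mul, Finsupp.single_apply,
      Finsupp.single_apply]
    split_ifs <;> ring
  have hdeg := degree_divOf (K := k) c.u0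
  rw [hdiv, map_sub, map_add, map_add, map_zsmul, degree_finDiv deg_eq_one,
    degree_finDiv deg_eq_one, c.card_D0, c.card_D1, Divisor.degree_single, deg_eq_one oo,
    smul_eq_mul] at hdeg
  push_cast at hdeg
  linarith

/-- the number of parameters of `Cfg2` : `∑ μ2 = m' - g`. -/
theorem sum_mu2 : (∑ Q ∈ fix2 c, (mu2 c Q : ℤ)) = (m' : ℤ) - genusFF k κ := by
  haveI : Nonempty (Place k κ) := ⟨oo⟩
  rw [← degree_multDiv, multDiv_fix2, map_add,
    degree_finDiv deg_eq_one, c.card_D1]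
  have hdiv : divOf (K := k) c.u0' = c.C0' + finDiv c.D1 + finDiv c.D0 -
      Finsupp.single oo (m' : ℤ) := by
    classical
    ext v
    rw [divOf_apply c.u0'_ne_zero, c.ord_u0' v, Finsupp.sub_apply, Finsupp.add_apply,
      Finsupp.add_apply, Finsupp.single_apply, Finsupp.single_apply]
    split_ifs <;> ring
  have hdeg := degree_divOf (K := k) c.u0'
  rw [hdiv, map_sub, map_add, map_add, degree_finDiv deg_eq_one,
    degree_finDiv deg_eq_one, c.card_D0, c.card_D1, Divisor.degree_single, deg_eq_one oo] at hdeg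
  push_cast at hdeg
  linarith

omit [HasPrincipalDivisors k κ] [∀ v : Place k κ, v.FiniteResidue] [IsAlgClosed k] in
/-- generic form: the cofactor of a residue solution lies in `L(N oo)` as soon as
`N ≥ e (∑ μ + #Uvar) + ord_oo u`. -/
theorem cofactor_mem {Uvar Ufix : Finset (Place k κ)} {μ : Place k κ → ℕ} {z : κ}
    {val : Place k κ → k} {u u' : κ} (S : ResSolM oo Uvar Ufix μ z val u u')
    (he : 0 ≤ e) (hz : z ∈ riemannRochSpace (Finsupp.single oo e)) (N : ℤ)
    (hN : e * ((∑ Q ∈ Ufix, (μ Q : ℤ)) + Uvar.card) + oo.ord u ≤ N) :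
    u' ∈ riemannRochSpace (Finsupp.single oo N) := by
  classical
  rw [mem_riemannRochSpace_iff_ordGE]
  intro w
  have hu' : u' = aeval z (rootPolyMult val Ufix μ) * aeval z (rootPoly val Uvar) * u⁻¹ := by
    rw [← S.prod]
    field_simp [S.u_ne]
  by_cases hw : w = oo
  · subst hw
    rw [Finsupp.single_eq_same]
    have hzoo : OrdGE w z (-e) := by
      have := mem_riemannRochSpace_iff_ordGE.mp hz w
      rwa [Finsupp.single_eq_same] at this
    have h1 : OrdGE w (aeval z (rootPolyMult val Ufix μ)) (-(e * ∑ Q ∈ Ufix, (μ Q : ℤ))) := by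
      rw [aeval_rootPolyMult]
      exact ordGE_prod_pow w he hzoo val Ufix μ
    have h2 : OrdGE w (aeval z (rootPoly val Uvar)) (-(e * (Uvar.card : ℤ))) := by
      have := ordGE_prod_pow w he hzoo val Uvar (fun _ => 1)
      simp only [pow_one, Nat.cast_one, Finset.sum_const, nsmul_eq_mul, mul_one] at this
      rw [aeval_rootPoly]
      exact this
    have h3 : OrdGE w u⁻¹ (-(w.ord u)) := OrdGE.inv rfl
    rw [hu']
    refine ((h1.mul h2).mul h3).mono ?_
    linarith
  · rw [Finsupp.single_apply, if_neg (Ne.symm hw), neg_zero]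
    by_cases hmem : w ∈ Uvar ∨ w ∈ Ufix
    · exact Or.inr (S.ord_u'_of_mem hmem).ge
    · rw [not_or] at hmem
      have hzw : OrdGE w z 0 := OrdGE.of_mem (S.z_reg w hw)
      have h1 : OrdGE w (aeval z (rootPolyMult val Ufix μ)) 0 := OrdGE.aeval hzw _
      have h2 : OrdGE w (aeval z (rootPoly val Uvar)) 0 := OrdGE.aeval hzw _
      have h3 : OrdGE w u⁻¹ (-0) := OrdGE.inv (S.ord_u_of_notMem hw hmem.1 hmem.2)
      rw [hu']
      exact ((h1.mul h2).mul h3).mono (by norm_num)

/-- the cofactor of `Cfg1` lies in `L((e m - m) oo)`. -/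
theorem u1'_mem (he : 0 ≤ e) :
    u1' c ∈ riemannRochSpace (Finsupp.single oo (e * (m : ℤ) - m)) := by
  refine cofactor_mem (resSolM1 c) he c.z_mem _ ?_
  have h1 : (∑ Q ∈ fix1 c, (mu1 c Q : ℤ)) = (m : ℤ) - genusFF k κ := sum_mu1 c
  rw [h1, c.card_D1, ord_u0_oo]
  ring_nf
  exact le_refl _

/-- the cofactor of `Cfg2` lies in `L((e m' - m') oo)`. -/
theorem u2'_mem (he : 0 ≤ e) :
    u2' c ∈ riemannRochSpace (Finsupp.single oo (e * (m' : ℤ) - m')) := by
  refine cofactor_mem (resSolM2 c) he c.z_mem _ ?_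
  have h1 : (∑ Q ∈ fix2 c, (mu2 c Q : ℤ)) = (m' : ℤ) - genusFF k κ := sum_mu2 c
  rw [h1, c.card_D0, ord_u0'_oo]
  ring_nf
  exact le_refl _

end Count

end Fermat.Agent.S19x.Geo.BaseCfgResSol
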