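import Fermat.Agent.S19x.Geo.BaseCfgGeo
import Fermat.Agent.S19x.Geo.BaseCfgResSol

/-!
# P-S19, block A (L3, complement): exact pole orders

The kernel lemma `Geo/JacKerMult.ResSolM.kerVec_eq_zero` takes a `KerVecM`, whose fields `v_P`,
`v'_P` bound the pole orders of the directions `v`, `v'` at `P` by the EXACT pole orders of the
residue solution `u`, `u'`.  For `u = c.u0` this is `ord_u0_oo` of `Geo/BaseCfgResSol.lean`; for
the cofactor `u'` one needs the exact pole order of the coordinate function `z` at `oo`.  Here: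

* `exists_unramified_function_exact` : as `NiceRepL.exists_unramified_function`, with
  `ord_P z = -e` exactly;
* `nonempty_baseCfg_exact` (and `nonempty_baseCfg_special_exact` in a `GeoSetting`) : a special
  fibre base configuration with `ord_oo z = -e`;
* `ord_cofactor_oo` : the exact pole order of the cofactor of a residue solution;
* `ord_u1'_oo`, `ord_u2'_oo` : `ord_oo u1' = -(e m - m)`, `ord_oo u2' = -(e m' - m')`.
-/

set_option autoImplicit false
set_option linter.unusedSectionVars false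
set_option linter.style.haveILetI false

noncomputable section

open AlgebraicCurve Polynomial Module

namespace Fermat.Agent.S19x.Geo.BaseCfgExact

open Fermat.Agent.Lib.RiemannRoch Fermat.Agent.S27x.Lift.NiceRep Fermat.Agent.S27x.Lift.JacInj
  Fermat.Agent.S19x.Geo Fermat.Agent.S19x.Geo.NiceRepL Fermat.Agent.S19x.Geo.JacKerMult
  Fermat.Agent.S19x.Geo.BaseCfgResSol Fermat.Agent.S19x.Geo.BaseCfgGeo

section Bundle

variable {k κ : Type*} [Field k] [Field κ] [Algebra k κ]
  [HasPrincipalDivisors k κ] [∀ v : Place k κ, v.FiniteResidue] [Nonempty (Place k κ)]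
  [IsAlgClosed k]

/-- A function `z ∈ L(e P)` with a pole of EXACT order `e` at `P`, which at every point `Q` of
a finite set `U` of places, `P ∉ U`, takes the prescribed value `val Q` with multiplicity one,
for every `e ≥ 2g + 2 #U`. -/
theorem exists_unramified_function_exact (hγ : ∃ γ : ℤ, ∀ D : Divisor k κ, rr D ≤ γ)
    (U : Finset (Place k κ)) (P : Place k κ) (hP : P ∉ U)
    (val : Place k κ → k) (e : ℤ)
    (he : 2 * (genusFF k κ : ℤ) + 2 * U.card ≤ e) :
    ∃ z : κ, z ∈ riemannRochSpace (Finsupp.single P e) ∧ P.ord z = -e ∧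
      ∀ Q ∈ U, Q.ord (z - algebraMap k κ (val Q)) = 1 := by
  classical
  have hg0 : (0 : ℤ) ≤ genusFF k κ := Int.natCast_nonneg _
  have hU0 : (0 : ℤ) ≤ U.card := Int.natCast_nonneg _
  obtain ⟨z1, hz1mem, hz1ord⟩ := exists_unramified_function hγ U P hP val (e - 1) (by linarith)
  -- the correction term
  set D : Divisor k κ := Finsupp.single P e - (2 : ℤ) • finDiv U with hD
  have hdegD : Divisor.degree D = e - 2 * U.card := by
    rw [hD, map_sub, map_zsmul, Divisor.degree_single, deg_eq_one P, degree_finDiv deg_eq_one,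
      smul_eq_mul]
    push_cast
    ring
  obtain ⟨f, hf0, hfmem, hford⟩ := exists_function_exact_order hγ {P} D (by rw [hdegD]; linarith)
  have hDP : D P = e := by
    rw [hD, Finsupp.sub_apply, Finsupp.smul_apply, finDiv_apply_of_notMem hP,
      Finsupp.single_eq_same]
    simp
  have hfP : P.ord f = -e := by rw [hford P (Finset.mem_singleton_self P), hDP]
  have hfU : ∀ Q ∈ U, 2 ≤ Q.ord f := by
    intro Q hQ
    have h1 := (mem_riemannRochSpace_iff.mp hfmem Q).resolve_left hf0
    have hQP : Q ≠ P := fun h => hP (h ▸ hQ)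
    rw [hD, Finsupp.sub_apply, Finsupp.smul_apply, finDiv_apply_of_mem hQ,
      Finsupp.single_apply, if_neg (Ne.symm hQP)] at h1
    simp only [smul_eq_mul, mul_one, zero_sub, neg_neg] at h1
    exact h1
  have hfo : ∀ v : Place k κ, v ≠ P → 0 ≤ v.ord f := by
    intro v hv
    have h1 := (mem_riemannRochSpace_iff.mp hfmem v).resolve_left hf0
    rw [hD, Finsupp.sub_apply, Finsupp.smul_apply, Finsupp.single_apply,
      if_neg (Ne.symm hv), smul_eq_mul] at h1
    have h2 : (0 : ℤ) ≤ finDiv U v := by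
      have := finDiv_nonneg U v
      simpa using this
    linarith
  -- `z1` has a pole of order `< e` at `P`
  have hz1P : z1 = 0 ∨ -(e - 1) ≤ P.ord z1 := by
    have := mem_riemannRochSpace_iff.mp hz1mem P
    rwa [Finsupp.single_eq_same] at this
  have hzP : P.ord (f + z1) = -e := by
    by_cases h0 : z1 = 0
    · rw [h0, add_zero, hfP]
    · have h1 := hz1P.resolve_left h0
      rw [(Fermat.Agent.S24.isAddVal_ord P).map_add_of_lt hf0 h0 (by rw [hfP]; linarith), hfP]
  have hz0 : f + z1 ≠ 0 := by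
    intro h0
    have h1 : z1 = -f := by linear_combination h0
    have hz10 : z1 ≠ 0 := by rw [h1]; exact neg_ne_zero.mpr hf0
    have h2 := hz1P.resolve_left hz10
    rw [h1, (Fermat.Agent.S24.isAddVal_ord P).map_neg hf0, hfP] at h2
    linarith
  refine ⟨f + z1, ?_, hzP, fun Q hQ => ?_⟩
  · rw [mem_riemannRochSpace_iff]
    intro v
    right
    by_cases hv : v = P
    · subst hv
      rw [Finsupp.single_eq_same, hzP]
    · rw [Finsupp.single_apply, if_neg (Ne.symm hv), neg_zero]
      by_cases h0 : z1 = 0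
      · rw [h0, add_zero]
        exact hfo v hv
      · have h1 := (mem_riemannRochSpace_iff.mp hz1mem v).resolve_left h0
        rw [Finsupp.single_apply, if_neg (Ne.symm hv), neg_zero] at h1
        exact (le_min (hfo v hv) h1).trans
          ((Fermat.Agent.S24.isAddVal_ord v).map_add f z1 hf0 h0 hz0)
  · have hne : z1 - algebraMap k κ (val Q) ≠ 0 := by
      intro h0
      have := hz1ord Q hQ
      rw [h0, Place.ord_zero] at this
      omega
    have hsplit : f + z1 - algebraMap k κ (val Q) = (z1 - algebraMap k κ (val Q)) + f := by ring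
    rw [hsplit, (Fermat.Agent.S24.isAddVal_ord Q).map_add_of_lt hne hf0
      (by rw [hz1ord Q hQ]; have := hfU Q hQ; omega)]
    exact hz1ord Q hQ

/-- **Existence of the special fibre base configuration with `ord_oo z = -e`**, avoiding a given
finite set `S`, for all `m ≥ 6g`, `m' ≥ 4g`, `e ≥ 2 (m + m') + 1`. -/
theorem nonempty_baseCfg_exact (hγ : ∃ γ : ℤ, ∀ D : Divisor k κ, rr D ≤ γ)
    (oo : Place k κ) (S : Finset (Place k κ)) (m m' : ℕ)
    (hm : 6 * genusFF k κ ≤ m) (hm' : 4 * genusFF k κ ≤ m') (e : ℤ)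
    (he : 2 * ((m : ℤ) + m') + 1 ≤ e) :
    ∃ c : BaseCfg (k := k) (κ := κ) oo m m' e, Disjoint c.D0 S ∧ Disjoint c.D1 S ∧
      (∀ Q ∈ S, c.C0 Q = 0 ∧ c.C0' Q = 0) ∧ oo.ord c.z = -e := by
  classical
  obtain ⟨c, hc0, hc1, hcS⟩ := nonempty_baseCfg hγ oo S m m' hm hm' (e - 1) (by linarith)
  set g := genusFF k κ with hg
  set V : Finset (Place k κ) := c.D0 ∪ c.D1 ∪ c.C0.support ∪ c.C0'.support with hV
  have hVmem : ∀ Q : Place k κ,
      Q ∈ c.D0 ∨ Q ∈ c.D1 ∨ Q ∈ c.C0.support ∨ Q ∈ c.C0'.support → Q ∈ V := by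
    intro Q hQ
    rw [hV, Finset.mem_union, Finset.mem_union, Finset.mem_union]
    tauto
  have hooV : oo ∉ V := by
    rw [hV, Finset.mem_union, Finset.mem_union, Finset.mem_union, Finsupp.mem_support_iff,
      Finsupp.mem_support_iff]
    have h1 := c.C0_eq_zero oo (Or.inr (Or.inr rfl))
    have h2 := c.C0'_eq_zero oo (Or.inr (Or.inr rfl))
    have h3 := c.oo_notMem_D0
    have h4 := c.oo_notMem_D1
    tauto
  -- the number of points
  have hm6 : (6 : ℤ) * g ≤ m := by exact_mod_cast hm
  have hm4 : (4 : ℤ) * g ≤ m' := by exact_mod_cast hm'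
  have hdegC0 : Divisor.degree c.C0 = (m : ℤ) - 4 * g := by
    have h1 := sum_mu1 c
    rw [← degree_multDiv, multDiv_fix1, map_add, map_zsmul, degree_finDiv deg_eq_one,
      c.card_D0, smul_eq_mul] at h1
    linarith
  have hdegC0' : Divisor.degree c.C0' = (m' : ℤ) - 2 * g := by
    have h1 := sum_mu2 c
    rw [← degree_multDiv, multDiv_fix2, map_add, degree_finDiv deg_eq_one, c.card_D1] at h1
    linarith
  have hcardV : (V.card : ℤ) ≤ (m : ℤ) + m' - 4 * g := by
    have h1 : V.card ≤ c.D0.card + c.D1.card + c.C0.support.card + c.C0'.support.card := by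
      rw [hV]
      refine (Finset.card_union_le _ _).trans ?_
      refine Nat.add_le_add_right ((Finset.card_union_le _ _).trans ?_) _
      exact Nat.add_le_add_right (Finset.card_union_le _ _) _
    have h2 := card_support_le_degree c.C0_nonneg
    have h3 := card_support_le_degree c.C0'_nonneg
    rw [hdegC0] at h2
    rw [hdegC0'] at h3
    have h4 : (V.card : ℤ) ≤
        (c.D0.card : ℤ) + c.D1.card + c.C0.support.card + c.C0'.support.card := by
      exact_mod_cast h1
    rw [c.card_D0, c.card_D1] at h4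
    linarith
  obtain ⟨z, hzmem, hzoo, hzord⟩ := exists_unramified_function_exact hγ V oo hooV c.val e (by
    have h0 : (0 : ℤ) ≤ g := Int.natCast_nonneg g
    linarith)
  refine ⟨{ D0 := c.D0, D1 := c.D1, C0 := c.C0, C0' := c.C0', u0 := c.u0, u0' := c.u0', z := z
            val := c.val
            card_D0 := c.card_D0, card_D1 := c.card_D1, disjoint_D0_D1 := c.disjoint_D0_D1
            oo_notMem_D0 := c.oo_notMem_D0, oo_notMem_D1 := c.oo_notMem_D1
            nonspecial_D0 := c.nonspecial_D0, nonspecial_D1 := c.nonspecial_D1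
            C0_nonneg := c.C0_nonneg, C0'_nonneg := c.C0'_nonneg
            C0_eq_zero := c.C0_eq_zero, C0'_eq_zero := c.C0'_eq_zero
            u0_ne_zero := c.u0_ne_zero, u0'_ne_zero := c.u0'_ne_zero
            ord_u0 := c.ord_u0, ord_u0' := c.ord_u0'
            z_mem := hzmem
            val_injOn := c.val_injOn
            ord_z := fun Q hQ => hzord Q (hVmem Q hQ) }, hc0, hc1, hcS, hzoo⟩

end Bundle

/-! ### The exact pole order of the cofactors -/

section Cofactor

variable {k κ : Type*} [Field k] [Field κ] [Algebra k κ]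
  {oo : Place k κ} {m m' : ℕ} {e : ℤ}

/-- exact pole order of a product of powers of `z - a`. -/
theorem ord_prod_pow (w : Place k κ) {z : κ} {e : ℤ} (he : 0 < e) (hz : w.ord z = -e)
    (val : Place k κ → k) (U : Finset (Place k κ)) (μ : Place k κ → ℕ) :
    w.ord (∏ Q ∈ U, (z - algebraMap k κ (val Q)) ^ μ Q) = -(e * ∑ Q ∈ U, (μ Q : ℤ)) := by
  classical
  have hz0 : z ≠ 0 := by
    rintro rfl
    rw [Place.ord_zero] at hz
    omega
  have h1 : ∀ Q : Place k κ, z - algebraMap k κ (val Q) ≠ 0 ∧
      w.ord (z - algebraMap k κ (val Q)) = -e := by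
    intro Q
    by_cases hc : algebraMap k κ (val Q) = 0
    · rw [hc, sub_zero]
      exact ⟨hz0, hz⟩
    · have hlt : w.ord z < w.ord (-algebraMap k κ (val Q)) := by
        rw [(Fermat.Agent.S24.isAddVal_ord w).map_neg hc, Fermat.Agent.S24.ord_algebraMap, hz]
        omega
      have h2 := (Fermat.Agent.S24.isAddVal_ord w).map_add_of_lt hz0 (neg_ne_zero.mpr hc) hlt
      rw [← sub_eq_add_neg] at h2
      refine ⟨?_, by rw [h2, hz]⟩
      intro h0
      rw [h0, Place.ord_zero] at h2
      omega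
  rw [ord_prod w U _ fun Q _ => pow_ne_zero _ (h1 Q).1, Finset.mul_sum, ← Finset.sum_neg_distrib]
  refine Finset.sum_congr rfl fun Q _ => ?_
  rw [Fermat.Agent.S24.ZP.ord_pow, (h1 Q).2]
  ring

/-- **The exact pole order of the cofactor of a residue solution**, when `z` has a pole of exact
order `e > 0` at `oo`. -/
theorem ord_cofactor_oo {Uvar Ufix : Finset (Place k κ)} {μ : Place k κ → ℕ} {z : κ}
    {val : Place k κ → k} {u u' : κ} (S : ResSolM oo Uvar Ufix μ z val u u')
    (he : 0 < e) (hz : oo.ord z = -e) :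
    oo.ord u' = -(e * ((∑ Q ∈ Ufix, (μ Q : ℤ)) + Uvar.card)) - oo.ord u := by
  have h1 := congrArg oo.ord S.prod
  rw [oo.ord_mul S.u_ne S.u'_ne, oo.ord_mul S.fix_ne_zero S.var_ne_zero, aeval_rootPolyMult,
    ord_prod_pow oo he hz val Ufix μ, aeval_rootPoly] at h1
  have h2 := ord_prod_pow oo he hz val Uvar (fun _ => 1)
  simp only [pow_one, Nat.cast_one, Finset.sum_const, nsmul_eq_mul, mul_one] at h2
  rw [h2] at h1
  linarith

variable [HasPrincipalDivisors k κ] [∀ v : Place k κ, v.FiniteResidue] [IsAlgClosed k]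
  (c : BaseCfg (k := k) (κ := κ) oo m m' e)

/-- `ord_oo u1' = -(e m - m)` exactly. -/
theorem ord_u1'_oo (he : 0 < e) (hz : oo.ord c.z = -e) :
    oo.ord (u1' c) = -(e * (m : ℤ) - m) := by
  rw [ord_cofactor_oo (resSolM1 c) he hz, sum_mu1 c, c.card_D1, ord_u0_oo]
  ring

/-- `ord_oo u2' = -(e m' - m')` exactly. -/
theorem ord_u2'_oo (he : 0 < e) (hz : oo.ord c.z = -e) :
    oo.ord (u2' c) = -(e * (m' : ℤ) - m') := by
  rw [ord_cofactor_oo (resSolM2 c) he hz, sum_mu2 c, c.card_D0, ord_u0'_oo]
  ring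

end Cofactor

/-! ### The `GeoSetting` form -/

section Geo

universe u v w z

variable {K : Type u} [Field K] {A : ValuationSubring K}
  {F : Type v} [Field F] [Algebra K F] {O : ValuationSubring F}
  {k : Type w} {κ : Type z} [Field k] [Field κ] [Algebra k κ]
  [HasPrincipalDivisors k κ] [∀ v : Place k κ, v.FiniteResidue] [IsAlgClosed k]

/-- **The special fibre base configuration of a `GeoSetting`, with `ord_oob z = -e`.** -/
theorem nonempty_baseCfg_special_exact (G : GeoSetting A O k κ) (S : Finset (Place k κ))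
    (m m' : ℕ) (hm : 6 * G.g ≤ m) (hm' : 4 * G.g ≤ m') (e : ℤ)
    (he : 2 * ((m : ℤ) + m') + 1 ≤ e) :
    ∃ c : BaseCfg (k := k) (κ := κ) G.oob m m' e,
      c.D0.card = G.g ∧ c.D1.card = G.g ∧ Disjoint c.D0 S ∧ Disjoint c.D1 S ∧
      (∀ Q ∈ S, c.C0 Q = 0 ∧ c.C0' Q = 0) ∧ G.oob.ord c.z = -e := by
  haveI := G.nonempty_placeκ
  have hg := genusFF_special G
  obtain ⟨c, h1, h2, h3, h4⟩ := nonempty_baseCfg_exact (exists_rr_le_special G) G.oob S m m'
    (by rw [hg]; exact hm) (by rw [hg]; exact hm') e he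
  exact ⟨c, by rw [c.card_D0, hg], by rw [c.card_D1, hg], h1, h2, h3, h4⟩

end Geo

end Fermat.Agent.S19x.Geo.BaseCfgExact
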