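import Fermat.Agent.S19x.Geo.ChartRep

/-!
# P-S19 block A, leaf (L4, part a'): `∃! E, IsRep E x` in unfolded form (helper92)

The export of `Geo/ChartRep.lean` in the exact shape of `Chart.ChartBase.IsRep` (note 1831):
`IsRep E x := 0 ≤ E ∧ spD sp E = D̄₀ ∧ ∃ h, Pic0.mk ⟨E - D₀, h⟩ = x`, with `D̄₀ = spD sp D₀`.
-/

set_option autoImplicit false
set_option linter.unusedSectionVars false
set_option linter.style.haveILetI false

noncomputable section

namespace Fermat.Agent.S19x.Geo.ChartRep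

open AlgebraicCurve IsLocalRing Module
open Fermat.Agent.Gateway.C0 Fermat.Agent.Gateway.Red Fermat.Agent.S27x.Spec.Inj
  Fermat.Agent.S27x.Spec.Disc Fermat.Agent.Lib.RiemannRoch

universe u v w z

variable {K : Type u} [Field K] {A : ValuationSubring K}
  {F : Type v} [Field F] [Algebra K F] {O : ValuationSubring F}
  {k : Type w} {κ : Type z} [Field k] [Field κ] [Algebra k κ]
  [HasPrincipalDivisors K F] [∀ v : Place K F, v.FiniteResidue]
  [HasPrincipalDivisors k κ] [∀ v : Place k κ, v.FiniteResidue]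
  (G : GeoSetting A O k κ)

/-- **(F1)(i) in the shape of `ChartBase.IsRep`**: every class `x` of `ker red` has a unique
representative `E` (effective, specialising to `D̄₀`, with `[E - D₀] = x`).  Here `D̄₀` is any
divisor with `spD sp D₀ = D̄₀`. -/
theorem existsUnique_isRep (red : Pic0 K F →+ Pic0 k κ)
    (hred : ∀ D : Divisor.degZero (K := K) (F := F),
      ∃ h : spD G.sp D.1 ∈ Divisor.degZero (K := k) (F := κ),
        red (Pic0.mk D) = Pic0.mk ⟨spD G.sp D.1, h⟩)
    {D₀ : Divisor K F} {D₀bar : Divisor k κ} (hD₀ : 0 ≤ D₀) (hdeg : Divisor.degree D₀ = G.g)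
    (hsp₀ : spD G.sp D₀ = D₀bar)
    (hns : finrank k (riemannRochSpace D₀bar) = 1)
    {x : Pic0 K F} (hx : red x = 0) :
    ∃! E : Divisor K F, 0 ≤ E ∧ spD G.sp E = D₀bar ∧
      ∃ h : E - D₀ ∈ Divisor.degZero (K := K) (F := F), Pic0.mk ⟨E - D₀, h⟩ = x := by
  subst hsp₀
  obtain ⟨E, ⟨hE, h, hmk⟩, huniq⟩ := existsUnique_effective_mk G red hred hD₀ hdeg hns hx
  refine ⟨E, ⟨hE, ?_, h, hmk⟩, fun E' hE' => huniq E' ⟨hE'.1, hE'.2.2⟩⟩
  subst hmk
  exact spDiv_eq_of_mk G red hred hD₀ hns hE h hx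

/-- the same for the divisor of a family of `g` points: `D₀ = ∑ i, single (pt0 i) 1`,
`D̄₀ = ∑ i, single (w i) 1` with `sp (pt0 i) = w i`. -/
theorem existsUnique_isRep_fam (red : Pic0 K F →+ Pic0 k κ)
    (hred : ∀ D : Divisor.degZero (K := K) (F := F),
      ∃ h : spD G.sp D.1 ∈ Divisor.degZero (K := k) (F := κ),
        red (Pic0.mk D) = Pic0.mk ⟨spD G.sp D.1, h⟩)
    (pt0 : Fin G.g → Place K F) (wb : Fin G.g → Place k κ) (hpt : ∀ i, G.sp (pt0 i) = wb i)
    (hns : finrank k (riemannRochSpace (∑ i, Finsupp.single (wb i) (1 : ℤ))) = 1)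
    {x : Pic0 K F} (hx : red x = 0) :
    ∃! E : Divisor K F, 0 ≤ E ∧ spD G.sp E = ∑ i, Finsupp.single (wb i) (1 : ℤ) ∧
      ∃ h : E - ∑ i, Finsupp.single (pt0 i) (1 : ℤ) ∈ Divisor.degZero (K := K) (F := F),
        Pic0.mk ⟨E - ∑ i, Finsupp.single (pt0 i) (1 : ℤ), h⟩ = x := by
  refine existsUnique_isRep G red hred ?_ ?_ ?_ hns hx
  · exact Finset.sum_nonneg fun i _ => Finsupp.single_nonneg.mpr zero_le_one
  · rw [map_sum]
    simp only [Divisor.degree_single, G.rrF.deg_one, Nat.cast_one, mul_one]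
    rw [Finset.sum_const, Finset.card_univ, Fintype.card_fin, nsmul_eq_mul, mul_one]
  · rw [map_sum]
    refine Finset.sum_congr rfl fun i _ => ?_
    rw [spD_single, hpt i]

end Fermat.Agent.S19x.Geo.ChartRep
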