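import Fermat.Agent.S19x.Geo.Chart
import Fermat.Agent.S19x.Geo.ChartRepU
import Fermat.Agent.S19x.Geo.Targets

/-
P-S19 block A, leaf (L4), final export: the target structure `ChartOut I ρ` of `Geo/Targets.lean`
constructed from a `Chart.ChartBase` (the base data `z`, `w`, `cb`, `pt0` of `Geo/Chart.lean`)
whose special divisor `∑ wᵢ` is non-special, with `z` and the points `pt0ᵢ` fixed by the inertia
data.  Uses `ChartRepU.existsUnique_isRep_fam` (existence and uniqueness of the effective
representative) and `Chart.lean` (values in the maximal ideal, injectivity, equivariance).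
-/

set_option autoImplicit false
set_option linter.unusedSectionVars false

noncomputable section

namespace Fermat.Agent.S19x.Geo.ChartOfBase

open AlgebraicCurve IsLocalRing Polynomial Module
open Fermat.Agent.Gateway.C0 Fermat.Agent.Gateway.Red Fermat.Agent.S27x.Spec.Inj
  Fermat.Agent.S27x.Spec.Disc Fermat.Agent.Lib.RiemannRoch

universe u v w z

section General

variable {K : Type u} {F : Type v} [Field K] [Field F] [Algebra K F]

/-- all places rational ⇒ every regular function has a value -/
theorem hasValues_of_deg_one (h : ∀ v : Place K F, v.deg = 1) : Chart.HasValues K F := by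
  intro Q f hf
  have h1 : Module.finrank K Q.ResidueField = 1 := h Q
  have h2 : Function.Surjective (algebraMap K Q.ResidueField) := by
    rw [Algebra.surjective_algebraMap_iff]
    exact (Subalgebra.bot_eq_top_of_finrank_eq_one h1).symm
  obtain ⟨c, hc⟩ := h2 (IsLocalRing.residue _ ⟨f, hf⟩)
  refine ⟨c, hasValue_iff.mpr ⟨hf, ?_⟩⟩
  rw [← hc]
  rfl

/-- the two encodings agree -/
theorem valAt_eq_valAt (z : F) (Q : Place K F) : Chart.valAt z Q = valAt Q z := rfl

/-- the two encodings agree -/
theorem rho_eq_divPoly (z : F) (W : Divisor K F) : Chart.rho z W = divPoly z W := rfl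

end General

variable {K : Type u} [Field K] {A : ValuationSubring K}
  {F : Type v} [Field F] [Algebra K F] {O : ValuationSubring F}
  {k : Type w} {κ : Type z} [Field k] [Field κ] [Algebra k κ]
  [HasPrincipalDivisors K F] [∀ v : Place K F, v.FiniteResidue]
  [HasPrincipalDivisors k κ] [∀ v : Place k κ, v.FiniteResidue]
  {G : GeoSetting A O k κ}

theorem hasValues (G : GeoSetting A O k κ) : Chart.HasValues K F :=
  hasValues_of_deg_one G.rrF.deg_one

/-- the specialisation of divisors is invariant under the inertia data -/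
theorem spDiv_smul (I : InertiaData G) {s : SemilinearAut K F} (hs : s ∈ I.S)
    (D : Divisor K F) : G.spDiv (s • D) = G.spDiv D := by
  rw [G.spDiv_apply, G.spDiv_apply, SemilinearAut.divisor_smul_def, ← Finsupp.mapDomain_comp]
  congr 1
  exact funext (I.sp_smul s hs)

/-- the reduction of classes is invariant under the inertia data -/
theorem red_smul (I : InertiaData G) (ρ : RedMap G) {s : SemilinearAut K F} (hs : s ∈ I.S)
    (x : Pic0 K F) : ρ.red (s • x) = ρ.red x := by
  obtain ⟨D, rfl⟩ := Pic0.mk_surjective x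
  rw [SemilinearAut.pic0_smul_mk, ρ.red_mk, ρ.red_mk]
  congr 1
  apply Subtype.ext
  rw [G.coe_spDegZero, G.coe_spDegZero, SemilinearAut.coe_degZeroSMulHom]
  exact spDiv_smul I hs _

/-- `RedMap` in the hypothesis shape of `ChartRep` -/
theorem hred (ρ : RedMap G) : ∀ D : Divisor.degZero (K := K) (F := F),
    ∃ h : spD G.sp D.1 ∈ Divisor.degZero (K := k) (F := κ),
      ρ.red (Pic0.mk D) = Pic0.mk ⟨spD G.sp D.1, h⟩ :=
  fun D => ⟨(G.spDegZero D).2, ρ.red_mk D⟩

section Build

variable (I : InertiaData G) (ρ : RedMap G) (B : Chart.ChartBase G.R G.sp G.g)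

/-- every class of the kernel of reduction has a unique representative near `D₀` -/
theorem existsUnique_isRep (hns : finrank k (riemannRochSpace B.D0bar) = 1) {x : Pic0 K F}
    (hx : ρ.red x = 0) : ∃! E, B.IsRep E x :=
  ChartRep.existsUnique_isRep_fam G ρ.red (hred ρ) B.pt0 B.w B.sp_pt0 hns hx

theorem degree_D0 : Divisor.degree B.D0 = G.g := by
  rw [Chart.ChartBase.D0, Chart.divOf, map_sum]
  simp only [Divisor.degree_single, G.rrF.deg_one, Nat.cast_one, mul_one]
  rw [Finset.sum_const, Finset.card_univ, Fintype.card_fin, nsmul_eq_mul, mul_one]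

theorem smul_D0 (hpt : ∀ i, I.IsFixedPlace (B.pt0 i)) {s : SemilinearAut K F} (hs : s ∈ I.S) :
    s • B.D0 = B.D0 := by
  rw [Chart.ChartBase.D0, Chart.divOf_smul]
  congr 1
  exact funext fun i => hpt i s hs

theorem hasValue_of_mem_D0 {Q : Place K F} (hQ : Q ∈ B.D0.support) :
    ∃ c : K, HasValue Q B.z c := by
  obtain ⟨i, rfl⟩ := Chart.exists_of_mem_support_divOf B.pt0 hQ
  exact hasValues G _ _ (B.hreg i _ (B.sp_pt0 i))

theorem rhoD0_fixed (hz : I.IsFixed B.z) (hpt : ∀ i, I.IsFixedPlace (B.pt0 i)) (l : ℕ) :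
    I.IsFixedInt ((divPoly B.z B.D0).coeff l) := by
  have hmem : (divPoly B.z B.D0).coeff l ∈ A := by
    rw [← rho_eq_divPoly, B.rho_D0]
    exact Chart.rhoFam_coeff_mem B.z B.pt0 A.toSubring
      (fun i => B.toDiscBase.valAt_mem G.spCompat (hasValues G) (B.sp_pt0 i)) l
  refine ⟨hmem, fun s hs => ?_⟩
  exact Chart.rho_coeff_fixed s (hz s hs) (Chart.divOf_nonneg _)
    (fun Q hQ => hasValue_of_mem_D0 B hQ) (smul_D0 I B hpt hs) l

/-- **The chart of a `ChartBase`** as the target structure `ChartOut`. -/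
def chartOut (hns : finrank k (riemannRochSpace B.D0bar) = 1) (hz : I.IsFixed B.z)
    (hpt : ∀ i, I.IsFixedPlace (B.pt0 i)) : ChartOut I ρ where
  z := B.z
  D := B.D0
  D_nonneg := Chart.divOf_nonneg _
  D_deg := degree_D0 B
  rhoD_fixed := rhoD0_fixed I B hz hpt
  E := B.rep
  E_nonneg := fun x hx => (B.isRep_rep (existsUnique_isRep ρ B hns hx).exists).1
  E_deg := fun x hx => by
    obtain ⟨h, -⟩ := (B.isRep_rep (existsUnique_isRep ρ B hns hx).exists).2.2
    have h0 : Divisor.degree (B.rep x - B.D0) = 0 := Divisor.mem_degZero.mp h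
    rw [map_sub, degree_D0 B] at h0
    linarith
  E_class := fun x hx => (B.isRep_rep (existsUnique_isRep ρ B hns hx).exists).2.2
  E_sp := fun x hx => by
    have h1 := (B.isRep_rep (existsUnique_isRep ρ B hns hx).exists).2.1
    exact h1.trans B.spD_D0.symm
  E_unique := fun E' hE' hsp' h => by
    have hred0 : ρ.red (Pic0.mk ⟨E' - B.D0, h⟩) = 0 := by
      rw [ρ.red_mk]
      have : G.spDegZero ⟨E' - B.D0, h⟩ = 0 := by
        apply Subtype.ext
        rw [G.coe_spDegZero]
        show G.spDiv (E' - B.D0) = 0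
        rw [map_sub, hsp', sub_self]
      rw [this]
      exact Pic0.mk_zero
    exact ⟨hred0, B.rep_eq (existsUnique_isRep ρ B hns hred0)
      ⟨hE', hsp'.trans B.spD_D0, h, rfl⟩⟩
  coord_mem := fun x hx l =>
    B.chart_mem G.spCompat (hasValues G) (existsUnique_isRep ρ B hns hx).exists l
  coord_inj := fun x y hx hy hc =>
    B.chart_injective G.spCompat (hasValues G) (existsUnique_isRep ρ B hns hx).exists
      (existsUnique_isRep ρ B hns hy).exists (funext fun l => by
        show (Chart.rho B.z (B.rep x)).coeff l - (Chart.rho B.z B.D0).coeff l =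
          (Chart.rho B.z (B.rep y)).coeff l - (Chart.rho B.z B.D0).coeff l
        rw [rho_eq_divPoly, rho_eq_divPoly, rho_eq_divPoly, hc l])
  coord_smul := fun s hs x hx l => by
    have hsx : ρ.red (s • x) = 0 := by rw [red_smul I ρ hs, hx]
    have h1 := B.chart_smul (hasValues G) s (hz s hs) (I.sp_smul s hs) (smul_D0 I B hpt hs)
      (existsUnique_isRep ρ B hns hx).exists (existsUnique_isRep ρ B hns hsx) l
    have h2 : SemilinearAut.baseAut s ((Chart.rho B.z B.D0).coeff l) =
        (Chart.rho B.z B.D0).coeff l :=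
      Chart.rho_coeff_fixed s (hz s hs) (Chart.divOf_nonneg _)
        (fun Q hQ => hasValue_of_mem_D0 B hQ) (smul_D0 I B hpt hs) l
    have h3 : (Chart.rho B.z (B.rep (s • x))).coeff l - (Chart.rho B.z B.D0).coeff l =
        SemilinearAut.baseAut s
          ((Chart.rho B.z (B.rep x)).coeff l - (Chart.rho B.z B.D0).coeff l) := h1
    rw [map_sub, h2] at h3
    exact sub_left_injective h3

@[simp] theorem chartOut_z (hns : finrank k (riemannRochSpace B.D0bar) = 1) (hz : I.IsFixed B.z)
    (hpt : ∀ i, I.IsFixedPlace (B.pt0 i)) : (chartOut I ρ B hns hz hpt).z = B.z := rfl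

@[simp] theorem chartOut_D (hns : finrank k (riemannRochSpace B.D0bar) = 1) (hz : I.IsFixed B.z)
    (hpt : ∀ i, I.IsFixedPlace (B.pt0 i)) : (chartOut I ρ B hns hz hpt).D = B.D0 := rfl

@[simp] theorem chartOut_E (hns : finrank k (riemannRochSpace B.D0bar) = 1) (hz : I.IsFixed B.z)
    (hpt : ∀ i, I.IsFixedPlace (B.pt0 i)) : (chartOut I ρ B hns hz hpt).E = B.rep := rfl

/-- **(L4) final export**: `Nonempty (ChartOut I ρ)` with prescribed `z` and `D`. -/
theorem exists_chartOut (hns : finrank k (riemannRochSpace B.D0bar) = 1) (hz : I.IsFixed B.z)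
    (hpt : ∀ i, I.IsFixedPlace (B.pt0 i)) :
    ∃ C : ChartOut I ρ, C.z = B.z ∧ C.D = Chart.divOf B.pt0 :=
  ⟨chartOut I ρ B hns hz hpt, rfl, rfl⟩

end Build

end Fermat.Agent.S19x.Geo.ChartOfBase
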