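/-
P-S19, BLOCK A (architect helper22): the PACKAGE consumed by the sum leaf (L8a) and produced by
the configuration leaves (L3 lift + L4 chart + L6 residual): two charts `C0` (at `D0`), `C1`
(at `D1`) for the SAME coordinate function, two fixed effective divisors `Cf`, `Cf'` and two
Residual-Theorem outputs
  `R1` : `W0 = Cf + 3 D0`, residual `D1`   (so `Cf + 3 D0 + D1 ~ m oo`),
  `R2` : `W0 = Cf' + D1`, residual `D0`    (so `Cf' + D1 + D0 ~ m' oo`).
`Geo/Sum3` (or `Geo/SumOfResidual`) proves `ConfigPackage I ρ → AbsSumChart I ρ`.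
-/
import Fermat.Agent.S19x.Geo.Targets

set_option autoImplicit false
set_option linter.unusedSectionVars false
set_option linter.unusedVariables false

noncomputable section

namespace Fermat.Agent.S19x.Geo

open AlgebraicCurve Polynomial
open Fermat.Agent.Gateway.Red

universe u v w z

variable {K : Type u} [Field K] {A : ValuationSubring K}
  {F : Type v} [Field F] [Algebra K F] {O : ValuationSubring F}
  {k : Type w} {κ : Type z} [Field k] [Field κ] [Algebra k κ]
  {G : GeoSetting A O k κ}

/-- **The configuration package** (note 1795, sections 1, 3, 4). -/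
structure ConfigPackage (I : InertiaData G) (ρ : RedMap G) where
  /-- the chart at `D0` (its coordinates are THE coordinates `X_0`) -/
  C0 : ChartOut I ρ
  /-- the auxiliary chart at `D1` -/
  C1 : ChartOut I ρ
  /-- the two charts use the same coordinate function -/
  z_eq : C1.z = C0.z
  /-- the fixed part of the first configuration -/
  Cf : Divisor K F
  Cf_nonneg : 0 ≤ Cf
  rhoCf_fixed : ∀ l : ℕ, I.IsFixedInt ((divPoly C0.z Cf).coeff l)
  /-- the fixed part of the second configuration -/
  Cf' : Divisor K F
  Cf'_nonneg : 0 ≤ Cf'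
  rhoCf'_fixed : ∀ l : ℕ, I.IsFixedInt ((divPoly C0.z Cf').coeff l)
  /-- the first Residual-Theorem output: `W ↦` the residual of `W` near `Cf + 3 D0`, near `D1` -/
  R1 : ResidualOut I
  R1_z : R1.z = C0.z
  R1_W0 : R1.W0 = Cf + 3 • C0.D
  R1_Dc : R1.Dc = C1.D
  /-- the second Residual-Theorem output: `W' ↦` the residual of `W'` near `Cf' + D1`, near `D0` -/
  R2 : ResidualOut I
  R2_z : R2.z = C0.z
  R2_W0 : R2.W0 = Cf' + C1.D
  R2_Dc : R2.Dc = C0.D

end Fermat.Agent.S19x.Geo
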