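import Fermat.Agent.S19x.Geo.LiftCfg
import Fermat.Agent.S19x.Geo.ConfigPackage
import Fermat.Agent.S19x.Geo.ChartOfBase
import Fermat.Agent.S19x.Geo.BaseCfgExact

/-!
# P-S19, BLOCK A: the configuration package from the leaves (helper97)

From a lifted configuration `L : LiftCfg.LiftedCfg c` (the `S`-fixed generic fibre data lifting
the special fibre base configuration `c`) we extract

* the base divisors `D0 L`, `D1 L` (effective, degree `g`, pointwise `S`-fixed), the fixed parts
  `W1 L = C0 + 3 D0`, `W2 L = C0' + D1` with their bookkeeping (`S`-stable, specialisation,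
  degree, `W1 + D1 ~ m oo`, `W2 + D0 ~ m' oo` via the base functions `u0`, `u0'`);
* `divPoly_coeff_isFixedInt` : the polynomial `ρ_W` of an `S`-stable effective divisor `W`
  supported off the disc of `oo` has coefficients in `A^S`;
* the two `Chart.ChartBase` views `chartBase0 L`, `chartBase1 L` (for helper84's chart builder);
* `nonempty_configPackage` : the `ConfigPackage` of `Geo/ConfigPackage.lean` from the two chart
  outputs and the two Residual-Theorem outputs at the data of `L`.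
-/

set_option autoImplicit false
set_option linter.unusedSectionVars false
set_option linter.style.haveILetI false

noncomputable section

namespace Fermat.Agent.S19x.Geo.ConfigOfLeaves

open AlgebraicCurve IsLocalRing Module Polynomial
open Fermat.Agent.Gateway.C0 Fermat.Agent.Gateway.Red Fermat.Agent.S27x.Spec.Inj
  Fermat.Agent.S27x.Spec.Disc Fermat.Agent.Lib.RiemannRoch
open Fermat.Agent.S27x.Lift.NiceRep (finDiv)
open Fermat.Agent.S19x.Geo.LiftCfg Fermat.Agent.S19x.Geo.NiceRepL

universe u v w z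

variable {K : Type u} [Field K] {A : ValuationSubring K} {F : Type v} [Field F] [Algebra K F]
  {O : ValuationSubring F} {k : Type w} {κ : Type z} [Field k] [Field κ] [Algebra k κ]
  [HasPrincipalDivisors K F] [∀ v : Place K F, v.FiniteResidue] [HasPrincipalDivisors k κ]
  [∀ v : Place k κ, v.FiniteResidue]
  {G : GeoSetting A O k κ} {I : InertiaData G}

/-! ### The two encodings of effective divisors agree -/

theorem valAt_eq_chart (z : F) (Q : Place K F) : Geo.valAt Q z = Chart.valAt z Q := rfl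

theorem divPoly_eq_rho (z : F) (W : Divisor K F) : divPoly z W = Chart.rho z W := rfl

/-! ### Coefficients of `ρ_W` for `S`-stable `W` -/

/-- **`ρ_W` has coefficients in `A^S`** for an `S`-stable effective divisor `W` supported off the
residue disc of `oo`, and an `S`-fixed `z ∈ O` with poles only at `oo`. -/
theorem divPoly_coeff_isFixedInt (hv : Chart.HasValues K F) {zf : F} (hz : zf ∈ O) {e : ℤ}
    (hzm : zf ∈ riemannRochSpace (Finsupp.single G.oo e)) (hzfix : I.IsFixed zf)
    {W : Divisor K F} (hW : 0 ≤ W) (hWS : ∀ s ∈ I.S, s • W = W)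
    (hWoo : ∀ Q ∈ W.support, G.sp Q ≠ G.oob) (l : ℕ) :
    I.IsFixedInt ((divPoly zf W).coeff l) := by
  have hval : ∀ Q ∈ W.support, ∃ c : K, HasValue Q zf c := fun Q hQ =>
    hv Q zf (regularOn_of_mem_rrs_single hzm (hWoo Q hQ) Q rfl)
  have hmem : (divPoly zf W).coeff l ∈ A := by
    rw [divPoly_eq_rho]
    refine Chart.rho_coeff_mem zf W A.toSubring (fun Q hQ => ?_) l
    obtain ⟨a, ha⟩ := hval Q hQ
    rw [Chart.valAt_eq ha]
    exact mem_of_hasValue G.spCompat hz (regularOn_of_mem_rrs_single hzm (hWoo Q hQ)) rfl ha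
  refine ⟨hmem, fun s hs => ?_⟩
  show SemilinearAut.baseAut s ((divPoly zf W).coeff l) = (divPoly zf W).coeff l
  rw [divPoly_eq_rho]
  exact Chart.rho_coeff_fixed s (hzfix s hs) hW hval (hWS s hs) l

/-- the support of an effective divisor specialises into the support of its specialisation -/
theorem sp_mem_support_spDiv {W : Divisor K F} (hW : 0 ≤ W) {Q : Place K F}
    (hQ : Q ∈ W.support) : G.sp Q ∈ (G.spDiv W).support := by
  classical
  rw [Finsupp.mem_support_iff]
  have h1 : 0 < W Q := lt_of_le_of_ne (hW Q) (Ne.symm (Finsupp.mem_support_iff.mp hQ))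
  have h2 : G.spDiv W (G.sp Q) = ∑ P ∈ W.support.filter (fun P => G.sp P = G.sp Q), W P :=
    spD_apply_eq_sum G.sp W (G.sp Q)
  rw [h2]
  have h3 : W Q ≤ ∑ P ∈ W.support.filter (fun P => G.sp P = G.sp Q), W P :=
    Finset.single_le_sum (f := fun P => W P) (fun P _ => hW P)
      (Finset.mem_filter.mpr ⟨hQ, rfl⟩)
  omega

/-! ### The divisors of a lifted configuration -/

section Views

variable [Nonempty (Place k κ)] [IsAlgClosed k] {m m' : ℕ} {e : ℤ} {c : BaseCfg G.oob m m' e}
  (L : LiftedCfg (I := I) c)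

/-- the base divisor of the chart -/
def D0 : Divisor K F := liftDiv L.lift c.D0

/-- the auxiliary base divisor -/
def D1 : Divisor K F := liftDiv L.lift c.D1

/-- the fixed part of the first configuration -/
def W1 : Divisor K F := L.C0 + 3 • D0 L

/-- the fixed part of the second configuration -/
def W2 : Divisor K F := L.C0' + D1 L

theorem D0_nonneg : 0 ≤ D0 L := liftDiv_nonneg _ _

theorem D1_nonneg : 0 ≤ D1 L := liftDiv_nonneg _ _

theorem degree_D0 : Divisor.degree (D0 L) = G.g := by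
  rw [D0, degree_liftDiv G, c.card_D0, BaseCfgGeo.genusFF_special G]

theorem degree_D1 : Divisor.degree (D1 L) = G.g := by
  rw [D1, degree_liftDiv G, c.card_D1, BaseCfgGeo.genusFF_special G]

theorem smul_D0 : ∀ s ∈ I.S, s • D0 L = D0 L := fun s hs =>
  smul_liftDiv s fun Q hQ => L.lift_fixed Q (Or.inl hQ) s hs

theorem smul_D1 : ∀ s ∈ I.S, s • D1 L = D1 L := fun s hs =>
  smul_liftDiv s fun Q hQ => L.lift_fixed Q (Or.inr hQ) s hs

theorem spDiv_D0 : G.spDiv (D0 L) = finDiv c.D0 :=
  spDiv_liftDiv fun Q hQ => L.sp_lift Q (Or.inl hQ)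

theorem spDiv_D1 : G.spDiv (D1 L) = finDiv c.D1 :=
  spDiv_liftDiv fun Q hQ => L.sp_lift Q (Or.inr hQ)

theorem W1_nonneg : 0 ≤ W1 L :=
  add_nonneg L.C0_nonneg (smul_nonneg (by norm_num) (D0_nonneg L))

theorem W2_nonneg : 0 ≤ W2 L := add_nonneg L.C0'_nonneg (D1_nonneg L)

theorem smul_W1 : ∀ s ∈ I.S, s • W1 L = W1 L := fun s hs => by
  rw [W1, smul_add, smul_comm, L.C0_fixed s hs, smul_D0 L s hs]

theorem smul_W2 : ∀ s ∈ I.S, s • W2 L = W2 L := fun s hs => by
  rw [W2, smul_add, L.C0'_fixed s hs, smul_D1 L s hs]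

theorem spDiv_W1 : G.spDiv (W1 L) = c.C0 + 3 • finDiv c.D0 := by
  rw [W1, map_add, map_nsmul, L.sp_C0, spDiv_D0]

theorem spDiv_W2 : G.spDiv (W2 L) = c.C0' + finDiv c.D1 := by
  rw [W2, map_add, L.sp_C0', spDiv_D1]

theorem u0_ne_zero : L.u0 ≠ 0 := by
  intro h
  have h1 := L.res_u0
  have h2 : (⟨L.u0, L.hu0⟩ : O) = 0 := Subtype.ext h
  rw [h2, map_zero] at h1
  exact c.u0_ne_zero h1.symm

theorem u0'_ne_zero : L.u0' ≠ 0 := by
  intro h
  have h1 := L.res_u0'
  have h2 : (⟨L.u0', L.hu0'⟩ : O) = 0 := Subtype.ext h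
  rw [h2, map_zero] at h1
  exact c.u0'_ne_zero h1.symm

theorem single_oo_apply (n : ℤ) (v : Place K F) :
    (Finsupp.single G.oo n : Divisor K F) v
      = n * (Finsupp.single G.oo (1 : ℤ) : Divisor K F) v := by
  classical
  rw [Finsupp.single_apply, Finsupp.single_apply]
  split_ifs <;> simp

/-- `W1 + D1 - m oo = div u0`. -/
theorem W1_apply (v : Place K F) : (W1 L + D1 L - G.mulOo m) v = v.ord L.u0 := by
  rw [L.ord_u0 v, GeoSetting.mulOo, W1]
  simp only [Finsupp.sub_apply, Finsupp.add_apply, Finsupp.smul_apply]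
  rw [single_oo_apply]
  rfl

/-- `W2 + D0 - m' oo = div u0'`. -/
theorem W2_apply (v : Place K F) : (W2 L + D0 L - G.mulOo m') v = v.ord L.u0' := by
  rw [L.ord_u0' v, GeoSetting.mulOo, W2]
  simp only [Finsupp.sub_apply, Finsupp.add_apply]
  rw [single_oo_apply]
  rfl

theorem isPrincipal_W1 : Divisor.IsPrincipal (W1 L + D1 L - G.mulOo m) :=
  ⟨L.u0, u0_ne_zero L, W1_apply L⟩

theorem isPrincipal_W2 : Divisor.IsPrincipal (W2 L + D0 L - G.mulOo m') :=
  ⟨L.u0', u0'_ne_zero L, W2_apply L⟩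

theorem degree_eq_zero_of_isPrincipal {D : Divisor K F} (h : Divisor.IsPrincipal D) :
    Divisor.degree D = 0 := by
  obtain ⟨f, hf, hD⟩ := h
  obtain ⟨E, hE, hdeg⟩ := HasPrincipalDivisors.exists_divisor (K := K) f hf
  have : D = E := Finsupp.ext fun v => by rw [hD v, hE v]
  rw [this, hdeg]

theorem degree_mulOo (n : ℕ) : Divisor.degree (G.mulOo n) = n := by
  rw [GeoSetting.mulOo, Divisor.degree_single, G.rrF.deg_one]
  simp

theorem degree_W1 : Divisor.degree (W1 L) = (m : ℤ) - G.g := by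
  have h := degree_eq_zero_of_isPrincipal (isPrincipal_W1 L)
  rw [map_sub, map_add, degree_mulOo, degree_D1 L] at h
  omega

theorem degree_W2 : Divisor.degree (W2 L) = (m' : ℤ) - G.g := by
  have h := degree_eq_zero_of_isPrincipal (isPrincipal_W2 L)
  rw [map_sub, map_add, degree_mulOo, degree_D0 L] at h
  omega

/-! ### Supports lie off the disc of `oo` -/

theorem sp_ne_oob_of_mem_support_liftDiv {U : Finset (Place k κ)}
    (hU : ∀ Q ∈ U, Q ∈ c.D0 ∨ Q ∈ c.D1) {P : Place K F}
    (hP : P ∈ (liftDiv L.lift U).support) : G.sp P ≠ G.oob := by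
  classical
  have h1 : (liftDiv L.lift U).support ⊆ U.biUnion fun Q => {L.lift Q} := by
    unfold liftDiv
    refine (Finsupp.support_finsetSum).trans ?_
    refine Finset.biUnion_mono fun Q _ => ?_
    exact Finsupp.support_single_subset
  obtain ⟨Q, hQ, hPQ⟩ := Finset.mem_biUnion.mp (h1 hP)
  rw [Finset.mem_singleton] at hPQ
  rw [hPQ, L.sp_lift Q (hU Q hQ)]
  rintro rfl
  rcases hU _ hQ with h | h
  · exact c.oo_notMem_D0 h
  · exact c.oo_notMem_D1 h

theorem sp_ne_oob_of_mem_support_D0 {P : Place K F} (hP : P ∈ (D0 L).support) :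
    G.sp P ≠ G.oob :=
  sp_ne_oob_of_mem_support_liftDiv L (fun _ h => Or.inl h) hP

theorem sp_ne_oob_of_mem_support_D1 {P : Place K F} (hP : P ∈ (D1 L).support) :
    G.sp P ≠ G.oob :=
  sp_ne_oob_of_mem_support_liftDiv L (fun _ h => Or.inr h) hP

theorem sp_ne_oob_of_mem_support_C0 {P : Place K F} (hP : P ∈ L.C0.support) :
    G.sp P ≠ G.oob := by
  have h1 := sp_mem_support_spDiv (G := G) L.C0_nonneg hP
  rw [L.sp_C0, Finsupp.mem_support_iff] at h1
  intro h
  exact h1 (by rw [h]; exact c.C0_eq_zero _ (Or.inr (Or.inr rfl)))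

theorem sp_ne_oob_of_mem_support_C0' {P : Place K F} (hP : P ∈ L.C0'.support) :
    G.sp P ≠ G.oob := by
  have h1 := sp_mem_support_spDiv (G := G) L.C0'_nonneg hP
  rw [L.sp_C0', Finsupp.mem_support_iff] at h1
  intro h
  exact h1 (by rw [h]; exact c.C0'_eq_zero _ (Or.inr (Or.inr rfl)))

/-! ### The polynomials of the fixed divisors have coefficients in `A^S` -/

theorem rho_C0_fixed (l : ℕ) :
    I.IsFixedInt ((divPoly L.z L.C0).coeff l) :=
  divPoly_coeff_isFixedInt (ChartOfBase.hasValues G) L.hz L.z_mem L.z_fixed L.C0_nonneg L.C0_fixed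
    (fun _ hQ => sp_ne_oob_of_mem_support_C0 L hQ) l

theorem rho_C0'_fixed (l : ℕ) :
    I.IsFixedInt ((divPoly L.z L.C0').coeff l) :=
  divPoly_coeff_isFixedInt (ChartOfBase.hasValues G) L.hz L.z_mem L.z_fixed L.C0'_nonneg L.C0'_fixed
    (fun _ hQ => sp_ne_oob_of_mem_support_C0' L hQ) l

theorem rho_D0_fixed (l : ℕ) :
    I.IsFixedInt ((divPoly L.z (D0 L)).coeff l) :=
  divPoly_coeff_isFixedInt (ChartOfBase.hasValues G) L.hz L.z_mem L.z_fixed (D0_nonneg L) (smul_D0 L)
    (fun _ hQ => sp_ne_oob_of_mem_support_D0 L hQ) l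

theorem rho_D1_fixed (l : ℕ) :
    I.IsFixedInt ((divPoly L.z (D1 L)).coeff l) :=
  divPoly_coeff_isFixedInt (ChartOfBase.hasValues G) L.hz L.z_mem L.z_fixed (D1_nonneg L) (smul_D1 L)
    (fun _ hQ => sp_ne_oob_of_mem_support_D1 L hQ) l

end Views

/-! ### The `ChartBase` views -/

section ChartViews

variable [Nonempty (Place k κ)] [IsAlgClosed k] {m m' : ℕ} {e : ℤ} {c : BaseCfg G.oob m m' e}
  (L : LiftedCfg (I := I) c)

/-- the enumeration of a set of `g` points -/
def enum (U : Finset (Place k κ)) (hcard : U.card = G.g) (i : Fin G.g) : Place k κ :=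
  ((U.equivFinOfCardEq hcard).symm i : Place k κ)

theorem enum_mem (U : Finset (Place k κ)) (hcard : U.card = G.g) (i : Fin G.g) :
    enum U hcard i ∈ U := ((U.equivFinOfCardEq hcard).symm i).2

theorem enum_injective (U : Finset (Place k κ)) (hcard : U.card = G.g) :
    Function.Injective (enum (G := G) U hcard) := fun _ _ h =>
  (U.equivFinOfCardEq hcard).symm.injective (Subtype.ext h)

theorem sum_enum {M : Type*} [AddCommMonoid M] (U : Finset (Place k κ)) (hcard : U.card = G.g)
    (f : Place k κ → M) : ∑ i : Fin G.g, f (enum U hcard i) = ∑ Q ∈ U, f Q := by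
  rw [← Finset.sum_coe_sort U f]
  exact Fintype.sum_equiv (U.equivFinOfCardEq hcard).symm _ _ fun _ => rfl

/-- **The chart base data** at a set `U` of `g` points of `D0 ∪ D1`: the coordinate function `z`
of the configuration, the points of `U`, their `S`-fixed lifts. -/
def chartBaseOf (U : Finset (Place k κ)) (hU : ∀ Q ∈ U, Q ∈ c.D0 ∨ Q ∈ c.D1)
    (hcard : U.card = G.g) : Chart.ChartBase G.R G.sp G.g where
  z := L.z
  hz := L.hz
  w := enum U hcard
  cb := fun i => c.val (enum U hcard i)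
  cb_inj := fun i j h => by
    have hi := hU _ (enum_mem (G := G) U hcard i)
    have hj := hU _ (enum_mem (G := G) U hcard j)
    exact enum_injective U hcard
      (c.val_injOn (by rcases hi with h | h <;> simp [h]) (by rcases hj with h | h <;> simp [h]) h)
  hunif := fun i => by
    rw [L.res_z]
    have hi := hU _ (enum_mem (G := G) U hcard i)
    exact c.ord_z _ (by tauto)
  hreg := fun i => by
    refine regularOn_of_mem_rrs_single L.z_mem ?_
    have hi := hU _ (enum_mem (G := G) U hcard i)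
    intro h
    rw [h] at hi
    rcases hi with h | h
    · exact c.oo_notMem_D0 h
    · exact c.oo_notMem_D1 h
  pt0 := fun i => L.lift (enum U hcard i)
  sp_pt0 := fun i => L.sp_lift _ (hU _ (enum_mem (G := G) U hcard i))

variable (U : Finset (Place k κ)) (hU : ∀ Q ∈ U, Q ∈ c.D0 ∨ Q ∈ c.D1) (hcard : U.card = G.g)

theorem chartBaseOf_z : (chartBaseOf L U hU hcard).z = L.z := rfl

theorem divOf_pt0_chartBaseOf :
    Chart.divOf (chartBaseOf L U hU hcard).pt0 = liftDiv L.lift U :=
  sum_enum U hcard fun Q => (Finsupp.single (L.lift Q) 1 : Divisor K F)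

theorem divOf_w_chartBaseOf : Chart.divOf (chartBaseOf L U hU hcard).w = finDiv U :=
  sum_enum U hcard fun Q => (Finsupp.single Q 1 : Divisor k κ)

theorem pt0_fixed_chartBaseOf (i : Fin G.g) :
    I.IsFixedPlace ((chartBaseOf L U hU hcard).pt0 i) :=
  L.lift_fixed _ (hU _ (enum_mem (G := G) U hcard i))

/-- the chart base data at `D0` -/
def chartBase0 : Chart.ChartBase G.R G.sp G.g :=
  chartBaseOf L c.D0 (fun _ h => Or.inl h) (by rw [c.card_D0, BaseCfgGeo.genusFF_special G])

/-- the chart base data at `D1` -/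
def chartBase1 : Chart.ChartBase G.R G.sp G.g :=
  chartBaseOf L c.D1 (fun _ h => Or.inr h) (by rw [c.card_D1, BaseCfgGeo.genusFF_special G])

theorem divOf_pt0_chartBase0 :
    Chart.divOf (chartBase0 L).pt0 = D0 L := divOf_pt0_chartBaseOf L _ _ _

theorem divOf_pt0_chartBase1 :
    Chart.divOf (chartBase1 L).pt0 = D1 L := divOf_pt0_chartBaseOf L _ _ _

theorem nonspecial_chartBase0 :
    finrank k (riemannRochSpace (Chart.divOf (chartBase0 L).w)) = 1 := by
  rw [chartBase0, divOf_w_chartBaseOf]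
  exact c.nonspecial_D0

theorem nonspecial_chartBase1 :
    finrank k (riemannRochSpace (Chart.divOf (chartBase1 L).w)) = 1 := by
  rw [chartBase1, divOf_w_chartBaseOf]
  exact c.nonspecial_D1

end ChartViews

/-! ### The configuration package -/

section Package

variable [Nonempty (Place k κ)] [IsAlgClosed k] {m m' : ℕ} {e : ℤ} {c : BaseCfg G.oob m m' e}
  (L : LiftedCfg (I := I) c)

/-- the chart output at `D0` (helper84's builder applied to `chartBase0`) -/
theorem exists_chartOut0 (ρ : RedMap G) : ∃ C : ChartOut I ρ, C.z = L.z ∧ C.D = D0 L := by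
  obtain ⟨C, hz, hD⟩ := ChartOfBase.exists_chartOut I ρ (chartBase0 L) (nonspecial_chartBase0 L)
    L.z_fixed (fun i => pt0_fixed_chartBaseOf L _ _ _ i)
  exact ⟨C, hz, hD.trans (divOf_pt0_chartBase0 L)⟩

/-- the chart output at `D1` (helper84's builder applied to `chartBase1`) -/
theorem exists_chartOut1 (ρ : RedMap G) : ∃ C : ChartOut I ρ, C.z = L.z ∧ C.D = D1 L := by
  obtain ⟨C, hz, hD⟩ := ChartOfBase.exists_chartOut I ρ (chartBase1 L) (nonspecial_chartBase1 L)
    L.z_fixed (fun i => pt0_fixed_chartBaseOf L _ _ _ i)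
  exact ⟨C, hz, hD.trans (divOf_pt0_chartBase1 L)⟩

/-- **The configuration package from the leaves**, general form: the two chart outputs (at `D0`,
`D1`) and the two Residual-Theorem outputs (at `(C0 + 3 D0, D1)`, `(C0' + D1, D0)`) for the data
of the lifted configuration `L` assemble to the `ConfigPackage` consumed by the sum leaf. -/
theorem nonempty_configPackage_of_outputs (ρ : RedMap G)
    (hC0 : ∃ C : ChartOut I ρ, C.z = L.z ∧ C.D = D0 L)
    (hC1 : ∃ C : ChartOut I ρ, C.z = L.z ∧ C.D = D1 L)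
    (hR1 : ∃ R : ResidualOut I, R.z = L.z ∧ R.W0 = W1 L ∧ R.Dc = D1 L)
    (hR2 : ∃ R : ResidualOut I, R.z = L.z ∧ R.W0 = W2 L ∧ R.Dc = D0 L) :
    Nonempty (ConfigPackage I ρ) := by
  obtain ⟨C0, hC0z, hC0D⟩ := hC0
  obtain ⟨C1, hC1z, hC1D⟩ := hC1
  obtain ⟨R1, hR1z, hR1W, hR1D⟩ := hR1
  obtain ⟨R2, hR2z, hR2W, hR2D⟩ := hR2
  exact ⟨{
    C0 := C0
    C1 := C1
    z_eq := by rw [hC1z, hC0z]
    Cf := L.C0
    Cf_nonneg := L.C0_nonneg
    rhoCf_fixed := fun l => by rw [hC0z]; exact rho_C0_fixed L l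
    Cf' := L.C0'
    Cf'_nonneg := L.C0'_nonneg
    rhoCf'_fixed := fun l => by rw [hC0z]; exact rho_C0'_fixed L l
    R1 := R1
    R1_z := by rw [hR1z, hC0z]
    R1_W0 := by rw [hR1W, hC0D]; rfl
    R1_Dc := by rw [hR1D, hC1D]
    R2 := R2
    R2_z := by rw [hR2z, hC0z]
    R2_W0 := by rw [hR2W, hC1D]; rfl
    R2_Dc := by rw [hR2D, hC0D] }⟩

/-- **The configuration package from the leaves**: only the two Residual-Theorem outputs at the
data of `L` are left as hypotheses (the charts come from helper84's builder). -/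
theorem nonempty_configPackage (ρ : RedMap G)
    (hR1 : ∃ R : ResidualOut I, R.z = L.z ∧ R.W0 = W1 L ∧ R.Dc = D1 L)
    (hR2 : ∃ R : ResidualOut I, R.z = L.z ∧ R.W0 = W2 L ∧ R.Dc = D0 L) :
    Nonempty (ConfigPackage I ρ) :=
  nonempty_configPackage_of_outputs L ρ (exists_chartOut0 L ρ) (exists_chartOut1 L ρ) hR1 hR2

end Package

/-! ### Top level: the package from the lift lemma and a Residual-Theorem builder -/

section Top

variable [IsAlgClosed k]

/-- What the Residual leaf (L6) has to provide: for every lifted configuration, the two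
Residual-Theorem outputs at its data. -/
def ResidualBuilder (G : GeoSetting A O k κ) (I : InertiaData G) : Prop :=
  haveI := G.nonempty_placeκ
  ∀ (m m' : ℕ) (e : ℤ) (c : BaseCfg G.oob m m' e) (L : LiftedCfg (I := I) c),
    6 * G.g ≤ m → 4 * G.g ≤ m' → 2 * ((m : ℤ) + m') + 1 ≤ e → G.oob.ord c.z = -e →
    (∃ R : ResidualOut I, R.z = L.z ∧ R.m = m ∧ R.W0 = W1 L ∧ R.Dc = D1 L) ∧
    (∃ R : ResidualOut I, R.z = L.z ∧ R.m = m' ∧ R.W0 = W2 L ∧ R.Dc = D0 L)

/-- **BLOCK A, configuration side**: the lift lemma (L2-b), the fixed residues (FixData) and the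
Residual-Theorem builder (L6) give the configuration package. -/
theorem nonempty_configPackage_of_leaves (hL : LiftLemma G I) (hπ : ResidueFixed G I)
    (hres : ResidualBuilder G I) (ρ : RedMap G) : Nonempty (ConfigPackage I ρ) := by
  haveI := G.nonempty_placeκ
  obtain ⟨c, -, -, -, -, -, hordz⟩ := BaseCfgExact.nonempty_baseCfg_special_exact G ∅
    (6 * G.g) (4 * G.g) le_rfl le_rfl (2 * (((6 * G.g : ℕ) : ℤ) + ((4 * G.g : ℕ) : ℤ)) + 1) le_rfl
  have he : 2 * (G.g : ℤ) - 1 ≤ 2 * (((6 * G.g : ℕ) : ℤ) + ((4 * G.g : ℕ) : ℤ)) + 1 := by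
    push_cast
    have : (0 : ℤ) ≤ G.g := Int.natCast_nonneg _
    omega
  obtain ⟨L⟩ := nonempty_liftedCfg (I := I) hL hπ c (BaseCfgGeo.genusFF_special G) le_rfl le_rfl he
  obtain ⟨⟨R1, h1z, -, h1W, h1D⟩, ⟨R2, h2z, -, h2W, h2D⟩⟩ :=
    hres _ _ _ c L le_rfl le_rfl le_rfl hordz
  exact nonempty_configPackage L ρ ⟨R1, h1z, h1W, h1D⟩ ⟨R2, h2z, h2W, h2D⟩

end Top

end Fermat.Agent.S19x.Geo.ConfigOfLeaves
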