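import Fermat.Agent.S27x.Spec.Disc

/-!
# P-S19 block A, leaf (L2-a): the lattices `Λ(D) = L(D) ∩ O` (helper92)

Abstract setting = the variables of `S27x/Spec/Disc.lean`: a reduction `R : RedSetup A O k κ` of a
function field `F / K` and a specialisation map of places `sp` with conservation of number
`hsp : SpCompat R (spD sp)`.  For any divisor `D` of `F`:

* `Lam R D = L(D) ∩ O`, an `A`-submodule of `F`;
* `resLam R hsp D : Λ(D) →ₛₗ[R.π] L(sp D)`, the reduction (`Disc.res_mem_rrs`);
* `resLam_eq_zero_iff` : the kernel of the reduction is `𝔪_A Λ(D)` (injective mod `𝔪`);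
* `free_Lam`, `finrank_Lam`, `exists_basis` : if `Λ(D)` is finitely generated (cartesian) it is
  `A`-free of rank `l(D)`, with a basis which is a `K`-basis of `L(D)` and reduces to a
  `k`-linearly independent family;
* `finrank_le` : semicontinuity `l(D) ≤ l(sp D)`;
* `resLam_surjective_of_finrank_le`, `resLam_surjective_of_deg` : the reduction is ONTO `L(sp D)`
  as soon as `l(sp D) ≤ l(D)` (e.g. `deg D ≥ 2g - 1`, Riemann-Roch on both fibres, same genus);
* `exists_generator` : a rank one lattice is generated by an element of Gauss norm one.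
-/

set_option autoImplicit false
set_option linter.unusedSectionVars false
set_option linter.style.haveILetI false

noncomputable section

namespace Fermat.Agent.S19x.Geo.Lattice

open AlgebraicCurve IsLocalRing Module
open Fermat.Agent.Gateway.C0 Fermat.Agent.Gateway.Red Fermat.Agent.S27x.Spec.Inj
  Fermat.Agent.S27x.Spec.Disc

universe u v w z

variable {K : Type u} [Field K] {A : ValuationSubring K}
  {F : Type v} [Field F] [Algebra K F] {O : ValuationSubring F}
  {k : Type w} {κ : Type z} [Field k] [Field κ] [Algebra k κ]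
  (R : RedSetup A O k κ) {sp : Place K F → Place k κ}

/-! ### The lattice -/

/-- The lattice `Λ(D) = L(D) ∩ O`. -/
def Lam (D : Divisor K F) : Submodule A F := R.lat (riemannRochSpace D)

theorem mem_Lam {D : Divisor K F} {x : F} :
    x ∈ Lam R D ↔ x ∈ riemannRochSpace D ∧ x ∈ O := Iff.rfl

theorem mem_O_of_mem_Lam {D : Divisor K F} {x : F} (hx : x ∈ Lam R D) : x ∈ O := hx.2

theorem mem_rrs_of_mem_Lam {D : Divisor K F} {x : F} (hx : x ∈ Lam R D) :
    x ∈ riemannRochSpace D := hx.1

theorem riemannRochSpace_mono {D D' : Divisor K F} (h : D ≤ D') :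
    riemannRochSpace D ≤ riemannRochSpace D' := by
  intro f hf
  rw [mem_riemannRochSpace_iff] at hf ⊢
  intro v
  rcases hf v with hf | hf
  · exact Or.inl hf
  · exact Or.inr (le_trans (neg_le_neg (h v)) hf)

theorem Lam_mono {D D' : Divisor K F} (h : D ≤ D') : Lam R D ≤ Lam R D' :=
  fun _ hx => ⟨riemannRochSpace_mono h hx.1, hx.2⟩

/-- scalars from `K` -/
theorem smul_mem_Lam_of_valuation_le {D : Divisor K F} {x : F} (hx : x ∈ riemannRochSpace D)
    (c : K) (hc : O.valuation (c • x) ≤ 1) : c • x ∈ Lam R D :=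
  ⟨(riemannRochSpace D).smul_mem c hx, (O.valuation_le_one_iff _).mp hc⟩

/-- every nonzero element of `L(D)` has a `K`-multiple of Gauss norm one in `Λ(D)` -/
theorem exists_smul_mem_Lam {D : Divisor K F} {x : F} (hx : x ∈ riemannRochSpace D)
    (hx0 : x ≠ 0) : ∃ c : K, c ≠ 0 ∧ c • x ∈ Lam R D ∧ O.valuation (c • x) = 1 := by
  obtain ⟨c, hc, hcx⟩ := R.scal x hx0
  exact ⟨c, hc, smul_mem_Lam_of_valuation_le R hx c (le_of_eq hcx), hcx⟩

/-! ### The reduction map -/

variable [HasPrincipalDivisors K F]

/-- The reduction `Λ(D) → L(sp D)`, semilinear for `R.π : A → k`. -/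
def resLam (hsp : SpCompat R (spD sp)) (D : Divisor K F) :
    Lam R D →ₛₗ[R.π] riemannRochSpace (spD sp D) where
  toFun x := ⟨R.res ⟨(x : F), x.2.2⟩, res_mem_rrs hsp x.2.2 x.2.1⟩
  map_add' x y := by
    apply Subtype.ext
    show R.res ⟨((x + y : Lam R D) : F), _⟩ = R.res ⟨(x : F), _⟩ + R.res ⟨(y : F), _⟩
    rw [← map_add]
    rfl
  map_smul' a x := by
    apply Subtype.ext
    show R.res ⟨((a • x : Lam R D) : F), _⟩ = R.π a • R.res ⟨(x : F), x.2.2⟩
    rw [← R.res_smul a x.2.2]
    rfl

@[simp]
theorem coe_resLam (hsp : SpCompat R (spD sp)) (D : Divisor K F) (x : Lam R D) :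
    ((resLam R hsp D x : riemannRochSpace (spD sp D)) : κ) = R.res ⟨(x : F), x.2.2⟩ := rfl

/-- **Injectivity modulo `𝔪`**: the kernel of the reduction is `𝔪_A Λ(D)`. -/
theorem resLam_eq_zero_iff (hsp : SpCompat R (spD sp)) (D : Divisor K F) (x : Lam R D) :
    resLam R hsp D x = 0 ↔ ∃ ϖ ∈ maximalIdeal A, ∃ y : Lam R D, x = ϖ • y := by
  constructor
  · intro h
    have h0 : R.res ⟨(x : F), x.2.2⟩ = 0 := congrArg Subtype.val h
    have hsmall : Small O (x : F) := (R.small_iff x.2.2).mpr h0
    obtain ⟨ϖ, hϖ, y, hy, hxy⟩ := R.base.unram _ hsmall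
    by_cases hϖ0 : ϖ = 0
    · refine ⟨0, (maximalIdeal A).zero_mem, 0, ?_⟩
      apply Subtype.ext
      rw [hxy, hϖ0, zero_smul, zero_smul]
      rfl
    · have hyV : y ∈ riemannRochSpace D := by
        have : y = ((ϖ : K))⁻¹ • (x : F) := by
          rw [hxy]
          have h3 : ϖ • y = (ϖ : K) • y := rfl
          rw [h3, smul_smul, inv_mul_cancel₀ (by exact_mod_cast hϖ0), one_smul]
        rw [this]
        exact (riemannRochSpace D).smul_mem _ x.2.1
      exact ⟨ϖ, hϖ, ⟨y, hyV, hy⟩, Subtype.ext hxy⟩
  · rintro ⟨ϖ, hϖ, y, rfl⟩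
    rw [map_smulₛₗ, (R.π_eq_zero_iff ϖ).mpr hϖ, zero_smul]

/-! ### Freeness, rank, orthonormal bases -/

section Free

variable {R}
variable {D : Divisor K F}

theorem free_Lam (hfg : (Lam R D).FG) : Module.Free A (Lam R D) := by
  have : Module.Finite A (Lam R D) := Module.Finite.iff_fg.mpr hfg
  have : Module.Flat A (Lam R D) :=
    Module.Flat.flat_iff_torsion_eq_bot_of_isBezout.mpr
      (Submodule.isTorsionFree_iff_torsion_eq_bot.mp inferInstance)
  exact Module.free_of_flat_of_isLocalRing

/-- An `A`-basis of `Λ(D)` is `K`-linearly independent in `F`. -/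
theorem linearIndependent_coe_basis {ι : Type*} (b : Basis ι A (Lam R D)) :
    LinearIndependent K (fun i => ((b i : Lam R D) : F)) := by
  classical
  rw [linearIndependent_iff']
  intro s c hsum i hi
  -- clear denominators
  by_contra hci
  -- choose the coefficient of maximal valuation
  obtain ⟨j, hj, hjmax⟩ := Finset.exists_max_image s (fun i => A.valuation (c i)) ⟨i, hi⟩
  have hcj : c j ≠ 0 := by
    intro h0
    have := hjmax i hi
    rw [h0, map_zero] at this
    exact hci ((map_eq_zero _).mp (le_antisymm this zero_le))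
  -- `d i := c i / c j ∈ A`
  have hd : ∀ i ∈ s, c i / c j ∈ A := by
    intro i hi
    rw [← A.valuation_le_one_iff, map_div₀]
    exact div_le_one_of_le₀ (hjmax i hi) zero_le
  set d : ι → A := fun i => if h : i ∈ s then ⟨c i / c j, hd i h⟩ else 0 with hd_def
  have hsum' : ∑ i ∈ s, d i • b i = 0 := by
    apply Subtype.ext
    rw [Submodule.coe_sum, Submodule.coe_zero]
    have : ∀ i ∈ s, ((d i • b i : Lam R D) : F) = (c j)⁻¹ • (c i • ((b i : Lam R D) : F)) := by
      intro i hi
      rw [hd_def]
      simp only [hi, dite_true]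
      rw [smul_smul]
      show ((c i / c j : K)) • ((b i : Lam R D) : F) = _
      rw [div_eq_inv_mul]
    rw [Finset.sum_congr rfl this, ← Finset.smul_sum, hsum, smul_zero]
  have hlin := linearIndependent_iff'.mp b.linearIndependent s d hsum' j hj
  have hdj : d j = 1 := by
    rw [hd_def]
    simp only [hj, dite_true]
    apply Subtype.ext
    show c j / c j = 1
    exact div_self hcj
  rw [hdj] at hlin
  exact one_ne_zero hlin

/-- An `A`-basis of `Λ(D)` spans `L(D)` over `K`. -/
theorem span_coe_basis {ι : Type*} [Fintype ι] (b : Basis ι A (Lam R D)) :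
    Submodule.span K (Set.range fun i => ((b i : Lam R D) : F)) = riemannRochSpace D := by
  classical
  apply le_antisymm
  · rw [Submodule.span_le]
    rintro _ ⟨i, rfl⟩
    exact (b i).2.1
  · intro f hf
    by_cases hf0 : f = 0
    · rw [hf0]; exact Submodule.zero_mem _
    obtain ⟨c, hc, hcfΛ, -⟩ := exists_smul_mem_Lam R hf hf0
    have hrepr := b.sum_repr ⟨c • f, hcfΛ⟩
    have hrepr' : c • f = ∑ i, (b.repr ⟨c • f, hcfΛ⟩ i) • ((b i : Lam R D) : F) := by
      have := congrArg (Subtype.val) hrepr
      simp only at this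
      refine this.symm.trans ?_
      rw [Submodule.coe_sum]
      rfl
    have : f = c⁻¹ • (c • f) := by rw [smul_smul, inv_mul_cancel₀ hc, one_smul]
    rw [this, hrepr']
    refine Submodule.smul_mem _ _ (Submodule.sum_mem _ fun i _ => ?_)
    have h2 : (b.repr ⟨c • f, hcfΛ⟩ i) • ((b i : Lam R D) : F)
        = ((b.repr ⟨c • f, hcfΛ⟩ i : A) : K) • ((b i : Lam R D) : F) := rfl
    rw [h2]
    exact Submodule.smul_mem _ _ (Submodule.subset_span ⟨i, rfl⟩)

/-- The reductions of an `A`-basis of `Λ(D)` are `k`-linearly independent. -/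
theorem linearIndependent_res_basis (hsp : SpCompat R (spD sp)) {ι : Type*} [Fintype ι]
    (b : Basis ι A (Lam R D)) :
    LinearIndependent k (fun i => resLam R hsp D (b i)) := by
  classical
  rw [Fintype.linearIndependent_iff]
  intro cbar hsum i₀
  choose c hcπ using fun i => R.π_surj (cbar i)
  set x : Lam R D := ∑ i, c i • b i with hx
  have hresx : resLam R hsp D x = 0 := by
    rw [hx, map_sum]
    simp_rw [map_smulₛₗ, hcπ]
    exact hsum
  obtain ⟨ϖ, hϖ, y, hxy⟩ := (resLam_eq_zero_iff R hsp D x).mp hresx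
  have hrepr : ∀ i, c i = ϖ * b.repr y i := by
    intro i
    have h4 : b.repr x i = c i := by
      rw [hx, map_sum]
      simp [Finsupp.single_apply]
    rw [← h4, hxy, map_smul, Finsupp.smul_apply, smul_eq_mul]
  rw [← hcπ i₀, hrepr i₀, map_mul, (R.π_eq_zero_iff ϖ).mpr hϖ, zero_mul]

/-- The rank of `Λ(D)` is `l(D)`. -/
theorem finrank_Lam (hfg : (Lam R D).FG) [FiniteDimensional K (riemannRochSpace D)] :
    Module.finrank A (Lam R D) = finrank K (riemannRochSpace D) := by
  classical
  have : Module.Finite A (Lam R D) := Module.Finite.iff_fg.mpr hfg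
  have : Module.Free A (Lam R D) := free_Lam hfg
  set ι := Module.Free.ChooseBasisIndex A (Lam R D)
  set b : Basis ι A (Lam R D) := Module.Free.chooseBasis A (Lam R D)
  rw [Module.finrank_eq_card_chooseBasisIndex]
  have hli := linearIndependent_coe_basis b
  have hspan := span_coe_basis b
  have h1 : finrank K (Submodule.span K (Set.range fun i => ((b i : Lam R D) : F))) =
      Fintype.card ι := finrank_span_eq_card hli
  rw [← h1, hspan]

/-- **Orthonormal basis** of a cartesian lattice `Λ(D)`. -/
theorem exists_basis (hsp : SpCompat R (spD sp)) (hfg : (Lam R D).FG)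
    [FiniteDimensional K (riemannRochSpace D)] :
    ∃ b : Basis (Fin (finrank K (riemannRochSpace D))) A (Lam R D),
      LinearIndependent K (fun i => ((b i : Lam R D) : F)) ∧
      Submodule.span K (Set.range fun i => ((b i : Lam R D) : F)) = riemannRochSpace D ∧
      LinearIndependent k (fun i => resLam R hsp D (b i)) := by
  have : Module.Finite A (Lam R D) := Module.Finite.iff_fg.mpr hfg
  have : Module.Free A (Lam R D) := free_Lam hfg
  have hr := finrank_Lam (R := R) hfg
  let b : Basis (Fin (finrank K (riemannRochSpace D))) A (Lam R D) :=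
    (Module.finBasis A (Lam R D)).reindex (finCongr hr)
  exact ⟨b, linearIndependent_coe_basis b, span_coe_basis b, linearIndependent_res_basis hsp b⟩

/-- **Semicontinuity**: `l(D) ≤ l(sp D)`. -/
theorem finrank_le (hsp : SpCompat R (spD sp)) (hfg : (Lam R D).FG)
    [FiniteDimensional K (riemannRochSpace D)]
    [FiniteDimensional k (riemannRochSpace (spD sp D))] :
    finrank K (riemannRochSpace D) ≤ finrank k (riemannRochSpace (spD sp D)) := by
  obtain ⟨b, -, -, hli⟩ := exists_basis hsp hfg
  simpa using hli.fintype_card_le_finrank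

/-- **The reduction is onto** as soon as `l(sp D) ≤ l(D)`. -/
theorem resLam_surjective_of_finrank_le (hsp : SpCompat R (spD sp)) (hfg : (Lam R D).FG)
    [FiniteDimensional K (riemannRochSpace D)]
    [FiniteDimensional k (riemannRochSpace (spD sp D))]
    (h : finrank k (riemannRochSpace (spD sp D)) ≤ finrank K (riemannRochSpace D)) :
    Function.Surjective (resLam R hsp D) := by
  classical
  obtain ⟨b, -, -, hli⟩ := exists_basis hsp hfg
  -- the reductions of the basis form a basis of `L(sp D)`
  have hcard : Fintype.card (Fin (finrank K (riemannRochSpace D))) =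
      finrank k (riemannRochSpace (spD sp D)) := by
    rw [Fintype.card_fin]
    exact le_antisymm (by simpa using hli.fintype_card_le_finrank) h
  have hspan : Submodule.span k (Set.range fun i => resLam R hsp D (b i)) = ⊤ :=
    hli.span_eq_top_of_card_eq_finrank' hcard
  intro y
  have hy : y ∈ Submodule.span k (Set.range fun i => resLam R hsp D (b i)) := by
    rw [hspan]; trivial
  obtain ⟨cbar, rfl⟩ := (Submodule.mem_span_range_iff_exists_fun k).mp hy
  choose c hcπ using fun i => R.π_surj (cbar i)
  refine ⟨∑ i, c i • b i, ?_⟩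
  rw [map_sum]
  simp_rw [map_smulₛₗ, hcπ]

/-- lifting form -/
theorem exists_lift (hsp : SpCompat R (spD sp)) (hfg : (Lam R D).FG)
    [FiniteDimensional K (riemannRochSpace D)]
    [FiniteDimensional k (riemannRochSpace (spD sp D))]
    (h : finrank k (riemannRochSpace (spD sp D)) ≤ finrank K (riemannRochSpace D))
    {fb : κ} (hfb : fb ∈ riemannRochSpace (spD sp D)) :
    ∃ (f : F) (hf : f ∈ O), f ∈ riemannRochSpace D ∧ R.res ⟨f, hf⟩ = fb := by
  obtain ⟨x, hx⟩ := resLam_surjective_of_finrank_le hsp hfg h ⟨fb, hfb⟩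
  exact ⟨(x : F), x.2.2, x.2.1, congrArg Subtype.val hx⟩

/-- **ONTO when `deg D ≥ 2g - 1`**: stated with the two Riemann-Roch dimension formulas (same
genus `g`) and the conservation of the degree as hypotheses. -/
theorem resLam_surjective_of_deg (hsp : SpCompat R (spD sp)) (hfg : (Lam R D).FG)
    [FiniteDimensional K (riemannRochSpace D)]
    [FiniteDimensional k (riemannRochSpace (spD sp D))] (g : ℤ)
    (hRRK : (finrank K (riemannRochSpace D) : ℤ) = Divisor.degree D + 1 - g)
    (hRRk : (finrank k (riemannRochSpace (spD sp D)) : ℤ) = Divisor.degree (spD sp D) + 1 - g)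
    (hdeg : Divisor.degree (spD sp D) = Divisor.degree D) :
    Function.Surjective (resLam R hsp D) := by
  apply resLam_surjective_of_finrank_le hsp hfg
  have : (finrank k (riemannRochSpace (spD sp D)) : ℤ) = finrank K (riemannRochSpace D) := by
    rw [hRRK, hRRk, hdeg]
  exact_mod_cast this.le

end Free

/-! ### Degrees -/

/-- conservation of the degree -/
theorem degree_spD (hdeg : ∀ P : Place K F, (sp P).deg = P.deg) (D : Divisor K F) :
    Divisor.degree (spD sp D) = Divisor.degree D := by
  induction D using Finsupp.induction with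
  | zero => simp
  | single_add P n D _ _ ih =>
    rw [map_add, map_add, map_add, ih, spD_single, Divisor.degree_single, Divisor.degree_single,
      hdeg]

/-! ### Rank one lattices -/

section RankOne

variable {R}
variable {D : Divisor K F}

/-- **A rank one lattice is generated by an element of Gauss norm one.** -/
theorem exists_generator [FiniteDimensional K (riemannRochSpace D)]
    (h1 : finrank K (riemannRochSpace D) = 1) :
    ∃ u ∈ Lam R D, O.valuation u = 1 ∧ ∀ x ∈ Lam R D, ∃ a : A, x = a • u := by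
  classical
  -- a nonzero element of `L(D)`, scaled to norm one
  obtain ⟨v, hv0⟩ : ∃ v : riemannRochSpace D, v ≠ 0 := by
    have : 0 < finrank K (riemannRochSpace D) := by omega
    exact (Module.finrank_pos_iff_exists_ne_zero).mp this
  have hv0' : (v : F) ≠ 0 := fun h => hv0 (Subtype.ext h)
  obtain ⟨c, hc, hcΛ, hcv⟩ := exists_smul_mem_Lam R v.2 hv0'
  refine ⟨c • (v : F), hcΛ, hcv, fun x hx => ?_⟩
  -- `x` is a `K`-multiple of `u`
  have hu0 : (⟨c • (v : F), hcΛ.1⟩ : riemannRochSpace D) ≠ 0 := by
    intro h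
    have h' : c • (v : F) = 0 := congrArg Subtype.val h
    rw [h', map_zero] at hcv
    exact zero_ne_one hcv
  obtain ⟨d, hd⟩ := (finrank_eq_one_iff_of_nonzero' _ hu0).mp h1 ⟨x, hx.1⟩
  have hxd : x = d • (c • (v : F)) := (congrArg Subtype.val hd).symm
  -- `d ∈ A`
  have hdA : d ∈ A := by
    rcases A.mem_or_inv_mem d with h | h
    · exact h
    · by_contra hd'
      -- `d⁻¹ ∈ 𝔪_A`, so `|u| = |d⁻¹ x| < 1`
      have hd0 : d ≠ 0 := fun h0 => hd' (h0 ▸ A.zero_mem)
      have hm : (⟨d⁻¹, h⟩ : A) ∈ maximalIdeal A := by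
        rw [mem_maximalIdeal, mem_nonunits_iff]
        intro hu
        obtain ⟨e, he⟩ := hu.exists_right_inv
        have he' : d⁻¹ * (e : K) = 1 := by
          have := congrArg (Subtype.val) he
          simpa using this
        have hed : (e : K) = d := by
          field_simp at he'
          exact he'
        exact hd' (hed ▸ e.2)
      have hu : c • (v : F) = (⟨d⁻¹, h⟩ : A) • x := by
        rw [hxd]
        show c • (v : F) = (d⁻¹ : K) • (d • (c • (v : F)))
        rw [smul_smul, inv_mul_cancel₀ hd0, one_smul]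
      have hlt : O.valuation (c • (v : F)) < 1 := by
        rw [hu, R.smul_eq, map_mul]
        have h1 := R.base.algebraMap_lt _ hm
        have h2 : O.valuation x ≤ 1 := (O.valuation_le_one_iff _).mpr hx.2
        exact lt_of_le_of_lt (mul_le_of_le_one_right' h2) h1
      rw [hcv] at hlt
      exact lt_irrefl _ hlt
  exact ⟨⟨d, hdA⟩, hxd⟩

/-- **Uniqueness tool**: if `l(sp D) = 1` then `l(D) ≤ 1`. -/
theorem finrank_le_one_of_sp (hsp : SpCompat R (spD sp)) (hfg : (Lam R D).FG)
    [FiniteDimensional K (riemannRochSpace D)]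
    [FiniteDimensional k (riemannRochSpace (spD sp D))]
    (h1 : finrank k (riemannRochSpace (spD sp D)) ≤ 1) :
    finrank K (riemannRochSpace D) ≤ 1 :=
  (finrank_le hsp hfg).trans h1

end RankOne

end Fermat.Agent.S19x.Geo.Lattice
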