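import Fermat.Agent.S19x.Geo.LiftCfg
import Fermat.Agent.S19x.Geo.LatticeFixed
import Fermat.Agent.S19x.Geo.Lattice

/-
P-S19 block A: the two hypotheses `LiftLemma`, `ResidueFixed` of `Geo/LiftCfg.lean` and the
existence of fixed lifts of all places of the special fibre, from the hypotheses
`LatticeFixed.FixData` on the inertia data and "`F` is spanned by its fixed elements".

* `liftLemma`   : for an `S`-stable divisor `D` of degree `≥ 2g - 1` every element of `L(sp D)`
  is the reduction of an `S`-fixed element of `L(D) ∩ O`;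
* `residueFixed` : every residue class of `A` has an `S`-fixed representative;
* `exists_coordinate` : every place `w ≠ ∞̄` of the special fibre carries an `S`-fixed coordinate
  function (regular on the residue disc, simple zero of the reduction at `w`);
* `exists_fixedPlace_lift` : every place of the special fibre has an `S`-fixed lift.
-/

set_option autoImplicit false
set_option linter.unusedSectionVars false
set_option linter.style.haveILetI false

noncomputable section

namespace Fermat.Agent.S19x.Geo.LiftLemmaOfFix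

open AlgebraicCurve IsLocalRing Module
open Fermat.Agent.Gateway.C0 Fermat.Agent.Gateway.Red Fermat.Agent.S27x.Spec.Inj
  Fermat.Agent.S27x.Spec.Disc Fermat.Agent.Lib.RiemannRoch

universe u v w z

variable {K : Type u} [Field K] {A : ValuationSubring K} {F : Type v} [Field F] [Algebra K F]
  {O : ValuationSubring F} {k : Type w} {κ : Type z} [Field k] [Field κ] [Algebra k κ]
  [HasPrincipalDivisors K F] [∀ v : Place K F, v.FiniteResidue] [HasPrincipalDivisors k κ]
  [∀ v : Place k κ, v.FiniteResidue]
  (G : GeoSetting A O k κ) (I : InertiaData G)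

/-- `L(D)` is stable under a semilinear automorphism fixing `D`. -/
theorem smul_mem_rrs {D : Divisor K F} {s : SemilinearAut K F} (hs : s • D = D) {f : F}
    (hf : f ∈ riemannRochSpace D) : s • f ∈ riemannRochSpace D := by
  rw [mem_riemannRochSpace_iff] at hf ⊢
  intro v
  rcases hf (s⁻¹ • v) with h | h
  · left
    rw [h, smul_zero]
  · right
    have h1 := SemilinearAut.ord_smul s (s⁻¹ • v) f
    rw [smul_inv_smul] at h1
    have h2 : D v = D (s⁻¹ • v) := by
      conv_lhs => rw [← hs]
      exact SemilinearAut.divisor_smul_apply s D v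
    rw [h1, h2]
    exact h

/-- **The lift lemma.** -/
theorem liftLemma (hD : LatticeFixed.FixData G.R (I.S : Set (SemilinearAut K F)))
    (hF : Submodule.span K
      {f : F | LatticeFixed.IsFixed (I.S : Set (SemilinearAut K F)) f} = ⊤) :
    LiftCfg.LiftLemma G I := by
  intro D hDS hdeg y hy
  haveI := G.nonempty_placeF
  haveI := G.nonempty_placeκ
  have hfg : (G.R.lat (riemannRochSpace D)).FG := G.cart _ inferInstance
  have hRRK := G.rrF.finrank_eq hdeg
  have hdegsp : Divisor.degree (G.spDiv D) = Divisor.degree D := G.degree_spDiv D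
  have hRRk := G.rrκ.finrank_eq (D := G.spDiv D) (by rw [hdegsp]; exact hdeg)
  have hle : finrank k (riemannRochSpace (G.spDiv D)) ≤ finrank K (riemannRochSpace D) := by
    have : (finrank k (riemannRochSpace (G.spDiv D)) : ℤ) = finrank K (riemannRochSpace D) := by
      rw [hRRK, hRRk, hdegsp]
    exact_mod_cast this.le
  obtain ⟨f0, hf0, hf0D, hf0res⟩ :=
    Lattice.exists_lift (R := G.R) (sp := G.sp) G.spCompat hfg hle hy
  have hyred : y ∈ G.R.redLat (riemannRochSpace D) := ⟨f0, hf0, hf0D, hf0res⟩
  have hV : ∀ s ∈ (I.S : Set (SemilinearAut K F)), ∀ f ∈ riemannRochSpace D,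
      s • f ∈ riemannRochSpace D := fun s hs f hf => smul_mem_rrs (hDS s hs) hf
  obtain ⟨f, hf, hfV, hffix, hfres⟩ := LatticeFixed.exists_fixed_lift hD (riemannRochSpace D) hfg
    (le_of_eq (LatticeFixed.span_fixed_of_stable hF _ hV).symm) hyred
  exact ⟨f, hf, hfV, hffix, hfres⟩

/-- every residue class of `A` has an `S`-fixed representative -/
theorem residueFixed (hD : LatticeFixed.FixData G.R (I.S : Set (SemilinearAut K F))) :
    LiftCfg.ResidueFixed G I := by
  intro cb
  obtain ⟨a, hafix, ha⟩ := hD.exists_fixed_coeff cb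
  exact ⟨a, ha, hafix⟩

/-- a function on the special fibre with poles only at `∞̄` (of order `≤ 2g + 1`) and a simple
zero at a given place `w ≠ ∞̄` (Riemann-Roch on the special fibre) -/
theorem exists_simple_zero {w : Place k κ} (hw : w ≠ G.oob) :
    ∃ zb : κ, zb ∈ riemannRochSpace (Finsupp.single G.oob (2 * (G.g : ℤ) + 1)) ∧
      w.ord zb = 1 := by
  classical
  haveI := G.nonempty_placeκ
  set D : Divisor k κ := Finsupp.single G.oob (2 * (G.g : ℤ) + 1) - Finsupp.single w 1 with hDdef
  have hsingle : ∀ v : Place k κ, (0 : ℤ) ≤ Finsupp.single w (1 : ℤ) v := fun v =>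
    Finsupp.single_nonneg.mpr zero_le_one v
  have hdegD : Divisor.degree D = 2 * (G.g : ℤ) := by
    rw [hDdef, map_sub, Divisor.degree_single, Divisor.degree_single, G.rrκ.deg_one G.oob,
      G.rrκ.deg_one w]
    push_cast
    ring
  have hdegD' : Divisor.degree (D - Finsupp.single w 1) = 2 * (G.g : ℤ) - 1 := by
    rw [map_sub, hdegD, Divisor.degree_single, G.rrκ.deg_one]
    push_cast
    ring
  have h1 := G.rrκ.finrank_eq (D := D) (by rw [hdegD]; omega)
  have h2 := G.rrκ.finrank_eq (D := D - Finsupp.single w 1) (by rw [hdegD'])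
  have hne : riemannRochSpace (D - Finsupp.single w 1) ≠ riemannRochSpace D := by
    intro heq
    rw [heq, hdegD'] at h2
    rw [hdegD] at h1
    omega
  have hle : riemannRochSpace (D - Finsupp.single w 1) ≤ riemannRochSpace D :=
    Moving.riemannRochSpace_mono' (by
      intro v
      rw [Finsupp.sub_apply]
      have := hsingle v
      omega)
  obtain ⟨f, hfD, hfnot⟩ : ∃ f, f ∈ riemannRochSpace D ∧
      f ∉ riemannRochSpace (D - Finsupp.single w 1) := by
    by_contra hcon
    push Not at hcon
    exact hne (le_antisymm hle hcon)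
  obtain ⟨-, hord⟩ := Moving.ord_eq_of_not_mem hfD hfnot
  refine ⟨f, Moving.riemannRochSpace_mono' ?_ hfD, ?_⟩
  · intro v
    rw [hDdef, Finsupp.sub_apply]
    have := hsingle v
    omega
  · rw [hord, hDdef, Finsupp.sub_apply, Finsupp.single_apply, if_neg (Ne.symm hw),
      Finsupp.single_eq_same]
    norm_num

/-- every place `w ≠ ∞̄` of the special fibre carries an `S`-fixed coordinate function -/
theorem exists_coordinate (hD : LatticeFixed.FixData G.R (I.S : Set (SemilinearAut K F)))
    (hF : Submodule.span K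
      {f : F | LatticeFixed.IsFixed (I.S : Set (SemilinearAut K F)) f} = ⊤)
    {w : Place k κ} (hw : w ≠ G.oob) :
    ∃ (zf : F) (hz : zf ∈ O), RegularOn G.sp w zf ∧
      w.ord (G.R.res ⟨zf, hz⟩ - algebraMap k κ 0) = 1 ∧ ∀ s ∈ I.S, s • zf = zf := by
  obtain ⟨zb, hzb, hord⟩ := exists_simple_zero G hw
  have hDS : ∀ s ∈ I.S, s • (Finsupp.single G.oo (2 * (G.g : ℤ) + 1) : Divisor K F) =
      Finsupp.single G.oo (2 * (G.g : ℤ) + 1) := fun s hs => by
    rw [SemilinearAut.smul_single, I.smul_oo s hs]
  have hdeg : 2 * (G.g : ℤ) - 1 ≤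
      Divisor.degree (Finsupp.single G.oo (2 * (G.g : ℤ) + 1) : Divisor K F) := by
    rw [Divisor.degree_single, G.rrF.deg_one]
    push_cast
    omega
  have hy : zb ∈ riemannRochSpace (G.spDiv (Finsupp.single G.oo (2 * (G.g : ℤ) + 1))) := by
    rw [G.spDiv_single]
    exact hzb
  obtain ⟨zf, hz, hzD, hzfix, hzres⟩ := liftLemma G I hD hF _ hDS hdeg zb hy
  refine ⟨zf, hz, LiftCfg.regularOn_of_mem_rrs_single hzD hw, ?_, hzfix⟩
  rw [hzres, map_zero, sub_zero]
  exact hord

/-- **every place of the special fibre has an `S`-fixed lift** -/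
theorem exists_fixedPlace_lift (hD : LatticeFixed.FixData G.R (I.S : Set (SemilinearAut K F)))
    (hF : Submodule.span K
      {f : F | LatticeFixed.IsFixed (I.S : Set (SemilinearAut K F)) f} = ⊤) :
    ∀ w : Place k κ, ∃ Q : Place K F, G.sp Q = w ∧ I.IsFixedPlace Q := by
  intro w
  exact FixedLift.exists_fixed_lift_place G.spCompat (I.S : Set (SemilinearAut K F))
    (fun s hs Q => I.sp_smul s hs Q)
    (fun cb => by
      obtain ⟨ρ, h1, h2⟩ := residueFixed G I hD cb
      exact ⟨ρ, h1, h2⟩)
    G.oob G.oo rfl (fun s hs => I.smul_oo s hs)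
    (fun w' hw' => by
      obtain ⟨zf, hz, hreg, hunif, hfix⟩ := exists_coordinate G I hD hF hw'
      exact ⟨zf, hz, 0, hreg, hunif, hfix⟩) w

end Fermat.Agent.S19x.Geo.LiftLemmaOfFix
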