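/-
P-S19, BLOCK A (architect helper22): the abstract main theorem `AbsTarget` of the block from its
two remaining leaves, as closed `Prop`s in universe zero:

* `ResidualTarget` : the Residual Theorem (L6) in the shape `ConfigOfLeaves.ResidualBuilder`;
* `SumTarget`      : the sum leaf (L8a): a configuration package gives the one-chart three-term
                     group law.

Everything else is landed: the lift lemma and the fixed lifts of points (`Geo/LiftLemmaOfFix`),
the configuration package from the leaves (`Geo/ConfigOfLeaves`).
-/
import Fermat.Agent.S19x.Geo.AMainTargets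
import Fermat.Agent.S19x.Geo.ConfigOfLeaves
import Fermat.Agent.S19x.Geo.LiftLemmaOfFix

set_option autoImplicit false
set_option linter.unusedSectionVars false
set_option linter.unusedVariables false

noncomputable section

namespace Fermat.Agent.S19x.Geo

open AlgebraicCurve
open Fermat.Agent.Gateway.Red

/-- **What the Residual leaf (L6) delivers** (universe zero). -/
def ResidualTarget : Prop :=
  ∀ {K : Type} [Field K] {A : ValuationSubring K} {F : Type} [Field F] [Algebra K F]
    {O : ValuationSubring F} {k κ : Type} [Field k] [Field κ] [Algebra k κ] [IsAlgClosed k]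
    [HasPrincipalDivisors K F] [∀ v : Place K F, v.FiniteResidue]
    [HasPrincipalDivisors k κ] [∀ v : Place k κ, v.FiniteResidue]
    (G : GeoSetting A O k κ) (I : InertiaData G),
    LatticeFixed.FixData G.R (I.S : Set (SemilinearAut K F)) →
    Submodule.span K {f : F | LatticeFixed.IsFixed (I.S : Set (SemilinearAut K F)) f} = ⊤ →
    ConfigOfLeaves.ResidualBuilder G I

/-- **What the sum leaf (L8a) delivers** (universe zero). -/
def SumTarget : Prop :=
  ∀ {K : Type} [Field K] {A : ValuationSubring K} {F : Type} [Field F] [Algebra K F]
    {O : ValuationSubring F} {k κ : Type} [Field k] [Field κ] [Algebra k κ]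
    {G : GeoSetting A O k κ} (I : InertiaData G) (ρ : RedMap G),
    ConfigPackage I ρ → Nonempty (AbsSumChart I ρ)

/-- **The abstract main theorem of BLOCK A** from the Residual Theorem and the sum leaf. -/
theorem absTarget_of (hres : ResidualTarget) (hsum : SumTarget) : AbsTarget := by
  intro K _ A F _ _ O k κ _ _ _ _ _ _ _ _ G I ρ hD hF
  refine ⟨?_, LiftLemmaOfFix.exists_fixedPlace_lift G I hD hF⟩
  obtain ⟨C⟩ := ConfigOfLeaves.nonempty_configPackage_of_leaves
    (LiftLemmaOfFix.liftLemma G I hD hF) (LiftLemmaOfFix.residueFixed G I hD)
    (hres G I hD hF) ρ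
  exact hsum I ρ C

end Fermat.Agent.S19x.Geo
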