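/-
P-S19, BLOCK A, leaf (L8a) (helper31): THE THREE-TERM GROUP LAW IN ONE CHART.

Input (`SumCfg I ρ`): ONE chart `C : ChartOut I ρ` at the base divisor `D₀ = C.D` (coordinate
function `z = C.z`), and TWO outputs of the Residual Theorem, for the same `z`:
* `R1 : ResidualOut I` with fixed part `R1.W0 = C0 + 3 • D₀` and base residual `D₁ = R1.Dc`;
* `R2 : ResidualOut I` with fixed part `R2.W0 = C0' + D₁` and base residual `R2.Dc = D₀`;
`C0, C0'` effective, and `ρ_{C0}, ρ_{C0'}, ρ_{D₁}` with `S`-fixed integral coefficients.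

Output (`absSumChart`): the structure `AbsSumChart I ρ` of `Geo/Targets.lean` with `X0 = C.coord`.

Proof of `sum3` at order `n`.  For `x, y, d` in the kernel of reduction put
`W = C0 + E x + E y + E d`; it is effective with the specialisation of `R1.W0`, and
`ρ_W = ρ_{C0} (ρ_{D₀} + X0 x)(ρ_{D₀} + X0 y)(ρ_{D₀} + X0 d)`, so the parameters of stage one are the
values of the universal polynomials `A1` of `Alg/ApproxStages.lean`.  `R1.spec n` gives the
residual `Ew` of `W`, near `D₁`, with coordinates `b ≡ Θ₁(a₁)`.  `W' = C0' + Ew` is effective with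
the specialisation of `R2.W0`, `ρ_{W'} = ρ_{C0'} (ρ_{D₁} + b)`, so the parameters of stage two are
the values of `A2`.  `R2.spec n` gives the residual `Eout` of `W'`, near `D₀`.  The divisor
identity `Eout - D₀ = (E x - D₀) + (E y - D₀) + (E d - D₀) + (p₄ - p₂) - (p₃ - p₁)` with
`p₁, p₂` the base principal divisors and `p₃, p₄` the two principal divisors of `spec` shows that
`Eout` lies in the class `x + y + d + [D₀]`, hence `Eout = E (x + y + d)` by `C.E_unique`.  The two
approximations compose by `ApproxCompose.two_stage`.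

Coefficient rings: `Geo/Targets.lean` has polynomials over `I.fixedRing : Subring A`, while
`Alg/ApproxCompose.lean` wants a subring of `K`; `fixedSub I` is the image of `I.fixedRing` in `K`,
`fixedEquiv I` the isomorphism, and `aeval_map_of_compat` says that evaluation does not see it.
-/
import Fermat.Agent.S19x.Geo.Targets
import Fermat.Agent.S19x.Alg.ApproxStages

set_option autoImplicit false
set_option linter.unusedSectionVars false
set_option linter.unusedVariables false

noncomputable section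

namespace Fermat.Agent.S19x.Geo.Sum3

open AlgebraicCurve Polynomial
open Fermat.Agent.Gateway.Red
open Fermat.Agent.S19x.Geo
open Fermat.Agent.S19x.Alg.ApproxCompose Fermat.Agent.S19x.Alg.ApproxStages

universe u v w z

variable {K : Type u} [Field K] {A : ValuationSubring K}
  {F : Type v} [Field F] [Algebra K F] {O : ValuationSubring F}
  {k : Type w} {κ : Type z} [Field k] [Field κ] [Algebra k κ]
  {G : GeoSetting A O k κ}

/-! ### Coefficient ring plumbing -/

/-- the image of `A^S` in `K` -/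
def fixedSub (I : InertiaData G) : Subring K := I.fixedRing.map A.subtype

theorem fixedSub_le (I : InertiaData G) : ∀ a ∈ fixedSub I, a ∈ A := by
  rintro a ⟨x, -, rfl⟩
  exact x.2

theorem mem_fixedSub_of_isFixedInt (I : InertiaData G) {a : K} (h : I.IsFixedInt a) :
    a ∈ fixedSub I := by
  obtain ⟨ha, hfix⟩ := h
  exact ⟨⟨a, ha⟩, hfix, rfl⟩

/-- `A^S` as a subring of `A` is isomorphic to its image in `K` -/
def fixedEquiv (I : InertiaData G) : I.fixedRing ≃+* fixedSub I :=
  I.fixedRing.equivMapOfInjective A.subtype Subtype.coe_injective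

theorem algebraMap_fixedEquiv (I : InertiaData G) (r : I.fixedRing) :
    algebraMap (fixedSub I) K (fixedEquiv I r) = algebraMap I.fixedRing K r := rfl

theorem algebraMap_fixedEquiv_symm (I : InertiaData G) (r : fixedSub I) :
    algebraMap I.fixedRing K ((fixedEquiv I).symm r) = algebraMap (fixedSub I) K r := by
  rw [← algebraMap_fixedEquiv, RingEquiv.apply_symm_apply]

/-- evaluation is insensitive to a change of coefficient ring compatible with the algebra maps -/
theorem aeval_map_of_compat {σ R R' : Type*} [CommRing R] [CommRing R'] [Algebra R K]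
    [Algebra R' K] (f : R →+* R') (hf : ∀ r, algebraMap R' K (f r) = algebraMap R K r)
    (x : σ → K) (p : MvPolynomial σ R) :
    MvPolynomial.aeval x (MvPolynomial.map f p) = MvPolynomial.aeval x p := by
  rw [MvPolynomial.aeval_def, MvPolynomial.aeval_def, MvPolynomial.eval₂_map]
  congr 1
  ext r
  exact hf r

/-- a polynomial with `S`-fixed integral coefficients comes from `A^S` -/
theorem exists_poly_of_isFixedInt (I : InertiaData G) (p : K[X])
    (hp : ∀ l : ℕ, I.IsFixedInt (p.coeff l)) :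
    ∃ r : (fixedSub I)[X], r.map (algebraMap (fixedSub I) K) = p := by
  have h : (↑p.coeffs : Set K) ⊆ fixedSub I := by
    intro c hc
    obtain ⟨l, -, rfl⟩ := Polynomial.mem_coeffs_iff.mp (Finset.mem_coe.mp hc)
    exact mem_fixedSub_of_isFixedInt I (hp l)
  exact ⟨p.toSubring _ h, Polynomial.map_toSubring _ _ _⟩


/-! ### Divisors and their polynomials -/

theorem natDegree_divPoly_eq (z : F) {E : Divisor K F} (hE : 0 ≤ E)
    (hdeg : Divisor.degree E = G.g) : (divPoly z E).natDegree = G.g := by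
  have h := natDegree_divPoly_of_nonneg z hE G.rrF.deg_one
  rw [hdeg] at h
  exact_mod_cast h

/-- an effective divisor of degree `g` near `D`: `ρ_E = ρ_D` perturbed by the coordinates -/
theorem divPoly_eq_perturb (z : F) {E D : Divisor K F} (hE : 0 ≤ E)
    (hEdeg : Divisor.degree E = G.g) (hD : 0 ≤ D) (hDdeg : Divisor.degree D = G.g) :
    divPoly z E = perturb (divPoly z D)
      (fun l : Fin G.g => (divPoly z E).coeff l - (divPoly z D).coeff l) :=
  eq_perturb_of_monic (divPoly_monic z E) (divPoly_monic z D)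
    (natDegree_divPoly_eq (G := G) z hE hEdeg) (natDegree_divPoly_eq (G := G) z hD hDdeg)

theorem divPoly_add_three_nsmul (z : F) {C D : Divisor K F} (hC : 0 ≤ C) (hD : 0 ≤ D) :
    divPoly z (C + 3 • D) = divPoly z C * divPoly z D ^ 3 := by
  have h3 : (3 : ℕ) • D = D + D + D := by abel
  rw [h3, divPoly_add z hC (add_nonneg (add_nonneg hD hD) hD),
    divPoly_add z (add_nonneg hD hD) hD, divPoly_add z hD hD]
  ring

theorem divPoly_add_four (z : F) {C E1 E2 E3 : Divisor K F} (hC : 0 ≤ C) (h1 : 0 ≤ E1)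
    (h2 : 0 ≤ E2) (h3 : 0 ≤ E3) :
    divPoly z (C + E1 + E2 + E3) = divPoly z C * divPoly z E1 * divPoly z E2 * divPoly z E3 := by
  rw [divPoly_add z (add_nonneg (add_nonneg hC h1) h2) h3,
    divPoly_add z (add_nonneg hC h1) h2, divPoly_add z hC h1]

/-! ### Classes -/

theorem mk_eq_of_sub_isPrincipal (D1 D2 : Divisor.degZero (K := K) (F := F))
    (h : Divisor.IsPrincipal ((D1 : Divisor K F) - (D2 : Divisor K F))) :
    Pic0.mk D1 = Pic0.mk D2 := by
  unfold Pic0.mk
  rw [QuotientAddGroup.eq, AddSubgroup.mem_addSubgroupOf]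
  have h' : ((-D1 + D2 : Divisor.degZero (K := K) (F := F)) : Divisor K F)
      = -((D1 : Divisor K F) - (D2 : Divisor K F)) := by
    push_cast
    abel
  rw [h']
  exact (Divisor.principal (K := K) (F := F)).neg_mem h


/-- the divisor identity behind the two-step sum: the residual of the residual is the sum -/
theorem isPrincipal_two_step {C0 C0' D D1 Ex Ey Ed Ew Eout oo1 oo2 : Divisor K F}
    (p1 : Divisor.IsPrincipal (C0 + 3 • D + D1 - oo1))
    (p2 : Divisor.IsPrincipal (C0' + D1 + D - oo2))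
    (p3 : Divisor.IsPrincipal (C0 + Ex + Ey + Ed + Ew - oo1))
    (p4 : Divisor.IsPrincipal (C0' + Ew + Eout - oo2)) :
    Divisor.IsPrincipal ((Eout - D) - ((Ex - D) + (Ey - D) + (Ed - D))) := by
  have h : (Eout - D) - ((Ex - D) + (Ey - D) + (Ed - D))
      = ((C0' + Ew + Eout - oo2) - (C0' + D1 + D - oo2))
        - ((C0 + Ex + Ey + Ed + Ew - oo1) - (C0 + 3 • D + D1 - oo1)) := by
    abel
  rw [h]
  exact (Divisor.principal (K := K) (F := F)).sub_mem
    ((Divisor.principal (K := K) (F := F)).sub_mem p4 p2)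
    ((Divisor.principal (K := K) (F := F)).sub_mem p3 p1)


/-! ### The configuration package and the three-term law -/

/-- the configuration package consumed by the three-term law: ONE chart at `D₀ = C.D`, and two
residual configurations `R1` (fixed part `C0 + 3 D₀`, base residual `D₁ = R1.Dc`) and `R2`
(fixed part `C0' + D₁`, base residual `D₀`), all for the same coordinate function. -/
structure SumCfg (I : InertiaData G) (ρ : RedMap G) where
  /-- the chart at `D₀ = C.D` -/
  C : ChartOut I ρ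
  /-- configuration 1 -/
  R1 : ResidualOut I
  /-- configuration 2 -/
  R2 : ResidualOut I
  /-- the fixed part of configuration 1 -/
  C0 : Divisor K F
  /-- the fixed part of configuration 2 -/
  C0' : Divisor K F
  C0_nonneg : 0 ≤ C0
  C0'_nonneg : 0 ≤ C0'
  z1 : R1.z = C.z
  z2 : R2.z = C.z
  W1 : R1.W0 = C0 + 3 • C.D
  W2 : R2.W0 = C0' + R1.Dc
  Dc2 : R2.Dc = C.D
  rhoC0_fixed : ∀ l : ℕ, I.IsFixedInt ((divPoly C.z C0).coeff l)
  rhoC0'_fixed : ∀ l : ℕ, I.IsFixedInt ((divPoly C.z C0').coeff l)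
  rhoD1_fixed : ∀ l : ℕ, I.IsFixedInt ((divPoly C.z R1.Dc).coeff l)

variable {I : InertiaData G} {ρ : RedMap G}

/-- **The geometric step**: for `x, y, d` in the kernel of reduction, the residual `Ew` of
`C0 + E x + E y + E d` and the residual `Eout` of `C0' + Ew` exist, and `Eout = E (x + y + d)`. -/
theorem exists_two_step (S : SumCfg I ρ) {x y d : Pic0 K F} (hx : ρ.red x = 0)
    (hy : ρ.red y = 0) (hd : ρ.red d = 0) {W : Divisor K F}
    (hW : W = S.C0 + S.C.E x + S.C.E y + S.C.E d) :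
    0 ≤ W ∧ G.spDiv W = G.spDiv S.R1.W0 ∧
    ∀ Ew : Divisor K F, 0 ≤ Ew → Divisor.degree Ew = G.g →
      Divisor.IsPrincipal (W + Ew - G.mulOo S.R1.m) → G.spDiv Ew = G.spDiv S.R1.Dc →
      0 ≤ S.C0' + Ew ∧ G.spDiv (S.C0' + Ew) = G.spDiv S.R2.W0 ∧
      ∀ Eout : Divisor K F, 0 ≤ Eout → Divisor.degree Eout = G.g →
        Divisor.IsPrincipal (S.C0' + Ew + Eout - G.mulOo S.R2.m) →
        G.spDiv Eout = G.spDiv S.R2.Dc → S.C.E (x + y + d) = Eout := by
  subst hW
  have hEx := S.C.E_nonneg x hx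
  have hEy := S.C.E_nonneg y hy
  have hEd := S.C.E_nonneg d hd
  obtain ⟨hxz, hxc⟩ := S.C.E_class x hx
  obtain ⟨hyz, hyc⟩ := S.C.E_class y hy
  obtain ⟨hdz, hdc⟩ := S.C.E_class d hd
  refine ⟨add_nonneg (add_nonneg (add_nonneg S.C0_nonneg hEx) hEy) hEd, ?_, ?_⟩
  · rw [S.W1, map_add, map_add, map_add, map_add, map_nsmul, S.C.E_sp x hx, S.C.E_sp y hy,
      S.C.E_sp d hd]
    abel
  intro Ew hEw0 hEwdeg hEwp hEwsp
  refine ⟨add_nonneg S.C0'_nonneg hEw0, ?_, ?_⟩
  · rw [S.W2, map_add, map_add, hEwsp]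
  intro Eout hEo0 hEodeg hEop hEosp
  have hEosp' : G.spDiv Eout = G.spDiv S.C.D := by rw [hEosp, S.Dc2]
  have hoz : Eout - S.C.D ∈ Divisor.degZero (K := K) (F := F) := by
    rw [Divisor.mem_degZero, map_sub, hEodeg, S.C.D_deg, sub_self]
  have p1 := S.R1.base_principal
  have p2 := S.R2.base_principal
  rw [S.W1] at p1
  rw [S.W2, S.Dc2] at p2
  have hcls : Pic0.mk ⟨Eout - S.C.D, hoz⟩ = x + y + d := by
    have h0 := isPrincipal_two_step p1 p2 hEwp hEop
    have h := mk_eq_of_sub_isPrincipal (⟨Eout - S.C.D, hoz⟩ : Divisor.degZero (K := K) (F := F))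
      ((⟨_, hxz⟩ : Divisor.degZero (K := K) (F := F)) + ⟨_, hyz⟩ + ⟨_, hdz⟩)
      (by rw [AddSubgroup.coe_add, AddSubgroup.coe_add]; exact h0)
    rw [h, Pic0.mk_add, Pic0.mk_add, hxc, hyc, hdc]
  obtain ⟨-, hEE⟩ := S.C.E_unique Eout hEo0 hEosp' hoz
  rw [hcls] at hEE
  exact hEE


/-- **The three-term law** in the chart `S.C`, to every order `n`. -/
theorem sum3_main (S : SumCfg I ρ) (n : ℕ) :
    ∃ Φ : Fin G.g → MvPolynomial (Fin G.g ⊕ (Fin G.g ⊕ Fin G.g)) I.fixedRing,
    ∀ x y d, ρ.red x = 0 → ρ.red y = 0 → ρ.red d = 0 → ∀ t ∈ A,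
      (∀ l, DvdInA A t (S.C.coord x l)) → (∀ l, DvdInA A t (S.C.coord y l)) →
      (∀ l, DvdInA A t (S.C.coord d l)) →
      ∀ l, DvdInA A (t ^ (n + 1))
        (S.C.coord (x + y + d) l -
          MvPolynomial.aeval (Sum.elim (S.C.coord x) (Sum.elim (S.C.coord y) (S.C.coord d)))
            (Φ l)) := by
  obtain ⟨Θ1, hΘ1c, hΘ1⟩ := S.R1.spec n
  obtain ⟨Θ2, hΘ2c, hΘ2⟩ := S.R2.spec n
  rw [S.z1] at hΘ1
  rw [S.z2] at hΘ2
  obtain ⟨rC0, hrC0⟩ := exists_poly_of_isFixedInt I _ S.rhoC0_fixed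
  obtain ⟨rD0, hrD0⟩ := exists_poly_of_isFixedInt I _ S.C.rhoD_fixed
  obtain ⟨rC0', hrC0'⟩ := exists_poly_of_isFixedInt I _ S.rhoC0'_fixed
  obtain ⟨rD1, hrD1⟩ := exists_poly_of_isFixedInt I _ S.rhoD1_fixed
  -- the four families of polynomials over the image of `A^S` in `K`
  have hΘ1c' : ∀ l, MvPolynomial.constantCoeff
      (MvPolynomial.map (fixedEquiv I).toRingHom (Θ1 l)) = 0 := fun l => by
    rw [MvPolynomial.constantCoeff_map, hΘ1c l, map_zero]
  refine ⟨fun l => MvPolynomial.map (fixedEquiv I).symm.toRingHom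
    (MvPolynomial.bind₁ (fun j : Fin S.R1.dW => A1 (fixedSub I) rC0 rD0 (j : ℕ))
      (MvPolynomial.bind₁ (fun l' : Fin G.g => MvPolynomial.map (fixedEquiv I).toRingHom (Θ1 l'))
        (MvPolynomial.bind₁ (fun j : Fin S.R2.dW => A2 (fixedSub I) rC0' rD1 (j : ℕ))
          (MvPolynomial.map (fixedEquiv I).toRingHom (Θ2 l))))), ?_⟩
  intro x y d hx hy hd t ht hxt hyt hdt l
  obtain ⟨hW0, hWsp, hstep⟩ := exists_two_step S hx hy hd rfl
  obtain ⟨Ew, hEw0, hEwdeg, hEwp, hEwsp, hEwest⟩ := hΘ1 _ hW0 hWsp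
  obtain ⟨hW'0, hW'sp, hstep'⟩ := hstep Ew hEw0 hEwdeg hEwp hEwsp
  obtain ⟨Eout, hEo0, hEodeg, hEop, hEosp, hEoest⟩ := hΘ2 _ hW'0 hW'sp
  have hEE := hstep' Eout hEo0 hEodeg hEop hEosp
  -- the polynomials of the divisors
  have hPx : divPoly S.C.z (S.C.E x) = perturb (divPoly S.C.z S.C.D) (S.C.coord x) :=
    divPoly_eq_perturb (G := G) S.C.z (S.C.E_nonneg x hx) (S.C.E_deg x hx) S.C.D_nonneg S.C.D_deg
  have hPy : divPoly S.C.z (S.C.E y) = perturb (divPoly S.C.z S.C.D) (S.C.coord y) :=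
    divPoly_eq_perturb (G := G) S.C.z (S.C.E_nonneg y hy) (S.C.E_deg y hy) S.C.D_nonneg S.C.D_deg
  have hPd : divPoly S.C.z (S.C.E d) = perturb (divPoly S.C.z S.C.D) (S.C.coord d) :=
    divPoly_eq_perturb (G := G) S.C.z (S.C.E_nonneg d hd) (S.C.E_deg d hd) S.C.D_nonneg S.C.D_deg
  have hPw : divPoly S.C.z Ew = perturb (divPoly S.C.z S.R1.Dc)
      (fun l : Fin G.g => (divPoly S.C.z Ew).coeff l - (divPoly S.C.z S.R1.Dc).coeff l) :=
    divPoly_eq_perturb (G := G) S.C.z hEw0 hEwdeg S.R1.Dc_nonneg S.R1.Dc_deg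
  -- the parameters of the two stages
  have hA1 : ∀ j : ℕ, MvPolynomial.aeval
      (Sum.elim (S.C.coord x) (Sum.elim (S.C.coord y) (S.C.coord d))) (A1 (fixedSub I) rC0 rD0 j)
      = (divPoly S.C.z (S.C0 + S.C.E x + S.C.E y + S.C.E d)).coeff j
        - (divPoly S.C.z S.R1.W0).coeff j := by
    intro j
    rw [aeval_A1, hrC0, hrD0, ← hPx, ← hPy, ← hPd,
      ← divPoly_add_four S.C.z S.C0_nonneg (S.C.E_nonneg x hx) (S.C.E_nonneg y hy)
        (S.C.E_nonneg d hd),
      ← divPoly_add_three_nsmul S.C.z S.C0_nonneg S.C.D_nonneg, ← S.W1]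
  have hA2 : ∀ j : ℕ, MvPolynomial.aeval
      (fun l : Fin G.g => (divPoly S.C.z Ew).coeff l - (divPoly S.C.z S.R1.Dc).coeff l)
      (A2 (fixedSub I) rC0' rD1 j)
      = (divPoly S.C.z (S.C0' + Ew)).coeff j - (divPoly S.C.z S.R2.W0).coeff j := by
    intro j
    rw [aeval_A2, hrC0', hrD1, ← hPw, ← divPoly_add S.C.z S.C0'_nonneg hEw0,
      ← divPoly_add S.C.z S.C0'_nonneg S.R1.Dc_nonneg, ← S.W2]
  have hc : S.C.coord (x + y + d) l
      = (divPoly S.C.z Eout).coeff l - (divPoly S.C.z S.R2.Dc).coeff l := by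
    unfold ChartOut.coord
    rw [hEE, S.Dc2]
  -- composition
  have key := two_stage (P := A) (O := fixedSub I) (fixedSub_le I)
    (fun j : Fin S.R1.dW => A1 (fixedSub I) rC0 rD0 (j : ℕ))
    (fun j => constantCoeff_A1 (fixedSub I) rC0 rD0 (j : ℕ))
    (fun l' : Fin G.g => MvPolynomial.map (fixedEquiv I).toRingHom (Θ1 l')) hΘ1c'
    (fun j : Fin S.R2.dW => A2 (fixedSub I) rC0' rD1 (j : ℕ))
    (fun j => constantCoeff_A2 (fixedSub I) rC0' rD1 (j : ℕ))
    (MvPolynomial.map (fixedEquiv I).toRingHom (Θ2 l)) ht n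
    (x := Sum.elim (S.C.coord x) (Sum.elim (S.C.coord y) (S.C.coord d)))
    (fun s => by
      rcases s with s | s | s
      · exact hxt s
      · exact hyt s
      · exact hdt s)
    (b := fun l : Fin G.g => (divPoly S.C.z Ew).coeff l - (divPoly S.C.z S.R1.Dc).coeff l)
    (fun h1 l' => by
      have h1' : ∀ j : Fin S.R1.dW, DvdInA A t
          ((divPoly S.C.z (S.C0 + S.C.E x + S.C.E y + S.C.E d)).coeff j
            - (divPoly S.C.z S.R1.W0).coeff j) := fun j => by
        rw [← hA1 j]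
        exact h1 j
      have h2 := hEwest t ht h1' l'
      rw [aeval_map_of_compat _ (algebraMap_fixedEquiv I)]
      simp only [hA1]
      exact h2)
    (c := S.C.coord (x + y + d) l)
    (fun h1 => by
      have h1' : ∀ j : Fin S.R2.dW, DvdInA A t
          ((divPoly S.C.z (S.C0' + Ew)).coeff j - (divPoly S.C.z S.R2.W0).coeff j) := fun j => by
        rw [← hA2 j]
        exact h1 j
      have h2 := hEoest t ht h1' l
      rw [aeval_map_of_compat _ (algebraMap_fixedEquiv I), hc]
      simp only [hA2]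
      exact h2)
  rw [aeval_map_of_compat _ (algebraMap_fixedEquiv_symm I)]
  exact key


/-- **(L8a)** the abstract one-chart three-term group law from one chart and two residual
configurations. -/
def absSumChart (S : SumCfg I ρ) : AbsSumChart I ρ where
  X0 := S.C.coord
  X0_mem := fun x hx l => S.C.coord_mem x hx l
  X0_inj := fun x y hx hy h => S.C.coord_inj x y hx hy fun l => by
    have h2 : S.C.coord x l = S.C.coord y l := congrFun h l
    unfold ChartOut.coord at h2
    exact sub_left_injective h2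
  X0_smul := fun s hs x hx l => by
    obtain ⟨ha, hfix⟩ := S.C.rhoD_fixed (l : ℕ)
    have hfix' : SemilinearAut.baseAut s ((divPoly S.C.z S.C.D).coeff (l : ℕ))
        = (divPoly S.C.z S.C.D).coeff (l : ℕ) := hfix s hs
    unfold ChartOut.coord
    rw [S.C.coord_smul s hs x hx l, map_sub, hfix']
  sum3 := sum3_main S

@[simp] theorem absSumChart_X0 (S : SumCfg I ρ) : (absSumChart S).X0 = S.C.coord := rfl

end Fermat.Agent.S19x.Geo.Sum3
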