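/-
P-S19, BLOCK A, leaf (L8a), adapter (helper31): the configuration package of
`Geo/ConfigPackage.lean` gives the input `SumCfg` of `Geo/Sum3.lean` (forget the chart at `D₁`),
hence `ConfigPackage I ρ → AbsSumChart I ρ`.
-/
import Fermat.Agent.S19x.Geo.Sum3
import Fermat.Agent.S19x.Geo.ConfigPackage

set_option autoImplicit false
set_option linter.unusedSectionVars false
set_option linter.unusedVariables false

noncomputable section

namespace Fermat.Agent.S19x.Geo.Sum3

open AlgebraicCurve Polynomial
open Fermat.Agent.Gateway.Red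
open Fermat.Agent.S19x.Geo

universe u v w z

variable {K : Type u} [Field K] {A : ValuationSubring K}
  {F : Type v} [Field F] [Algebra K F] {O : ValuationSubring F}
  {k : Type w} {κ : Type z} [Field k] [Field κ] [Algebra k κ]
  {G : GeoSetting A O k κ} {I : InertiaData G} {ρ : RedMap G}

/-- the configuration package as an input of the three-term law (the chart at `D₁` is only used
for the fixedness of `ρ_{D₁}`) -/
def SumCfg.ofConfigPackage (C : ConfigPackage I ρ) : SumCfg I ρ where
  C := C.C0
  R1 := C.R1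
  R2 := C.R2
  C0 := C.Cf
  C0' := C.Cf'
  C0_nonneg := C.Cf_nonneg
  C0'_nonneg := C.Cf'_nonneg
  z1 := C.R1_z
  z2 := C.R2_z
  W1 := C.R1_W0
  W2 := by rw [C.R2_W0, C.R1_Dc]
  Dc2 := C.R2_Dc
  rhoC0_fixed := C.rhoCf_fixed
  rhoC0'_fixed := C.rhoCf'_fixed
  rhoD1_fixed := fun l => by
    rw [C.R1_Dc, ← C.z_eq]
    exact C.C1.rhoD_fixed l

@[simp] theorem SumCfg.ofConfigPackage_C (C : ConfigPackage I ρ) :
    (SumCfg.ofConfigPackage C).C = C.C0 := rfl

/-- **(L8a)** the abstract one-chart three-term group law of a configuration package. -/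
def absSumChartOfPackage (C : ConfigPackage I ρ) : AbsSumChart I ρ :=
  absSumChart (SumCfg.ofConfigPackage C)

@[simp] theorem absSumChartOfPackage_X0 (C : ConfigPackage I ρ) :
    (absSumChartOfPackage C).X0 = C.C0.coord := rfl

theorem nonempty_absSumChart (C : ConfigPackage I ρ) : Nonempty (AbsSumChart I ρ) :=
  ⟨absSumChartOfPackage C⟩

end Fermat.Agent.S19x.Geo.Sum3
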