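/-
P-S19, BLOCK A (architect helper22): `SumTarget` is a theorem (helper31's `Geo/Sum3` +
`Geo/Sum3Package`), hence `AbsTarget` follows from `ResidualTarget` alone.
-/
import Fermat.Agent.S19x.Geo.AbsMain
import Fermat.Agent.S19x.Geo.Sum3Package

set_option autoImplicit false

noncomputable section

namespace Fermat.Agent.S19x.Geo

/-- the sum leaf (L8a) is proved -/
theorem sumTarget : SumTarget := fun _ _ C => Sum3.nonempty_absSumChart C

/-- the abstract main theorem of BLOCK A from the Residual Theorem alone -/
theorem absTarget_of_residual (hres : ResidualTarget) : AbsTarget := absTarget_of hres sumTarget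

end Fermat.Agent.S19x.Geo
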