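import Fermat.Agent.S27x.Lift.NiceRep

/-!
# P-S19, block A (R4): generic choices on the special fibre, any characteristic

`κ / k` a function field of one variable over an algebraically closed field `k` of ARBITRARY
characteristic, given through the hypothesis bundle

* `[HasPrincipalDivisors k κ] [∀ v, v.FiniteResidue] [Nonempty (Place k κ)] [IsAlgClosed k]`,
* `hγ : ∃ γ, ∀ D, rr D ≤ γ` (Riemann's inequality),

(to be discharged for the residue function field of the Gauss valuation from
`Lib/RiemannRoch/RiemannRochSep`).  This is the characteristic free copy of the part of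
`S27x/Lift/NiceRep.lean` which was typed `[CharZero k]` through the `_cz` shortcuts:

* `deg_eq_one`, `exists_place_notMem`, `exists_finset_disjoint`;
* `riemannRoch_alg` : the Riemann-Roch theorem in the bundle;
* `exists_nonspecial`, `exists_nonspecial_family` : (families of pairwise disjoint) non special
  sets of `g` points off a given finite set;
* `ell_eq_of_le_degree`, `sup_eq_top_of_lt_degree` : explicit bounds `deg D ≥ 2g - 1`;
* `exists_function_exact_order` : base point freeness for `deg D ≥ 2g`, function form;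
* `exists_member_avoiding` : for `deg D ≥ 2g` the class of `D` contains an effective divisor
  avoiding a given finite set;
* `exists_approx_pole` : strong approximation with poles at ONE prescribed place;
* `exists_unramified_function` : a function with poles only at `P`, with prescribed values and
  unramified at finitely many given places.
-/

set_option autoImplicit false
set_option linter.unusedSectionVars false
set_option linter.style.haveILetI false

noncomputable section

open AlgebraicCurve WithZero Module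

namespace Fermat.Agent.S19x.Geo.NiceRepL

open Fermat.Agent.Lib.RiemannRoch Fermat.Agent.S27x.Lift.NiceRep

variable {k κ : Type*} [Field k] [Field κ] [Algebra k κ]
  [HasPrincipalDivisors k κ] [∀ v : Place k κ, v.FiniteResidue] [Nonempty (Place k κ)]
  [IsAlgClosed k]

/-- Over an algebraically closed constant field all places have degree one. -/
theorem deg_eq_one (v : Place k κ) : v.deg = 1 := by
  haveI := (inferInstance : v.FiniteResidue).finite
  exact v.deg_eq_one_of_isAlgClosed_of_finite

section Bundle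

variable (hγ : ∃ γ : ℤ, ∀ D : Divisor k κ, rr D ≤ γ)
include hγ

/-- **Riemann-Roch** in the hypothesis bundle: a canonical divisor `W` of degree `2g - 2` with
`l(W) = g`, `i(D) = l(W - D)` and `l(D) = deg D + 1 - g + l(W - D)`. -/
theorem riemannRoch_alg :
    ∃ W : Divisor k κ, Divisor.degree W = 2 * (genusFF k κ : ℤ) - 2 ∧
      finrank k (riemannRochSpace W) = genusFF k κ ∧
      ∀ D : Divisor k κ, Module.Finite k (riemannRochSpace D) ∧ Module.Finite k (H1 D) ∧
        finrank k (H1 D) = finrank k (riemannRochSpace (W - D)) ∧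
        (finrank k (riemannRochSpace D) : ℤ) =
          Divisor.degree D + 1 - genusFF k κ + finrank k (riemannRochSpace (W - D)) := by
  obtain ⟨W, h1, h2, h3, h4⟩ := exists_riemannRoch hγ
  rw [ell_zero_eq_one] at h4
  refine ⟨W, by simpa using h4, h3, fun D => ⟨finite_riemannRochSpace D, finite_H1 hγ D, h1 D, ?_⟩⟩
  have := h2 D
  rw [ell_zero_eq_one] at this
  exact_mod_cast this

/-- There are places outside any finite set. -/
theorem exists_place_notMem (T : Finset (Place k κ)) : ∃ Q : Place k κ, Q ∉ T := by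
  classical
  obtain ⟨P⟩ := (inferInstance : Nonempty (Place k κ))
  obtain ⟨e₀, he₀⟩ := Moving.exists_effective_avoiding hγ (insert P T) P (0 : Divisor k κ)
  obtain ⟨E, f, -, -, hEB, hE⟩ := he₀ (max e₀ 1) (le_max_left _ _)
  by_contra hcon
  have hall : ∀ Q : Place k κ, Q ∈ T := fun Q => by
    by_contra hQ
    exact hcon ⟨Q, hQ⟩
  have hEz : E = 0 := by
    ext v
    exact hEB v (Finset.mem_insert_of_mem (hall v))
  have hdeg : Divisor.degree E = ((max e₀ 1 : ℕ) : ℤ) := by
    rw [hE, map_add, map_add, map_zero, zero_add, Divisor.degree_single, deg_eq_one P,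
      degree_divOf]
    simp
  rw [hEz, map_zero] at hdeg
  have h1 : (1 : ℤ) ≤ ((max e₀ 1 : ℕ) : ℤ) := by exact_mod_cast le_max_right e₀ 1
  omega

/-- There are `m` distinct places outside any finite set. -/
theorem exists_finset_disjoint (T : Finset (Place k κ)) (m : ℕ) :
    ∃ U : Finset (Place k κ), U.card = m ∧ Disjoint U T := by
  classical
  induction m with
  | zero => exact ⟨∅, Finset.card_empty, Finset.disjoint_empty_left _⟩
  | succ m ih =>
    obtain ⟨U, hU, hUT⟩ := ih
    obtain ⟨Q, hQ⟩ := exists_place_notMem hγ (U ∪ T)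
    rw [Finset.mem_union, not_or] at hQ
    refine ⟨insert Q U, by rw [Finset.card_insert_of_notMem hQ.1, hU], ?_⟩
    rw [Finset.disjoint_insert_left]
    exact ⟨hQ.2, hUT⟩

/-! ### Non special sets of points -/

/-- For every `j ≤ g` there are `j` distinct points, outside a given finite set, whose sum `D`
has `l(D) = 1`. -/
theorem exists_nonspecial (T : Finset (Place k κ)) (j : ℕ) (hj : j ≤ genusFF k κ) :
    ∃ U : Finset (Place k κ), U.card = j ∧ Disjoint U T ∧
      finrank k (riemannRochSpace (finDiv U)) = 1 := by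
  classical
  obtain ⟨W, -, -, hRR⟩ := riemannRoch_alg hγ
  induction j with
  | zero =>
    refine ⟨∅, Finset.card_empty, Finset.disjoint_empty_left _, ?_⟩
    rw [finDiv_empty]
    exact ell_zero_eq_one
  | succ j ih =>
    obtain ⟨U, hUc, hUT, hU1⟩ := ih (Nat.le_of_succ_le hj)
    have hdegU : Divisor.degree (finDiv U) = (j : ℤ) := by
      rw [degree_finDiv deg_eq_one, hUc]
    -- `l(W - D) = g - j ≥ 1`
    have h4 := (hRR (finDiv U)).2.2.2
    rw [hU1, hdegU] at h4
    have hpos : 0 < finrank k (riemannRochSpace (W - finDiv U)) := by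
      have : (j : ℤ) + 1 ≤ genusFF k κ := by exact_mod_cast hj
      have : (0 : ℤ) < finrank k (riemannRochSpace (W - finDiv U)) := by
        push_cast at h4
        linarith
      exact_mod_cast this
    haveI : Nontrivial ↥(riemannRochSpace (W - finDiv U)) := Module.finrank_pos_iff.mp hpos
    obtain ⟨ω, hω⟩ := exists_ne (0 : ↥(riemannRochSpace (W - finDiv U)))
    have hω0 : (ω : κ) ≠ 0 := fun h => hω (Subtype.ext h)
    -- choose the new point
    obtain ⟨Q, hQ⟩ := exists_place_notMem hγ
      (T ∪ U ∪ (W - finDiv U).support ∪ (divOf (K := k) (ω : κ)).support)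
    simp only [Finset.mem_union, not_or, Finsupp.mem_support_iff, not_not] at hQ
    obtain ⟨⟨⟨hQT, hQU⟩, hQW⟩, hQω⟩ := hQ
    rw [divOf_apply hω0] at hQω
    refine ⟨insert Q U, by rw [Finset.card_insert_of_notMem hQU, hUc], ?_, ?_⟩
    · rw [Finset.disjoint_insert_left]
      exact ⟨hQT, hUT⟩
    -- `ω ∉ L(W - D - Q)`
    have hnot : (ω : κ) ∉ riemannRochSpace (W - finDiv U - Finsupp.single Q 1) := by
      intro hmem
      have := (mem_riemannRochSpace_iff.mp hmem Q).resolve_left hω0
      rw [Finsupp.sub_apply, hQW, Finsupp.single_eq_same, hQω] at this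
      omega
    have hle : riemannRochSpace (W - finDiv U - Finsupp.single Q 1) ≤
        riemannRochSpace (W - finDiv U) := Moving.riemannRochSpace_mono' (by
      intro v
      rw [Finsupp.sub_apply]
      have : (0 : ℤ) ≤ Finsupp.single Q (1 : ℤ) v := Finsupp.single_nonneg.mpr zero_le_one v
      omega)
    have hlt : riemannRochSpace (W - finDiv U - Finsupp.single Q 1) <
        riemannRochSpace (W - finDiv U) :=
      lt_of_le_of_ne hle (fun h => hnot (by rw [h]; exact ω.2))
    haveI := (hRR (W - finDiv U)).1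
    have hfl := Submodule.finrank_lt_finrank_of_lt hlt
    -- Riemann-Roch for `D + Q`
    have h4' := (hRR (finDiv (insert Q U))).2.2.2
    have hdeg' : Divisor.degree (finDiv (insert Q U)) = (j : ℤ) + 1 := by
      rw [degree_finDiv deg_eq_one, Finset.card_insert_of_notMem hQU, hUc]
      push_cast
      ring
    have hW' : W - finDiv (insert Q U) = W - finDiv U - Finsupp.single Q 1 := by
      rw [finDiv_insert hQU]
      abel
    rw [hdeg', hW'] at h4'
    -- lower bound: `L(0) ≤ L(D + Q)`
    have hmono : riemannRochSpace (0 : Divisor k κ) ≤ riemannRochSpace (finDiv (insert Q U)) :=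
      Moving.riemannRochSpace_mono' (finDiv_nonneg _)
    haveI := (hRR (finDiv (insert Q U))).1
    have hge := Submodule.finrank_mono hmono
    have h0 : finrank k (riemannRochSpace (0 : Divisor k κ)) = 1 := ell_zero_eq_one
    rw [h0] at hge
    have hup : (finrank k (riemannRochSpace (finDiv (insert Q U))) : ℤ) ≤ 1 := by
      have h5 : (finrank k (riemannRochSpace (W - finDiv U - Finsupp.single Q 1)) : ℤ) + 1 ≤
          finrank k (riemannRochSpace (W - finDiv U)) := by exact_mod_cast hfl
      push_cast at h4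
      linarith
    have hup' : finrank k (riemannRochSpace (finDiv (insert Q U))) ≤ 1 := by exact_mod_cast hup
    omega


/-- `n` pairwise disjoint non special sets of `g` points, off a given finite set. -/
theorem exists_nonspecial_family (T : Finset (Place k κ)) (n : ℕ) :
    ∃ U : Fin n → Finset (Place k κ),
      (∀ i, (U i).card = genusFF k κ ∧ Disjoint (U i) T ∧
        finrank k (riemannRochSpace (finDiv (U i))) = 1) ∧
      ∀ i j, i ≠ j → Disjoint (U i) (U j) := by
  classical
  induction n with
  | zero => exact ⟨Fin.elim0, fun i => i.elim0, fun i => i.elim0⟩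
  | succ n ih =>
    obtain ⟨U, hU, hUd⟩ := ih
    obtain ⟨V, hVc, hVT, hV1⟩ := exists_nonspecial hγ (T ∪ Finset.univ.biUnion U)
      (genusFF k κ) le_rfl
    rw [Finset.disjoint_union_right] at hVT
    have hVU : ∀ i, Disjoint V (U i) := fun i =>
      Finset.disjoint_of_subset_right (Finset.subset_biUnion_of_mem U (Finset.mem_univ i)) hVT.2
    refine ⟨Fin.snoc (α := fun _ => Finset (Place k κ)) U V, ?_, ?_⟩
    · intro i
      refine Fin.lastCases ?_ (fun i => ?_) i
      · rw [Fin.snoc_last]
        exact ⟨hVc, hVT.1, hV1⟩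
      · rw [Fin.snoc_castSucc]
        exact hU i
    · intro i j
      refine Fin.lastCases ?_ (fun i => ?_) i
      · refine Fin.lastCases ?_ (fun j => ?_) j
        · intro h
          exact absurd rfl h
        · intro _
          rw [Fin.snoc_last, Fin.snoc_castSucc]
          exact hVU j
      · refine Fin.lastCases ?_ (fun j => ?_) j
        · intro _
          rw [Fin.snoc_last, Fin.snoc_castSucc]
          exact (hVU i).symm
        · intro h
          rw [Fin.snoc_castSucc, Fin.snoc_castSucc]
          exact hUd i j (fun hij => h (by rw [hij]))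

/-! ### Explicit bounds from Riemann-Roch -/

/-- `l(D) = deg D + 1 - g` as soon as `deg D ≥ 2g - 1`. -/
theorem ell_eq_of_le_degree {D : Divisor k κ}
    (hD : 2 * (genusFF k κ : ℤ) - 1 ≤ Divisor.degree D) :
    (finrank k (riemannRochSpace D) : ℤ) = Divisor.degree D + 1 - genusFF k κ := by
  obtain ⟨W, hW, -, h⟩ := riemannRoch_alg hγ
  obtain ⟨-, -, -, h4⟩ := h D
  have h0 : riemannRochSpace (W - D) = ⊥ :=
    riemannRochSpace_eq_bot_of_degree_neg (by rw [map_sub]; linarith)
  rw [h0, finrank_bot] at h4
  simpa using h4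

/-- `A = A(D) + κ` as soon as `deg D ≥ 2g - 1`. -/
theorem sup_eq_top_of_le_degree {D : Divisor k κ}
    (hD : 2 * (genusFF k κ : ℤ) - 1 ≤ Divisor.degree D) :
    repartitionsOf D ⊔ principalRepartitions k κ = ⊤ := by
  obtain ⟨W, hW, -, h⟩ := riemannRoch_alg hγ
  obtain ⟨-, hfin, h3, -⟩ := h D
  have h0 : riemannRochSpace (W - D) = ⊥ :=
    riemannRochSpace_eq_bot_of_degree_neg (by rw [map_sub]; linarith)
  rw [h0, finrank_bot] at h3
  haveI := hfin
  have hsub : Subsingleton (H1 D) := Module.finrank_zero_iff.mp h3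
  exact Submodule.Quotient.subsingleton_iff.mp hsub

/-- For `deg D ≥ 2g`, `L(D - Q)` is a proper subspace of `L(D)`. -/
theorem riemannRochSpace_sub_single_ne {D : Divisor k κ}
    (hD : 2 * (genusFF k κ : ℤ) ≤ Divisor.degree D) (Q : Place k κ) :
    riemannRochSpace (D - Finsupp.single Q 1) ≠ riemannRochSpace D := by
  intro heq
  have h1 := ell_eq_of_le_degree hγ (D := D) (by linarith)
  have h2 := ell_eq_of_le_degree hγ (D := D - Finsupp.single Q 1)
    (by rw [map_sub, Divisor.degree_single, deg_eq_one Q]; push_cast; linarith)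
  rw [map_sub, Divisor.degree_single, deg_eq_one Q, heq] at h2
  push_cast at h2
  linarith

/-- **Base point freeness, function form**: for `deg D ≥ 2g` and a finite set `B` of places
there is `f ∈ L(D)`, `f ≠ 0`, with `ord_Q f = -D(Q)` for every `Q ∈ B`. -/
theorem exists_function_exact_order (B : Finset (Place k κ)) (D : Divisor k κ)
    (hD : 2 * (genusFF k κ : ℤ) ≤ Divisor.degree D) :
    ∃ f : κ, f ≠ 0 ∧ f ∈ riemannRochSpace D ∧ ∀ Q ∈ B, Q.ord f = -D Q := by
  classical
  have hell : 1 ≤ finrank k (riemannRochSpace D) := by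
    have h1 := ell_eq_of_le_degree hγ (D := D) (by linarith)
    have : (1 : ℤ) ≤ finrank k (riemannRochSpace D) := by linarith
    exact_mod_cast this
  have hnontriv : Nontrivial ↥(riemannRochSpace D) := Module.finrank_pos_iff.mp hell
  set S : Place k κ → Subspace k ↥(riemannRochSpace D) := fun Q =>
    (riemannRochSpace (D - Finsupp.single Q 1)).comap (riemannRochSpace D).subtype with hS
  have hle : ∀ Q : Place k κ, riemannRochSpace (D - Finsupp.single Q 1) ≤ riemannRochSpace D :=
    fun Q => Moving.riemannRochSpace_mono' (by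
      intro v
      rw [Finsupp.sub_apply]
      have : (0 : ℤ) ≤ Finsupp.single Q (1 : ℤ) v := Finsupp.single_nonneg.mpr zero_le_one v
      omega)
  have hSne : ∀ Q ∈ B, S Q ≠ ⊤ := by
    intro Q _ htop
    apply riemannRochSpace_sub_single_ne hγ hD Q
    refine le_antisymm (hle Q) fun f hf => ?_
    have : (⟨f, hf⟩ : ↥(riemannRochSpace D)) ∈ S Q := by rw [htop]; exact Submodule.mem_top
    exact this
  set s : Finset (Subspace k ↥(riemannRochSpace D)) := insert ⊥ (B.image S) with hs
  have htop : (⊤ : Subspace k ↥(riemannRochSpace D)) ∉ s := by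
    rw [hs, Finset.mem_insert, Finset.mem_image]
    rintro (h | ⟨Q, hQ, h⟩)
    · exact top_ne_bot h
    · exact hSne Q hQ h
  have hcov := Subspace.biUnion_ne_univ_of_top_notMem htop
  obtain ⟨f, hf⟩ : ∃ f : ↥(riemannRochSpace D), f ∉ ⋃ p ∈ s, (p : Set ↥(riemannRochSpace D)) := by
    by_contra hcon
    apply hcov
    ext f
    simp only [Set.mem_univ, iff_true]
    by_contra hf
    exact hcon ⟨f, hf⟩
  simp only [Set.mem_iUnion, not_exists] at hf
  have hfbot : f ≠ 0 := fun h0 => hf ⊥ (by rw [hs]; exact Finset.mem_insert_self _ _)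
    (by rw [h0]; exact Submodule.zero_mem _)
  refine ⟨f, fun h0 => hfbot (Subtype.ext h0), f.2, fun Q hQ => ?_⟩
  have hnot : (f : κ) ∉ riemannRochSpace (D - Finsupp.single Q 1) := by
    intro hmem
    exact hf (S Q) (by rw [hs]; exact Finset.mem_insert_of_mem (Finset.mem_image_of_mem S hQ)) hmem
  exact (Moving.ord_eq_of_not_mem f.2 hnot).2

/-- **Base point freeness, divisor form**: for `deg D ≥ 2g` the class of `D` contains an
effective divisor `E = D + div f` vanishing on a given finite set `B`. -/
theorem exists_member_avoiding (B : Finset (Place k κ)) (D : Divisor k κ)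
    (hD : 2 * (genusFF k κ : ℤ) ≤ Divisor.degree D) :
    ∃ (E : Divisor k κ) (f : κ), f ≠ 0 ∧ f ∈ riemannRochSpace D ∧ 0 ≤ E ∧
      (∀ Q ∈ B, E Q = 0) ∧ E = D + divOf (K := k) f ∧
      Divisor.degree E = Divisor.degree D := by
  obtain ⟨f, hf0, hf, hord⟩ := exists_function_exact_order hγ B D hD
  refine ⟨D + divOf (K := k) f, f, hf0, hf, add_divOf_nonneg hf0 hf, fun Q hQ => ?_, rfl, ?_⟩
  · rw [Finsupp.add_apply, divOf_apply hf0, hord Q hQ]
    ring
  · rw [map_add, degree_divOf, add_zero]

/-! ### Strong approximation with poles at one prescribed place -/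

/-- **Strong approximation with one pole**: prescribed Taylor expansions `a Q` to order `n Q` at
the places `Q` of a finite set `U`, integrality elsewhere, except for a pole of order at most
`e` at the place `P ∉ U`, as soon as `e ≥ 2g - 1 + ∑ n Q`. -/
theorem exists_approx_pole (U : Finset (Place k κ)) (P : Place k κ) (hP : P ∉ U)
    (a : Place k κ → κ) (n : Place k κ → ℤ) (e : ℤ)
    (he : 2 * (genusFF k κ : ℤ) - 1 + ∑ Q ∈ U, n Q ≤ e) :
    ∃ z : κ, (∀ Q ∈ U, z = a Q ∨ n Q ≤ Q.ord (z - a Q)) ∧
      (∀ v : Place k κ, v ∉ U → v ≠ P → z = 0 ∨ 0 ≤ v.ord z) ∧ (z = 0 ∨ -e ≤ P.ord z) := by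
  classical
  set D : Divisor k κ := Finsupp.single P e - ∑ Q ∈ U, Finsupp.single Q (n Q) with hDdef
  have hDP : D P = e := by
    rw [hDdef, Finsupp.sub_apply, Finsupp.single_eq_same, Finsupp.finsetSum_apply]
    rw [Finset.sum_eq_zero, sub_zero]
    intro Q hQ
    rw [Finsupp.single_apply, if_neg]
    rintro rfl
    exact hP hQ
  have hDU : ∀ Q ∈ U, D Q = -n Q := by
    intro Q hQ
    rw [hDdef, Finsupp.sub_apply, Finsupp.finsetSum_apply, Finsupp.single_apply, if_neg, zero_sub]
    · congr 1
      rw [Finset.sum_eq_single Q, Finsupp.single_eq_same]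
      · intro Q' _ hne
        rw [Finsupp.single_apply, if_neg hne]
      · intro h
        exact absurd hQ h
    · rintro rfl
      exact hP hQ
  have hDo : ∀ v : Place k κ, v ∉ U → v ≠ P → D v = 0 := by
    intro v hv hvP
    rw [hDdef, Finsupp.sub_apply, Finsupp.finsetSum_apply, Finsupp.single_apply,
      if_neg (Ne.symm hvP), zero_sub, neg_eq_zero]
    apply Finset.sum_eq_zero
    intro Q hQ
    rw [Finsupp.single_apply, if_neg]
    rintro rfl
    exact hv hQ
  have hdegD : Divisor.degree D = e - ∑ Q ∈ U, n Q := by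
    rw [hDdef, map_sub, map_sum, Divisor.degree_single, deg_eq_one P]
    simp only [Divisor.degree_single, deg_eq_one, Nat.cast_one, mul_one]
  have htop := sup_eq_top_of_le_degree hγ (D := D) (by rw [hdegD]; linarith)
  -- the repartition
  set α : Place k κ → κ := fun v => if v ∈ U then a v else 0 with hα
  have hαmem : α ∈ repartitions k κ := by
    apply mem_repartitions_of_finite_ord
    refine U.finite_toSet.subset fun v hv => ?_
    by_contra hvU
    simp only [Finset.mem_coe] at hvU
    have hv' : v.ord (α v) < 0 := hv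
    rw [hα] at hv'
    simp only [if_neg hvU, Place.ord_zero, lt_self_iff_false] at hv'
  have hmem : (⟨α, hαmem⟩ : ↥(repartitions k κ)) ∈
      repartitionsOf D ⊔ principalRepartitions k κ := by
    rw [htop]
    exact Submodule.mem_top
  obtain ⟨β, hβ, γ, hγ', hsum⟩ := Submodule.mem_sup.mp hmem
  obtain ⟨z, hz⟩ := mem_principalRepartitions_iff.mp hγ'
  rw [mem_repartitionsOf_iff] at hβ
  have hpt : ∀ v : Place k κ, (β : Place k κ → κ) v + z = α v := by
    intro v
    have h1 := congrArg (fun x : ↥(repartitions k κ) => (x : Place k κ → κ) v) hsum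
    simp only at h1
    have h2 : ((β + γ : ↥(repartitions k κ)) : Place k κ → κ) v =
        (β : Place k κ → κ) v + (γ : Place k κ → κ) v := rfl
    rw [h2, hz] at h1
    exact h1
  refine ⟨z, fun Q hQ => ?_, fun v hv hvP => ?_, ?_⟩
  · have h1 := hpt Q
    rw [hα] at h1
    simp only [if_pos hQ] at h1
    have h2 : z - a Q = -(β : Place k κ → κ) Q := by rw [← h1]; ring
    by_cases hb : (β : Place k κ → κ) Q = 0
    · left
      rw [hb, neg_zero, sub_eq_zero] at h2
      exact h2
    · right
      have h0 := (hβ Q).resolve_left hb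
      rw [h2, (Fermat.Agent.S24.isAddVal_ord Q).map_neg hb]
      rw [hDU Q hQ, neg_neg] at h0
      exact h0
  · have h1 := hpt v
    rw [hα] at h1
    simp only [if_neg hv] at h1
    have h2 : z = -(β : Place k κ → κ) v := by
      have : (β : Place k κ → κ) v + z = 0 := h1
      linear_combination this
    rcases hβ v with h0 | h0
    · left
      rw [h2, h0, neg_zero]
    · by_cases hb : (β : Place k κ → κ) v = 0
      · left
        rw [h2, hb, neg_zero]
      · right
        rw [h2, (Fermat.Agent.S24.isAddVal_ord v).map_neg hb]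
        rw [hDo v hv hvP, neg_zero] at h0
        exact h0
  · have h1 := hpt P
    rw [hα] at h1
    simp only [if_neg hP] at h1
    have h2 : z = -(β : Place k κ → κ) P := by
      have : (β : Place k κ → κ) P + z = 0 := h1
      linear_combination this
    rcases hβ P with h0 | h0
    · left
      rw [h2, h0, neg_zero]
    · by_cases hb : (β : Place k κ → κ) P = 0
      · left
        rw [h2, hb, neg_zero]
      · right
        rw [h2, (Fermat.Agent.S24.isAddVal_ord P).map_neg hb]
        rw [hDP] at h0
        exact h0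


/-! ### A function with one pole, prescribed values and unramified at finitely many points -/

omit hγ in
theorem ord_unif (v : Place k κ) : v.ord (unif v) = 1 := by
  have h1 := adicValuation_unif v
  rw [v.adicValuation_eq_exp_neg_ord (unif_ne_zero v), exp_inj] at h1
  omega

omit hγ in
/-- Pairwise distinct values on a finite set of places (the constant field is infinite). -/
theorem exists_injOn_val (U : Finset (Place k κ)) :
    ∃ val : Place k κ → k, Set.InjOn val (U : Set (Place k κ)) := by
  classical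
  refine ⟨fun Q => if hQ : Q ∈ U then
    Infinite.natEmbedding k ((U.equivFin ⟨Q, hQ⟩ : Fin U.card) : ℕ) else 0, ?_⟩
  intro Q hQ Q' hQ' h
  have hQ1 : Q ∈ U := Finset.mem_coe.mp hQ
  have hQ2 : Q' ∈ U := Finset.mem_coe.mp hQ'
  simp only [dif_pos hQ1, dif_pos hQ2] at h
  have h1 := Fin.val_injective ((Infinite.natEmbedding k).injective h)
  have h2 := U.equivFin.injective h1
  exact congrArg Subtype.val h2

/-- A function `z ∈ L(e P)` (poles only at `P`) which at every point `Q` of a finite set `U`
of places, `P ∉ U`, takes the prescribed value `val Q` with multiplicity one, for every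
`e ≥ 2g - 1 + 2 #U`. -/
theorem exists_unramified_function (U : Finset (Place k κ)) (P : Place k κ) (hP : P ∉ U)
    (val : Place k κ → k) (e : ℤ)
    (he : 2 * (genusFF k κ : ℤ) - 1 + 2 * U.card ≤ e) :
    ∃ z : κ, z ∈ riemannRochSpace (Finsupp.single P e) ∧
      ∀ Q ∈ U, Q.ord (z - algebraMap k κ (val Q)) = 1 := by
  classical
  obtain ⟨z, hz1, hz2, hz3⟩ := exists_approx_pole hγ U P hP
    (fun v => algebraMap k κ (val v) + unif v) (fun _ => 2) e
    (by rw [Finset.sum_const, nsmul_eq_mul]; linarith)
  have hzord : ∀ Q ∈ U, Q.ord (z - algebraMap k κ (val Q)) = 1 := by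
    intro Q hQ
    rcases hz1 Q hQ with h | h
    · rw [h, add_sub_cancel_left]
      exact ord_unif Q
    · have hdecomp : z - algebraMap k κ (val Q) =
          unif Q + (z - (algebraMap k κ (val Q) + unif Q)) := by ring
      by_cases h0 : z - (algebraMap k κ (val Q) + unif Q) = 0
      · rw [hdecomp, h0, add_zero]
        exact ord_unif Q
      · rw [hdecomp, (Fermat.Agent.S24.isAddVal_ord Q).map_add_of_lt (unif_ne_zero Q) h0
          (by rw [ord_unif Q]; omega)]
        exact ord_unif Q
  refine ⟨z, ?_, hzord⟩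
  rw [mem_riemannRochSpace_iff]
  intro v
  by_cases hz0 : z = 0
  · exact Or.inl hz0
  right
  by_cases hvP : v = P
  · subst hvP
    rw [Finsupp.single_eq_same]
    exact hz3.resolve_left hz0
  rw [Finsupp.single_apply, if_neg (Ne.symm hvP), neg_zero]
  by_cases hvU : v ∈ U
  · rw [← Fermat.Agent.S24.place_mem_iff_ord_nonneg v hz0]
    have hne : z - algebraMap k κ (val v) ≠ 0 := by
      intro h0
      have := hzord v hvU
      rw [h0, v.ord_zero] at this
      omega
    have h1 : z - algebraMap k κ (val v) ∈ v.toValuationSubring :=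
      (Fermat.Agent.S24.place_mem_iff_ord_nonneg v hne).mpr (by rw [hzord v hvU]; omega)
    have h2 : algebraMap k κ (val v) ∈ v.toValuationSubring := v.algebraMap_mem' _
    have h3 : z = (z - algebraMap k κ (val v)) + algebraMap k κ (val v) := by ring
    rw [h3]
    exact add_mem h1 h2
  · exact (hz2 v hvU hvP).resolve_left hz0


omit hγ in
/-- An effective divisor has at most `deg` points. -/
theorem card_support_le_degree {C : Divisor k κ} (hC : 0 ≤ C) :
    (C.support.card : ℤ) ≤ Divisor.degree C := by
  have h : Divisor.degree C = ∑ v ∈ C.support, C v := by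
    simp [Divisor.degree, Finsupp.liftAddHom_apply, Finsupp.sum, deg_eq_one]
  rw [h, Finset.card_eq_sum_ones, Nat.cast_sum]
  apply Finset.sum_le_sum
  intro v hv
  have h1 : (0 : ℤ) ≤ C v := hC v
  have h2 := Finsupp.mem_support_iff.mp hv
  push_cast
  omega

end Bundle

/-! ### The special fibre part of the two configurations `Cfg1`, `Cfg2` of note 1795 -/

/-- **Special fibre base configuration** (note 1795, section 1).  `oo` the distinguished place,
`m`, `m'` the pole orders of the two base functions, `e` the pole order of `z`.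

* `D0`, `D1` : disjoint non special sets of `g` places, off `oo`;
* `u0` : `div u0 = C0 + 3 D0 + D1 - m oo` with `C0 ≥ 0` disjoint from `D0`, `D1`, `oo`
  (`Cfg1` : `μ = C0 + 3 D0`, `Uvar = D1`);
* `u0'` : `div u0' = C0' + D1 + D0 - m' oo` with `C0' ≥ 0` disjoint from `D0`, `D1`, `oo`
  (`Cfg2` : `μ = C0' + D1`, `Uvar = D0`);
* `z ∈ L(e oo)` takes pairwise distinct values `val Q`, with multiplicity one, at all the points
  of `D0`, `D1`, `supp C0`, `supp C0'`. -/
structure BaseCfg (oo : Place k κ) (m m' : ℕ) (e : ℤ) where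
  /-- the base divisor of the chart -/
  D0 : Finset (Place k κ)
  /-- the auxiliary base divisor -/
  D1 : Finset (Place k κ)
  /-- the residual fixed part of `Cfg1` -/
  C0 : Divisor k κ
  /-- the residual fixed part of `Cfg2` -/
  C0' : Divisor k κ
  /-- the base function of `Cfg1` -/
  u0 : κ
  /-- the base function of `Cfg2` -/
  u0' : κ
  /-- the coordinate function -/
  z : κ
  /-- the values of `z` -/
  val : Place k κ → k
  card_D0 : D0.card = genusFF k κ
  card_D1 : D1.card = genusFF k κ
  disjoint_D0_D1 : Disjoint D0 D1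
  oo_notMem_D0 : oo ∉ D0
  oo_notMem_D1 : oo ∉ D1
  nonspecial_D0 : finrank k (riemannRochSpace (finDiv D0)) = 1
  nonspecial_D1 : finrank k (riemannRochSpace (finDiv D1)) = 1
  C0_nonneg : 0 ≤ C0
  C0'_nonneg : 0 ≤ C0'
  C0_eq_zero : ∀ Q : Place k κ, Q ∈ D0 ∨ Q ∈ D1 ∨ Q = oo → C0 Q = 0
  C0'_eq_zero : ∀ Q : Place k κ, Q ∈ D0 ∨ Q ∈ D1 ∨ Q = oo → C0' Q = 0
  u0_ne_zero : u0 ≠ 0
  u0'_ne_zero : u0' ≠ 0
  ord_u0 : ∀ v : Place k κ, v.ord u0 =
    C0 v + 3 * finDiv D0 v + finDiv D1 v - (m : ℤ) * Finsupp.single oo (1 : ℤ) v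
  ord_u0' : ∀ v : Place k κ, v.ord u0' =
    C0' v + finDiv D1 v + finDiv D0 v - (m' : ℤ) * Finsupp.single oo (1 : ℤ) v
  z_mem : z ∈ riemannRochSpace (Finsupp.single oo e)
  val_injOn : Set.InjOn val
    {Q : Place k κ | Q ∈ D0 ∨ Q ∈ D1 ∨ Q ∈ C0.support ∨ Q ∈ C0'.support}
  ord_z : ∀ Q : Place k κ, Q ∈ D0 ∨ Q ∈ D1 ∨ Q ∈ C0.support ∨ Q ∈ C0'.support →
    Q.ord (z - algebraMap k κ (val Q)) = 1

/-- **Existence of the special fibre base configuration**, avoiding a given finite set `S`,
for all `m ≥ 6g`, `m' ≥ 4g`, `e ≥ 2 (m + m')`. -/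
theorem nonempty_baseCfg (hγ : ∃ γ : ℤ, ∀ D : Divisor k κ, rr D ≤ γ)
    (oo : Place k κ) (S : Finset (Place k κ)) (m m' : ℕ)
    (hm : 6 * genusFF k κ ≤ m) (hm' : 4 * genusFF k κ ≤ m') (e : ℤ)
    (he : 2 * ((m : ℤ) + m') ≤ e) :
    ∃ c : BaseCfg (k := k) (κ := κ) oo m m' e, Disjoint c.D0 S ∧ Disjoint c.D1 S ∧
      ∀ Q ∈ S, c.C0 Q = 0 ∧ c.C0' Q = 0 := by
  classical
  set g := genusFF k κ with hg
  -- the two non special sets
  obtain ⟨U, hU, hUd⟩ := exists_nonspecial_family hγ (insert oo S) 2
  obtain ⟨h0c, h0T, h0n⟩ := hU 0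
  obtain ⟨h1c, h1T, h1n⟩ := hU 1
  set D0 := U 0 with hD0
  set D1 := U 1 with hD1
  have h01 : Disjoint D0 D1 := hUd 0 1 (by decide)
  have hoo0 : oo ∉ D0 := fun h => Finset.disjoint_left.mp h0T h (Finset.mem_insert_self _ _)
  have hoo1 : oo ∉ D1 := fun h => Finset.disjoint_left.mp h1T h (Finset.mem_insert_self _ _)
  have h0S : Disjoint D0 S :=
    Finset.disjoint_of_subset_right (Finset.subset_insert _ _) h0T
  have h1S : Disjoint D1 S :=
    Finset.disjoint_of_subset_right (Finset.subset_insert _ _) h1T
  set B : Finset (Place k κ) := D0 ∪ D1 ∪ insert oo S with hB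
  have hBmem : ∀ Q : Place k κ, Q ∈ D0 ∨ Q ∈ D1 ∨ Q = oo → Q ∈ B := by
    intro Q hQ
    rw [hB, Finset.mem_union, Finset.mem_union, Finset.mem_insert]
    tauto
  have hBS : ∀ Q ∈ S, Q ∈ B := by
    intro Q hQ
    rw [hB, Finset.mem_union, Finset.mem_insert]
    exact Or.inr (Or.inr hQ)
  have hdeg0 : Divisor.degree (finDiv D0) = (g : ℤ) := by
    rw [degree_finDiv deg_eq_one, h0c]
  have hdeg1 : Divisor.degree (finDiv D1) = (g : ℤ) := by
    rw [degree_finDiv deg_eq_one, h1c]
  have hm6 : (6 : ℤ) * g ≤ m := by exact_mod_cast hm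
  have hm4 : (4 : ℤ) * g ≤ m' := by exact_mod_cast hm'
  -- the first base function
  set G : Divisor k κ :=
    Finsupp.single oo (m : ℤ) - (3 : ℤ) • finDiv D0 - finDiv D1 with hG
  have hdegG : Divisor.degree G = (m : ℤ) - 4 * g := by
    rw [hG, map_sub, map_sub, map_zsmul, Divisor.degree_single, deg_eq_one oo, hdeg0, hdeg1,
      smul_eq_mul]
    push_cast
    ring
  obtain ⟨f, hf0, hf, hford⟩ := exists_function_exact_order hγ B G (by rw [hdegG]; linarith)
  set C0 : Divisor k κ := G + divOf (K := k) f with hC0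
  have hC0nn : 0 ≤ C0 := add_divOf_nonneg hf0 hf
  have hC0B : ∀ Q ∈ B, C0 Q = 0 := by
    intro Q hQ
    rw [hC0, Finsupp.add_apply, divOf_apply hf0, hford Q hQ]
    ring
  have hGapply : ∀ v : Place k κ, G v =
      (m : ℤ) * Finsupp.single oo (1 : ℤ) v - 3 * finDiv D0 v - finDiv D1 v := by
    intro v
    rw [hG, Finsupp.sub_apply, Finsupp.sub_apply, Finsupp.smul_apply, smul_eq_mul,
      Finsupp.single_apply, Finsupp.single_apply]
    split_ifs <;> ring
  have hordf : ∀ v : Place k κ, v.ord f =
      C0 v + 3 * finDiv D0 v + finDiv D1 v - (m : ℤ) * Finsupp.single oo (1 : ℤ) v := by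
    intro v
    rw [hC0, Finsupp.add_apply, divOf_apply hf0, hGapply v]
    ring
  have hdegC0 : Divisor.degree C0 = (m : ℤ) - 4 * g := by
    rw [hC0, map_add, degree_divOf, add_zero, hdegG]
  -- the second base function
  set G' : Divisor k κ := Finsupp.single oo (m' : ℤ) - finDiv D1 - finDiv D0 with hG'
  have hdegG' : Divisor.degree G' = (m' : ℤ) - 2 * g := by
    rw [hG', map_sub, map_sub, Divisor.degree_single, deg_eq_one oo, hdeg0, hdeg1]
    push_cast
    ring
  obtain ⟨f', hf'0, hf', hf'ord⟩ :=
    exists_function_exact_order hγ B G' (by rw [hdegG']; linarith)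
  set C0' : Divisor k κ := G' + divOf (K := k) f' with hC0'
  have hC0'nn : 0 ≤ C0' := add_divOf_nonneg hf'0 hf'
  have hC0'B : ∀ Q ∈ B, C0' Q = 0 := by
    intro Q hQ
    rw [hC0', Finsupp.add_apply, divOf_apply hf'0, hf'ord Q hQ]
    ring
  have hG'apply : ∀ v : Place k κ, G' v =
      (m' : ℤ) * Finsupp.single oo (1 : ℤ) v - finDiv D1 v - finDiv D0 v := by
    intro v
    rw [hG', Finsupp.sub_apply, Finsupp.sub_apply, Finsupp.single_apply, Finsupp.single_apply]
    split_ifs <;> ring
  have hordf' : ∀ v : Place k κ, v.ord f' =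
      C0' v + finDiv D1 v + finDiv D0 v - (m' : ℤ) * Finsupp.single oo (1 : ℤ) v := by
    intro v
    rw [hC0', Finsupp.add_apply, divOf_apply hf'0, hG'apply v]
    ring
  have hdegC0' : Divisor.degree C0' = (m' : ℤ) - 2 * g := by
    rw [hC0', map_add, degree_divOf, add_zero, hdegG']
  -- the coordinate function
  set V : Finset (Place k κ) := D0 ∪ D1 ∪ C0.support ∪ C0'.support with hV
  have hVmem : ∀ Q : Place k κ,
      Q ∈ D0 ∨ Q ∈ D1 ∨ Q ∈ C0.support ∨ Q ∈ C0'.support → Q ∈ V := by
    intro Q hQ
    rw [hV, Finset.mem_union, Finset.mem_union, Finset.mem_union]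
    tauto
  have hooV : oo ∉ V := by
    rw [hV, Finset.mem_union, Finset.mem_union, Finset.mem_union, Finsupp.mem_support_iff,
      Finsupp.mem_support_iff]
    have h1 := hC0B oo (hBmem oo (Or.inr (Or.inr rfl)))
    have h2 := hC0'B oo (hBmem oo (Or.inr (Or.inr rfl)))
    tauto
  have hcardV : (V.card : ℤ) ≤ (m : ℤ) + m' - 4 * g := by
    have h1 : V.card ≤ D0.card + D1.card + C0.support.card + C0'.support.card := by
      rw [hV]
      refine (Finset.card_union_le _ _).trans ?_
      refine Nat.add_le_add_right ((Finset.card_union_le _ _).trans ?_) _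
      exact Nat.add_le_add_right (Finset.card_union_le _ _) _
    have h2 := card_support_le_degree hC0nn
    have h3 := card_support_le_degree hC0'nn
    rw [hdegC0] at h2
    rw [hdegC0'] at h3
    have h4 : (V.card : ℤ) ≤
        (D0.card : ℤ) + D1.card + C0.support.card + C0'.support.card := by exact_mod_cast h1
    rw [h0c, h1c] at h4
    linarith
  obtain ⟨val, hval⟩ := exists_injOn_val (k := k) V
  obtain ⟨z, hzmem, hzord⟩ := exists_unramified_function hγ V oo hooV val e (by
    have h0 : (0 : ℤ) ≤ g := Int.natCast_nonneg g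
    linarith)
  refine ⟨{ D0 := D0, D1 := D1, C0 := C0, C0' := C0', u0 := f, u0' := f', z := z, val := val
            card_D0 := h0c, card_D1 := h1c, disjoint_D0_D1 := h01
            oo_notMem_D0 := hoo0, oo_notMem_D1 := hoo1
            nonspecial_D0 := h0n, nonspecial_D1 := h1n
            C0_nonneg := hC0nn, C0'_nonneg := hC0'nn
            C0_eq_zero := fun Q hQ => hC0B Q (hBmem Q hQ)
            C0'_eq_zero := fun Q hQ => hC0'B Q (hBmem Q hQ)
            u0_ne_zero := hf0, u0'_ne_zero := hf'0
            ord_u0 := hordf, ord_u0' := hordf'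
            z_mem := hzmem
            val_injOn := fun Q hQ Q' hQ' h =>
              hval (Finset.mem_coe.mpr (hVmem Q hQ)) (Finset.mem_coe.mpr (hVmem Q' hQ')) h
            ord_z := fun Q hQ => hzord Q (hVmem Q hQ) }, h0S, h1S, fun Q hQ => ?_⟩
  exact ⟨hC0B Q (hBS Q hQ), hC0'B Q (hBS Q hQ)⟩

section Bundle
variable (hγ : ∃ γ : ℤ, ∀ D : Divisor k κ, rr D ≤ γ)
end Bundle

end Fermat.Agent.S19x.Geo.NiceRepL
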