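import Fermat.Agent.S19x.Geo.Setting
import Fermat.Agent.S19x.Geo.NiceRepL

/-!
# P-S19, block A (L3, adapter): the special fibre base configuration in a `GeoSetting`

`Geo/NiceRepL.lean` is stated on the bundle "instances + Riemann's inequality `hγ`", with the
genus `genusFF k κ`.  Here we derive `hγ` and `genusFF K F = g` from an `RRBundle K F g` of
`Geo/Setting.lean`, and restate the existence of the special fibre base configuration for the
special fibre of a `GeoSetting`, with the genus `G.g` and the distinguished place `G.oob`.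
-/

set_option autoImplicit false
set_option linter.unusedSectionVars false
set_option linter.style.haveILetI false

noncomputable section

namespace Fermat.Agent.S19x.Geo.BaseCfgGeo

open AlgebraicCurve Module
open Fermat.Agent.Lib.RiemannRoch Fermat.Agent.S27x.Lift.NiceRep Fermat.Agent.S19x.Geo
  Fermat.Agent.S19x.Geo.NiceRepL

section RR

variable {K F : Type*} [Field K] [Field F] [Algebra K F] {g : ℕ}
  [HasPrincipalDivisors K F] [∀ v : Place K F, v.FiniteResidue] [Nonempty (Place K F)]

/-- Riemann's inequality from a Riemann-Roch package. -/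
theorem exists_rr_le_of_rrBundle (B : RRBundle K F g) :
    ∃ γ : ℤ, ∀ D : Divisor K F, rr D ≤ γ := by
  refine ⟨(g : ℤ) - 1, fun D => ?_⟩
  have h := B.le_finrank D
  unfold rr ell
  linarith

/-- The genus of a Riemann-Roch package is the Prelude genus `genusFF`. -/
theorem genusFF_eq_of_rrBundle (B : RRBundle K F g) : genusFF K F = g := by
  have hγ := exists_rr_le_of_rrBundle B
  obtain ⟨c, hc⟩ := exists_degree_bound_ell hγ
  obtain ⟨P⟩ := (inferInstance : Nonempty (Place K F))
  set n : ℤ := max c (2 * (g : ℤ) - 1) with hn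
  set D : Divisor K F := Finsupp.single P n with hD
  have hdeg : Divisor.degree D = n := by
    rw [hD, Divisor.degree_single, B.deg_one P]
    simp
  have h1 := (hc D (by rw [hdeg]; exact le_max_left _ _)).2
  have h2 := B.finrank_eq (D := D) (by rw [hdeg]; exact le_max_right _ _)
  have h0 : ell (0 : Divisor K F) = 1 := B.ell_zero
  rw [h0] at h1
  have h3 : (ell D : ℤ) = finrank K (riemannRochSpace D) := rfl
  rw [h3, h2] at h1
  have : (genusFF K F : ℤ) = g := by push_cast at h1; linarith
  exact_mod_cast this

end RR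

section Geo

universe u v w z

variable {K : Type u} [Field K] {A : ValuationSubring K}
  {F : Type v} [Field F] [Algebra K F] {O : ValuationSubring F}
  {k : Type w} {κ : Type z} [Field k] [Field κ] [Algebra k κ]
  [HasPrincipalDivisors k κ] [∀ v : Place k κ, v.FiniteResidue] [IsAlgClosed k]

/-- Riemann's inequality on the special fibre of a `GeoSetting`. -/
theorem exists_rr_le_special (G : GeoSetting A O k κ) : ∃ γ : ℤ, ∀ D : Divisor k κ, rr D ≤ γ :=
  haveI := G.nonempty_placeκ
  exists_rr_le_of_rrBundle G.rrκ

/-- The genus of the special fibre of a `GeoSetting`. -/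
theorem genusFF_special (G : GeoSetting A O k κ) : genusFF k κ = G.g :=
  haveI := G.nonempty_placeκ
  genusFF_eq_of_rrBundle G.rrκ

/-- **The special fibre base configuration of a `GeoSetting`** (note 1795, section 1), at the
distinguished place `G.oob`, avoiding a given finite set `S`, for all `m ≥ 6g`, `m' ≥ 4g`,
`e ≥ 2 (m + m')`. -/
theorem nonempty_baseCfg_special (G : GeoSetting A O k κ) (S : Finset (Place k κ)) (m m' : ℕ)
    (hm : 6 * G.g ≤ m) (hm' : 4 * G.g ≤ m') (e : ℤ) (he : 2 * ((m : ℤ) + m') ≤ e) :
    ∃ c : BaseCfg (k := k) (κ := κ) G.oob m m' e,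
      c.D0.card = G.g ∧ c.D1.card = G.g ∧ Disjoint c.D0 S ∧ Disjoint c.D1 S ∧
      ∀ Q ∈ S, c.C0 Q = 0 ∧ c.C0' Q = 0 := by
  haveI := G.nonempty_placeκ
  have hg := genusFF_special G
  obtain ⟨c, h1, h2, h3⟩ := nonempty_baseCfg (exists_rr_le_special G) G.oob S m m'
    (by rw [hg]; exact hm) (by rw [hg]; exact hm') e he
  exact ⟨c, by rw [c.card_D0, hg], by rw [c.card_D1, hg], h1, h2, h3⟩

end Geo

end Fermat.Agent.S19x.Geo.BaseCfgGeo
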