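import Fermat.Agent.S19x.Geo.Frame
import Fermat.Agent.S19x.Geo.LatticeFixed
import Fermat.Agent.S34x.Inst.SigmaGlue

/-!
# P-S19, BLOCK A, leaf (L2-c), adapter (helper17): `FixedLatticeFacts` from (L2-a) + (L2-b)

`Geo/Frame.lean` (helper27) builds the adapted frame of `B^S = ⋃ₙ Λ(n∞)^S` from the hypothesis
bundle `Frame.FixedLatticeFacts G I N0` and the instance hypothesis `ValuationRing I.fixedRing`.
This file discharges both:

* `valuationRing_fixedRing I : ValuationRing I.fixedRing` — DIRECT (no hypothesis): `A` is a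
  valuation ring and the quotient of two `S`-fixed elements of `K` is `S`-fixed;
  `isLocalRing_fixedRing`, `mem_maximalIdeal_fixedRing_iff`;
* `isFixed_iff`, `isFixedK_iff_mem_fixedRing` : dictionary between `InertiaData.IsFixed` /
  `InertiaData.fixedRing` and `LatticeFixed.IsFixed` / `LatticeFixed.IsFixedK` for `S := ↑I.S`;
* `smul_mem_rrs_nOo` : `L(n∞)` is `S`-stable (`S` fixes `∞`);
* `redLat_nOo` : `redLat (L(n∞)) = L(n ∞bar)` for `2g - 1 ≤ n` (Riemann–Roch on both fibres with the
  same genus + `Lattice.exists_lift`);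
* `fixedLatticeFacts` : **`Frame.FixedLatticeFacts G I N0`** for `2g - 1 ≤ N0` from
  `LatticeFixed.FixData G.R ↑I.S` and `span_K {fixed} = ⊤`;
* `frameDataOf` : `Frame.frameData` with both hypotheses discharged.
-/

set_option autoImplicit false
set_option linter.unusedSectionVars false
set_option linter.style.haveILetI false

noncomputable section

namespace Fermat.Agent.S19x.Geo.FrameFacts

open AlgebraicCurve IsLocalRing Module
open Fermat.Agent.Gateway.C0 Fermat.Agent.Gateway.Red Fermat.Agent.S27x.Spec.Inj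
  Fermat.Agent.S27x.Spec.Disc Fermat.Agent.S19x.Geo Fermat.Agent.S19x.Geo.Lattice
  Fermat.Agent.S19x.Geo.Frame Fermat.Agent.Lib.RiemannRoch

universe u v w z

variable {K : Type u} [Field K] {A : ValuationSubring K}
  {F : Type v} [Field F] [Algebra K F] {O : ValuationSubring F}
  {k : Type w} {κ : Type z} [Field k] [Field κ] [Algebra k κ]
  {G : GeoSetting A O k κ} (I : InertiaData G)

/-! ### `A^S` is a valuation ring -/

/-- the quotient of two fixed elements is fixed. -/
theorem baseAut_div_eq {x y : K} (hx : ∀ s ∈ I.S, SemilinearAut.baseAut s x = x)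
    (hy : ∀ s ∈ I.S, SemilinearAut.baseAut s y = y) :
    ∀ s ∈ I.S, SemilinearAut.baseAut s (y / x) = y / x := fun s hs => by
  rw [map_div₀, hx s hs, hy s hs]

/-- **`A^S` is a valuation ring.** -/
theorem valuationRing_fixedRing : ValuationRing I.fixedRing := by
  refine { cond' := fun a b => ?_ }
  have ha : ∀ s ∈ I.S, SemilinearAut.baseAut s ((a : A) : K) = ((a : A) : K) := a.2
  have hb : ∀ s ∈ I.S, SemilinearAut.baseAut s ((b : A) : K) = ((b : A) : K) := b.2
  by_cases hx : ((a : A) : K) = 0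
  · refine ⟨0, Or.inr ?_⟩
    rw [mul_zero]
    exact Subtype.ext (Subtype.ext hx.symm)
  · rcases A.mem_or_inv_mem (((b : A) : K) / ((a : A) : K)) with h | h
    · refine ⟨⟨⟨_, h⟩, baseAut_div_eq I ha hb⟩, Or.inl ?_⟩
      apply Subtype.ext
      apply Subtype.ext
      show ((a : A) : K) * (((b : A) : K) / ((a : A) : K)) = ((b : A) : K)
      field_simp
    · by_cases hy : ((b : A) : K) = 0
      · refine ⟨0, Or.inl ?_⟩
        rw [mul_zero]
        exact Subtype.ext (Subtype.ext hy.symm)
      · rw [inv_div] at h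
        refine ⟨⟨⟨_, h⟩, baseAut_div_eq I hb ha⟩, Or.inr ?_⟩
        apply Subtype.ext
        apply Subtype.ext
        show ((b : A) : K) * (((a : A) : K) / ((b : A) : K)) = ((a : A) : K)
        field_simp

/-- the instance form (a `Prop`-valued class: no diamond). -/
instance instValuationRingFixedRing : ValuationRing I.fixedRing := valuationRing_fixedRing I

/-- `A^S` is a local ring. -/
theorem isLocalRing_fixedRing : IsLocalRing I.fixedRing := inferInstance

/-- a fixed element of `A` which is a unit of `A` is a unit of `A^S`. -/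
theorem isUnit_fixedRing_iff (a : I.fixedRing) : IsUnit a ↔ IsUnit (a : A) := by
  constructor
  · intro h
    exact h.map (Subring.subtype I.fixedRing)
  · intro h
    obtain ⟨b, hb⟩ := h.exists_right_inv
    have hbK : ((b : A) : K) = (((a : A) : K))⁻¹ := by
      have h1 : ((a : A) : K) * ((b : A) : K) = 1 := by
        have := congrArg (Subtype.val) hb
        simpa using this
      exact eq_inv_of_mul_eq_one_right h1
    have hbfix : b ∈ I.fixedRing := fun s hs => by
      rw [hbK, map_inv₀, a.2 s hs]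
    refine IsUnit.of_mul_eq_one (⟨b, hbfix⟩ : I.fixedRing) ?_
    exact Subtype.ext hb

/-- the maximal ideal of `A^S` is `𝔪_A ∩ A^S`. -/
theorem mem_maximalIdeal_fixedRing_iff [IsLocalRing I.fixedRing] (a : I.fixedRing) :
    a ∈ maximalIdeal I.fixedRing ↔ (a : A) ∈ maximalIdeal A := by
  rw [mem_maximalIdeal, mem_nonunits_iff, mem_maximalIdeal, mem_nonunits_iff,
    isUnit_fixedRing_iff]

/-! ### Dictionary with `Geo/LatticeFixed` -/

theorem isFixed_iff (f : F) :
    LatticeFixed.IsFixed (I.S : Set (SemilinearAut K F)) f ↔ I.IsFixed f := Iff.rfl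

theorem isFixedK_iff_mem_fixedRing (a : A) :
    LatticeFixed.IsFixedK (I.S : Set (SemilinearAut K F)) (a : K) ↔ a ∈ I.fixedRing := Iff.rfl

/-! ### `L(n∞)` is `S`-stable -/

theorem smul_nOo (s : SemilinearAut K F) (hs : s ∈ I.S) (n : ℕ) : s • nOo G n = nOo G n := by
  rw [nOo, SemilinearAut.smul_single, I.smul_oo s hs]

theorem smul_mem_rrs_nOo (s : SemilinearAut K F) (hs : s ∈ I.S) (n : ℕ) {f : F}
    (hf : f ∈ riemannRochSpace (nOo G n)) : s • f ∈ riemannRochSpace (nOo G n) := by
  have := Fermat.Agent.S34x.Inst.SigmaGlue.smul_mem_rrs s hf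
  rwa [smul_nOo I s hs n] at this

/-! ### The reduction of `L(n∞) ∩ O` -/

section RR

variable [HasPrincipalDivisors K F] [∀ v : Place K F, v.FiniteResidue]
  [HasPrincipalDivisors k κ] [∀ v : Place k κ, v.FiniteResidue]

theorem degree_nOo (n : ℕ) : Divisor.degree (nOo G n) = n := by
  rw [nOo, Divisor.degree_single, G.rrF.deg_one, Nat.cast_one, mul_one]

/-- `l(n∞) = n + 1 - g = l(n ∞bar)` for `2g - 1 ≤ n`. -/
theorem finrank_rrs_nOob_le {n : ℕ} (hn' : 2 * (G.g : ℤ) - 1 ≤ n) :
    finrank k (riemannRochSpace (nOob G n)) ≤ finrank K (riemannRochSpace (nOo G n)) := by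
  haveI := G.nonempty_placeF
  haveI := G.nonempty_placeκ
  have h1 := G.rrF.finrank_eq (D := nOo G n) (by rw [degree_nOo]; exact hn')
  have h2 := G.rrκ.finrank_eq (D := nOob G n) (by rw [degree_nOob]; exact hn')
  rw [degree_nOo] at h1
  rw [degree_nOob] at h2
  have : (finrank k (riemannRochSpace (nOob G n)) : ℤ)
      = finrank K (riemannRochSpace (nOo G n)) := by rw [h1, h2]
  exact_mod_cast this.le

/-- **`redLat (L(n∞)) = L(n ∞bar)`** for `2g - 1 ≤ n`: every element of `L(n ∞bar)` lifts. -/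
theorem mem_redLat_nOo {n : ℕ} (hn : 2 * (G.g : ℤ) - 1 ≤ n) {y : κ}
    (hy : y ∈ riemannRochSpace (nOob G n)) : y ∈ G.R.redLat (riemannRochSpace (nOo G n)) := by
  haveI := G.nonempty_placeF
  haveI := G.nonempty_placeκ
  have hle : finrank k (riemannRochSpace (spD G.sp (nOo G n)))
      ≤ finrank K (riemannRochSpace (nOo G n)) := by
    have h := finrank_rrs_nOob_le (G := G) hn
    have e : spD G.sp (nOo G n) = nOob G n := spDiv_nOo G n
    rwa [e]
  have hy' : y ∈ riemannRochSpace (spD G.sp (nOo G n)) := by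
    have e : spD G.sp (nOo G n) = nOob G n := spDiv_nOo G n
    rwa [e]
  obtain ⟨f, hf, hfV, hres⟩ :=
    Lattice.exists_lift (R := G.R) G.spCompat (G.cart _ inferInstance) hle hy'
  exact ⟨f, hf, hfV, hres⟩

/-! ### The adapter -/

/-- **`Frame.FixedLatticeFacts G I N0`** for `2g - 1 ≤ N0`, from helper5's `Geo/LatticeFixed`
(hypotheses `FixData` and `span_K {fixed} = ⊤`, to be supplied for `S` = inertia by the L1 crew). -/
theorem fixedLatticeFacts
    (hD : LatticeFixed.FixData G.R (I.S : Set (SemilinearAut K F)))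
    (hF : Submodule.span K {f : F | LatticeFixed.IsFixed (I.S : Set (SemilinearAut K F)) f} = ⊤)
    {N0 : ℕ} (hN0 : 2 * (G.g : ℤ) - 1 ≤ N0) : FixedLatticeFacts G I N0 := by
  haveI := G.nonempty_placeF
  haveI := G.nonempty_placeκ
  have hframe : ∀ n : ℕ, ∃ b : Fin (finrank K (riemannRochSpace (nOo G n))) → F,
      LatticeFixed.FixedFrame G.R (I.S : Set (SemilinearAut K F))
        (riemannRochSpace (nOo G n)) b := fun n =>
    LatticeFixed.exists_fixedFrame_of_stable hD hF (riemannRochSpace (nOo G n))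
      (G.cart _ inferInstance) (fun s hs f hf => smul_mem_rrs_nOo I s hs n hf)
  refine ⟨fun c => ?_, fun n hn => ?_, fun n hn y hy => ?_⟩
  · -- the residue field of `A^S` is `k`
    obtain ⟨a, rfl⟩ := G.R.π_surj c
    obtain ⟨a₀, ha₀, hπ⟩ := hD.residue_surj a
    exact ⟨⟨a₀, ha₀⟩, hπ⟩
  · -- the orthonormal basis
    obtain ⟨b, hb⟩ := hframe n
    have hbL : ∀ i, b i ∈ LamS G I n := fun i => ⟨⟨hb.mem_V i, hb.mem_O i⟩, hb.fixed i⟩
    refine ⟨_, b, hbL, hb.res_indep, fun f hf => ?_⟩
    obtain ⟨c, hcfix, hc⟩ := hb.exists_fixed_coeff hf.1.1 hf.1.2 hf.2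
    exact ⟨fun i => ⟨c i, hcfix i⟩, hc⟩
  · -- the lift lemma
    obtain ⟨b, hb⟩ := hframe n
    have hy' : y ∈ G.R.redLat (riemannRochSpace (nOo G n)) :=
      mem_redLat_nOo (G := G) (le_trans hN0 (by exact_mod_cast hn)) hy
    obtain ⟨f, hf, hfV, hffix, hres⟩ := hb.exists_fixed_lift hD hy'
    exact ⟨f, ⟨⟨hfV, hf⟩, hffix⟩, hres⟩

/-- **The frame datum of `B^S`**, with both hypotheses of `Frame.frameData` discharged
(`ValuationRing I.fixedRing` by `valuationRing_fixedRing`, `FixedLatticeFacts` by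
`fixedLatticeFacts`).  All the `Frame.frameData_*` lemmas apply to it verbatim
(`frameDataOf I hD hF hN0 = Frame.frameData (fixedLatticeFacts I hD hF hN0) hN0` by `rfl`). -/
def frameDataOf
    (hD : LatticeFixed.FixData G.R (I.S : Set (SemilinearAut K F)))
    (hF : Submodule.span K {f : F | LatticeFixed.IsFixed (I.S : Set (SemilinearAut K F)) f} = ⊤)
    {N0 : ℕ} (hN0 : 2 * (G.g : ℤ) - 1 ≤ N0) :
    Fermat.Agent.S19x.Geo.FrameAlg.FiltRed (πS G I) (BS G I) (Bbar G) :=
  frameData (fixedLatticeFacts I hD hF hN0) hN0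

theorem frameDataOf_eq
    (hD : LatticeFixed.FixData G.R (I.S : Set (SemilinearAut K F)))
    (hF : Submodule.span K {f : F | LatticeFixed.IsFixed (I.S : Set (SemilinearAut K F)) f} = ⊤)
    {N0 : ℕ} (hN0 : 2 * (G.g : ℤ) - 1 ≤ N0) :
    frameDataOf I hD hF hN0 = frameData (fixedLatticeFacts I hD hF hN0) hN0 := rfl

end RR

end Fermat.Agent.S19x.Geo.FrameFacts

end
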