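import Fermat.Agent.S19x.Geo.ResidualBuilder
import Fermat.Agent.S19x.Geo.AbsMain
import Fermat.Agent.S19x.Geo.FrameFacts
import Fermat.Agent.S19x.Geo.BaseCfgGeo

/-!
# P-S19, block A, leaf L6, CLOSED (helper89): `residualTarget : Geo.ResidualTarget`

The Residual Theorem in the literal shape asked by `Geo/AbsMain`: for every universe-zero setting
`(G, I)` with the four instance bundles, `FixData` and `span_K {fixed} = ⊤` give
`ConfigOfLeaves.ResidualBuilder G I`.  Proof: `ResidualBuilderMain.residualBuilder` at the fixed
lattice facts of `Geo/FrameFacts` (level `N0 = 2 g`) and the genus of the special fibre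
(`BaseCfgGeo.genusFF_special`).
-/

set_option autoImplicit false

namespace Fermat.Agent.S19x.Geo.ResidualTargetDone

open Fermat.Agent.S19x.Geo

/-- **Leaf L6 of block A is closed.** -/
theorem residualTarget : Fermat.Agent.S19x.Geo.ResidualTarget := by
  intro K _ A F _ _ O k κ _ _ _ _ _ _ _ _ G I hD hF
  exact ResidualBuilderMain.residualBuilder
    (FrameFacts.fixedLatticeFacts I hD hF (by push_cast; omega))
    (BaseCfgGeo.genusFF_special G)

end Fermat.Agent.S19x.Geo.ResidualTargetDone
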