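/-
P-S19, BLOCK A (helper98): `Final.ATarget` from the two closed top-level targets of
`Geo/AMainTargets.lean` (`L1Target`: the Gateway-red instantiation; `AbsTarget`: the abstract main
theorem), through the concrete transfer `Geo/Transfer.lean` and rank one `Geo/RankOne.lean`.
-/
import Fermat.Agent.S19x.Geo.AMainTargets
import Fermat.Agent.S19x.Geo.Transfer
import Fermat.Agent.S19x.Geo.RankOne

set_option autoImplicit false

noncomputable section

namespace Fermat.Agent.S19x.Geo.AMainOfTargets

open AlgebraicCurve ModularCurve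
open Fermat.Agent.S19x Fermat.Agent.S19x.Geo

local notation "Qbar" => AlgebraicClosure ℚ

/-- **BLOCK A from its two top-level targets.** -/
theorem aTarget_of_targets (h1 : L1Target) (h2 : AbsTarget) : Final.ATarget := by
  intro M _ ℓ _ hℓM hgood P hP T _ n _ hT
  obtain ⟨k, κ, _, _, _, _, O, _, _, _, _, G, I, ρ, hS, hD, hF⟩ := h1 M ℓ hℓM hgood P hP
  obtain ⟨⟨C⟩, hplace⟩ := h2 G I ρ hD hF
  exact Transfer.nonempty_localChartData_JZero_of_places hS hplace C
    (Transfer.hrank_of_pow_eq_mul fun t ht =>
      RankOne.exists_pow_eq_mul P (Fact.out : ℓ.Prime) hP t ht) T hT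

end Fermat.Agent.S19x.Geo.AMainOfTargets
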