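/-
P-S19, BLOCK A (helper98): `Final.ATarget` from a per-level PACKAGE.

`APackage M P` bundles, for one level `M` and one valuation subring `P` of `ℚ̄`, everything the
transfer `Geo/Transfer.lean` consumes: the special fibre fields `k`, `κ`, the Gauss valuation ring
`O`, a `GeoSetting P O k κ` for `F = modularFunctionFieldBar M`, an `InertiaData` whose group
contains the image of the inertia group of `P` under `arithmeticGalois`, a reduction map,
`S`-fixed lifts of all places of the special fibre and the abstract chart `AbsSumChart`.

`aTarget_of_package` : if every good level `M` prime to `ℓ` and every `P` over `ℓ` has a package,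
then `Final.ATarget` holds (rank one from `Geo/RankOne.lean`).
-/
import Fermat.Agent.S19x.Geo.Transfer
import Fermat.Agent.S19x.Geo.RankOne
import Fermat.Agent.S19x.Final.S19OfBlocks

set_option autoImplicit false
set_option linter.unusedSectionVars false
set_option linter.unusedVariables false

noncomputable section

namespace Fermat.Agent.S19x.Geo.ATargetOfPackage

open AlgebraicCurve ModularCurve
open Fermat.Agent.S19x Fermat.Agent.S19x.Geo

local notation "Qbar" => AlgebraicClosure ℚ
local notation "Γℚ" => (AlgebraicClosure ℚ ≃ₐ[ℚ] AlgebraicClosure ℚ)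

/-- Everything BLOCK A has to produce for one level `M` and one place `P` of `ℚ̄`. -/
structure APackage (M : ℕ) (P : ValuationSubring Qbar) : Type 1 where
  /-- the residue field of `P` -/
  k : Type
  /-- the function field of the special fibre -/
  κ : Type
  [instFieldk : Field k]
  [instFieldκ : Field κ]
  [instAlgebra : Algebra k κ]
  /-- principal divisors on the generic fibre -/
  hpd : HasPrincipalDivisors Qbar (modularFunctionFieldBar M)
  /-- the Gauss valuation ring -/
  O : ValuationSubring (modularFunctionFieldBar M)
  /-- the geometric setting -/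
  G : GeoSetting P O k κ
  /-- the inertia data -/
  I : InertiaData G
  /-- the reduction map on classes -/
  ρ : RedMap G
  /-- the group of `I` contains the image of inertia -/
  gal_mem : ∀ σ ∈ P.inertiaSubgroupIn ℚ, arithmeticGalois (modularFunctionFieldFull M) σ ∈ I.S
  /-- every place of the special fibre has a fixed lift -/
  place_lift : ∀ w : Place k κ, ∃ Q : Place Qbar (modularFunctionFieldBar M),
    G.sp Q = w ∧ I.IsFixedPlace Q
  /-- the abstract one-chart three-term group law -/
  chart : AbsSumChart I ρ

attribute [instance] APackage.instFieldk APackage.instFieldκ APackage.instAlgebra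

/-- One level, one place: the package gives the chart data of every finite stable subgroup. -/
theorem nonempty_localChartData_of_package {M : ℕ} {ℓ : ℕ} (hℓ : ℓ.Prime)
    {P : ValuationSubring Qbar} (hP : P.LiesOverPrime ℓ) (A : APackage M P)
    (T : AddSubgroup (JZero M)) [Finite T]
    (hT : ∀ (σ : Γℚ) (x : JZero M), x ∈ T → σ • x ∈ T) :
    Nonempty (LocalChartData ℓ P T (fun σ x => ⟨σ • (x : JZero M), hT σ x x.2⟩)) :=
  haveI := A.hpd
  Transfer.nonempty_localChartData_JZero_of_places A.gal_mem A.place_lift A.chart
    (Transfer.hrank_of_pow_eq_mul fun t ht => RankOne.exists_pow_eq_mul P hℓ hP t ht) T hT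

/-- **BLOCK A from packages.** -/
theorem aTarget_of_package
    (h : ∀ (M : ℕ) [NeZero M] (ℓ : ℕ) [Fact ℓ.Prime], ¬ ℓ ∣ M →
      Fermat.Agent.Gateway.Red.IsGoodLevel M ℓ →
      ∀ P : ValuationSubring Qbar, P.LiesOverPrime ℓ → Nonempty (APackage M P)) :
    Final.ATarget := by
  intro M _ ℓ _ hℓM hgood P hP T _ k _ hT
  obtain ⟨A⟩ := h M ℓ hℓM hgood P hP
  exact nonempty_localChartData_of_package (Fact.out : ℓ.Prime) hP A T hT

end Fermat.Agent.S19x.Geo.ATargetOfPackage
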