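import Mathlib
import Fermat.Agent.S19x.Iface

/-!
# P-S19, block A, (L8): the formal half of the assembly (helper19)

Pure bookkeeping, no geometry.  `J` an abelian group with an additive action `actJ` of
`Γℚ = Gal(Qbar/ℚ)` (for us `J = JZero M`), `P` a valuation subring of `Qbar`,
`I = P.inertiaSubgroupIn ℚ`, `O = inertiaInt P`.

`KernelChart ℓ P actJ` bundles what the geometry provides on the kernel of reduction `J1`:

* `inertia_sub_mem` : `σ x - x ∈ J1` for `σ ∈ I` (reduction is inertia-invariant);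
* a chart `X0 : J → Fin g → Qbar`, used on `J1` only: values in the maximal ideal, inertia
  equivariant, injective on `J1`;
* `exists_fixed_lift` : every `Q : J` is congruent modulo `J1` to an inertia-fixed point;
* `add_approx` : for a finite subset `S` of `J1`, an inertia-fixed constant `δ ∈ J1` and a
  precision `n`, ONE polynomial vector `F` over `O` with
  `X0 (x + y + δ) ≡ F (X0 x, X0 y)  mod ℓ ^ n` for all `x, y ∈ S`.

`nonempty_localChartData` : then every finite `Γℚ`-stable subgroup `T` of `J`, with the restricted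
action, carries a `LocalChartData` (the interface consumed by block B):
`T1 = T ∩ J1`, `coord Q = X0 (Q - P_c)`, `P_c` an inertia-fixed point congruent modulo `J1` to a
chosen representative of the coset `c = Q + T1`; for the pair of cosets of `t1, t2` the constant is
`δ = P_{c1} + P_{c2} - P_{c1 + c2}` and `S = {Q - P_c(Q) | Q ∈ T}`.
-/

set_option autoImplicit false
set_option linter.unusedSectionVars false
set_option linter.unusedVariables false

noncomputable section

namespace Fermat.Agent.S19x.Geo.AssembleFormal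

open Fermat.Agent.S56x.Flat.InertiaField

local notation "Qbar" => AlgebraicClosure ℚ
local notation "Γℚ" => (AlgebraicClosure ℚ ≃ₐ[ℚ] AlgebraicClosure ℚ)

/-- What the geometry provides on the kernel of reduction `J1` of `J`. -/
structure KernelChart (ℓ : ℕ) (P : ValuationSubring Qbar) {J : Type} [AddCommGroup J]
    (actJ : Γℚ → J → J) where
  /-- number of coordinates (the genus) -/
  g : ℕ
  /-- the kernel of reduction -/
  J1 : AddSubgroup J
  /-- the chart, only used on `J1` -/
  X0 : J → Fin g → Qbar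
  /-- reduction is inertia-invariant -/
  inertia_sub_mem : ∀ σ ∈ P.inertiaSubgroupIn ℚ, ∀ x : J, actJ σ x - x ∈ J1
  /-- the chart has values in the maximal ideal -/
  X0_mem : ∀ x ∈ J1, ∀ i, X0 x i ∈ P.nonunits
  /-- the chart is inertia-equivariant -/
  X0_inertia : ∀ σ ∈ P.inertiaSubgroupIn ℚ, ∀ x ∈ J1, ∀ i, X0 (actJ σ x) i = σ (X0 x i)
  /-- the chart is injective on `J1` -/
  X0_inj : ∀ x ∈ J1, ∀ y ∈ J1, X0 x = X0 y → x = y
  /-- every point is congruent modulo `J1` to an inertia-fixed point -/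
  exists_fixed_lift : ∀ Q : J, ∃ Pc : J,
    (∀ σ ∈ P.inertiaSubgroupIn ℚ, actJ σ Pc = Pc) ∧ Q - Pc ∈ J1
  /-- the translated group law in the chart, on a finite subset of `J1`, to precision `ℓ ^ n` -/
  add_approx : ∀ S : Finset J, (∀ x ∈ S, x ∈ J1) → ∀ δ ∈ J1,
    (∀ σ ∈ P.inertiaSubgroupIn ℚ, actJ σ δ = δ) → ∀ n : ℕ,
    ∃ F : Fin g → MvPolynomial (Fin g ⊕ Fin g) (inertiaInt P),
      ∀ x ∈ S, ∀ y ∈ S, ∀ i, ∃ w ∈ P,
        X0 (x + y + δ) i - MvPolynomial.aeval (Sum.elim (X0 x) (X0 y)) (F i)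
          = (ℓ : Qbar) ^ n * w

section Main

variable {ℓ : ℕ} {P : ValuationSubring Qbar} {J : Type} [AddCommGroup J] {actJ : Γℚ → J → J}
  (hadd : ∀ σ x y, actJ σ (x + y) = actJ σ x + actJ σ y)
  (C : KernelChart ℓ P actJ) (T : AddSubgroup J)

include hadd in
theorem actJ_sub (σ : Γℚ) (x y : J) : actJ σ (x - y) = actJ σ x - actJ σ y := by
  have h := hadd σ (x - y) y
  rw [sub_add_cancel] at h
  rw [h, add_sub_cancel_right]

/-- `T ∩ J1` as a subgroup of `T`. -/
def T1 : AddSubgroup T := C.J1.comap T.subtype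

theorem mem_T1 {y : T} : y ∈ T1 C T ↔ (y : J) ∈ C.J1 := Iff.rfl

/-- the chosen representative of the coset of `Q` modulo `T1`. -/
def rep (Q : T) : T := (QuotientAddGroup.mk Q : T ⧸ T1 C T).out

theorem sub_rep_mem (Q : T) : ((Q : J) - (rep C T Q : J)) ∈ C.J1 := by
  have h1 : (QuotientAddGroup.mk (rep C T Q) : T ⧸ T1 C T) = QuotientAddGroup.mk Q :=
    Quotient.out_eq' _
  rw [QuotientAddGroup.eq] at h1
  have h2 : (((-(rep C T Q) + Q : T)) : J) ∈ C.J1 := h1
  have h3 : (((-(rep C T Q) + Q : T)) : J) = (Q : J) - (rep C T Q : J) := by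
    push_cast
    abel
  rwa [h3] at h2

theorem rep_eq_of_sub_mem {Q Q' : T} (h : Q - Q' ∈ T1 C T) : rep C T Q = rep C T Q' := by
  unfold rep
  congr 1
  rw [QuotientAddGroup.eq]
  have h1 : -Q + Q' = -(Q - Q') := by abel
  rw [h1]
  exact (T1 C T).neg_mem h

/-- a chosen inertia-fixed point congruent to `q` modulo `J1`. -/
def fixedLift (q : J) : J := (C.exists_fixed_lift q).choose

theorem fixedLift_fixed (q : J) :
    ∀ σ ∈ P.inertiaSubgroupIn ℚ, actJ σ (fixedLift C q) = fixedLift C q :=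
  (C.exists_fixed_lift q).choose_spec.1

theorem sub_fixedLift_mem (q : J) : q - fixedLift C q ∈ C.J1 :=
  (C.exists_fixed_lift q).choose_spec.2

/-- the inertia-fixed base point of the coset of `Q`. -/
def base (Q : T) : J := fixedLift C (rep C T Q : J)

theorem base_fixed (Q : T) : ∀ σ ∈ P.inertiaSubgroupIn ℚ, actJ σ (base C T Q) = base C T Q :=
  fixedLift_fixed C _

theorem rep_sub_base_mem (Q : T) : (rep C T Q : J) - base C T Q ∈ C.J1 :=
  sub_fixedLift_mem C _

theorem base_eq_of_sub_mem {Q Q' : T} (h : Q - Q' ∈ T1 C T) : base C T Q = base C T Q' := by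
  unfold base
  rw [rep_eq_of_sub_mem C T h]

theorem sub_base_mem (Q : T) : (Q : J) - base C T Q ∈ C.J1 := by
  have h : (Q : J) - base C T Q = ((Q : J) - (rep C T Q : J)) + ((rep C T Q : J) - base C T Q) := by
    abel
  rw [h]
  exact C.J1.add_mem (sub_rep_mem C T Q) (rep_sub_base_mem C T Q)

/-- the coordinates of `Q` relative to the base point of its coset. -/
def coord (Q : T) : Fin C.g → Qbar := C.X0 ((Q : J) - base C T Q)

variable (hT : ∀ σ, ∀ x ∈ T, actJ σ x ∈ T)

theorem act_sub_mem_T1 {σ : Γℚ} (hσ : σ ∈ P.inertiaSubgroupIn ℚ) (Q : T) :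
    (⟨actJ σ Q.1, hT σ Q.1 Q.2⟩ : T) - Q ∈ T1 C T := by
  rw [mem_T1]
  exact C.inertia_sub_mem σ hσ Q.1

include hadd C in
/-- **Formal assembly**: a kernel chart on `J` induces local chart data on every finite
`Γℚ`-stable subgroup `T` of `J`. -/
theorem nonempty_localChartData [Finite T] :
    Nonempty (LocalChartData ℓ P T (fun σ y => ⟨actJ σ y.1, hT σ y.1 y.2⟩)) := by
  classical
  have : Fintype T := Fintype.ofFinite T
  refine ⟨{
    g := C.g
    T1 := T1 C T
    coord := coord C T
    coord_mem := fun Q i => C.X0_mem _ (sub_base_mem C T Q) i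
    coord_inertia := ?_
    inertia_coset := fun σ hσ Q => act_sub_mem_T1 C T hT hσ Q
    coord_inj := ?_
    add_approx := ?_ }⟩
  · intro σ hσ Q i
    have h1 := base_eq_of_sub_mem C T (act_sub_mem_T1 C T hT hσ Q)
    unfold coord
    rw [h1]
    have h2 : actJ σ Q.1 - base C T Q = actJ σ ((Q : J) - base C T Q) := by
      rw [actJ_sub hadd, base_fixed C T Q σ hσ]
    show C.X0 (actJ σ Q.1 - base C T Q) i = _
    rw [h2]
    exact C.X0_inertia σ hσ _ (sub_base_mem C T Q) i
  · intro Q Q' hQQ' hc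
    have h1 := base_eq_of_sub_mem C T hQQ'
    unfold coord at hc
    have h2 := C.X0_inj _ (sub_base_mem C T Q) _ (sub_base_mem C T Q') hc
    rw [h1] at h2
    exact Subtype.ext (sub_left_injective h2)
  · intro t1 t2 n
    set S : Finset J := Finset.univ.image (fun Q : T => (Q : J) - base C T Q) with hS
    have hSmem : ∀ x ∈ S, x ∈ C.J1 := by
      intro x hx
      obtain ⟨Q, -, rfl⟩ := Finset.mem_image.mp hx
      exact sub_base_mem C T Q
    set δ : J := base C T t1 + base C T t2 - base C T (t1 + t2) with hδ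
    have hδmem : δ ∈ C.J1 := by
      have h : δ = -((((t1 : T) : J) - base C T t1) + (((t2 : T) : J) - base C T t2)
          - ((((t1 + t2 : T)) : J) - base C T (t1 + t2))) := by
        rw [hδ]
        push_cast
        abel
      rw [h]
      exact C.J1.neg_mem (C.J1.sub_mem (C.J1.add_mem (sub_base_mem C T t1) (sub_base_mem C T t2))
        (sub_base_mem C T (t1 + t2)))
    have hδfix : ∀ σ ∈ P.inertiaSubgroupIn ℚ, actJ σ δ = δ := by
      intro σ hσ
      rw [hδ, actJ_sub hadd, hadd, base_fixed C T t1 σ hσ, base_fixed C T t2 σ hσ,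
        base_fixed C T (t1 + t2) σ hσ]
    obtain ⟨F, hF⟩ := C.add_approx S hSmem δ hδmem hδfix n
    refine ⟨F, fun Q1 Q2 h1 h2 i => ?_⟩
    have hb1 := base_eq_of_sub_mem C T h1
    have hb2 := base_eq_of_sub_mem C T h2
    have h12 : (Q1 + Q2) - (t1 + t2) ∈ T1 C T := by
      have h : (Q1 + Q2) - (t1 + t2) = (Q1 - t1) + (Q2 - t2) := by abel
      rw [h]
      exact (T1 C T).add_mem h1 h2
    have hb3 := base_eq_of_sub_mem C T h12
    have hx : ((Q1 : J) - base C T Q1) ∈ S :=
      Finset.mem_image.mpr ⟨Q1, Finset.mem_univ _, rfl⟩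
    have hy : ((Q2 : J) - base C T Q2) ∈ S :=
      Finset.mem_image.mpr ⟨Q2, Finset.mem_univ _, rfl⟩
    obtain ⟨w, hw, hFw⟩ := hF _ hx _ hy i
    refine ⟨w, hw, ?_⟩
    have h3 : ((Q1 : J) - base C T Q1) + ((Q2 : J) - base C T Q2) + δ
        = ((Q1 + Q2 : T) : J) - base C T (Q1 + Q2) := by
      rw [hδ, hb1, hb2, hb3]
      push_cast
      abel
    rw [h3] at hFw
    exact hFw

end Main

end Fermat.Agent.S19x.Geo.AssembleFormal
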