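import Fermat.Agent.S27x.Spec.Disc
import Fermat.Prelude.Def_AlgebraicCurve_BaseChangeGalois

/-
P-S19 block A, leaf (L4) = chart F1 (note 1795 section 2, interface note 1831).

* values `valAt z Q` of a function at places, the polynomials `rhoFam z P = ∏ (T - z(Pᵢ))` of a
  family of places and `rho z W = ∏ (T - z(Q))^{W(Q)}` of an effective divisor (multiplicities
  allowed): multiplicativity, equivariance under Prelude semilinear automorphisms, reduction to
  the special fibre;
* `DiscBase`: a function `z` which is a local coordinate at pairwise distinct points `wᵢ` of the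
  special fibre; families of places over `w` are classified by their `ρ` (T1-T3);
* `ChartBase`: the chart `X₀` on classes having an effective representative near `D₀`:
  values in the maximal ideal, injective, equivariant, `X₀(0) = 0`.

Setting = the explicit variables of `S27x/Spec/Disc.lean`.
-/

set_option autoImplicit false
set_option linter.unusedSectionVars false

noncomputable section

namespace Fermat.Agent.S19x.Geo.Chart

open AlgebraicCurve IsLocalRing Polynomial
open Fermat.Agent.Gateway.C0 Fermat.Agent.Gateway.Red Fermat.Agent.S27x.Spec.Inj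
  Fermat.Agent.S27x.Spec.Disc

universe u v w z

/-! ### Values of a function at places -/

section Values

variable {K : Type u} {F : Type v} [Field K] [Field F] [Algebra K F]

open Classical in
/-- The value `z(Q)` of `z` at the place `Q` (junk value `0` when `z` has no value at `Q`). -/
def valAt (z : F) (Q : Place K F) : K := if h : ∃ c : K, HasValue Q z c then h.choose else 0

theorem hasValue_valAt {z : F} {Q : Place K F} (h : ∃ c : K, HasValue Q z c) :
    HasValue Q z (valAt z Q) := by
  rw [valAt, dif_pos h]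
  exact h.choose_spec

theorem valAt_eq {z : F} {Q : Place K F} {c : K} (h : HasValue Q z c) : valAt z Q = c :=
  (hasValue_valAt ⟨c, h⟩).unique h

/-- `HasValue` is equivariant under semilinear automorphisms. -/
theorem hasValue_smul (s : SemilinearAut K F) {z : F} {Q : Place K F} {c : K}
    (h : HasValue Q z c) : HasValue (s • Q) (s • z) (SemilinearAut.baseAut s c) := by
  by_cases hne : z = algebraMap K F c
  · rw [hne, SemilinearAut.smul_algebraMap]
    exact hasValue_algebraMap _ _
  · have hne' : s • z ≠ algebraMap K F (SemilinearAut.baseAut s c) := by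
      intro h2
      apply hne
      rw [← SemilinearAut.smul_algebraMap] at h2
      exact smul_left_cancel s h2
    rw [hasValue_iff_ord_pos hne'] 
    rw [hasValue_iff_ord_pos hne] at h
    rw [← SemilinearAut.smul_algebraMap, ← smul_sub, SemilinearAut.ord_smul]
    exact h

theorem valAt_smul (s : SemilinearAut K F) {z : F} {Q : Place K F}
    (h : ∃ c : K, HasValue Q z c) (hz : s • z = z) :
    valAt z (s • Q) = SemilinearAut.baseAut s (valAt z Q) := by
  have h1 := hasValue_smul s (hasValue_valAt h)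
  rw [hz] at h1
  exact valAt_eq h1

end Values

/-! ### The polynomial `ρ_W(T) = ∏_{Q ∈ W} (T - z(Q))` of an effective divisor -/

section Rho

variable {K : Type u} {F : Type v} [Field K] [Field F] [Algebra K F]
variable {ι : Type*} [Fintype ι]

/-- The effective divisor `∑ᵢ Pᵢ` of a finite family of places. -/
def divOf (P : ι → Place K F) : Divisor K F := ∑ i, Finsupp.single (P i) 1

/-- `ρ(T) = ∏ᵢ (T - z(Pᵢ))` for a finite family of places. -/
def rhoFam (z : F) (P : ι → Place K F) : K[X] := ∏ i, (X - C (valAt z (P i)))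

/-- `ρ_W(T) = ∏_Q (T - z(Q))^{W(Q)}` for a divisor `W` (meaningful for effective `W`). -/
def rho (z : F) (W : Divisor K F) : K[X] := W.prod fun Q n => (X - C (valAt z Q)) ^ n.toNat

theorem monic_rhoFam (z : F) (P : ι → Place K F) : (rhoFam z P).Monic :=
  monic_prod_of_monic _ _ fun i _ => monic_X_sub_C _

theorem natDegree_rhoFam (z : F) (P : ι → Place K F) :
    (rhoFam z P).natDegree = Fintype.card ι := by
  rw [rhoFam, natDegree_prod_of_monic _ _ fun i _ => monic_X_sub_C _]
  simp

theorem rhoFam_coeff_mem (z : F) (P : ι → Place K F) (S : Subring K)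
    (h : ∀ i, valAt z (P i) ∈ S) (l : ℕ) : (rhoFam z P).coeff l ∈ S := by
  have h1 : rhoFam z P = (∏ i, (X - C (⟨valAt z (P i), h i⟩ : S))).map S.subtype := by
    rw [rhoFam, Polynomial.map_prod]
    refine Finset.prod_congr rfl fun i _ => ?_
    rw [Polynomial.map_sub, Polynomial.map_X, Polynomial.map_C]
    rfl
  rw [h1, Polynomial.coeff_map]
  exact Subtype.coe_prop _

theorem rho_zero (z : F) : rho z (0 : Divisor K F) = 1 := Finsupp.prod_zero_index

theorem rho_single (z : F) (Q : Place K F) : rho z (Finsupp.single Q 1) = X - C (valAt z Q) := by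
  rw [rho, Finsupp.prod_single_index]
  · simp
  · simp

theorem rho_add (z : F) {W W' : Divisor K F} (hW : 0 ≤ W) (hW' : 0 ≤ W') :
    rho z (W + W') = rho z W * rho z W' := by
  classical
  have hs : (W + W').support ⊆ W.support ∪ W'.support := Finsupp.support_add
  have h1 : ∀ Q : Place K F, (X - C (valAt z Q)) ^ (0 : ℤ).toNat = (1 : K[X]) := fun Q => by simp
  rw [rho, rho, rho, Finsupp.prod_of_support_subset _ hs _ (fun Q _ => h1 Q),
    Finsupp.prod_of_support_subset _ Finset.subset_union_left _ (fun Q _ => h1 Q),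
    Finsupp.prod_of_support_subset _ Finset.subset_union_right _ (fun Q _ => h1 Q),
    ← Finset.prod_mul_distrib]
  refine Finset.prod_congr rfl fun Q _ => ?_
  rw [Finsupp.add_apply, Int.toNat_add (hW Q) (hW' Q), pow_add]

theorem divOf_nonneg (P : ι → Place K F) : 0 ≤ divOf P :=
  Finset.sum_nonneg fun i _ => Finsupp.single_nonneg.mpr zero_le_one

theorem rho_divOf (z : F) (P : ι → Place K F) : rho z (divOf P) = rhoFam z P := by
  classical
  have key : ∀ s : Finset ι, rho z (∑ i ∈ s, Finsupp.single (P i) 1) =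
      ∏ i ∈ s, (X - C (valAt z (P i))) := by
    intro s
    induction s using Finset.induction_on with
    | empty => simp [rho_zero]
    | insert a s ha ih =>
      rw [Finset.sum_insert ha, Finset.prod_insert ha, rho_add z
        (Finsupp.single_nonneg.mpr zero_le_one)
        (Finset.sum_nonneg fun i _ => Finsupp.single_nonneg.mpr zero_le_one), rho_single, ih]
  exact key Finset.univ

theorem mem_support_divOf (P : ι → Place K F) (i : ι) : P i ∈ (divOf P).support := by
  classical
  rw [Finsupp.mem_support_iff, divOf, Finsupp.finsetSum_apply]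
  have h0 : ∀ j ∈ Finset.univ, (0 : ℤ) ≤ (Finsupp.single (P j) (1 : ℤ)) (P i) := fun j _ => by
    rw [Finsupp.single_apply]; split_ifs <;> norm_num
  have h1 := Finset.single_le_sum h0 (Finset.mem_univ i)
  rw [Finsupp.single_eq_same] at h1
  omega

theorem exists_of_mem_support_divOf (P : ι → Place K F) {Q : Place K F}
    (hQ : Q ∈ (divOf P).support) : ∃ i, P i = Q := by
  classical
  by_contra hne
  push Not at hne
  rw [Finsupp.mem_support_iff, divOf, Finsupp.finsetSum_apply] at hQ
  apply hQ
  exact Finset.sum_eq_zero fun j _ => by rw [Finsupp.single_apply, if_neg (hne j)]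

/-- every effective divisor is the divisor of a finite family of places -/
theorem exists_fam_of_nonneg {W : Divisor K F} (hW : 0 ≤ W) :
    ∃ (n : ℕ) (P : Fin n → Place K F), W = divOf P := by
  classical
  induction W using Finsupp.induction with
  | zero => exact ⟨0, Fin.elim0, by simp [divOf]⟩
  | single_add a b f ha hb ih =>
    have hfa : f a = 0 := Finsupp.notMem_support_iff.mp ha
    have hf : 0 ≤ f := by
      intro Q
      by_cases hQ : Q = a
      · subst hQ; rw [hfa]; rfl
      · have := hW Q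
        rw [Finsupp.add_apply, Finsupp.single_apply, if_neg (Ne.symm hQ), zero_add] at this
        exact this
    have hb0 : 0 ≤ b := by
      have := hW a
      rw [Finsupp.add_apply, Finsupp.single_apply, if_pos rfl, hfa, add_zero] at this
      exact this
    obtain ⟨n, P, rfl⟩ := ih hf
    refine ⟨b.toNat + n, Fin.append (fun _ => a) P, ?_⟩
    rw [divOf, divOf, Fin.sum_univ_add]
    simp only [Fin.append_left, Fin.append_right, Finset.sum_const, Finset.card_univ,
      Fintype.card_fin]
    congr 1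
    rw [Finsupp.smul_single, nsmul_eq_mul, mul_one, Int.toNat_of_nonneg hb0]

theorem rho_monic (z : F) (W : Divisor K F) : (rho z W).Monic :=
  monic_prod_of_monic _ _ fun Q _ => (monic_X_sub_C _).pow _

theorem natDegree_rho (z : F) (W : Divisor K F) :
    (rho z W).natDegree = W.sum fun _ n => n.toNat := by
  rw [rho, Finsupp.prod, natDegree_prod_of_monic _ _ fun Q _ => (monic_X_sub_C _).pow _,
    Finsupp.sum]
  refine Finset.sum_congr rfl fun Q _ => ?_
  rw [(monic_X_sub_C _).natDegree_pow, natDegree_X_sub_C, mul_one]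

theorem rho_coeff_mem (z : F) (W : Divisor K F) (S : Subring K)
    (h : ∀ Q ∈ W.support, valAt z Q ∈ S) (l : ℕ) : (rho z W).coeff l ∈ S := by
  have h1 : rho z W ∈ Polynomial.liftsRing S.subtype := by
    rw [rho, Finsupp.prod]
    refine Subring.prod_mem _ fun Q hQ => Subring.pow_mem _ ?_ _
    rw [← Polynomial.lifts_iff_liftsRing, Polynomial.mem_lifts]
    refine ⟨X - C ⟨valAt z Q, h Q hQ⟩, ?_⟩
    rw [Polynomial.map_sub, Polynomial.map_X, Polynomial.map_C]
    rfl
  rw [← Polynomial.lifts_iff_liftsRing, Polynomial.lifts_iff_coeff_lifts] at h1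
  obtain ⟨a, ha⟩ := h1 l
  rw [← ha]
  exact a.2

/-- equivariance of `ρ` for a family -/
theorem rhoFam_smul (s : SemilinearAut K F) {z : F} (hsz : s • z = z) (P : ι → Place K F)
    (hval : ∀ i, ∃ c : K, HasValue (P i) z c) :
    rhoFam z (fun i => s • P i) =
      (rhoFam z P).map ((SemilinearAut.baseAut s : K ≃+* K) : K →+* K) := by
  rw [rhoFam, rhoFam, Polynomial.map_prod]
  refine Finset.prod_congr rfl fun i _ => ?_
  rw [Polynomial.map_sub, Polynomial.map_X, Polynomial.map_C, valAt_smul s (hval i) hsz]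
  rfl

theorem divOf_smul (s : SemilinearAut K F) (P : ι → Place K F) :
    s • divOf P = divOf (fun i => s • P i) := by
  rw [divOf, divOf, Finset.smul_sum]
  exact Finset.sum_congr rfl fun i _ => SemilinearAut.smul_single s (P i) 1

/-- equivariance of `ρ` for an effective divisor -/
theorem rho_smul (s : SemilinearAut K F) {z : F} (hsz : s • z = z) {W : Divisor K F}
    (hW : 0 ≤ W) (hval : ∀ Q ∈ W.support, ∃ c : K, HasValue Q z c) :
    rho z (s • W) = (rho z W).map ((SemilinearAut.baseAut s : K ≃+* K) : K →+* K) := by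
  obtain ⟨n, P, rfl⟩ := exists_fam_of_nonneg hW
  rw [divOf_smul, rho_divOf, rho_divOf]
  exact rhoFam_smul s hsz P fun i => hval _ (mem_support_divOf P i)

/-- the coefficients of `ρ_W` are fixed by `s` when `W` and `z` are -/
theorem rho_coeff_fixed (s : SemilinearAut K F) {z : F} (hsz : s • z = z) {W : Divisor K F}
    (hW : 0 ≤ W) (hval : ∀ Q ∈ W.support, ∃ c : K, HasValue Q z c) (hsW : s • W = W) (l : ℕ) :
    SemilinearAut.baseAut s ((rho z W).coeff l) = (rho z W).coeff l := by
  have h := rho_smul s hsz hW hval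
  rw [hsW] at h
  conv_rhs => rw [h]
  rw [Polynomial.coeff_map]
  rfl

end Rho

/-! ### Reduction of `ρ`, residue discs -/

section Disc

variable {K : Type u} [Field K] {A : ValuationSubring K}
  {F : Type v} [Field F] [Algebra K F] {O : ValuationSubring F}
  {k : Type w} {κ : Type z} [Field k] [Field κ] [Algebra k κ]
  {R : RedSetup A O k κ} {sp : Place K F → Place k κ}

/-- every function regular at a place has a value there (true when `K` is algebraically closed
and `F / K` is a function field) -/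
def HasValues (K : Type u) (F : Type v) [Field K] [Field F] [Algebra K F] : Prop :=
  ∀ (Q : Place K F) (f : F), f ∈ Q.toValuationSubring → ∃ a : K, HasValue Q f a

variable [HasPrincipalDivisors K F]

/-- `spD` of the divisor of a family -/
theorem spD_divOf {ι : Type*} [Fintype ι] (P : ι → Place K F) :
    spD sp (divOf P) = divOf (fun i => sp (P i)) := by
  rw [divOf, divOf, map_sum]
  exact Finset.sum_congr rfl fun i _ => spD_single sp (P i) 1

/-- **Reduction of `ρ` (families).**  If `z ∈ O` is regular on the residue discs of all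
`sp (P i)`, then `ρ_P ∈ A[T]` and it reduces to `ρ` of the specialised family for `res z`. -/
theorem rhoFam_reduction (hsp : SpCompat R (spD sp)) (hv : HasValues K F) {zf : F} (hz : zf ∈ O)
    {ι : Type*} [Fintype ι] (P : ι → Place K F) (hreg : ∀ i, RegularOn sp (sp (P i)) zf) :
    ∃ q : Polynomial A, q.Monic ∧ q.map A.subtype = rhoFam zf P ∧
      q.map R.π = rhoFam (R.res ⟨zf, hz⟩) (fun i => sp (P i)) := by
  have hval : ∀ i, HasValue (P i) zf (valAt zf (P i)) := fun i =>
    hasValue_valAt (hv (P i) zf (hreg i (P i) rfl))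
  have hmem : ∀ i, valAt zf (P i) ∈ A := fun i =>
    mem_of_hasValue hsp hz (hreg i) rfl (hval i)
  refine ⟨∏ i, (X - C (⟨valAt zf (P i), hmem i⟩ : A)),
    monic_prod_of_monic _ _ fun i _ => monic_X_sub_C _, ?_, ?_⟩
  · rw [rhoFam, Polynomial.map_prod]
    refine Finset.prod_congr rfl fun i _ => ?_
    rw [Polynomial.map_sub, Polynomial.map_X, Polynomial.map_C]
    rfl
  · rw [rhoFam, Polynomial.map_prod]
    refine Finset.prod_congr rfl fun i _ => ?_
    rw [Polynomial.map_sub, Polynomial.map_X, Polynomial.map_C]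
    have h1 : HasValue (sp (P i)) (R.res ⟨zf, hz⟩) (R.π ⟨valAt zf (P i), hmem i⟩) :=
      hasValue_sp hsp hz (hreg i) rfl (a := ⟨valAt zf (P i), hmem i⟩) (hval i)
    rw [valAt_eq h1]

/-- **Reduction of `ρ` (effective divisors).** -/
theorem rho_reduction (hsp : SpCompat R (spD sp)) (hv : HasValues K F) {zf : F} (hz : zf ∈ O)
    {W : Divisor K F} (hW : 0 ≤ W) (hreg : ∀ Q ∈ W.support, RegularOn sp (sp Q) zf) :
    ∃ q : Polynomial A, q.Monic ∧ q.map A.subtype = rho zf W ∧
      q.map R.π = rho (R.res ⟨zf, hz⟩) (spD sp W) := by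
  obtain ⟨n, P, rfl⟩ := exists_fam_of_nonneg hW
  obtain ⟨q, hq1, hq2, hq3⟩ := rhoFam_reduction hsp hv hz P
    fun i => hreg _ (mem_support_divOf P i)
  exact ⟨q, hq1, by rw [hq2, rho_divOf], by rw [hq3, spD_divOf, rho_divOf]⟩

/-- the base data of a chart: a function `z ∈ O` whose reduction is a local coordinate
(`z̄ - c̄ᵢ` has a simple zero) at each of the pairwise distinct points `wᵢ` of the special fibre,
with pairwise distinct values `c̄ᵢ`, regular on the residue discs of the `wᵢ`. -/
structure DiscBase (R : RedSetup A O k κ) (sp : Place K F → Place k κ) (ι : Type*) where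
  z : F
  hz : z ∈ O
  w : ι → Place k κ
  cb : ι → k
  cb_inj : Function.Injective cb
  hunif : ∀ i, (w i).ord (R.res ⟨z, hz⟩ - algebraMap k κ (cb i)) = 1
  hreg : ∀ i, RegularOn sp (w i) z

namespace DiscBase

variable {ι : Type*} (B : DiscBase R sp ι)

/-- a family of places, one in each residue disc -/
def IsFam (P : ι → Place K F) : Prop := ∀ i, sp (P i) = B.w i

theorem hasValue_w (i : ι) : HasValue (B.w i) (R.res ⟨B.z, B.hz⟩) (B.cb i) :=
  hasValue_of_unif (B.hunif i)

theorem w_injective : Function.Injective B.w := by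
  intro i j hij
  apply B.cb_inj
  have h1 := B.hasValue_w i
  have h2 := B.hasValue_w j
  rw [← hij] at h2
  exact h1.unique h2

theorem hasValue_valAt (hv : HasValues K F) {Q : Place K F} {i : ι}
    (hQ : sp Q = B.w i) : HasValue Q B.z (valAt B.z Q) :=
  Chart.hasValue_valAt (hv Q B.z (B.hreg i Q hQ))

theorem valAt_mem (hsp : SpCompat R (spD sp)) (hv : HasValues K F) {Q : Place K F} {i : ι}
    (hQ : sp Q = B.w i) : valAt B.z Q ∈ A :=
  mem_of_hasValue hsp B.hz (B.hreg i) hQ (B.hasValue_valAt hv hQ)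

theorem π_valAt (hsp : SpCompat R (spD sp)) (hv : HasValues K F) {Q : Place K F} {i : ι}
    (hQ : sp Q = B.w i) : R.π ⟨valAt B.z Q, B.valAt_mem hsp hv hQ⟩ = B.cb i :=
  π_eq_of_hasValue hsp B.hz (B.hreg i) (B.hunif i) hQ
    (a := ⟨valAt B.z Q, B.valAt_mem hsp hv hQ⟩) (B.hasValue_valAt hv hQ)

theorem divOf_w_apply [Fintype ι] [DecidableEq (Place k κ)] (i : ι) :
    (divOf B.w) (B.w i) = 1 := by
  rw [divOf, Finsupp.finsetSum_apply, Finset.sum_eq_single i]
  · exact Finsupp.single_eq_same
  · intro j _ hji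
    rw [Finsupp.single_apply, if_neg (fun h => hji (B.w_injective h))]
  · intro h; exact absurd (Finset.mem_univ i) h

theorem divOf_w_apply_of_ne [Fintype ι] {w' : Place k κ} (h : ∀ i, B.w i ≠ w') :
    (divOf B.w) w' = 0 := by
  classical
  rw [divOf, Finsupp.finsetSum_apply]
  exact Finset.sum_eq_zero fun j _ => by rw [Finsupp.single_apply, if_neg (h j)]

/-- (T1) an effective divisor specialising to `∑ wᵢ` is `∑ Pᵢ` for a unique family with
`Pᵢ` in the residue disc of `wᵢ`. -/
theorem existsUnique_fam [Fintype ι] {E : Divisor K F} (hE : 0 ≤ E)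
    (hspE : spD sp E = divOf B.w) : ∃! P : ι → Place K F, B.IsFam P ∧ E = divOf P := by
  classical
  have hwinj := B.w_injective
  let S : ι → Finset (Place K F) := fun i => E.support.filter (fun Q => sp Q = B.w i)
  have hS : ∀ i, ∑ Q ∈ S i, E Q = 1 := fun i => by
    have h := spD_apply_eq_sum sp E (B.w i)
    rw [hspE, B.divOf_w_apply] at h
    rw [h]
  have hpos : ∀ Q ∈ E.support, 1 ≤ E Q := fun Q hQ => by
    have h1 := hE Q
    have h2 := Finsupp.mem_support_iff.mp hQ
    rw [Finsupp.zero_apply] at h1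
    omega
  have hcard : ∀ i, (S i).card = 1 := by
    intro i
    have h1 : ((S i).card : ℤ) ≤ ∑ Q ∈ S i, E Q := by
      calc ((S i).card : ℤ) = ∑ Q ∈ S i, (1 : ℤ) := by simp
        _ ≤ _ := Finset.sum_le_sum (fun Q hQ => hpos Q (Finset.mem_filter.mp hQ).1)
    have h2 : (S i).card ≠ 0 := by
      intro h0
      rw [Finset.card_eq_zero] at h0
      have := hS i
      rw [h0, Finset.sum_empty] at this
      exact zero_ne_one this
    rw [hS i] at h1
    omega
  choose P hP using fun i => Finset.card_eq_one.mp (hcard i)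
  have hPmem : ∀ i, P i ∈ E.support ∧ sp (P i) = B.w i := fun i => by
    have : P i ∈ S i := by rw [hP i]; exact Finset.mem_singleton_self _
    exact Finset.mem_filter.mp this
  have hEP : ∀ i, E (P i) = 1 := fun i => by
    have := hS i
    rw [hP i, Finset.sum_singleton] at this
    exact this
  have hsupp : ∀ Q ∈ E.support, ∃ i, Q = P i := by
    intro Q hQ
    by_cases hr : ∃ i, B.w i = sp Q
    · obtain ⟨i, hi⟩ := hr
      have : Q ∈ S i := Finset.mem_filter.mpr ⟨hQ, hi.symm⟩
      rw [hP i, Finset.mem_singleton] at this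
      exact ⟨i, this⟩
    · exfalso
      push Not at hr
      have h0 : spD sp E (sp Q) = 0 := by rw [hspE]; exact B.divOf_w_apply_of_ne hr
      rw [spD_apply_eq_sum sp E (sp Q)] at h0
      have h1 : E Q ≤ ∑ Q' ∈ E.support.filter (fun Q' => sp Q' = sp Q), E Q' :=
        Finset.single_le_sum (f := fun Q' => E Q') (fun Q' _ => hE Q')
          (Finset.mem_filter.mpr ⟨hQ, rfl⟩)
      have h2 := hpos Q hQ
      omega
  have hPinj : Function.Injective P := fun i j hij =>
    hwinj (by rw [← (hPmem i).2, ← (hPmem j).2, hij])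
  refine ⟨P, ⟨fun i => (hPmem i).2, ?_⟩, ?_⟩
  · ext Q
    rw [divOf, Finsupp.finsetSum_apply]
    by_cases hQ : Q ∈ E.support
    · obtain ⟨i, rfl⟩ := hsupp Q hQ
      rw [hEP i, Finset.sum_eq_single i]
      · exact Finsupp.single_eq_same.symm
      · intro j _ hji
        rw [Finsupp.single_apply, if_neg (fun h => hji (hPinj h))]
      · intro h; exact absurd (Finset.mem_univ i) h
    · rw [Finsupp.notMem_support_iff.mp hQ]
      symm
      refine Finset.sum_eq_zero fun j _ => ?_
      rw [Finsupp.single_apply, if_neg]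
      rintro rfl
      exact hQ (hPmem j).1
  · rintro P' ⟨hP'fam, hP'E⟩
    funext i
    have : P' i ∈ S i :=
      Finset.mem_filter.mpr ⟨by rw [hP'E]; exact mem_support_divOf P' i, hP'fam i⟩
    rw [hP i, Finset.mem_singleton] at this
    exact this

/-- reduction of `ρ_P` for a family over `w`: `ρ_P ≡ ∏ (T - c̄ᵢ)` -/
theorem rhoFam_reduction [Fintype ι] (hsp : SpCompat R (spD sp)) (hv : HasValues K F)
    {P : ι → Place K F} (hP : B.IsFam P) :
    ∃ q : Polynomial A, q.Monic ∧ q.map A.subtype = rhoFam B.z P ∧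
      q.map R.π = ∏ i, (X - C (B.cb i)) := by
  obtain ⟨q, hq1, hq2, hq3⟩ := Chart.rhoFam_reduction hsp hv B.hz P
    fun i => by rw [hP i]; exact B.hreg i
  refine ⟨q, hq1, hq2, ?_⟩
  rw [hq3, rhoFam]
  refine Finset.prod_congr rfl fun i _ => ?_
  rw [hP i, valAt_eq (B.hasValue_w i)]

/-- (T2) two families over `w` have congruent `ρ` -/
theorem rhoFam_coeff_sub_mem [Fintype ι] (hsp : SpCompat R (spD sp)) (hv : HasValues K F)
    {P P' : ι → Place K F} (hP : B.IsFam P) (hP' : B.IsFam P') (l : ℕ) :
    (rhoFam B.z P).coeff l - (rhoFam B.z P').coeff l ∈ A.nonunits := by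
  obtain ⟨q, -, hq2, hq3⟩ := B.rhoFam_reduction hsp hv hP
  obtain ⟨q', -, hq2', hq3'⟩ := B.rhoFam_reduction hsp hv hP'
  rw [← hq2, ← hq2', Polynomial.coeff_map, Polynomial.coeff_map,
    ValuationSubring.mem_nonunits_iff_exists_mem_maximalIdeal]
  refine ⟨(q.coeff l - q'.coeff l).2, ?_⟩
  rw [← R.π_eq_zero_iff]
  have h1 : R.π (q.coeff l) = R.π (q'.coeff l) := by
    rw [← Polynomial.coeff_map, ← Polynomial.coeff_map, hq3, hq3']
  have : (⟨A.subtype (q.coeff l) - A.subtype (q'.coeff l), (q.coeff l - q'.coeff l).2⟩ : A) =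
      q.coeff l - q'.coeff l := Subtype.ext rfl
  rw [this, map_sub, h1, sub_self]

/-- (T3) a family over `w` is determined by its `ρ` -/
theorem fam_injective [Fintype ι] (hsp : SpCompat R (spD sp)) (hv : HasValues K F)
    {P P' : ι → Place K F} (hP : B.IsFam P) (hP' : B.IsFam P')
    (h : rhoFam B.z P = rhoFam B.z P') : P = P' := by
  funext i
  have hroot : (rhoFam B.z P).eval (valAt B.z (P i)) = 0 := by
    rw [rhoFam, Polynomial.eval_prod]
    exact Finset.prod_eq_zero (Finset.mem_univ i) (by simp)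
  rw [h, rhoFam, Polynomial.eval_prod, Finset.prod_eq_zero_iff] at hroot
  obtain ⟨j, -, hj⟩ := hroot
  rw [Polynomial.eval_sub, Polynomial.eval_X, Polynomial.eval_C, sub_eq_zero] at hj
  have hij : i = j := by
    apply B.cb_inj
    rw [← B.π_valAt hsp hv (hP i), ← B.π_valAt hsp hv (hP' j)]
    congr 1
    exact Subtype.ext hj
  subst hij
  have h1 := B.hasValue_valAt hv (hP i)
  have h2 := B.hasValue_valAt hv (hP' i)
  rw [← hj] at h2
  exact disc_injective hsp B.hz (B.hreg i) (B.hunif i) (hP i) (hP' i) h1 h2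

theorem isFam_smul (s : SemilinearAut K F) (hs : ∀ Q : Place K F, sp (s • Q) = sp Q)
    {P : ι → Place K F} (hP : B.IsFam P) : B.IsFam (fun i => s • P i) :=
  fun i => by rw [hs, hP i]

end DiscBase

/-- the base data of the chart `X₀`: a `DiscBase` with `g` points and a family `pt0` of lifts
(the base divisor `D₀ = ∑ pt0ᵢ`). -/
structure ChartBase (R : RedSetup A O k κ) (sp : Place K F → Place k κ) (g : ℕ)
    extends DiscBase R sp (Fin g) where
  pt0 : Fin g → Place K F
  sp_pt0 : ∀ i, sp (pt0 i) = w i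

namespace ChartBase

variable {g : ℕ} (B : ChartBase R sp g)

/-- the base divisor `D₀ = ∑ pt0ᵢ` -/
def D0 : Divisor K F := divOf B.pt0

/-- its specialisation `D̄₀ = ∑ wᵢ` -/
def D0bar : Divisor k κ := divOf B.w

/-- `E` is an effective representative near `D₀` of the class `x`: `E ≥ 0`, `sp E = D̄₀`,
`[E - D₀] = x`. -/
def IsRep (E : Divisor K F) (x : Pic0 K F) : Prop :=
  0 ≤ E ∧ spD sp E = B.D0bar ∧
    ∃ h : E - B.D0 ∈ Divisor.degZero (K := K) (F := F), Pic0.mk ⟨E - B.D0, h⟩ = x

open Classical in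
/-- the chosen representative of `x` (junk value `D₀`) -/
def rep (x : Pic0 K F) : Divisor K F := if h : ∃ E, B.IsRep E x then h.choose else B.D0

/-- the chart: `X₀(x)_l = coeff_l ρ_{E_x} - coeff_l ρ_{D₀}`, `l < g` -/
def chart (x : Pic0 K F) : Fin g → K :=
  fun l => (rho B.z (B.rep x)).coeff l - (rho B.z B.D0).coeff l

theorem isRep_rep {x : Pic0 K F} (h : ∃ E, B.IsRep E x) : B.IsRep (B.rep x) x := by
  rw [rep, dif_pos h]
  exact h.choose_spec

theorem rep_eq {x : Pic0 K F} (hu : ∃! E, B.IsRep E x) {E : Divisor K F} (hE : B.IsRep E x) :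
    B.rep x = E :=
  hu.unique (B.isRep_rep hu.exists) hE

theorem isFam_pt0 : B.IsFam B.pt0 := B.sp_pt0

theorem spD_D0 : spD sp B.D0 = B.D0bar := by
  rw [D0, D0bar, spD_divOf]
  congr 1
  exact funext B.sp_pt0

theorem isRep_D0 : B.IsRep B.D0 0 := by
  refine ⟨divOf_nonneg _, B.spD_D0, ?_⟩
  have h0 : B.D0 - B.D0 ∈ Divisor.degZero (K := K) (F := F) := by
    rw [sub_self]; exact zero_mem _
  refine ⟨h0, ?_⟩
  have : (⟨B.D0 - B.D0, h0⟩ : Divisor.degZero (K := K) (F := F)) = 0 :=
    Subtype.ext (sub_self _)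
  rw [this]
  exact Pic0.mk_zero

/-- an effective divisor specialising to `D̄₀` is the divisor of a family over `w` -/
theorem exists_fam_of_spD {E : Divisor K F} (hE : 0 ≤ E) (hspE : spD sp E = B.D0bar) :
    ∃ P : Fin g → Place K F, B.IsFam P ∧ E = divOf P :=
  (B.toDiscBase.existsUnique_fam hE hspE).exists

/-- the representative is the divisor of a family over `w` -/
theorem exists_fam_rep {x : Pic0 K F} (h : ∃ E, B.IsRep E x) :
    ∃ P : Fin g → Place K F, B.IsFam P ∧ B.rep x = divOf P :=
  B.exists_fam_of_spD (B.isRep_rep h).1 (B.isRep_rep h).2.1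

theorem rho_D0 : rho B.z B.D0 = rhoFam B.z B.pt0 := rho_divOf _ _

/-- `ρ_{E_x}` has coefficients in `A` and reduces to `∏ (T - c̄ᵢ)` -/
theorem rho_rep_reduction (hsp : SpCompat R (spD sp)) (hv : HasValues K F) {x : Pic0 K F}
    (h : ∃ E, B.IsRep E x) :
    ∃ q : Polynomial A, q.Monic ∧ q.map A.subtype = rho B.z (B.rep x) ∧
      q.map R.π = ∏ i, (X - C (B.cb i)) := by
  obtain ⟨P, hP, hPE⟩ := B.exists_fam_rep h
  rw [hPE, rho_divOf]
  exact B.toDiscBase.rhoFam_reduction hsp hv hP

theorem natDegree_rho_rep {x : Pic0 K F} (h : ∃ E, B.IsRep E x) :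
    (rho B.z (B.rep x)).natDegree = g := by
  obtain ⟨P, hP, hPE⟩ := B.exists_fam_rep h
  rw [hPE, rho_divOf, natDegree_rhoFam, Fintype.card_fin]

/-- `X₀(0) = 0` -/
theorem chart_zero (hu : ∃! E, B.IsRep E 0) : B.chart 0 = 0 := by
  funext l
  rw [chart, B.rep_eq hu B.isRep_D0, sub_self]
  rfl

/-- (T2) the chart takes values in the maximal ideal -/
theorem chart_mem (hsp : SpCompat R (spD sp)) (hv : HasValues K F) {x : Pic0 K F}
    (h : ∃ E, B.IsRep E x) (l : Fin g) : B.chart x l ∈ A.nonunits := by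
  obtain ⟨P, hP, hPE⟩ := B.exists_fam_rep h
  rw [chart, hPE, D0, rho_divOf, rho_divOf]
  exact B.toDiscBase.rhoFam_coeff_sub_mem hsp hv hP B.isFam_pt0 l

/-- `ρ_{E_x} = ρ_{D₀} + ∑_{l<g} X₀(x)_l T^l` -/
theorem rho_rep {x : Pic0 K F} (h : ∃ E, B.IsRep E x) :
    rho B.z (B.rep x) = rho B.z B.D0 + ∑ l : Fin g, C (B.chart x l) * X ^ (l : ℕ) := by
  obtain ⟨P, hP, hPE⟩ := B.exists_fam_rep h
  have hp1 : (rhoFam B.z P).Monic := monic_rhoFam _ _
  have hq1 : (rhoFam B.z B.pt0).Monic := monic_rhoFam _ _
  have hp2 : (rhoFam B.z P).natDegree = g := by rw [natDegree_rhoFam, Fintype.card_fin]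
  have hq2 : (rhoFam B.z B.pt0).natDegree = g := by rw [natDegree_rhoFam, Fintype.card_fin]
  have hc : ∀ l : Fin g, B.chart x l =
      (rhoFam B.z P).coeff l - (rhoFam B.z B.pt0).coeff l := fun l => by
    rw [chart, hPE, D0, rho_divOf, rho_divOf]
  rw [hPE, D0, rho_divOf, rho_divOf]
  ext n
  rw [Polynomial.coeff_add, Polynomial.finset_sum_coeff]
  simp only [Polynomial.coeff_C_mul_X_pow]
  rcases lt_trichotomy n g with hn | hn | hn
  · rw [Finset.sum_eq_single (⟨n, hn⟩ : Fin g)]
    · rw [if_pos rfl, hc]; ring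
    · intro j _ hj
      rw [if_neg]
      intro h2
      exact hj (Fin.ext h2.symm)
    · intro h2; exact absurd (Finset.mem_univ _) h2
  · subst hn
    rw [Finset.sum_eq_zero, add_zero]
    · have e1 := hp1.coeff_natDegree
      have e2 := hq1.coeff_natDegree
      rw [hp2] at e1
      rw [hq2] at e2
      rw [e1, e2]
    · intro j _
      rw [if_neg]
      intro h2
      exact absurd j.2 (by omega)
  · rw [Finset.sum_eq_zero, add_zero]
    · rw [Polynomial.coeff_eq_zero_of_natDegree_lt (by omega),
        Polynomial.coeff_eq_zero_of_natDegree_lt (by omega)]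
    · intro j _
      rw [if_neg]
      intro h2
      exact absurd j.2 (by omega)

/-- (T3) the chart is injective -/
theorem chart_injective (hsp : SpCompat R (spD sp)) (hv : HasValues K F) {x y : Pic0 K F}
    (hx : ∃ E, B.IsRep E x) (hy : ∃ E, B.IsRep E y) (h : B.chart x = B.chart y) : x = y := by
  have hrho : rho B.z (B.rep x) = rho B.z (B.rep y) := by
    rw [B.rho_rep hx, B.rho_rep hy, h]
  obtain ⟨P, hP, hPE⟩ := B.exists_fam_rep hx
  obtain ⟨P', hP', hPE'⟩ := B.exists_fam_rep hy
  rw [hPE, hPE', rho_divOf, rho_divOf] at hrho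
  have hPP' := B.toDiscBase.fam_injective hsp hv hP hP' hrho
  have hE : B.rep x = B.rep y := by rw [hPE, hPE', hPP']
  obtain ⟨h1, h2⟩ := (B.isRep_rep hx).2.2
  obtain ⟨h1', h2'⟩ := (B.isRep_rep hy).2.2
  rw [← h2, ← h2']
  exact congrArg Pic0.mk (Subtype.ext (congrArg (· - B.D0) hE))

/-- a semilinear automorphism preserving the discs, fixing `D₀` maps representatives to
representatives -/
theorem isRep_smul (s : SemilinearAut K F) (hs : ∀ Q : Place K F, sp (s • Q) = sp Q)
    (hs0 : s • B.D0 = B.D0) {E : Divisor K F} {x : Pic0 K F} (hE : B.IsRep E x) :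
    B.IsRep (s • E) (s • x) := by
  obtain ⟨hE0, hEsp, hdeg, hmk⟩ := hE
  refine ⟨fun Q => ?_, ?_, ?_⟩
  · rw [SemilinearAut.divisor_smul_apply]
    exact hE0 _
  · rw [← hEsp]
    show Finsupp.mapDomain sp (s • E) = Finsupp.mapDomain sp E
    rw [SemilinearAut.divisor_smul_def, ← Finsupp.mapDomain_comp]
    congr 1
    exact funext hs
  · have e : s • E - B.D0 = s • (E - B.D0) := by rw [smul_sub, hs0]
    have h2 : s • E - B.D0 ∈ Divisor.degZero (K := K) (F := F) := by
      rw [e]; exact SemilinearAut.smul_mem_degZero s hdeg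
    refine ⟨h2, ?_⟩
    rw [← hmk, SemilinearAut.pic0_smul_mk]
    exact congrArg Pic0.mk (Subtype.ext (by rw [SemilinearAut.coe_degZeroSMulHom]; exact e))

/-- (T4) the chart is equivariant -/
theorem chart_smul (hv : HasValues K F) (s : SemilinearAut K F)
    (hsz : s • B.z = B.z) (hs : ∀ Q : Place K F, sp (s • Q) = sp Q) (hs0 : s • B.D0 = B.D0)
    {x : Pic0 K F} (hx : ∃ E, B.IsRep E x) (hu : ∃! E, B.IsRep E (s • x)) (l : Fin g) :
    B.chart (s • x) l = SemilinearAut.baseAut s (B.chart x l) := by
  have hrep : B.rep (s • x) = s • B.rep x := B.rep_eq hu (B.isRep_smul s hs hs0 (B.isRep_rep hx))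
  have hval : ∀ {E : Divisor K F}, 0 ≤ E → spD sp E = B.D0bar →
      ∀ Q ∈ E.support, ∃ c : K, HasValue Q B.z c := by
    intro E hE hspE Q hQ
    obtain ⟨P, hP, rfl⟩ := B.exists_fam_of_spD hE hspE
    obtain ⟨i, rfl⟩ := exists_of_mem_support_divOf P hQ
    exact hv _ _ (B.hreg i _ (hP i))
  have h1 := rho_smul s hsz (B.isRep_rep hx).1 (hval (B.isRep_rep hx).1 (B.isRep_rep hx).2.1)
  have h2 := rho_smul s hsz B.isRep_D0.1 (hval B.isRep_D0.1 B.isRep_D0.2.1)
  rw [hs0] at h2
  rw [chart, hrep, h1]
  conv_lhs => rw [h2]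
  rw [Polynomial.coeff_map, Polynomial.coeff_map, chart, map_sub]
  rfl

/-- the chart of an `s`-fixed class has `s`-fixed coordinates -/
theorem chart_fixed (hv : HasValues K F) (s : SemilinearAut K F)
    (hsz : s • B.z = B.z) (hs : ∀ Q : Place K F, sp (s • Q) = sp Q) (hs0 : s • B.D0 = B.D0)
    {x : Pic0 K F} (hu : ∃! E, B.IsRep E x) (hsx : s • x = x) (l : Fin g) :
    SemilinearAut.baseAut s (B.chart x l) = B.chart x l := by
  have h := B.chart_smul hv s hsz hs hs0 hu.exists (by rw [hsx]; exact hu) l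
  rw [hsx] at h
  exact h.symm

end ChartBase

end Disc

end Fermat.Agent.S19x.Geo.Chart
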