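import Fermat.Agent.S19x.Geo.Setting

/-!
# P-S19 block A, leaf (L4, part a): the effective representative of a class of `ker red` (helper92)

Abstract setting `G : GeoSetting A O k κ` (`Geo/Setting.lean`).  Let `D₀` be an effective divisor
of degree `g` of the generic fibre whose specialisation is NON-SPECIAL (`l(sp D₀) = 1`), and `X` a
divisor of degree `0` whose specialisation is principal (i.e. its class lies in the kernel of the
reduction).  Then

* `existsUnique_effective` : there is a UNIQUE effective `E` with `E - D₀ ∼ X`;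
* `spDiv_eq_of_isPrincipal` : for this `E`, `sp E = sp D₀`;
* `exists_sections` : if `sp D₀ = ∑_{w ∈ U} w` is reduced, then `E = ∑_{w ∈ U} P_w` with exactly
  one point `P_w` in the residue disc of each `w ∈ U`;
* `existsUnique_effective_mk`, `spDiv_eq_of_mk` : the same in terms of `Pic0`, for any additive
  `red` induced by `spDiv` (hypothesis-style, the shape of `S27x/Spec/Inj.lean`).

General function field lemma: `eq_of_isPrincipal_sub` (an effective divisor `D` with `l(D) ≤ 1`
is the only effective divisor of its class).  Pure `Finsupp` lemma: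
`exists_section_of_mapDomain_eq`.
-/

set_option autoImplicit false
set_option linter.unusedSectionVars false
set_option linter.style.haveILetI false

noncomputable section

namespace Fermat.Agent.S19x.Geo.ChartRep

open AlgebraicCurve IsLocalRing Module
open Fermat.Agent.Gateway.C0 Fermat.Agent.Gateway.Red Fermat.Agent.S27x.Spec.Inj
  Fermat.Agent.S27x.Spec.Disc Fermat.Agent.Lib.RiemannRoch

universe u v w z

section General

variable {K : Type u} {F : Type v} [Field K] [Field F] [Algebra K F]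

/-- constants lie in `L(D)` for effective `D` -/
theorem one_mem_rrs {D : Divisor K F} (hD : 0 ≤ D) : (1 : F) ∈ riemannRochSpace D := by
  rw [mem_riemannRochSpace_iff]
  intro v
  right
  rw [Place.ord_one, neg_nonpos]
  exact hD v

/-- if `E = D + div h` is effective then `h ∈ L(D)` -/
theorem mem_rrs_of_sub_eq_ord {D E : Divisor K F} (hE : 0 ≤ E) {h : F}
    (hh : ∀ v : Place K F, (E - D) v = v.ord h) : h ∈ riemannRochSpace D := by
  rw [mem_riemannRochSpace_iff]
  intro v
  right
  rw [← hh v, Finsupp.sub_apply]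
  have := hE v
  simp only [Finsupp.coe_zero, Pi.zero_apply] at this
  linarith

/-- **Rigidity**: an effective divisor `D` with `l(D) ≤ 1` is the only effective divisor in its
linear equivalence class. -/
theorem eq_of_isPrincipal_sub {D E : Divisor K F} (hD : 0 ≤ D)
    [Module.Finite K (riemannRochSpace D)]
    (hl : finrank K (riemannRochSpace D) ≤ 1) (hE : 0 ≤ E)
    (hp : Divisor.IsPrincipal (E - D)) : E = D := by
  obtain ⟨h, hh0, hh⟩ := hp
  have hhL : h ∈ riemannRochSpace D := mem_rrs_of_sub_eq_ord hE hh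
  have h1L : (1 : F) ∈ riemannRochSpace D := one_mem_rrs hD
  obtain ⟨v, hv⟩ := finrank_le_one_iff.mp hl
  obtain ⟨a, ha⟩ := hv ⟨h, hhL⟩
  obtain ⟨b, hb⟩ := hv ⟨1, h1L⟩
  have ha' : a • (v : F) = h := congrArg Subtype.val ha
  have hb' : b • (v : F) = 1 := congrArg Subtype.val hb
  have hb0 : b ≠ 0 := by
    rintro rfl
    rw [zero_smul] at hb'
    exact zero_ne_one hb'
  have hc : h = algebraMap K F (a * b⁻¹) := by
    have hv' : (v : F) = b⁻¹ • (1 : F) := by
      rw [← hb', smul_smul, inv_mul_cancel₀ hb0, one_smul]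
    rw [← ha', hv', smul_smul, Algebra.smul_def, mul_one]
  ext w
  have h2 := hh w
  rw [hc, Fermat.Agent.S24.PDiv.ord_algebraMap, Finsupp.sub_apply] at h2
  linarith

end General

section Sections

variable {α : Type u} {β : Type v}

theorem mapDomain_apply_eq_sum_filter [DecidableEq β] (f : α → β) (E : α →₀ ℤ) (w : β) :
    Finsupp.mapDomain f E w = ∑ a ∈ E.support.filter (fun a => f a = w), E a := by
  rw [Finsupp.mapDomain, Finsupp.sum, Finsupp.finsetSum_apply, Finset.sum_filter]
  refine Finset.sum_congr rfl fun a _ => ?_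
  rw [Finsupp.single_apply]

theorem sum_single_one_apply [DecidableEq β] (U : Finset β) (w : β) :
    (∑ w' ∈ U, Finsupp.single w' (1 : ℤ)) w = if w ∈ U then 1 else 0 := by
  rw [Finsupp.finsetSum_apply]
  simp only [Finsupp.single_apply]
  rw [Finset.sum_ite_eq' U w]

/-- If the push-forward of a nonnegative `E : α →₀ ℤ` along `f` is the reduced sum of a finite set
`U`, then `E` is the reduced sum of a section of `f` over `U`. -/
theorem exists_section_of_mapDomain_eq [DecidableEq β] [Nonempty α] (f : α → β) {E : α →₀ ℤ}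
    (hE : 0 ≤ E) (U : Finset β)
    (h : Finsupp.mapDomain f E = ∑ w ∈ U, Finsupp.single w (1 : ℤ)) :
    ∃ P : β → α, (∀ w ∈ U, f (P w) = w) ∧ E = ∑ w ∈ U, Finsupp.single (P w) (1 : ℤ) := by
  classical
  have hpos : ∀ a ∈ E.support, 1 ≤ E a := by
    intro a ha
    have h0 : 0 ≤ E a := hE a
    have h1 : E a ≠ 0 := Finsupp.mem_support_iff.mp ha
    omega
  have hnn : ∀ a, 0 ≤ E a := fun a => hE a
  have key : ∀ w, ∑ a ∈ E.support.filter (fun a => f a = w), E a = if w ∈ U then 1 else 0 := by
    intro w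
    rw [← mapDomain_apply_eq_sum_filter, h, sum_single_one_apply]
  -- step 1
  have step1 : ∀ a ∈ E.support, f a ∈ U ∧ E a = 1 ∧ ∀ a' ∈ E.support, f a' = f a → a' = a := by
    intro a ha
    have hk := key (f a)
    have hmem : a ∈ E.support.filter (fun a' => f a' = f a) := Finset.mem_filter.mpr ⟨ha, rfl⟩
    rw [← Finset.add_sum_erase _ _ hmem] at hk
    have hrest : 0 ≤ ∑ x ∈ (E.support.filter (fun a' => f a' = f a)).erase a, E x :=
      Finset.sum_nonneg fun x _ => hnn x
    have h1 := hpos a ha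
    by_cases hU : f a ∈ U
    · rw [if_pos hU] at hk
      refine ⟨hU, by omega, fun a' ha' hfa' => ?_⟩
      by_contra hne
      have hmem' : a' ∈ (E.support.filter (fun a' => f a' = f a)).erase a :=
        Finset.mem_erase.mpr ⟨hne, Finset.mem_filter.mpr ⟨ha', hfa'⟩⟩
      have h2 : E a' ≤ ∑ x ∈ (E.support.filter (fun a' => f a' = f a)).erase a, E x :=
        Finset.single_le_sum (fun x _ => hnn x) hmem'
      have h3 := hpos a' ha'
      omega
    · rw [if_neg hU] at hk
      omega
  -- step 2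
  have step2 : ∀ w, w ∈ U → ∃ a, a ∈ E.support ∧ f a = w := by
    intro w hw
    have hk := key w
    rw [if_pos hw] at hk
    have hne : (E.support.filter (fun a => f a = w)).Nonempty := by
      rw [Finset.nonempty_iff_ne_empty]
      intro hemp
      rw [hemp, Finset.sum_empty] at hk
      exact zero_ne_one hk
    obtain ⟨a, ha⟩ := hne
    exact ⟨a, (Finset.mem_filter.mp ha).1, (Finset.mem_filter.mp ha).2⟩
  choose! P hP using step2
  refine ⟨P, fun w hw => (hP w hw).2, ?_⟩
  have hinj : Set.InjOn P (U : Set β) := by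
    intro w hw w' hw' hww'
    rw [← (hP w hw).2, ← (hP w' hw').2, hww']
  have himg : U.image P = E.support := by
    ext a
    rw [Finset.mem_image]
    constructor
    · rintro ⟨w, hw, rfl⟩
      exact (hP w hw).1
    · intro ha
      obtain ⟨hU, -, huniq⟩ := step1 a ha
      exact ⟨f a, hU, huniq _ (hP _ hU).1 (hP _ hU).2⟩
  calc E = ∑ a ∈ E.support, Finsupp.single a (E a) := (Finsupp.sum_single E).symm
    _ = ∑ a ∈ E.support, Finsupp.single a (1 : ℤ) :=
        Finset.sum_congr rfl fun a ha => by rw [(step1 a ha).2.1]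
    _ = ∑ w ∈ U, Finsupp.single (P w) (1 : ℤ) := by
        rw [← himg, Finset.sum_image hinj]

end Sections

/-! ### The geometric setting -/

section Geo

variable {K : Type u} [Field K] {A : ValuationSubring K}
  {F : Type v} [Field F] [Algebra K F] {O : ValuationSubring F}
  {k : Type w} {κ : Type z} [Field k] [Field κ] [Algebra k κ]
  [HasPrincipalDivisors K F] [∀ v : Place K F, v.FiniteResidue]
  [HasPrincipalDivisors k κ] [∀ v : Place k κ, v.FiniteResidue]
  (G : GeoSetting A O k κ)

/-- a principal divisor has degree zero -/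
theorem degree_eq_zero_of_isPrincipal {D : Divisor K F} (hD : Divisor.IsPrincipal D) :
    Divisor.degree D = 0 := by
  obtain ⟨f, hf, hDf⟩ := hD
  have : D = divOf (K := K) f := Finsupp.ext fun v => by rw [hDf v, divOf_apply hf]
  rw [this, degree_divOf]

/-- the specialisation of a principal divisor is principal -/
theorem isPrincipal_spDiv {D : Divisor K F} (hD : Divisor.IsPrincipal D) :
    Divisor.IsPrincipal (G.spDiv D) := by
  obtain ⟨f, hf0, hDf⟩ := hD
  obtain ⟨c, hc, hcf⟩ := G.R.scal f hf0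
  have hc' : algebraMap K F c ≠ 0 := (map_ne_zero _).mpr hc
  have hD' : ∀ v : Place K F, D v = v.ord (c • f) := by
    intro v
    rw [hDf v, Algebra.smul_def, v.ord_mul hc' hf0, Fermat.Agent.S24.PDiv.ord_algebraMap, zero_add]
  have hO : c • f ∈ O := (O.valuation_le_one_iff _).mp hcf.le
  have hres : G.R.res ⟨c • f, hO⟩ ≠ 0 := by
    intro h0
    have := (G.R.res_ker ⟨c • f, hO⟩).mp h0
    rw [hcf] at this
    exact lt_irrefl _ this
  exact ⟨G.R.res ⟨c • f, hO⟩, hres, fun w => G.spCompat (c • f) hO hcf D hD' w⟩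

/-- **Existence** (Riemann's inequality on the generic fibre). -/
theorem exists_effective {D₀ X : Divisor K F} (hdeg : Divisor.degree D₀ = G.g)
    (hX : Divisor.degree X = 0) :
    ∃ E : Divisor K F, 0 ≤ E ∧ Divisor.IsPrincipal (E - D₀ - X) := by
  haveI := G.nonempty_placeF
  have hle := G.rrF.le_finrank (D₀ + X)
  rw [map_add, hdeg, hX] at hle
  have hpos : 0 < finrank K (riemannRochSpace (D₀ + X)) := by
    have : (1 : ℤ) ≤ finrank K (riemannRochSpace (D₀ + X)) := by linarith
    exact_mod_cast this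
  obtain ⟨f, hf0⟩ := (Module.finrank_pos_iff_exists_ne_zero).mp hpos
  have hf0' : (f : F) ≠ 0 := fun h => hf0 (Subtype.ext h)
  have hfL := (mem_riemannRochSpace_iff.mp f.2)
  refine ⟨D₀ + X + divOf (K := K) (f : F), ?_, (f : F), hf0', fun v => ?_⟩
  · intro v
    rcases hfL v with h | h
    · exact absurd h hf0'
    · simp only [Finsupp.coe_zero, Pi.zero_apply, Finsupp.add_apply, divOf_apply hf0' v] at h ⊢
      linarith
  · simp only [Finsupp.sub_apply, Finsupp.add_apply, divOf_apply hf0' v]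
    ring

/-- **The representative specialises to `sp D₀`.** -/
theorem spDiv_eq_of_isPrincipal {D₀ X E : Divisor K F} (hD₀ : 0 ≤ D₀)
    (hns : finrank k (riemannRochSpace (G.spDiv D₀)) = 1)
    (hXsp : Divisor.IsPrincipal (G.spDiv X))
    (hE : 0 ≤ E) (hp : Divisor.IsPrincipal (E - D₀ - X)) : G.spDiv E = G.spDiv D₀ := by
  haveI := G.nonempty_placeκ
  have h1 : Divisor.IsPrincipal (G.spDiv (E - D₀ - X)) := isPrincipal_spDiv G hp
  rw [map_sub, map_sub] at h1
  have h2 : Divisor.IsPrincipal (G.spDiv E - G.spDiv D₀) := by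
    have := (Divisor.principal (K := k) (F := κ)).add_mem h1 hXsp
    rwa [sub_add_cancel] at this
  exact eq_of_isPrincipal_sub (G.spDiv_nonneg hD₀) hns.le (G.spDiv_nonneg hE) h2

/-- **Uniqueness.** -/
theorem eq_of_isPrincipal {D₀ X E E' : Divisor K F} (hD₀ : 0 ≤ D₀)
    (hns : finrank k (riemannRochSpace (G.spDiv D₀)) = 1)
    (hXsp : Divisor.IsPrincipal (G.spDiv X))
    (hE : 0 ≤ E) (hp : Divisor.IsPrincipal (E - D₀ - X))
    (hE' : 0 ≤ E') (hp' : Divisor.IsPrincipal (E' - D₀ - X)) : E' = E := by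
  haveI := G.nonempty_placeF
  have hl : finrank K (riemannRochSpace E) ≤ 1 := by
    have := G.finrank_rrs_le E
    rwa [spDiv_eq_of_isPrincipal G hD₀ hns hXsp hE hp, hns] at this
  have h2 : Divisor.IsPrincipal (E' - E) := by
    have := (Divisor.principal (K := K) (F := F)).sub_mem hp' hp
    rwa [sub_sub_sub_cancel_right, sub_sub_sub_cancel_right] at this
  exact eq_of_isPrincipal_sub hE hl hE' h2

/-- **(F1)(i), divisor form.** -/
theorem existsUnique_effective {D₀ X : Divisor K F} (hD₀ : 0 ≤ D₀)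
    (hdeg : Divisor.degree D₀ = G.g)
    (hns : finrank k (riemannRochSpace (G.spDiv D₀)) = 1)
    (hX : Divisor.degree X = 0) (hXsp : Divisor.IsPrincipal (G.spDiv X)) :
    ∃! E : Divisor K F, 0 ≤ E ∧ Divisor.IsPrincipal (E - D₀ - X) := by
  obtain ⟨E, hE, hp⟩ := exists_effective G hdeg hX
  exact ⟨E, ⟨hE, hp⟩, fun E' hE' => eq_of_isPrincipal G hD₀ hns hXsp hE hp hE'.1 hE'.2⟩

/-- one point in each residue disc -/
theorem exists_sections [DecidableEq (Place k κ)] {D₀ X E : Divisor K F} (hD₀ : 0 ≤ D₀)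
    (hns : finrank k (riemannRochSpace (G.spDiv D₀)) = 1)
    (hXsp : Divisor.IsPrincipal (G.spDiv X))
    (hE : 0 ≤ E) (hp : Divisor.IsPrincipal (E - D₀ - X))
    (U : Finset (Place k κ)) (hU : G.spDiv D₀ = ∑ w ∈ U, Finsupp.single w (1 : ℤ)) :
    ∃ P : Place k κ → Place K F, (∀ w ∈ U, G.sp (P w) = w) ∧
      E = ∑ w ∈ U, Finsupp.single (P w) (1 : ℤ) := by
  haveI := G.nonempty_placeF
  refine exists_section_of_mapDomain_eq G.sp hE U ?_
  rw [← G.spDiv_apply, spDiv_eq_of_isPrincipal G hD₀ hns hXsp hE hp, hU]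

/-! ### Class form -/

/-- the class of a divisor of degree zero vanishes iff the divisor is principal -/
theorem mk_eq_zero_iff {k' : Type*} {κ' : Type*} [Field k'] [Field κ'] [Algebra k' κ']
    (D : Divisor.degZero (K := k') (F := κ')) :
    Pic0.mk D = 0 ↔ Divisor.IsPrincipal (D : Divisor k' κ') := by
  rw [Pic0.mk, QuotientAddGroup.eq_zero_iff, AddSubgroup.mem_addSubgroupOf]
  rfl

/-- two classes agree iff the difference is principal -/
theorem mk_eq_mk_iff {k' : Type*} {κ' : Type*} [Field k'] [Field κ'] [Algebra k' κ']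
    (D D' : Divisor.degZero (K := k') (F := κ')) :
    Pic0.mk D = Pic0.mk D' ↔
      Divisor.IsPrincipal ((D : Divisor k' κ') - (D' : Divisor k' κ')) := by
  rw [← sub_eq_zero, show Pic0.mk D - Pic0.mk D' = Pic0.mk (D - D') from rfl, mk_eq_zero_iff]
  rfl

/-- **(F1)(i), class form**: for any additive map `red` on `Pic0` induced by `spDiv`, every class
`x` of `ker red` has a unique effective representative `E` relative to `D₀`. -/
theorem existsUnique_effective_mk (red : Pic0 K F →+ Pic0 k κ)
    (hred : ∀ D : Divisor.degZero (K := K) (F := F),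
      ∃ h : G.spDiv D.1 ∈ Divisor.degZero (K := k) (F := κ),
        red (Pic0.mk D) = Pic0.mk ⟨G.spDiv D.1, h⟩)
    {D₀ : Divisor K F} (hD₀ : 0 ≤ D₀) (hdeg : Divisor.degree D₀ = G.g)
    (hns : finrank k (riemannRochSpace (G.spDiv D₀)) = 1)
    {x : Pic0 K F} (hx : red x = 0) :
    ∃! E : Divisor K F, 0 ≤ E ∧
      ∃ h : E - D₀ ∈ Divisor.degZero (K := K) (F := F), Pic0.mk ⟨E - D₀, h⟩ = x := by
  obtain ⟨X, rfl⟩ := Pic0.mk_surjective x
  obtain ⟨hX0, hXr⟩ := hred X
  rw [hXr, mk_eq_zero_iff] at hx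
  have hXdeg : Divisor.degree X.1 = 0 := X.2
  obtain ⟨E, ⟨hE, hp⟩, huniq⟩ := existsUnique_effective G hD₀ hdeg hns hXdeg hx
  have hiff : ∀ E' : Divisor K F, (∃ h : E' - D₀ ∈ Divisor.degZero (K := K) (F := F),
      Pic0.mk ⟨E' - D₀, h⟩ = Pic0.mk X) ↔ Divisor.IsPrincipal (E' - D₀ - X.1) := by
    intro E'
    constructor
    · rintro ⟨h, hmk⟩
      exact (mk_eq_mk_iff _ _).mp hmk
    · intro hp'
      have h : E' - D₀ ∈ Divisor.degZero (K := K) (F := F) := by
        rw [Divisor.mem_degZero]
        have h0 := degree_eq_zero_of_isPrincipal hp'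
        rw [map_sub, hXdeg, sub_zero] at h0
        exact h0
      exact ⟨h, (mk_eq_mk_iff ⟨E' - D₀, h⟩ X).mpr hp'⟩
  refine ⟨E, ⟨hE, (hiff E).mpr hp⟩, fun E' hE' => huniq E' ⟨hE'.1, (hiff E').mp hE'.2⟩⟩

/-- the representative of a class of `ker red` specialises to `sp D₀` -/
theorem spDiv_eq_of_mk (red : Pic0 K F →+ Pic0 k κ)
    (hred : ∀ D : Divisor.degZero (K := K) (F := F),
      ∃ h : G.spDiv D.1 ∈ Divisor.degZero (K := k) (F := κ),
        red (Pic0.mk D) = Pic0.mk ⟨G.spDiv D.1, h⟩)
    {D₀ : Divisor K F} (hD₀ : 0 ≤ D₀)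
    (hns : finrank k (riemannRochSpace (G.spDiv D₀)) = 1)
    {E : Divisor K F} (hE : 0 ≤ E) (h : E - D₀ ∈ Divisor.degZero (K := K) (F := F))
    (hx : red (Pic0.mk ⟨E - D₀, h⟩) = 0) : G.spDiv E = G.spDiv D₀ := by
  obtain ⟨hX0, hXr⟩ := hred ⟨E - D₀, h⟩
  rw [hXr, mk_eq_zero_iff] at hx
  refine spDiv_eq_of_isPrincipal G (X := E - D₀) hD₀ hns hx hE ?_
  rw [sub_self]
  exact (Divisor.principal (K := K) (F := F)).zero_mem

end Geo

end Fermat.Agent.S19x.Geo.ChartRep
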