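import Fermat.Agent.S27x.Spec.Disc
import Fermat.Prelude.Def_AlgebraicCurve_BaseChangeGalois

/-!
# P-S19 block A: inertia-fixed lifts of points of the special fibre

Abstract setting = the variables of `S27x/Spec/Disc.lean` (a reduction `R : RedSetup A O k κ` of a
function field `F / K`, a specialisation map of places `sp` with conservation of number) together
with a Prelude semilinear automorphism `s : SemilinearAut K F` which
* acts trivially on the residue disc structure (`sp (s • Q) = sp Q` on the disc of `w`),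
* fixes the coordinate function `z` and the value `ρ`.

Then the unique place `Q` of the disc of `w` with `z(Q) = ρ` is fixed by `s`.  Applied to the
inertia group this gives the inertia-fixed lifts `R_i`, `P_c`, `D_pol` of the route of note 1768.
-/

set_option autoImplicit false
set_option linter.unusedSectionVars false
set_option linter.style.haveILetI false

noncomputable section

namespace Fermat.Agent.S19x.Geo.FixedLift

open AlgebraicCurve IsLocalRing
open Fermat.Agent.Gateway.C0 Fermat.Agent.Gateway.Red Fermat.Agent.S27x.Spec.Inj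
  Fermat.Agent.S27x.Spec.Disc

universe u v w z

variable {K : Type u} [Field K] {A : ValuationSubring K}
  {F : Type v} [Field F] [Algebra K F] {O : ValuationSubring F}
  {k : Type w} {κ : Type z} [Field k] [Field κ] [Algebra k κ]
  {R : RedSetup A O k κ} {sp : Place K F → Place k κ}

/-- `s • (z - ρ) = z - ρ` when `s` fixes `z` and `ρ`. -/
theorem smul_sub_algebraMap (s : SemilinearAut K F) {zf : F} (hsz : s • zf = zf) {a : K}
    (hsa : SemilinearAut.baseAut s a = a) :
    s • (zf - algebraMap K F a) = zf - algebraMap K F a := by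
  rw [smul_sub, hsz, SemilinearAut.smul_algebraMap, hsa]

/-- the order of an `s`-fixed function at `s • Q` is its order at `Q`. -/
theorem ord_smul_of_fixed (s : SemilinearAut K F) (Q : Place K F) {f : F} (hf : s • f = f) :
    (s • Q).ord f = Q.ord f := by
  have := SemilinearAut.ord_smul s Q f
  rwa [hf] at this

variable [HasPrincipalDivisors K F]

/-- **Fixed lifts.**  If `s` preserves the residue disc of `w`, fixes the coordinate `z`
(a local coordinate at `w` after reduction, regular on the disc) and the value `ρ ∈ A`, then the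
unique place `Q` of the disc with `z(Q) = ρ` is fixed by `s`. -/
theorem smul_eq_of_ord_pos (hsp : SpCompat R (spD sp)) {zf : F} (hz : zf ∈ O) {w : Place k κ}
    (hreg : RegularOn sp w zf) {cb : k}
    (hunif : w.ord (R.res ⟨zf, hz⟩ - algebraMap k κ cb) = 1) (ρ : A) (hρ : R.π ρ = cb)
    (s : SemilinearAut K F) (hs : ∀ Q : Place K F, sp Q = w → sp (s • Q) = w)
    (hsz : s • zf = zf) (hsρ : SemilinearAut.baseAut s (ρ : K) = (ρ : K))
    {Q : Place K F} (hQ : sp Q = w) (hQz : 0 < Q.ord (zf - algebraMap K F (ρ : K))) :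
    s • Q = Q := by
  obtain ⟨Q0, -, huniq⟩ := existsUnique_sp_ord_pos hsp hz hreg hunif ρ hρ
  have h1 := huniq Q ⟨hQ, hQz⟩
  have h2 := huniq (s • Q) ⟨hs Q hQ, by
    rw [ord_smul_of_fixed s Q (smul_sub_algebraMap s hsz hsρ)]; exact hQz⟩
  rw [h2, h1]

/-- `HasValue` form of `smul_eq_of_ord_pos`. -/
theorem smul_eq_of_hasValue (hsp : SpCompat R (spD sp)) {zf : F} (hz : zf ∈ O) {w : Place k κ}
    (hreg : RegularOn sp w zf) {cb : k}
    (hunif : w.ord (R.res ⟨zf, hz⟩ - algebraMap k κ cb) = 1) (ρ : A) (hρ : R.π ρ = cb)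
    (s : SemilinearAut K F) (hs : ∀ Q : Place K F, sp Q = w → sp (s • Q) = w)
    (hsz : s • zf = zf) (hsρ : SemilinearAut.baseAut s (ρ : K) = (ρ : K))
    {Q : Place K F} (hQ : sp Q = w) (hQz : HasValue Q zf (ρ : K)) :
    s • Q = Q := by
  obtain ⟨Q0, hQ0w, hQ01, -⟩ := exists_sp_ord_eq_one hsp hz hreg hunif ρ hρ
  have hQ0v : HasValue Q0 zf (ρ : K) := hasValue_of_ord_pos (by omega)
  have hQQ0 : Q = Q0 := disc_injective hsp hz hreg hunif hQ hQ0w hQz hQ0v
  subst hQQ0
  exact smul_eq_of_ord_pos hsp hz hreg hunif ρ hρ s hs hsz hsρ hQ (by omega)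

/-- **Existence of a lift fixed by a whole set `S` of semilinear automorphisms** (the inertia
group): the place of the disc of `w` with `z(Q) = ρ`. -/
theorem exists_fixed_lift (hsp : SpCompat R (spD sp)) {zf : F} (hz : zf ∈ O) {w : Place k κ}
    (hreg : RegularOn sp w zf) {cb : k}
    (hunif : w.ord (R.res ⟨zf, hz⟩ - algebraMap k κ cb) = 1) (ρ : A) (hρ : R.π ρ = cb)
    (S : Set (SemilinearAut K F))
    (hS : ∀ s ∈ S, ∀ Q : Place K F, sp Q = w → sp (s • Q) = w)
    (hSz : ∀ s ∈ S, s • zf = zf) (hSρ : ∀ s ∈ S, SemilinearAut.baseAut s (ρ : K) = (ρ : K)) :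
    ∃ Q : Place K F, sp Q = w ∧ HasValue Q zf (ρ : K) ∧
      Q.ord (zf - algebraMap K F (ρ : K)) = 1 ∧ ∀ s ∈ S, s • Q = Q := by
  obtain ⟨Q, hQw, hQ1, -⟩ := exists_sp_ord_eq_one hsp hz hreg hunif ρ hρ
  refine ⟨Q, hQw, hasValue_of_ord_pos (by omega), hQ1, fun s hs => ?_⟩
  exact smul_eq_of_ord_pos hsp hz hreg hunif ρ hρ s (hS s hs) (hSz s hs) (hSρ s hs) hQw (by omega)

/-! ### Fixed lifts of all places, of divisors and of classes -/

/-- **Every place of the special fibre has an `S`-fixed lift**, provided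
* the residues of `S`-fixed elements of `A` fill `k` (`hπS`),
* every place `w ≠ w∞` carries an `S`-fixed coordinate function (`hcoord`; in the application
  a lift in `Lam(N∞)^S` of a function of `L(N∞̄)` with a simple zero of `z̄ - c̄` at `w`),
* `w∞` has a given `S`-fixed lift `Q∞` (the rational cusp). -/
theorem exists_fixed_lift_place (hsp : SpCompat R (spD sp)) (S : Set (SemilinearAut K F))
    (hS : ∀ s ∈ S, ∀ Q : Place K F, sp (s • Q) = sp Q)
    (hπS : ∀ cb : k, ∃ ρ : A, R.π ρ = cb ∧
      ∀ s ∈ S, SemilinearAut.baseAut s (ρ : K) = (ρ : K))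
    (winf : Place k κ) (Qinf : Place K F) (hQinf : sp Qinf = winf)
    (hQinfS : ∀ s ∈ S, s • Qinf = Qinf)
    (hcoord : ∀ w : Place k κ, w ≠ winf → ∃ (zf : F) (hz : zf ∈ O) (cb : k),
      RegularOn sp w zf ∧ w.ord (R.res ⟨zf, hz⟩ - algebraMap k κ cb) = 1 ∧
        ∀ s ∈ S, s • zf = zf)
    (w : Place k κ) :
    ∃ Q : Place K F, sp Q = w ∧ ∀ s ∈ S, s • Q = Q := by
  by_cases hw : w = winf
  · subst hw
    exact ⟨Qinf, hQinf, hQinfS⟩
  · obtain ⟨zf, hz, cb, hreg, hunif, hSz⟩ := hcoord w hw
    obtain ⟨ρ, hρ, hSρ⟩ := hπS cb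
    obtain ⟨Q, hQw, -, -, hQS⟩ := exists_fixed_lift hsp hz hreg hunif ρ hρ S
      (fun s hs Q hQ => by rw [hS s hs Q, hQ]) hSz hSρ
    exact ⟨Q, hQw, hQS⟩

/-- The push-forward along a section `lift` of `sp` is a section of `spD sp`. -/
theorem spD_mapDomain_lift {lift : Place k κ → Place K F} (hlift : ∀ w, sp (lift w) = w)
    (Db : Divisor k κ) : spD sp (Finsupp.mapDomain lift Db) = Db := by
  show Finsupp.mapDomain sp (Finsupp.mapDomain lift Db) = Db
  rw [← Finsupp.mapDomain_comp]
  have : sp ∘ lift = id := funext hlift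
  rw [this, Finsupp.mapDomain_id]

/-- The push-forward along a pointwise `s`-fixed `lift` is `s`-fixed. -/
theorem smul_mapDomain_lift (s : SemilinearAut K F) {lift : Place k κ → Place K F}
    (hfix : ∀ w, s • lift w = lift w) (Db : Divisor k κ) :
    s • (Finsupp.mapDomain lift Db : Divisor K F) = Finsupp.mapDomain lift Db := by
  rw [SemilinearAut.divisor_smul_def, ← Finsupp.mapDomain_comp]
  have : (fun Q : Place K F => s • Q) ∘ lift = lift := funext hfix
  rw [this]

/-- Degrees are preserved by the push-forward along a degree preserving `lift`. -/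
theorem degree_mapDomain_lift {lift : Place k κ → Place K F}
    (hdeg : ∀ w, (lift w).deg = w.deg) (Db : Divisor k κ) :
    Divisor.degree (Finsupp.mapDomain lift Db : Divisor K F) = Divisor.degree Db := by
  induction Db using Finsupp.induction with
  | zero => simp
  | single_add w n Db _ _ ih =>
      rw [Finsupp.mapDomain_add, map_add, map_add, ih, Finsupp.mapDomain_single,
        Divisor.degree_single, Divisor.degree_single, hdeg]

/-- **`S`-fixed lifts of divisors.**  If every place of the special fibre has an `S`-fixed lift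
and `sp` preserves degrees, every divisor `Db` of the special fibre is `spD sp D` for an
`S`-fixed divisor `D` of the same degree, effective if `Db` is. -/
theorem exists_fixed_lift_divisor (S : Set (SemilinearAut K F))
    (hlift : ∀ w : Place k κ, ∃ Q : Place K F, sp Q = w ∧ ∀ s ∈ S, s • Q = Q)
    (hdeg : ∀ Q : Place K F, (sp Q).deg = Q.deg) (Db : Divisor k κ) :
    ∃ D : Divisor K F, spD sp D = Db ∧ (∀ s ∈ S, s • D = D) ∧
      Divisor.degree D = Divisor.degree Db ∧ (0 ≤ Db → 0 ≤ D) := by
  classical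
  choose lift hl1 hl2 using hlift
  refine ⟨Finsupp.mapDomain lift Db, spD_mapDomain_lift hl1 Db,
    fun s hs => smul_mapDomain_lift s (fun w => hl2 w s hs) Db,
    degree_mapDomain_lift (fun w => by rw [← hdeg (lift w), hl1 w]) Db, fun h0 Q => ?_⟩
  rw [Finsupp.zero_apply, Finsupp.mapDomain, Finsupp.sum_apply, Finsupp.sum]
  exact Finset.sum_nonneg fun w _ => by
    rw [Finsupp.single_apply]
    split_ifs
    · exact h0 w
    · exact le_rfl

/-- **`S`-fixed lifts of classes**, divisor form: every class `c` of the special fibre is the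
class of `spD sp D` for an `S`-fixed divisor `D` of degree zero.  (With
`red (Pic0.mk D) = Pic0.mk ⟨spD sp D, _⟩` this says `red (Pic0.mk D) = c`.) -/
theorem exists_fixed_lift_class (S : Set (SemilinearAut K F))
    (hlift : ∀ w : Place k κ, ∃ Q : Place K F, sp Q = w ∧ ∀ s ∈ S, s • Q = Q)
    (hdeg : ∀ Q : Place K F, (sp Q).deg = Q.deg) (c : Pic0 k κ) :
    ∃ (D : Divisor.degZero (K := K) (F := F))
      (h : spD sp (D : Divisor K F) ∈ Divisor.degZero (K := k) (F := κ)),
      Pic0.mk ⟨spD sp (D : Divisor K F), h⟩ = c ∧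
      (∀ s ∈ S, s • (D : Divisor K F) = (D : Divisor K F)) ∧
      ∀ s ∈ S, s • (Pic0.mk D : Pic0 K F) = Pic0.mk D := by
  obtain ⟨Db, rfl⟩ := Pic0.mk_surjective c
  obtain ⟨D, hD, hDS, hDdeg, -⟩ := exists_fixed_lift_divisor S hlift hdeg (Db : Divisor k κ)
  have hD0 : D ∈ Divisor.degZero (K := K) (F := F) := by
    rw [Divisor.mem_degZero, hDdeg]
    exact Db.2
  refine ⟨⟨D, hD0⟩, by rw [hD]; exact Db.2, ?_, hDS, fun s hs => ?_⟩
  · exact congrArg Pic0.mk (Subtype.ext hD)
  · rw [SemilinearAut.pic0_smul_mk]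
    exact congrArg Pic0.mk (Subtype.ext (by
      rw [SemilinearAut.coe_degZeroSMulHom]; exact hDS s hs))

end Fermat.Agent.S19x.Geo.FixedLift
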