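import Fermat.Agent.S19x.Geo.Setting
import Fermat.Agent.S19x.Geo.FixedLift
import Fermat.Agent.S19x.Geo.NiceRepL

/-!
# P-S19, BLOCK A: the lift of the special fibre base configuration to the generic fibre (helper97)

Input: `c : NiceRepL.BaseCfg G.oob m m' e` (helper86, special fibre only), the abstract setting
`G : GeoSetting A O k κ`, `I : InertiaData G`, and, hypothesis-style,

* `LiftLemma G I` : the lift lemma (L2-b): for an `S`-stable divisor `D` of degree `≥ 2g - 1`
  every element of `L(sp D)` is the reduction of an `S`-fixed element of `L(D) ∩ O`;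
* `ResidueFixed G I` : every residue class of `A` has an `S`-fixed representative.

Output: `LiftedCfg G I c` (and `nonempty_liftedCfg`): the `S`-fixed generic fibre configuration
of note 1795, section 1: the coordinate function `z`, pointwise `S`-fixed lifts of the points of
`D0`, `D1` cut out by `z = ρ_Q` with `ρ_Q ∈ A^S`, the base functions `u0`, `u0'` with their
`S`-stable residual zero divisors `C0`, `C0'`.
-/

set_option autoImplicit false
set_option linter.unusedSectionVars false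
set_option linter.style.haveILetI false

noncomputable section

namespace Fermat.Agent.S19x.Geo.LiftCfg

open AlgebraicCurve IsLocalRing Module
open Fermat.Agent.Gateway.C0 Fermat.Agent.Gateway.Red Fermat.Agent.S27x.Spec.Inj
  Fermat.Agent.S27x.Spec.Disc Fermat.Agent.Lib.RiemannRoch
open Fermat.Agent.S27x.Lift.NiceRep (finDiv)

universe u v w z

variable {K : Type u} [Field K] {A : ValuationSubring K} {F : Type v} [Field F] [Algebra K F]
  {O : ValuationSubring F} {k : Type w} {κ : Type z} [Field k] [Field κ] [Algebra k κ]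
  [HasPrincipalDivisors K F] [∀ v : Place K F, v.FiniteResidue] [HasPrincipalDivisors k κ]
  [∀ v : Place k κ, v.FiniteResidue]
  (G : GeoSetting A O k κ) (I : InertiaData G)

/-- **The lift lemma** (L2-b), as a hypothesis: for an `S`-stable divisor `D` of degree
`≥ 2g - 1`, every element of `L(sp D)` is the reduction of an `S`-fixed element of `L(D) ∩ O`. -/
def LiftLemma : Prop :=
  ∀ D : Divisor K F, (∀ s ∈ I.S, s • D = D) → 2 * (G.g : ℤ) - 1 ≤ Divisor.degree D →
    ∀ y ∈ riemannRochSpace (G.spDiv D), ∃ (f : F) (hf : f ∈ O),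
      f ∈ riemannRochSpace D ∧ I.IsFixed f ∧ G.R.res ⟨f, hf⟩ = y

/-- every residue class of `A` has an `S`-fixed representative (`FixData.residue_surj`). -/
def ResidueFixed : Prop := ∀ cb : k, ∃ ρ : A, G.R.π ρ = cb ∧ ρ ∈ I.fixedRing

variable {G I}

/-- The divisor of an `S`-fixed function is `S`-stable. -/
theorem smul_divisor_eq_of_fixed {f : F} (hf : I.IsFixed f) {E : Divisor K F}
    (hE : ∀ v : Place K F, E v = v.ord f) : ∀ s ∈ I.S, s • E = E := by
  intro s hs
  ext v
  rw [SemilinearAut.divisor_smul_apply, hE, hE]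
  have h := SemilinearAut.ord_smul s (s⁻¹ • v) f
  rw [smul_inv_smul, hf s hs] at h
  exact h.symm

/-- **Fixed lifts of functions with prescribed divisor.**  Let `D` be an `S`-stable divisor of
degree `≥ 2g - 1` and `ub ≠ 0` a function on the special fibre with divisor `Cb - sp D`.  Then
`ub` is the reduction of an `S`-fixed `u ∈ L(D) ∩ O` with divisor `C - D`, `C ≥ 0` `S`-stable
with `sp C = Cb`. -/
theorem exists_fixed_lift_function (hL : LiftLemma G I) {D : Divisor K F}
    (hDS : ∀ s ∈ I.S, s • D = D) (hdeg : 2 * (G.g : ℤ) - 1 ≤ Divisor.degree D)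
    {ub : κ} (hub : ub ≠ 0) {Cb : Divisor k κ}
    (hord : ∀ w : Place k κ, w.ord ub = Cb w - G.spDiv D w) (hCb : 0 ≤ Cb) :
    ∃ (u : F) (hu : u ∈ O) (C : Divisor K F), u ∈ riemannRochSpace D ∧ I.IsFixed u ∧
      G.R.res ⟨u, hu⟩ = ub ∧ 0 ≤ C ∧ (∀ s ∈ I.S, s • C = C) ∧ G.spDiv C = Cb ∧
      ∀ v : Place K F, v.ord u = C v - D v := by
  have hubL : ub ∈ riemannRochSpace (G.spDiv D) := by
    rw [mem_riemannRochSpace_iff]
    intro w
    right
    rw [hord w]
    have := hCb w
    rw [Finsupp.zero_apply] at this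
    omega
  obtain ⟨u, hu, huD, hufix, hures⟩ := hL D hDS hdeg ub hubL
  have hv : O.valuation u = 1 := valuation_eq_one_of_res_ne hu (by rw [hures]; exact hub)
  have hu0 : u ≠ 0 := ne_zero_of_valuation_eq_one hv
  obtain ⟨E, hE, -⟩ := HasPrincipalDivisors.exists_divisor (K := K) u hu0
  refine ⟨u, hu, E + D, huD, hufix, hures, ?_, ?_, ?_, ?_⟩
  · intro v
    have := (mem_riemannRochSpace_iff.mp huD v).resolve_left hu0
    rw [Finsupp.add_apply, hE v, Finsupp.zero_apply]
    omega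
  · intro s hs
    rw [smul_add, smul_divisor_eq_of_fixed hufix hE s hs, hDS s hs]
  · ext w
    rw [map_add, Finsupp.add_apply]
    have h1 : G.spDiv E w = w.ord (G.R.res ⟨u, hu⟩) := G.spCompat u hu hv E hE w
    rw [h1, hures, hord w]
    ring
  · intro v
    rw [Finsupp.add_apply, hE v]
    ring

/-! ### Regularity of functions with poles only at `oo` -/

/-- A function with poles only at `oo` is regular on every residue disc other than that of
`oo`. -/
theorem regularOn_of_mem_rrs_single {zf : F} {e : ℤ}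
    (hz : zf ∈ riemannRochSpace (Finsupp.single G.oo e)) {w : Place k κ} (hw : w ≠ G.oob) :
    RegularOn G.sp w zf := by
  classical
  intro Q hQ
  have hQoo : Q ≠ G.oo := by
    rintro rfl
    exact hw hQ.symm
  rcases mem_riemannRochSpace_iff.mp hz Q with h0 | h0
  · rw [h0]
    exact Q.toValuationSubring.zero_mem
  · rw [Finsupp.single_apply, if_neg (Ne.symm hQoo), neg_zero] at h0
    exact mem_of_ord_nonneg Q h0

/-! ### Lifts of reduced divisors -/

/-- the lift of the reduced divisor of a finite set of places of the special fibre along a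
choice `lift` of lifts of the points. -/
def liftDiv (lift : Place k κ → Place K F) (U : Finset (Place k κ)) : Divisor K F :=
  ∑ Q ∈ U, Finsupp.single (lift Q) 1

theorem liftDiv_nonneg (lift : Place k κ → Place K F) (U : Finset (Place k κ)) :
    0 ≤ liftDiv lift U :=
  Finset.sum_nonneg fun _ _ => Finsupp.single_nonneg.mpr zero_le_one

theorem spDiv_liftDiv {lift : Place k κ → Place K F} {U : Finset (Place k κ)}
    (h : ∀ Q ∈ U, G.sp (lift Q) = Q) : G.spDiv (liftDiv lift U) = finDiv U := by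
  unfold liftDiv finDiv
  rw [map_sum]
  exact Finset.sum_congr rfl fun Q hQ => by rw [G.spDiv_single, h Q hQ]

theorem smul_liftDiv {lift : Place k κ → Place K F} {U : Finset (Place k κ)}
    (s : SemilinearAut K F) (h : ∀ Q ∈ U, s • lift Q = lift Q) :
    s • liftDiv lift U = liftDiv lift U := by
  unfold liftDiv
  rw [Finset.smul_sum]
  exact Finset.sum_congr rfl fun Q hQ => by rw [SemilinearAut.smul_single, h Q hQ]

theorem degree_liftDiv (G : GeoSetting A O k κ) (lift : Place k κ → Place K F)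
    (U : Finset (Place k κ)) : Divisor.degree (liftDiv lift U) = U.card := by
  unfold liftDiv
  rw [map_sum]
  simp only [Divisor.degree_single, G.rrF.deg_one, Nat.cast_one, mul_one]
  rw [Finset.sum_const, nsmul_eq_mul, mul_one]

/-! ### The lifted configuration -/

open NiceRepL in
/-- **The generic fibre base configuration** lifting `c` (note 1795, section 1): everything is
`S`-fixed.  `Cfg1` : `W0 = C0 + 3 D0`, `Dc = D1`, base function `u0`;
`Cfg2` : `W0 = C0' + D1`, `Dc = D0`, base function `u0'`; `D0 = liftDiv lift c.D0`,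
`D1 = liftDiv lift c.D1`. -/
structure LiftedCfg [Nonempty (Place k κ)] [IsAlgClosed k] {m m' : ℕ} {e : ℤ}
    (c : BaseCfg G.oob m m' e) where
  /-- the coordinate function -/
  z : F
  hz : z ∈ O
  z_mem : z ∈ riemannRochSpace (Finsupp.single G.oo e)
  z_fixed : I.IsFixed z
  res_z : G.R.res ⟨z, hz⟩ = c.z
  /-- the lifts of the points of `D0`, `D1` -/
  lift : Place k κ → Place K F
  /-- the values of `z` at the lifts -/
  ρ : Place k κ → A
  sp_lift : ∀ Q, Q ∈ c.D0 ∨ Q ∈ c.D1 → G.sp (lift Q) = Q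
  lift_fixed : ∀ Q, Q ∈ c.D0 ∨ Q ∈ c.D1 → I.IsFixedPlace (lift Q)
  ρ_mem : ∀ Q, Q ∈ c.D0 ∨ Q ∈ c.D1 → ρ Q ∈ I.fixedRing
  π_ρ : ∀ Q, Q ∈ c.D0 ∨ Q ∈ c.D1 → G.R.π (ρ Q) = c.val Q
  hasValue_lift : ∀ Q, Q ∈ c.D0 ∨ Q ∈ c.D1 → HasValue (lift Q) z ((ρ Q : A) : K)
  ord_lift : ∀ Q, Q ∈ c.D0 ∨ Q ∈ c.D1 →
    (lift Q).ord (z - algebraMap K F ((ρ Q : A) : K)) = 1
  /-- the base function of `Cfg1` -/
  u0 : F
  hu0 : u0 ∈ O
  u0_fixed : I.IsFixed u0
  res_u0 : G.R.res ⟨u0, hu0⟩ = c.u0
  /-- the residual zeros of `u0` -/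
  C0 : Divisor K F
  C0_nonneg : 0 ≤ C0
  C0_fixed : ∀ s ∈ I.S, s • C0 = C0
  sp_C0 : G.spDiv C0 = c.C0
  ord_u0 : ∀ v : Place K F, v.ord u0 =
    C0 v + 3 * liftDiv lift c.D0 v + liftDiv lift c.D1 v
      - (m : ℤ) * Finsupp.single G.oo (1 : ℤ) v
  /-- the base function of `Cfg2` -/
  u0' : F
  hu0' : u0' ∈ O
  u0'_fixed : I.IsFixed u0'
  res_u0' : G.R.res ⟨u0', hu0'⟩ = c.u0'
  /-- the residual zeros of `u0'` -/
  C0' : Divisor K F
  C0'_nonneg : 0 ≤ C0'
  C0'_fixed : ∀ s ∈ I.S, s • C0' = C0'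
  sp_C0' : G.spDiv C0' = c.C0'
  ord_u0' : ∀ v : Place K F, v.ord u0' =
    C0' v + liftDiv lift c.D1 v + liftDiv lift c.D0 v
      - (m' : ℤ) * Finsupp.single G.oo (1 : ℤ) v

open NiceRepL in
/-- **Fixed lifts of the points.**  A place `Q ≠ oob` of the special fibre at which `z̄ - val`
has a simple zero has an `S`-fixed lift cut out by `z = ρ`, `ρ ∈ A^S`. -/
theorem exists_fixed_point (hπ : ResidueFixed G I) {zf : F} (hz : zf ∈ O) {e : ℤ}
    (hzm : zf ∈ riemannRochSpace (Finsupp.single G.oo e)) (hzfix : I.IsFixed zf)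
    {Q : Place k κ} (hQ : Q ≠ G.oob) {cb : k}
    (hunif : Q.ord (G.R.res ⟨zf, hz⟩ - algebraMap k κ cb) = 1) :
    ∃ (P : Place K F) (ρ : A), G.sp P = Q ∧ I.IsFixedPlace P ∧ ρ ∈ I.fixedRing ∧
      G.R.π ρ = cb ∧ HasValue P zf ((ρ : A) : K) ∧
      P.ord (zf - algebraMap K F ((ρ : A) : K)) = 1 := by
  obtain ⟨ρ, hρ, hρfix⟩ := hπ cb
  obtain ⟨P, hPQ, hval, hord, hfix⟩ := FixedLift.exists_fixed_lift G.spCompat hz
    (regularOn_of_mem_rrs_single hzm hQ) hunif ρ hρ (I.S : Set (SemilinearAut K F))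
    (fun s hs P hP => by rw [I.sp_smul s hs P, hP]) (fun s hs => hzfix s hs)
    (fun s hs => hρfix s hs)
  exact ⟨P, ρ, hPQ, fun s hs => hfix s hs, hρfix, hρ, hval, hord⟩

open NiceRepL in
/-- **Existence of the lifted configuration.** -/
theorem nonempty_liftedCfg [Nonempty (Place k κ)] [IsAlgClosed k] (hL : LiftLemma G I)
    (hπ : ResidueFixed G I) {m m' : ℕ} {e : ℤ} (c : BaseCfg G.oob m m' e)
    (hgen : genusFF k κ = G.g) (hm : 6 * G.g ≤ m) (hm' : 4 * G.g ≤ m')
    (he : 2 * (G.g : ℤ) - 1 ≤ e) : Nonempty (LiftedCfg (I := I) c) := by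
  classical
  -- the coordinate function
  have hooS : ∀ s ∈ I.S, s • (Finsupp.single G.oo e : Divisor K F) = Finsupp.single G.oo e := by
    intro s hs
    rw [SemilinearAut.smul_single, I.smul_oo s hs]
  have hdegz : 2 * (G.g : ℤ) - 1 ≤ Divisor.degree (Finsupp.single G.oo e : Divisor K F) := by
    rw [Divisor.degree_single, G.rrF.deg_one]
    simpa using he
  have hzb : c.z ∈ riemannRochSpace (G.spDiv (Finsupp.single G.oo e)) := by
    rw [G.spDiv_single]
    exact c.z_mem
  obtain ⟨zf, hz, hzm, hzfix, hzres⟩ := hL _ hooS hdegz c.z hzb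
  -- the points
  have hpt : ∀ Q : Place k κ, ∃ (P : Place K F) (ρ : A), (Q ∈ c.D0 ∨ Q ∈ c.D1) →
      G.sp P = Q ∧ I.IsFixedPlace P ∧ ρ ∈ I.fixedRing ∧ G.R.π ρ = c.val Q ∧
        HasValue P zf ((ρ : A) : K) ∧ P.ord (zf - algebraMap K F ((ρ : A) : K)) = 1 := by
    intro Q
    by_cases hQ : Q ∈ c.D0 ∨ Q ∈ c.D1
    · have hQoo : Q ≠ G.oob := by
        rintro rfl
        rcases hQ with h | h
        · exact c.oo_notMem_D0 h
        · exact c.oo_notMem_D1 h
      have hunif : Q.ord (G.R.res ⟨zf, hz⟩ - algebraMap k κ (c.val Q)) = 1 := by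
        rw [hzres]
        exact c.ord_z Q (by tauto)
      obtain ⟨P, ρ, h⟩ := exists_fixed_point hπ hz hzm hzfix hQoo hunif
      exact ⟨P, ρ, fun _ => h⟩
    · exact ⟨G.oo, 0, fun h => absurd h hQ⟩
  choose lift ρ hlift using hpt
  set D0 : Divisor K F := liftDiv lift c.D0 with hD0
  set D1 : Divisor K F := liftDiv lift c.D1 with hD1
  have hD0S : ∀ s ∈ I.S, s • D0 = D0 := fun s hs =>
    smul_liftDiv s fun Q hQ => (hlift Q (Or.inl hQ)).2.1 s hs
  have hD1S : ∀ s ∈ I.S, s • D1 = D1 := fun s hs =>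
    smul_liftDiv s fun Q hQ => (hlift Q (Or.inr hQ)).2.1 s hs
  have hspD0 : G.spDiv D0 = finDiv c.D0 := spDiv_liftDiv fun Q hQ => (hlift Q (Or.inl hQ)).1
  have hspD1 : G.spDiv D1 = finDiv c.D1 := spDiv_liftDiv fun Q hQ => (hlift Q (Or.inr hQ)).1
  have hdegD0 : Divisor.degree D0 = G.g := by
    rw [hD0, degree_liftDiv G, c.card_D0, hgen]
  have hdegD1 : Divisor.degree D1 = G.g := by
    rw [hD1, degree_liftDiv G, c.card_D1, hgen]
  have hoosmul : ∀ (n : ℤ), ∀ s ∈ I.S,
      s • (Finsupp.single G.oo n : Divisor K F) = Finsupp.single G.oo n := by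
    intro n s hs
    rw [SemilinearAut.smul_single, I.smul_oo s hs]
  have hdegoo : ∀ n : ℤ, Divisor.degree (Finsupp.single G.oo n : Divisor K F) = n := by
    intro n
    rw [Divisor.degree_single, G.rrF.deg_one]
    simp
  -- the base function of `Cfg1`
  set E1 : Divisor K F := Finsupp.single G.oo (m : ℤ) - (3 : ℤ) • D0 - D1 with hE1
  have hE1S : ∀ s ∈ I.S, s • E1 = E1 := by
    intro s hs
    rw [hE1, smul_sub, smul_sub, hoosmul _ s hs, smul_comm, hD0S s hs, hD1S s hs]
  have hE1deg : 2 * (G.g : ℤ) - 1 ≤ Divisor.degree E1 := by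
    rw [hE1, map_sub, map_sub, map_zsmul, hdegoo, hdegD0, hdegD1]
    have : (6 : ℤ) * G.g ≤ m := by exact_mod_cast hm
    simp only [smul_eq_mul]
    omega
  have hE1ord : ∀ w : Place k κ, w.ord c.u0 = c.C0 w - G.spDiv E1 w := by
    intro w
    rw [c.ord_u0 w, hE1, map_sub, map_sub, map_zsmul, G.spDiv_single, hspD0, hspD1]
    simp only [Finsupp.sub_apply, Finsupp.smul_apply, smul_eq_mul]
    have hs : (Finsupp.single G.oob (m : ℤ) : Divisor k κ) w
        = (m : ℤ) * (Finsupp.single G.oob (1 : ℤ) : Divisor k κ) w := by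
      rw [Finsupp.single_apply, Finsupp.single_apply]
      split_ifs <;> simp
    rw [G.sp_oo, hs]
    ring
  obtain ⟨u0, hu0, C0, -, hu0fix, hu0res, hC0, hC0S, hspC0, hordu0⟩ :=
    exists_fixed_lift_function hL hE1S hE1deg c.u0_ne_zero hE1ord c.C0_nonneg
  -- the base function of `Cfg2`
  set E2 : Divisor K F := Finsupp.single G.oo (m' : ℤ) - D1 - D0 with hE2
  have hE2S : ∀ s ∈ I.S, s • E2 = E2 := by
    intro s hs
    rw [hE2, smul_sub, smul_sub, hoosmul _ s hs, hD0S s hs, hD1S s hs]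
  have hE2deg : 2 * (G.g : ℤ) - 1 ≤ Divisor.degree E2 := by
    rw [hE2, map_sub, map_sub, hdegoo, hdegD0, hdegD1]
    have : (4 : ℤ) * G.g ≤ m' := by exact_mod_cast hm'
    omega
  have hE2ord : ∀ w : Place k κ, w.ord c.u0' = c.C0' w - G.spDiv E2 w := by
    intro w
    rw [c.ord_u0' w, hE2, map_sub, map_sub, G.spDiv_single, hspD0, hspD1]
    simp only [Finsupp.sub_apply]
    have hs : (Finsupp.single G.oob (m' : ℤ) : Divisor k κ) w
        = (m' : ℤ) * (Finsupp.single G.oob (1 : ℤ) : Divisor k κ) w := by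
      rw [Finsupp.single_apply, Finsupp.single_apply]
      split_ifs <;> simp
    rw [G.sp_oo, hs]
    ring
  obtain ⟨u0', hu0', C0', -, hu0'fix, hu0'res, hC0', hC0'S, hspC0', hordu0'⟩ :=
    exists_fixed_lift_function hL hE2S hE2deg c.u0'_ne_zero hE2ord c.C0'_nonneg
  have hsingle : ∀ (n : ℤ) (v : Place K F), (Finsupp.single G.oo n : Divisor K F) v
      = n * (Finsupp.single G.oo (1 : ℤ) : Divisor K F) v := by
    intro n v
    rw [Finsupp.single_apply, Finsupp.single_apply]
    split_ifs <;> simp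
  exact ⟨{
    z := zf
    hz := hz
    z_mem := hzm
    z_fixed := hzfix
    res_z := hzres
    lift := lift
    ρ := ρ
    sp_lift := fun Q hQ => (hlift Q hQ).1
    lift_fixed := fun Q hQ => (hlift Q hQ).2.1
    ρ_mem := fun Q hQ => (hlift Q hQ).2.2.1
    π_ρ := fun Q hQ => (hlift Q hQ).2.2.2.1
    hasValue_lift := fun Q hQ => (hlift Q hQ).2.2.2.2.1
    ord_lift := fun Q hQ => (hlift Q hQ).2.2.2.2.2
    u0 := u0
    hu0 := hu0
    u0_fixed := hu0fix
    res_u0 := hu0res
    C0 := C0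
    C0_nonneg := hC0
    C0_fixed := hC0S
    sp_C0 := hspC0
    ord_u0 := fun v => by
      rw [hordu0 v, hE1]
      simp only [Finsupp.sub_apply, Finsupp.smul_apply, smul_eq_mul]
      rw [hsingle]
      ring
    u0' := u0'
    hu0' := hu0'
    u0'_fixed := hu0'fix
    res_u0' := hu0'res
    C0' := C0'
    C0'_nonneg := hC0'
    C0'_fixed := hC0'S
    sp_C0' := hspC0'
    ord_u0' := fun v => by
      rw [hordu0' v, hE2]
      simp only [Finsupp.sub_apply]
      rw [hsingle]
      ring }⟩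

end Fermat.Agent.S19x.Geo.LiftCfg
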