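import Fermat.Agent.S19x.Geo.TrueSolOut
import Fermat.Agent.S19x.Geo.LiftCfg
import Fermat.Agent.S19x.Geo.BaseCfgResSol

/-!
# P-S19, block A, leaf L6: the true solution at the lifted configurations (helper72)

`Geo/TrueSol.lean` / `Geo/TrueSolOut.lean` instantiated at the generic fibre configuration
`L : LiftCfg.LiftedCfg c` of a special fibre base configuration `c : NiceRepL.BaseCfg G.oob m m' n`
(`n : ℕ` the pole order of `z`), for both configurations of note 1795:

* `Cfg1` : `W0 = C0 + 3 D0`, `Dc = D1`, base function `u0`, pole order `m`;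
* `Cfg2` : `W0 = C0' + D1`, `Dc = D0`, base function `u0'`, pole order `m'`.

* `Input.isTrueSol_of_ord` : a function `u ∈ O` with `res u = ub` and `div u = W + E - m oo`
  (`E ≥ 0`, `sp E = Uvar`) gives a true solution `(E, u, ρ_W(z) ρ_E(z) / u)`;
* `input1`, `input2` : the `TrueSol.Input` of the two configurations;
* `W01`, `W02`, `spDiv_W01`, `spDiv_W02` : the fixed parts and their specialisations;
* `isTrueSol_base1`, `isTrueSol_base2` : the base solutions;
* `exists_trueSol1`, `exists_trueSol2` : the true solutions for every `W` near `W0`.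
-/

set_option autoImplicit false
set_option linter.unusedSectionVars false
set_option linter.style.haveILetI false

noncomputable section

namespace Fermat.Agent.S19x.Geo.TrueSol

open AlgebraicCurve Polynomial Module IsLocalRing
open Fermat.Agent.Gateway.C0 Fermat.Agent.Gateway.Red Fermat.Agent.S27x.Spec.Inj
  Fermat.Agent.S27x.Spec.Disc Fermat.Agent.S27x.Lift.NiceRep Fermat.Agent.S27x.Lift.JacInj
  Fermat.Agent.S19x.Geo.JacKerMult Fermat.Agent.S19x.Geo.Lattice Fermat.Agent.S24.ZP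
  Fermat.Agent.S19x.Geo.NiceRepL Fermat.Agent.S19x.Geo.BaseCfgResSol Fermat.Agent.S19x.Geo.LiftCfg

universe u v w z

variable {K : Type u} [Field K] {A : ValuationSubring K}
  {F : Type v} [Field F] [Algebra K F] {O : ValuationSubring F}
  {k : Type w} {κ : Type z} [Field k] [Field κ] [Algebra k κ]
  [HasPrincipalDivisors K F] [∀ v : Place K F, v.FiniteResidue]
  [HasPrincipalDivisors k κ] [∀ v : Place k κ, v.FiniteResidue]
  {G : GeoSetting A O k κ}

/-! ### A true solution from a function with prescribed divisor -/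

namespace Input

variable {m e : ℕ} {z : F} {zb : κ} {vF : Place K F → K}
  {Uvar Ufix : Finset (Place k κ)} {μ : Place k κ → ℕ} {val : Place k κ → k} {ub ub' : κ}
  (I : Input G m e z zb vF Uvar Ufix μ val ub ub')
include I

/-- **A true solution from its first component.**  If `u ∈ O` reduces to `ub` and has divisor
`W + E - m oo` with `W`, `E` effective, `sp W = ∑ μ Q • Q`, `sp E = Uvar`, then
`(E, u, ρ_W(z) ρ_E(z) / u)` is a true solution. -/
theorem isTrueSol_of_ord {W E : Divisor K F} (hW : 0 ≤ W) (hspW : G.spDiv W = multDiv Ufix μ)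
    (hE0 : 0 ≤ E) (hspE : G.spDiv E = finDiv Uvar) {u : F} (huO : u ∈ O)
    (hres_u : G.R.res ⟨u, huO⟩ = ub)
    (hordu : ∀ v : Place K F, v.ord u = (W + E - Finsupp.single G.oo (m : ℤ)) v) :
    IsTrueSol G m e z vF Uvar ub ub' W E u
      (aeval z (rhoV vF W) * aeval z (rhoV vF E) / u) := by
  classical
  have S := I.resSol
  have hub0 : ub ≠ 0 := S.u_ne
  have hvalu : O.valuation u = 1 :=
    valuation_eq_one_of_res_ne huO (by rw [hres_u]; exact hub0)
  have hu0 : u ≠ 0 := ne_zero_of_valuation_eq_one hvalu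
  have hspE' : G.spDiv E = multDiv Uvar (fun _ => 1) := by rw [hspE, multDiv_one]
  have hsuppW : ∀ Q ∈ W.support, G.sp Q ∈ Ufix := fun Q hQ =>
    sp_mem_of_mem_support G.sp hW hspW hQ
  have hsuppE : ∀ Q ∈ E.support, G.sp Q ∈ Uvar := fun Q hQ =>
    sp_mem_of_mem_support G.sp hE0 hspE' hQ
  have hWoo : W G.oo = 0 := by
    by_contra h
    exact S.P_notMem_fix (hsuppW G.oo (Finsupp.mem_support_iff.mpr h))
  have hEoo : E G.oo = 0 := by
    by_contra h
    exact S.P_notMem_var (hsuppE G.oo (Finsupp.mem_support_iff.mpr h))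
  have hvW : ∀ Q ∈ W.support, HasValue Q z (vF Q) := fun Q hQ =>
    I.vF_spec Q (I.ne_oo (I.ne_oob_of_mem (Or.inr (hsuppW Q hQ))))
  have hvE : ∀ Q ∈ E.support, HasValue Q z (vF Q) := fun Q hQ =>
    I.vF_spec Q (I.ne_oo (I.ne_oob_of_mem (Or.inl (hsuppE Q hQ))))
  obtain ⟨hρWO, hρWres⟩ := I.res_aeval_rhoV hW hspW (fun w hw => Or.inr hw)
  obtain ⟨hρEO, hρEres⟩ := I.res_aeval_rhoV hE0 hspE' (fun w hw => Or.inl hw)
  set ρW : F := aeval z (rhoV vF W) with hρW
  set ρE : F := aeval z (rhoV vF E) with hρE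
  set u' : F := ρW * ρE / u with hu'
  have hprod : u * u' = ρW * ρE := by
    rw [hu', mul_div_cancel₀ _ hu0]
  have hu'O : u' ∈ O := by
    rw [← O.valuation_le_one_iff, hu', map_div₀, hvalu, div_one, map_mul]
    exact mul_le_one' ((O.valuation_le_one_iff _).mpr hρWO) ((O.valuation_le_one_iff _).mpr hρEO)
  have hres_u' : G.R.res ⟨u', hu'O⟩ = ub' := by
    have e1 : (⟨u, huO⟩ : O) * ⟨u', hu'O⟩ = ⟨ρW, hρWO⟩ * ⟨ρE, hρEO⟩ := Subtype.ext hprod
    have e2 := congrArg G.R.res e1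
    rw [map_mul, map_mul, hres_u, hρWres, hρEres] at e2
    have e3 : ub * ub' = ub * G.R.res ⟨u', hu'O⟩ := by
      rw [e2, S.prod, aeval_rootPolyMult, aeval_rootPoly]
      simp only [pow_one]
    exact (mul_left_cancel₀ hub0 e3).symm
  have hsumW : (∑ Q ∈ W.support, ((W Q).toNat : ℤ)) = ∑ Q ∈ Ufix, (μ Q : ℤ) := by
    have := sum_toNat_eq G.sp hW hspW
    exact_mod_cast this
  have hsumE : (∑ Q ∈ E.support, ((E Q).toNat : ℤ)) = Uvar.card := by
    have := sum_toNat_eq G.sp hE0 hspE'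
    rw [Finset.sum_const, smul_eq_mul, mul_one] at this
    exact_mod_cast this
  have hu'L : u' ∈ riemannRochSpace (Finsupp.single G.oo ((e : ℤ) * m - m)) := by
    rw [mem_riemannRochSpace_iff_ordGE]
    intro v
    rw [hu', div_eq_mul_inv]
    by_cases hv : v = G.oo
    · rw [hv, Finsupp.single_eq_same]
      have h1 := ordGE_aeval_rhoV_pole vF W G.oo I.z_pole
      have h2 := ordGE_aeval_rhoV_pole vF E G.oo I.z_pole
      rw [hsumW] at h1
      rw [hsumE] at h2
      have h3 : OrdGE G.oo u⁻¹ (-(-(m : ℤ))) := by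
        apply OrdGE.inv
        rw [hordu G.oo]
        simp only [Finsupp.add_apply, Finsupp.sub_apply, Finsupp.single_eq_same, hWoo, hEoo]
        ring
      refine ((h1.mul h2).mul h3).mono ?_
      rw [I.m_eq]
      ring_nf
      exact le_refl _
    · rw [Finsupp.single_eq_of_ne hv, neg_zero]
      have hz := I.z_reg hv
      have h1 := ordGE_aeval_rhoV hvW v hz
      have h2 := ordGE_aeval_rhoV hvE v hz
      have h3 : OrdGE v u⁻¹ (-(W v + E v)) := by
        apply OrdGE.inv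
        rw [hordu v]
        simp only [Finsupp.add_apply, Finsupp.sub_apply, Finsupp.single_eq_of_ne hv]
        ring
      exact ((h1.mul h2).mul h3).mono (by omega)
  exact ⟨hE0, hspE, hu0, hordu, huO, hu'O, hu'L, hres_u, hres_u', hprod⟩

end Input

/-! ### The two configurations of a lifted configuration -/

section Cfg

variable {I' : InertiaData G} [Nonempty (Place k κ)] [IsAlgClosed k] {m m' n : ℕ}
  {c : BaseCfg G.oob m m' (n : ℤ)} (L : LiftedCfg (I := I') c)

/-- the lift of `D0` -/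
def D0L : Divisor K F := liftDiv L.lift c.D0

/-- the lift of `D1` -/
def D1L : Divisor K F := liftDiv L.lift c.D1

/-- the fixed part of `Cfg1` : `C0 + 3 D0` -/
def W01 : Divisor K F := L.C0 + (3 : ℤ) • D0L L

/-- the fixed part of `Cfg2` : `C0' + D1` -/
def W02 : Divisor K F := L.C0' + D1L L

theorem D0L_nonneg : 0 ≤ D0L L := liftDiv_nonneg _ _

theorem D1L_nonneg : 0 ≤ D1L L := liftDiv_nonneg _ _

theorem spDiv_D0L : G.spDiv (D0L L) = finDiv c.D0 :=
  spDiv_liftDiv fun Q hQ => L.sp_lift Q (Or.inl hQ)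

theorem spDiv_D1L : G.spDiv (D1L L) = finDiv c.D1 :=
  spDiv_liftDiv fun Q hQ => L.sp_lift Q (Or.inr hQ)

theorem W01_nonneg : 0 ≤ W01 L :=
  add_nonneg L.C0_nonneg (smul_nonneg (by norm_num) (D0L_nonneg L))

theorem W02_nonneg : 0 ≤ W02 L := add_nonneg L.C0'_nonneg (D1L_nonneg L)

theorem spDiv_W01 : G.spDiv (W01 L) = multDiv (fix1 c) (mu1 c) := by
  rw [W01, map_add, map_zsmul, L.sp_C0, spDiv_D0L, multDiv_fix1]

theorem spDiv_W02 : G.spDiv (W02 L) = multDiv (fix2 c) (mu2 c) := by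
  rw [W02, map_add, L.sp_C0', spDiv_D1L, multDiv_fix2]

theorem ord_u0_eq (v : Place K F) :
    v.ord L.u0 = (W01 L + D1L L - Finsupp.single G.oo (m : ℤ)) v := by
  classical
  rw [L.ord_u0 v]
  simp only [W01, D0L, D1L, Finsupp.add_apply, Finsupp.sub_apply, Finsupp.smul_apply,
    smul_eq_mul, Finsupp.single_apply]
  split_ifs <;> ring

theorem ord_u0'_eq (v : Place K F) :
    v.ord L.u0' = (W02 L + D0L L - Finsupp.single G.oo (m' : ℤ)) v := by
  classical
  rw [L.ord_u0' v]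
  simp only [W02, D0L, D1L, Finsupp.add_apply, Finsupp.sub_apply, Finsupp.single_apply]
  split_ifs <;> ring

variable (hgen : genusFF k κ = G.g)
include hgen

/-- **The input of `Cfg1`.** -/
theorem input1 : Input G m n L.z c.z (fun Q => valAt Q L.z) c.D1 (fix1 c) (mu1 c) c.val c.u0
    (u1' c) :=
  Input.of_valAt L.hz L.res_z L.z_mem (resSolM1 c) c.nonspecial_D1 (c.card_D1.trans hgen)
    (ord_u0_oo c)

/-- **The input of `Cfg2`.** -/
theorem input2 : Input G m' n L.z c.z (fun Q => valAt Q L.z) c.D0 (fix2 c) (mu2 c) c.val c.u0'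
    (u2' c) :=
  Input.of_valAt L.hz L.res_z L.z_mem (resSolM2 c) c.nonspecial_D0 (c.card_D0.trans hgen)
    (ord_u0'_oo c)

/-- the cofactor of the base function of `Cfg1` -/
def u0cof1 : F := aeval L.z (divPoly L.z (W01 L)) * aeval L.z (divPoly L.z (D1L L)) / L.u0

/-- the cofactor of the base function of `Cfg2` -/
def u0cof2 : F := aeval L.z (divPoly L.z (W02 L)) * aeval L.z (divPoly L.z (D0L L)) / L.u0'

omit hgen in
theorem u0cof1_def : u0cof1 L =
    aeval L.z (divPoly L.z (W01 L)) * aeval L.z (divPoly L.z (D1L L)) / L.u0 := rfl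

omit hgen in
theorem u0cof2_def : u0cof2 L =
    aeval L.z (divPoly L.z (W02 L)) * aeval L.z (divPoly L.z (D0L L)) / L.u0' := rfl

/-- **The base solution of `Cfg1`** is a true solution for `W = W0`. -/
theorem isTrueSol_base1 :
    IsTrueSol G m n L.z (fun Q => valAt Q L.z) c.D1 c.u0 (u1' c) (W01 L) (D1L L) L.u0
      (u0cof1 L) :=
  (input1 L hgen).isTrueSol_of_ord (W01_nonneg L) (spDiv_W01 L) (D1L_nonneg L) (spDiv_D1L L)
    L.hu0 L.res_u0 (ord_u0_eq L)

/-- **The base solution of `Cfg2`** is a true solution for `W = W0`. -/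
theorem isTrueSol_base2 :
    IsTrueSol G m' n L.z (fun Q => valAt Q L.z) c.D0 c.u0' (u2' c) (W02 L) (D0L L) L.u0'
      (u0cof2 L) :=
  (input2 L hgen).isTrueSol_of_ord (W02_nonneg L) (spDiv_W02 L) (D0L_nonneg L) (spDiv_D0L L)
    L.hu0' L.res_u0' (ord_u0'_eq L)

/-- **The true solutions of `Cfg1`**: for every effective `W` with the specialisation of `W0`. -/
theorem exists_trueSol1 {W : Divisor K F} (hW : 0 ≤ W) (hspW : G.spDiv W = G.spDiv (W01 L)) :
    ∃ (E : Divisor K F) (u u' : F),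
      0 ≤ E ∧ Divisor.degree E = G.g ∧ G.spDiv E = G.spDiv (D1L L) ∧
      Divisor.IsPrincipal (W + E - G.mulOo m) ∧
      u ∈ Lam G.R (G.mulOo m) ∧ u' ∈ Lam G.R (Finsupp.single G.oo ((n : ℤ) * m - m)) ∧
      (∃ (hu : u ∈ O) (hu' : u' ∈ O), G.R.res ⟨u, hu⟩ = G.R.res ⟨L.u0, L.hu0⟩ ∧
        G.R.res ⟨u', hu'⟩ = G.R.res ⟨u0cof1 L, (isTrueSol_base1 L hgen).u'_mem⟩) ∧
      u * u' = aeval L.z (divPoly L.z W) * aeval L.z (divPoly L.z E) := by
  obtain ⟨E, u, u', h1, h2, h3, h4, h5, h6, ⟨hu, hu', h7, h8⟩, h9⟩ :=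
    exists_trueSol_divPoly (input1 L hgen) hW (hspW.trans (spDiv_W01 L))
  refine ⟨E, u, u', h1, h2, h3.trans (spDiv_D1L L).symm, h4, h5, h6, ⟨hu, hu', ?_, ?_⟩, h9⟩
  · rw [h7, L.res_u0]
  · rw [h8, (isTrueSol_base1 L hgen).res_u']

/-- **The true solutions of `Cfg2`**: for every effective `W` with the specialisation of `W0`. -/
theorem exists_trueSol2 {W : Divisor K F} (hW : 0 ≤ W) (hspW : G.spDiv W = G.spDiv (W02 L)) :
    ∃ (E : Divisor K F) (u u' : F),
      0 ≤ E ∧ Divisor.degree E = G.g ∧ G.spDiv E = G.spDiv (D0L L) ∧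
      Divisor.IsPrincipal (W + E - G.mulOo m') ∧
      u ∈ Lam G.R (G.mulOo m') ∧ u' ∈ Lam G.R (Finsupp.single G.oo ((n : ℤ) * m' - m')) ∧
      (∃ (hu : u ∈ O) (hu' : u' ∈ O), G.R.res ⟨u, hu⟩ = G.R.res ⟨L.u0', L.hu0'⟩ ∧
        G.R.res ⟨u', hu'⟩ = G.R.res ⟨u0cof2 L, (isTrueSol_base2 L hgen).u'_mem⟩) ∧
      u * u' = aeval L.z (divPoly L.z W) * aeval L.z (divPoly L.z E) := by
  obtain ⟨E, u, u', h1, h2, h3, h4, h5, h6, ⟨hu, hu', h7, h8⟩, h9⟩ :=
    exists_trueSol_divPoly (input2 L hgen) hW (hspW.trans (spDiv_W02 L))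
  refine ⟨E, u, u', h1, h2, h3.trans (spDiv_D0L L).symm, h4, h5, h6, ⟨hu, hu', ?_, ?_⟩, h9⟩
  · rw [h7, L.res_u0']
  · rw [h8, (isTrueSol_base2 L hgen).res_u']

end Cfg

end Fermat.Agent.S19x.Geo.TrueSol
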