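import Fermat.Agent.S19x.Geo.ConfigOfLeaves
import Fermat.Agent.S19x.Geo.TrueSolCfg

/-!
# P-S19, BLOCK A, leaf L6: `S`-fixedness at a lifted configuration (helper97)

Bookkeeping for the Residual Theorem at the two configurations of a lifted configuration
`L : LiftCfg.LiftedCfg c` (`c : NiceRepL.BaseCfg G.oob m m' n`):

* `isFixed_aeval` : `aeval z p` is `S`-fixed for an `S`-fixed `z` and a polynomial `p` with
  coefficients in `A^S`;
* `isFixedInt_mul`, `isFixedInt_pow`, `isFixedInt_coeff_mul`, `isFixedInt_coeff_pow` : `A^S` is a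
  ring (coefficientwise);
* `W01_eq`, `W02_eq`, `D0L_eq`, `D1L_eq` : the divisors of `Geo/TrueSolCfg.lean` are the divisors
  of `Geo/ConfigOfLeaves.lean`;
* `rho_W1_fixed`, `rho_W2_fixed` (and the `W01`, `W02`, `D0L`, `D1L` forms) : the polynomials of
  the fixed parts have coefficients in `A^S`;
* `isFixed_rho_*` : their values at `z` are `S`-fixed functions;
* `isFixed_u0cof1`, `isFixed_u0cof2` : **the cofactors of the base functions are `S`-fixed**.
-/

set_option autoImplicit false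
set_option linter.unusedSectionVars false
set_option linter.style.haveILetI false

noncomputable section

namespace Fermat.Agent.S19x.Geo.ConfigFixed

open AlgebraicCurve IsLocalRing Module Polynomial
open Fermat.Agent.Gateway.C0 Fermat.Agent.Gateway.Red Fermat.Agent.S27x.Spec.Inj
  Fermat.Agent.S27x.Spec.Disc Fermat.Agent.Lib.RiemannRoch
open Fermat.Agent.S19x.Geo.LiftCfg Fermat.Agent.S19x.Geo.NiceRepL
  Fermat.Agent.S19x.Geo.ConfigOfLeaves

universe u v w z

variable {K : Type u} [Field K] {A : ValuationSubring K} {F : Type v} [Field F] [Algebra K F]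
  {O : ValuationSubring F} {k : Type w} {κ : Type z} [Field k] [Field κ] [Algebra k κ]
  [HasPrincipalDivisors K F] [∀ v : Place K F, v.FiniteResidue] [HasPrincipalDivisors k κ]
  [∀ v : Place k κ, v.FiniteResidue]
  {G : GeoSetting A O k κ} {I : InertiaData G}

/-! ### `A^S` is a ring -/

theorem isFixedInt_iff {a : K} :
    I.IsFixedInt a ↔ a ∈ A ∧ ∀ s ∈ I.S, SemilinearAut.baseAut s a = a :=
  ⟨fun ⟨ha, h⟩ => ⟨ha, h⟩, fun ⟨ha, h⟩ => ⟨ha, h⟩⟩

theorem isFixedInt_zero : I.IsFixedInt (0 : K) :=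
  isFixedInt_iff.mpr ⟨A.zero_mem, fun _ _ => map_zero _⟩

theorem isFixedInt_one : I.IsFixedInt (1 : K) :=
  isFixedInt_iff.mpr ⟨A.one_mem, fun _ _ => map_one _⟩

theorem isFixedInt_add {a b : K} (ha : I.IsFixedInt a) (hb : I.IsFixedInt b) :
    I.IsFixedInt (a + b) := by
  rw [isFixedInt_iff] at ha hb ⊢
  exact ⟨A.add_mem _ _ ha.1 hb.1, fun s hs => by rw [map_add, ha.2 s hs, hb.2 s hs]⟩

theorem isFixedInt_mul {a b : K} (ha : I.IsFixedInt a) (hb : I.IsFixedInt b) :
    I.IsFixedInt (a * b) := by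
  rw [isFixedInt_iff] at ha hb ⊢
  exact ⟨A.mul_mem _ _ ha.1 hb.1, fun s hs => by rw [map_mul, ha.2 s hs, hb.2 s hs]⟩

theorem isFixedInt_sum {ι : Type*} (t : Finset ι) (f : ι → K)
    (h : ∀ i ∈ t, I.IsFixedInt (f i)) : I.IsFixedInt (∑ i ∈ t, f i) := by
  classical
  induction t using Finset.induction_on with
  | empty => simpa using isFixedInt_zero
  | insert a t hat ih =>
    rw [Finset.sum_insert hat]
    exact isFixedInt_add (h a (Finset.mem_insert_self a t))
      (ih fun i hi => h i (Finset.mem_insert_of_mem hi))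

theorem isFixedInt_coeff_one (l : ℕ) : I.IsFixedInt ((1 : K[X]).coeff l) := by
  rw [Polynomial.coeff_one]
  split_ifs
  · exact isFixedInt_one
  · exact isFixedInt_zero

theorem isFixedInt_coeff_mul {p q : K[X]} (hp : ∀ l, I.IsFixedInt (p.coeff l))
    (hq : ∀ l, I.IsFixedInt (q.coeff l)) (l : ℕ) : I.IsFixedInt ((p * q).coeff l) := by
  rw [Polynomial.coeff_mul]
  exact isFixedInt_sum _ _ fun x _ => isFixedInt_mul (hp x.1) (hq x.2)

theorem isFixedInt_coeff_pow {p : K[X]} (hp : ∀ l, I.IsFixedInt (p.coeff l)) (n : ℕ) (l : ℕ) :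
    I.IsFixedInt ((p ^ n).coeff l) := by
  induction n generalizing l with
  | zero => rw [pow_zero]; exact isFixedInt_coeff_one l
  | succ n ih => rw [pow_succ]; exact isFixedInt_coeff_mul ih hp l

/-! ### Values of polynomials over `A^S` at fixed functions -/

theorem isFixed_zero : I.IsFixed (0 : F) := fun s _ => smul_zero s

theorem isFixed_one : I.IsFixed (1 : F) := fun s _ => smul_one s

theorem isFixed_add {a b : F} (ha : I.IsFixed a) (hb : I.IsFixed b) : I.IsFixed (a + b) :=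
  fun s hs => by rw [smul_add, ha s hs, hb s hs]

theorem isFixed_mul {a b : F} (ha : I.IsFixed a) (hb : I.IsFixed b) : I.IsFixed (a * b) :=
  fun s hs => by rw [smul_mul', ha s hs, hb s hs]

theorem isFixed_pow {a : F} (ha : I.IsFixed a) (n : ℕ) : I.IsFixed (a ^ n) :=
  fun s hs => by rw [smul_pow', ha s hs]

theorem isFixed_inv {a : F} (ha : I.IsFixed a) : I.IsFixed a⁻¹ :=
  fun s hs => by rw [smul_inv'', ha s hs]

theorem isFixed_div {a b : F} (ha : I.IsFixed a) (hb : I.IsFixed b) : I.IsFixed (a / b) := by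
  rw [div_eq_mul_inv]
  exact isFixed_mul ha (isFixed_inv hb)

theorem isFixed_sum {ι : Type*} (t : Finset ι) (f : ι → F) (h : ∀ i ∈ t, I.IsFixed (f i)) :
    I.IsFixed (∑ i ∈ t, f i) := fun s hs => by
  rw [Finset.smul_sum]
  exact Finset.sum_congr rfl fun i hi => h i hi s hs

theorem isFixed_algebraMap_of_isFixedInt {a : K} (ha : I.IsFixedInt a) :
    I.IsFixed (algebraMap K F a) := fun s hs => by
  rw [SemilinearAut.smul_algebraMap, (isFixedInt_iff.mp ha).2 s hs]

/-- **`p(z)` is `S`-fixed** for `z` fixed and `p` with coefficients in `A^S`. -/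
theorem isFixed_aeval {zf : F} (hz : I.IsFixed zf) {p : K[X]}
    (hp : ∀ l, I.IsFixedInt (p.coeff l)) : I.IsFixed (aeval zf p) := by
  rw [Polynomial.aeval_eq_sum_range]
  refine isFixed_sum _ _ fun i _ => ?_
  rw [Algebra.smul_def]
  exact isFixed_mul (isFixed_algebraMap_of_isFixedInt (hp i)) (isFixed_pow hz i)

/-! ### The fixed parts of the two configurations -/

section Views

variable [Nonempty (Place k κ)] [IsAlgClosed k] {m m' : ℕ} {e : ℤ} {c : BaseCfg G.oob m m' e}
  (L : LiftedCfg (I := I) c)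

theorem rho_W1_fixed (l : ℕ) : I.IsFixedInt ((divPoly L.z (W1 L)).coeff l) :=
  divPoly_coeff_isFixedInt (ChartOfBase.hasValues G) L.hz L.z_mem L.z_fixed (W1_nonneg L)
    (smul_W1 L) (fun Q hQ => by
      classical
      have h := Finsupp.support_add hQ
      rcases Finset.mem_union.mp h with h | h
      · exact sp_ne_oob_of_mem_support_C0 L h
      · exact sp_ne_oob_of_mem_support_D0 L (Finsupp.support_smul h)) l

theorem rho_W2_fixed (l : ℕ) : I.IsFixedInt ((divPoly L.z (W2 L)).coeff l) :=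
  divPoly_coeff_isFixedInt (ChartOfBase.hasValues G) L.hz L.z_mem L.z_fixed (W2_nonneg L)
    (smul_W2 L) (fun Q hQ => by
      classical
      have h := Finsupp.support_add hQ
      rcases Finset.mem_union.mp h with h | h
      · exact sp_ne_oob_of_mem_support_C0' L h
      · exact sp_ne_oob_of_mem_support_D1 L h) l

theorem isFixed_rho_W1 : I.IsFixed (aeval L.z (divPoly L.z (W1 L))) :=
  isFixed_aeval L.z_fixed (rho_W1_fixed L)

theorem isFixed_rho_W2 : I.IsFixed (aeval L.z (divPoly L.z (W2 L))) :=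
  isFixed_aeval L.z_fixed (rho_W2_fixed L)

theorem isFixed_rho_D0 : I.IsFixed (aeval L.z (divPoly L.z (D0 L))) :=
  isFixed_aeval L.z_fixed (rho_D0_fixed L)

theorem isFixed_rho_D1 : I.IsFixed (aeval L.z (divPoly L.z (D1 L))) :=
  isFixed_aeval L.z_fixed (rho_D1_fixed L)

theorem isFixed_rho_C0 : I.IsFixed (aeval L.z (divPoly L.z L.C0)) :=
  isFixed_aeval L.z_fixed (rho_C0_fixed L)

theorem isFixed_rho_C0' : I.IsFixed (aeval L.z (divPoly L.z L.C0')) :=
  isFixed_aeval L.z_fixed (rho_C0'_fixed L)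

end Views

/-! ### The divisors and cofactors of `Geo/TrueSolCfg.lean` -/

section TrueSolViews

variable [Nonempty (Place k κ)] [IsAlgClosed k] {m m' n : ℕ}
  {c : BaseCfg G.oob m m' (n : ℤ)} (L : LiftedCfg (I := I) c)

theorem D0L_eq : TrueSol.D0L L = D0 L := rfl

theorem D1L_eq : TrueSol.D1L L = D1 L := rfl

theorem W01_eq : TrueSol.W01 L = W1 L := by
  rw [TrueSol.W01, W1, D0L_eq]
  congr 1

theorem W02_eq : TrueSol.W02 L = W2 L := rfl

theorem rho_W01_fixed (l : ℕ) : I.IsFixedInt ((divPoly L.z (TrueSol.W01 L)).coeff l) := by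
  rw [W01_eq]
  exact rho_W1_fixed L l

theorem rho_W02_fixed (l : ℕ) : I.IsFixedInt ((divPoly L.z (TrueSol.W02 L)).coeff l) :=
  rho_W2_fixed L l

theorem rho_D0L_fixed (l : ℕ) : I.IsFixedInt ((divPoly L.z (TrueSol.D0L L)).coeff l) :=
  rho_D0_fixed L l

theorem rho_D1L_fixed (l : ℕ) : I.IsFixedInt ((divPoly L.z (TrueSol.D1L L)).coeff l) :=
  rho_D1_fixed L l

theorem smul_W01 : ∀ s ∈ I.S, s • TrueSol.W01 L = TrueSol.W01 L := by
  rw [W01_eq]
  exact smul_W1 L

theorem smul_W02 : ∀ s ∈ I.S, s • TrueSol.W02 L = TrueSol.W02 L := smul_W2 L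

theorem smul_D0L : ∀ s ∈ I.S, s • TrueSol.D0L L = TrueSol.D0L L := smul_D0 L

theorem smul_D1L : ∀ s ∈ I.S, s • TrueSol.D1L L = TrueSol.D1L L := smul_D1 L

/-- **The cofactor of the base function of `Cfg1` is `S`-fixed.** -/
theorem isFixed_u0cof1 : I.IsFixed (TrueSol.u0cof1 L) := by
  rw [TrueSol.u0cof1_def]
  exact isFixed_div
    (isFixed_mul (isFixed_aeval L.z_fixed (rho_W01_fixed L))
      (isFixed_aeval L.z_fixed (rho_D1L_fixed L))) L.u0_fixed

/-- **The cofactor of the base function of `Cfg2` is `S`-fixed.** -/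
theorem isFixed_u0cof2 : I.IsFixed (TrueSol.u0cof2 L) := by
  rw [TrueSol.u0cof2_def]
  exact isFixed_div
    (isFixed_mul (isFixed_aeval L.z_fixed (rho_W02_fixed L))
      (isFixed_aeval L.z_fixed (rho_D0L_fixed L))) L.u0'_fixed

end TrueSolViews

end Fermat.Agent.S19x.Geo.ConfigFixed
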