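import Fermat.Agent.Gateway.GoodRed.GaussBarBasic
import Fermat.Agent.S28.Laurent
import Fermat.Prelude.Def_ModularCurve_ArithmeticGalois

/-!
# P-S19, BLOCK A: the Galois-fixed cusp place `∞` of `FBar L M` (helper98)

`FBar L M = laurentBaseChange L (modularFunctionFieldFull M)` is a subfield of `L((q))`.  The
`q`-adic valuation of `L((q))` restricts to a discrete valuation of `FBar L M`, trivial on `L`
and non-trivial (`j = q⁻¹ + …` has a pole): this is the place `ooPlace L M` (the cusp `∞`).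
The arithmetic Galois action is coefficientwise on `q`-expansions, so it preserves the `q`-adic
valuation: `smul_ooPlace : arithmeticGalois _ σ • ooPlace L M = ooPlace L M` for EVERY
`σ : L ≃ₐ[ℚ] L` (a fortiori for inertia).

This supplies `GeoSetting.oo` and `InertiaData.smul_oo` of `Geo/Setting.lean`.
-/

set_option autoImplicit false

noncomputable section

namespace Fermat.Agent.S19x.Geo.CuspOo

open AlgebraicCurve ModularCurve WithZero
open scoped Pointwise
open Fermat.Agent.Gateway.GoodRed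


/-- Valuation rings of `ℤᵐ⁰`-valued valuations are principal ideal rings (copy of
`S27x.Spec.GaussNorm.isPrincipalIdealRing_valuationSubring_int`, to keep the imports light). -/
theorem isPID_valuationSubring_int {E : Type*} [Field E] (w : Valuation E ℤᵐ⁰) :
    IsPrincipalIdealRing w.valuationSubring := by
  refine ⟨fun I => ?_⟩
  by_cases hI : I = ⊥
  · rw [hI]
    exact bot_isPrincipal
  obtain ⟨a, haI, ha0⟩ := Submodule.exists_mem_ne_zero_of_ne_bot hI
  let S : Set ℤ := {n | ∃ b ∈ I, b ≠ 0 ∧ w (b : E) = exp n}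
  have hval : ∀ b : w.valuationSubring, b ≠ 0 → w (b : E) = exp (log (w (b : E))) := by
    intro b hb
    have : w (b : E) ≠ 0 := by
      rw [Valuation.ne_zero_iff]
      exact fun h => hb (Subtype.ext h)
    exact (exp_log this).symm
  have hS_ne : ∃ n, n ∈ S := ⟨log (w (a : E)), a, haI, ha0, hval a ha0⟩
  have hS_bdd : ∀ n ∈ S, n ≤ 0 := by
    rintro n ⟨b, -, -, hb⟩
    have h1 : w (b : E) ≤ 1 := b.2
    rwa [hb, ← exp_zero, exp_le_exp] at h1
  obtain ⟨n₀, ⟨a₀, ha₀I, ha₀0, ha₀⟩, hmax⟩ := Int.exists_greatest_of_bdd ⟨0, hS_bdd⟩ hS_ne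
  refine ⟨a₀, ?_⟩
  apply le_antisymm
  · intro b hb
    rw [Submodule.mem_span_singleton]
    by_cases hb0 : b = 0
    · exact ⟨0, by rw [hb0, zero_smul]⟩
    have hbn : log (w (b : E)) ≤ n₀ := hmax _ ⟨b, hb, hb0, hval b hb0⟩
    have ha₀L : (a₀ : E) ≠ 0 := fun h => ha₀0 (Subtype.ext h)
    have hdiv : w ((b : E) / (a₀ : E)) ≤ 1 := by
      rw [map_div₀, ha₀, hval b hb0, div_le_iff₀ exp_pos, one_mul, exp_le_exp]
      exact hbn
    refine ⟨⟨(b : E) / (a₀ : E), hdiv⟩, ?_⟩
    ext
    show (b : E) / (a₀ : E) * (a₀ : E) = b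
    field_simp
  · rw [Submodule.span_singleton_le_iff_mem]
    exact ha₀I

variable (L : Type*) [Field L] [Algebra ℚ L]

section General

variable (F₀ : IntermediateField ℚ (LaurentSeries ℚ))

/-- The `q`-adic valuation of `laurentBaseChange L F₀ ⊆ L((q))`. -/
def qVal : Valuation (laurentBaseChange L F₀) ℤᵐ⁰ :=
  (Valued.v : Valuation (LaurentSeries L) ℤᵐ⁰).comap
    (algebraMap (laurentBaseChange L F₀) (LaurentSeries L))

variable {L F₀}

theorem qVal_apply (f : laurentBaseChange L F₀) :
    qVal L F₀ f = Valued.v (f : LaurentSeries L) := rfl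

/-- `|f| ≤ exp (-D)` iff the `q`-expansion of `f` starts in degree `≥ D`. -/
theorem qVal_le_exp_iff (f : laurentBaseChange L F₀) (D : ℤ) :
    qVal L F₀ f ≤ exp (-D) ↔ ∀ n : ℤ, n < D → (f : LaurentSeries L).coeff n = 0 := by
  rw [qVal_apply]
  exact LaurentSeries.valuation_le_iff_coeff_lt_eq_zero L

/-- `|f| ≤ 1` iff the `q`-expansion of `f` is a power series. -/
theorem qVal_le_one_iff (f : laurentBaseChange L F₀) :
    qVal L F₀ f ≤ 1 ↔ ∀ n : ℤ, n < 0 → (f : LaurentSeries L).coeff n = 0 := by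
  have h := qVal_le_exp_iff f 0
  rwa [neg_zero, exp_zero] at h

/-- The arithmetic Galois action preserves the `q`-adic size `≤ exp (-D)`. -/
theorem qVal_smul_le_exp_iff (σ : L ≃ₐ[ℚ] L) (f : laurentBaseChange L F₀) (D : ℤ) :
    qVal L F₀ (arithmeticGalois F₀ σ • f) ≤ exp (-D) ↔ qVal L F₀ f ≤ exp (-D) := by
  rw [qVal_le_exp_iff, qVal_le_exp_iff]
  refine forall_congr' fun n => forall_congr' fun _ => ?_
  rw [coe_arithmeticGalois_smul, coeffMap_coeff]
  exact map_eq_zero_iff _ σ.injective

/-- The arithmetic Galois action preserves the `q`-adic valuation. -/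
theorem qVal_smul (σ : L ≃ₐ[ℚ] L) (f : laurentBaseChange L F₀) :
    qVal L F₀ (arithmeticGalois F₀ σ • f) = qVal L F₀ f := by
  have key : ∀ g : laurentBaseChange L F₀, g ≠ 0 → ∀ τ : L ≃ₐ[ℚ] L,
      qVal L F₀ (arithmeticGalois F₀ τ • g) ≤ qVal L F₀ g := by
    intro g hg τ
    have hg0 : qVal L F₀ g ≠ 0 := (Valuation.ne_zero_iff _).mpr hg
    have h1 : qVal L F₀ g = exp (-(-(log (qVal L F₀ g)))) := by
      rw [neg_neg, exp_log hg0]
    have h2 := (qVal_smul_le_exp_iff τ g (-(log (qVal L F₀ g)))).mpr h1.le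
    rwa [← h1] at h2
  rcases eq_or_ne f 0 with rfl | hf
  · rw [smul_zero]
  · refine le_antisymm (key f hf σ) ?_
    have hσf : arithmeticGalois F₀ σ • f ≠ 0 := by
      intro h
      apply hf
      have := congrArg (fun x => (arithmeticGalois F₀ σ)⁻¹ • x) h
      simpa using this
    have h3 := key _ hσf σ⁻¹
    rwa [map_inv, inv_smul_smul] at h3

variable (L F₀)

/-- The valuation ring of the `q`-adic valuation. -/
def qRing : ValuationSubring (laurentBaseChange L F₀) := (qVal L F₀).valuationSubring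

variable {L F₀}

theorem mem_qRing_iff (f : laurentBaseChange L F₀) :
    f ∈ qRing L F₀ ↔ ∀ n : ℤ, n < 0 → (f : LaurentSeries L).coeff n = 0 :=
  qVal_le_one_iff f

theorem algebraMap_mem_qRing (a : L) :
    algebraMap L (laurentBaseChange L F₀) a ∈ qRing L F₀ := by
  rw [mem_qRing_iff]
  intro n hn
  show (algebraMap L (LaurentSeries L) a).coeff n = 0
  rw [algebraMap_laurentSeries_eq_single, HahnSeries.coeff_single_of_ne hn.ne]

theorem smul_mem_qRing_iff (σ : L ≃ₐ[ℚ] L) (f : laurentBaseChange L F₀) :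
    arithmeticGalois F₀ σ • f ∈ qRing L F₀ ↔ f ∈ qRing L F₀ := by
  show qVal L F₀ _ ≤ 1 ↔ qVal L F₀ f ≤ 1
  rw [qVal_smul]

/-- The arithmetic Galois action fixes the `q`-adic valuation ring. -/
theorem smul_qRing (σ : L ≃ₐ[ℚ] L) :
    arithmeticGalois F₀ σ • qRing L F₀ = qRing L F₀ := by
  ext f
  rw [ValuationSubring.mem_pointwise_smul_iff_inv_smul_mem, ← map_inv, smul_mem_qRing_iff]

variable (L F₀)

/-- The `q`-adic place of `laurentBaseChange L F₀`, as soon as some element has a pole. -/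
def qPlace (h : ∃ f : laurentBaseChange L F₀, f ∉ qRing L F₀) :
    Place L (laurentBaseChange L F₀) where
  toValuationSubring := qRing L F₀
  algebraMap_mem' := algebraMap_mem_qRing
  ne_top' := by
    obtain ⟨f, hf⟩ := h
    intro htop
    exact hf (htop ▸ ValuationSubring.mem_top f)
  isPrincipalIdealRing' :=
    isPID_valuationSubring_int (qVal L F₀)

variable {L F₀}

@[simp] theorem qPlace_toValuationSubring (h : ∃ f : laurentBaseChange L F₀, f ∉ qRing L F₀) :
    (qPlace L F₀ h).toValuationSubring = qRing L F₀ := rfl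

/-- **The `q`-adic place is fixed by the arithmetic Galois action.** -/
theorem smul_qPlace (h : ∃ f : laurentBaseChange L F₀, f ∉ qRing L F₀) (σ : L ≃ₐ[ℚ] L) :
    arithmeticGalois F₀ σ • qPlace L F₀ h = qPlace L F₀ h := by
  ext1
  rw [SemilinearAut.smul_toValuationSubring, qPlace_toValuationSubring, smul_qRing]

end General

/-! ### The cusp `∞` of `FBar L M` -/

section Modular

variable (M : ℕ) [NeZero M]

theorem jF_notMem_qRing : jF L M ∉ qRing L (modularFunctionFieldFull M) := by
  rw [mem_qRing_iff]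
  intro h
  have h1 := h (-1) (by norm_num)
  rw [coe_jF, Fermat.Agent.S28.jqModC_coeff_neg_one] at h1
  exact one_ne_zero h1

/-- **The cusp `∞`** of `FBar L M`: the place of the `q`-adic valuation. -/
def ooPlace : Place L (FBar L M) :=
  qPlace L (modularFunctionFieldFull M) ⟨jF L M, jF_notMem_qRing L M⟩

variable {L M}

theorem mem_ooPlace_iff (f : FBar L M) :
    f ∈ (ooPlace L M).toValuationSubring ↔
      ∀ n : ℤ, n < 0 → (f : LaurentSeries L).coeff n = 0 :=
  mem_qRing_iff f

/-- **The cusp `∞` is fixed by the whole arithmetic Galois group.** -/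
theorem smul_ooPlace (σ : L ≃ₐ[ℚ] L) :
    arithmeticGalois (modularFunctionFieldFull M) σ • ooPlace L M = ooPlace L M :=
  smul_qPlace _ σ

/-- The order at `∞` is Galois invariant. -/
theorem ooPlace_ord_smul (σ : L ≃ₐ[ℚ] L) (f : FBar L M) :
    (ooPlace L M).ord (arithmeticGalois (modularFunctionFieldFull M) σ • f) =
      (ooPlace L M).ord f := by
  have h := SemilinearAut.ord_smul (arithmeticGalois (modularFunctionFieldFull M) σ)
    (ooPlace L M) f
  rwa [smul_ooPlace] at h

end Modular

end Fermat.Agent.S19x.Geo.CuspOo
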