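/-
P-S19, BLOCK A (helper56): the order function of the cusp place `ooPlace L M` of
`S19x/Geo/CuspOo.lean` (helper98) IS the `q`-adic order of the `q`-expansion.

* `ord_qPlace`        : `(qPlace L F₀ h).ord f = c⁻¹ * ord_q f` in the form `ord_q f = c * ord f`
                        (abstract field of Laurent series, `c > 0` the index of the value group);
* `ord_ooPlace`       : `(ooPlace L M).ord f = ((f : L((q))).order` for `f ≠ 0` (here `c = 1`
                        because `j = q⁻¹ + …`);
* `ord_ooPlace_jF`    : `(ooPlace L M).ord (jF L M) = -1` (so `∞` is a simple pole of `j`);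
* `ord_ooPlace_nonneg_iff`, `ord_ooPlace_pos_iff` : coefficient criteria;
* `le_ord_ooPlace_iff` : `D ≤ ord f ↔` the `q`-expansion of `f` starts in degree `≥ D`.
-/
import Fermat.Agent.S19x.Geo.CuspOo
import Fermat.Agent.S24.AddVal

set_option autoImplicit false

noncomputable section

namespace Fermat.Agent.S19x.Geo.CuspOrd

open AlgebraicCurve ModularCurve Fermat.Agent.S24 Fermat.Agent.Gateway.GoodRed
open Fermat.Agent.S19x.Geo.CuspOo

variable {L : Type*} [Field L] [Algebra ℚ L]

section General

variable (F₀ : IntermediateField ℚ (LaurentSeries ℚ))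

/-- the `q`-adic order on `laurentBaseChange L F₀`. -/
def qOrd (x : laurentBaseChange L F₀) : ℤ := (x : LaurentSeries L).order

theorem qOrd_def (x : laurentBaseChange L F₀) : qOrd F₀ x = (x : LaurentSeries L).order := rfl

theorem coe_ne_zero {x : laurentBaseChange L F₀} (hx : x ≠ 0) : (x : LaurentSeries L) ≠ 0 :=
  fun h => hx (Subtype.ext h)

/-- the `q`-adic order is an additive valuation trivial on `L`. -/
theorem isAddVal_qOrd : IsAddVal L (qOrd (L := L) F₀) where
  map_mul f g hf hg := by
    show ((f * g : laurentBaseChange L F₀) : LaurentSeries L).order = _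
    rw [MulMemClass.coe_mul]
    exact HahnSeries.order_mul (coe_ne_zero F₀ hf) (coe_ne_zero F₀ hg)
  map_add f g hf hg hfg := by
    show min (f : LaurentSeries L).order (g : LaurentSeries L).order
      ≤ ((f + g : laurentBaseChange L F₀) : LaurentSeries L).order
    rw [AddMemClass.coe_add]
    apply HahnSeries.min_order_le_order_add
    rw [← AddMemClass.coe_add]
    exact coe_ne_zero F₀ hfg
  map_const c _ := by
    show (algebraMap L (LaurentSeries L) c).order = 0
    rw [algebraMap_laurentSeries_eq_single]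
    exact HahnSeries.order_C

variable {F₀}

/-- membership in the `q`-adic valuation ring in terms of the `q`-order. -/
theorem mem_qRing_iff_order {f : laurentBaseChange L F₀} (hf : f ≠ 0) :
    f ∈ qRing L F₀ ↔ 0 ≤ (f : LaurentSeries L).order := by
  rw [mem_qRing_iff, HahnSeries.le_order_iff_forall (coe_ne_zero F₀ hf)]

/-- **The order function of the `q`-adic place is the `q`-order divided by the index `c` of its
value group.** -/
theorem ord_qPlace (h : ∃ f : laurentBaseChange L F₀, f ∉ qRing L F₀) :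
    ∃ c : ℕ, 0 < c ∧ ∀ f : laurentBaseChange L F₀, f ≠ 0 →
      (f : LaurentSeries L).order = c * (qPlace L F₀ h).ord f := by
  have hnt : ∃ f : laurentBaseChange L F₀, f ≠ 0 ∧ qOrd F₀ f ≠ 0 := by
    obtain ⟨f, hf⟩ := h
    have hf0 : f ≠ 0 := fun h0 => hf (h0 ▸ (qRing L F₀).zero_mem)
    refine ⟨f, hf0, fun h0 => hf ?_⟩
    rw [mem_qRing_iff_order hf0, ← qOrd_def, h0]
  obtain ⟨v, c, hc, hv⟩ := (isAddVal_qOrd (L := L) F₀).exists_place hnt
  have hcz : (0 : ℤ) < c := by exact_mod_cast hc
  have hvq : v = qPlace L F₀ h := by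
    apply Place.ext
    ext f
    rcases eq_or_ne f 0 with rfl | hf
    · simp
    rw [qPlace_toValuationSubring, place_mem_iff_ord_nonneg v hf, mem_qRing_iff_order hf,
      ← qOrd_def, hv f hf]
    constructor
    · intro h0; exact mul_nonneg hcz.le h0
    · intro h0
      by_contra hneg
      rw [not_le] at hneg
      have := mul_neg_of_pos_of_neg hcz hneg
      omega
  subst hvq
  exact ⟨c, hc, fun f hf => by rw [← qOrd_def, hv f hf]⟩

end General

/-! ### The cusp `∞` of `FBar L M` -/

section Modular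

variable {M : ℕ} [NeZero M]

theorem jF_ne_zero : jF L M ≠ 0 := by
  intro h
  have := congrArg (fun x : FBar L M => (x : LaurentSeries L)) h
  simp only [coe_jF] at this
  exact Fermat.Agent.S28.jqModC_ne_zero L this

/-- **`ord_∞ f` is the `q`-adic order of the `q`-expansion of `f`.** -/
theorem ord_ooPlace {f : FBar L M} (hf : f ≠ 0) :
    (ooPlace L M).ord f = (f : LaurentSeries L).order := by
  obtain ⟨c, hc, hord⟩ := ord_qPlace (L := L) (F₀ := modularFunctionFieldFull M)
    ⟨jF L M, jF_notMem_qRing L M⟩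
  have h1 := hord (jF L M) jF_ne_zero
  rw [coe_jF, Fermat.Agent.S28.jqModC_order] at h1
  have hc1 : c = 1 := by
    have hdvd : (c : ℤ) ∣ 1 :=
      ⟨-(qPlace L (modularFunctionFieldFull M) ⟨jF L M, jF_notMem_qRing L M⟩).ord (jF L M), by
        rw [mul_neg, ← h1]; norm_num⟩
    have := Int.eq_one_of_dvd_one (by positivity) hdvd
    exact_mod_cast this
  subst hc1
  have := hord f hf
  rw [Nat.cast_one, one_mul] at this
  exact this.symm

/-- `∞` is a simple pole of `j`. -/
theorem ord_ooPlace_jF : (ooPlace L M).ord (jF L M) = -1 := by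
  rw [ord_ooPlace jF_ne_zero, coe_jF, Fermat.Agent.S28.jqModC_order]

/-- `D ≤ ord_∞ f` iff the `q`-expansion of `f` starts in degree `≥ D`. -/
theorem le_ord_ooPlace_iff {f : FBar L M} (hf : f ≠ 0) (D : ℤ) :
    D ≤ (ooPlace L M).ord f ↔ ∀ n : ℤ, n < D → (f : LaurentSeries L).coeff n = 0 := by
  rw [ord_ooPlace hf, HahnSeries.le_order_iff_forall (coe_ne_zero _ hf)]

theorem ord_ooPlace_nonneg_iff {f : FBar L M} (hf : f ≠ 0) :
    0 ≤ (ooPlace L M).ord f ↔ ∀ n : ℤ, n < 0 → (f : LaurentSeries L).coeff n = 0 :=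
  le_ord_ooPlace_iff hf 0

theorem ord_ooPlace_pos_iff {f : FBar L M} (hf : f ≠ 0) :
    0 < (ooPlace L M).ord f ↔ ∀ n : ℤ, n ≤ 0 → (f : LaurentSeries L).coeff n = 0 := by
  rw [← Int.add_one_le_iff, zero_add, le_ord_ooPlace_iff hf 1]
  refine forall_congr' fun n => ?_
  have : n < 1 ↔ n ≤ 0 := by omega
  rw [this]

end Modular

end Fermat.Agent.S19x.Geo.CuspOrd
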