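/-
P-S19, BLOCK A, leaf (L6-DP) (helper81): integrality, reduction and zeros/poles of the polynomial
`ρ_W = divPoly z W` attached to an effective divisor `W` and of the function `ρ_W(z)`.

Setting: `G : GeoSetting A O k κ` (`Geo/Setting.lean`), `z ∈ O` regular on the residue discs of
the points of `W` (`RegSupp G z W`; supplied by `regSupp_of_mem_rrs` for `z ∈ L(e · oo)` and
`oob ∉ supp (sp W)`, or by `regSupp_of_regular_off`).

* generic: `exists_hasValue_of_deg_eq_one`, `divPoly_sum_single`, `aeval_divPoly`,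
  `eq_add_sum_of_monic`, `divPoly_eq_add_sum` (`ρ_W = ρ_{W0} + ∑_{j<d} C a_j T^j`),
  `mem_of_adicValuation_le_one`;
* polynomials over `A` at points of `O`: `aeval_map_subtype_mem`, `res_aeval_map_subtype`;
* values: `valAt_mem` (the values of `z` on the disc are integral), `valAt_res` (they reduce to
  the values of `res z`), `hasValue_valAt_of_mem`, `natDegree_divPoly_eq`, `apply_oo_eq_zero`,
  `sp_mem_support_spDiv`, `regularOn_of_mem_rrs`, `regSupp_add`, `regSupp_zero`;
* `exists_int_divPoly` : `ρ_W` has a monic model over `A` (explicitly `intPoly A z W`) reducing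
  to `ρ_{sp W}` (for `res z`); `coeff_divPoly_mem`, `π_coeff_divPoly`,
  `coeff_sub_mem_maximalIdeal`, `coeff_sub_mem_nonunits` (same specialisation ⟹ congruent `ρ`);
* `aeval_divPoly_mem`, `res_aeval_divPoly` : `ρ_W(z) ∈ O` and its reduction;
* `adicValuation_aeval_divPoly_le`, `ord_aeval_divPoly_ge` : `ord_Q ρ_W(z) ≥ W Q`;
* `aeval_divPoly_mem_rrs` : `ρ_W(z) ∈ L(e · deg W · oo - W)` for `z ∈ L(e · oo)`, `oo ∉ supp W`;
  `aeval_divPoly_mem_rrs_mulOo` : in particular `ρ_W(z) ∈ L(e · deg W · oo)`.
-/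
import Fermat.Agent.S19x.Geo.Targets

set_option autoImplicit false
set_option linter.unusedSectionVars false
set_option linter.unusedVariables false

noncomputable section

namespace Fermat.Agent.S19x.Geo.DivPolyRed

open AlgebraicCurve Polynomial IsLocalRing
open Fermat.Agent.Gateway.C0 Fermat.Agent.Gateway.Red Fermat.Agent.S27x.Spec.Inj
  Fermat.Agent.S27x.Spec.Disc Fermat.Agent.S19x.Geo

universe u v w z

/-! ### Generic lemmas -/

section Generic

variable {K : Type u} [Field K] {F : Type v} [Field F] [Algebra K F]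

/-- A function regular at a place of degree one has a value there. -/
theorem exists_hasValue_of_deg_eq_one (Q : Place K F) (hQ : Q.deg = 1) {f : F}
    (hf : f ∈ Q.toValuationSubring) : ∃ c : K, HasValue Q f c := by
  have h1 : Module.finrank K Q.ResidueField = 1 := hQ
  have h2 := (finrank_eq_one_iff_of_nonzero' (1 : Q.ResidueField) one_ne_zero).mp h1
  obtain ⟨c, hc⟩ := h2 (IsLocalRing.residue _ ⟨f, hf⟩)
  refine ⟨c, hasValue_iff.mpr ⟨hf, ?_⟩⟩
  rw [← hc, Algebra.smul_def, mul_one]
  rfl

/-- `ρ` of a sum of multiples of places indexed by a finite set (repetitions allowed). -/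
theorem divPoly_sum_single {ι : Type*} (z : F) (s : Finset ι) (P : ι → Place K F) (n : ι → ℕ) :
    divPoly z (∑ i ∈ s, Finsupp.single (P i) (n i : ℤ)) =
      ∏ i ∈ s, (X - C (valAt (P i) z)) ^ n i := by
  classical
  induction s using Finset.induction_on with
  | empty => simp [divPoly_zero]
  | insert a s ha ih =>
    rw [Finset.sum_insert ha, Finset.prod_insert ha, divPoly_add z, divPoly_single, ih]
    · intro Q
      rw [Finsupp.zero_apply, Finsupp.single_apply]
      split_ifs
      · exact Int.natCast_nonneg _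
      · exact le_refl _
    · intro Q
      rw [Finsupp.zero_apply, Finsupp.coe_finsetSum, Finset.sum_apply]
      refine Finset.sum_nonneg fun i _ => ?_
      rw [Finsupp.single_apply]
      split_ifs
      · exact Int.natCast_nonneg _
      · exact le_refl _

/-- An effective divisor is the sum of its points. -/
theorem eq_sum_single_toNat {D : Divisor K F} (hD : 0 ≤ D) :
    D = ∑ Q ∈ D.support, Finsupp.single Q (((D Q).toNat : ℕ) : ℤ) := by
  conv_lhs => rw [← Finsupp.sum_single D]
  rw [Finsupp.sum]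
  refine Finset.sum_congr rfl fun Q _ => ?_
  rw [Int.toNat_of_nonneg (hD Q)]

/-- The function `ρ_W(z)` as a product. -/
theorem aeval_divPoly (z : F) (W : Divisor K F) :
    aeval z (divPoly z W) =
      ∏ Q ∈ W.support, (z - algebraMap K F (valAt Q z)) ^ (W Q).toNat := by
  unfold divPoly
  rw [map_prod]
  refine Finset.prod_congr rfl fun Q _ => ?_
  rw [map_pow, map_sub, aeval_X, aeval_C]

/-- Two monic polynomials of the same degree differ by their lower coefficients. -/
theorem eq_add_sum_of_monic {R : Type*} [CommRing R] {p q : R[X]} (hp : p.Monic) (hq : q.Monic)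
    {d : ℕ} (hpd : p.natDegree = d) (hqd : q.natDegree = d) :
    p = q + ∑ j : Fin d, C (p.coeff j - q.coeff j) * X ^ (j : ℕ) := by
  ext n
  rw [coeff_add, finsetSum_coeff]
  simp only [coeff_C_mul, coeff_X_pow]
  by_cases hn : n < d
  · rw [Finset.sum_eq_single (⟨n, hn⟩ : Fin d)]
    · simp
    · intro b _ hb
      have : n ≠ (b : ℕ) := fun h => hb (Fin.ext h.symm)
      simp [this]
    · intro h; exact absurd (Finset.mem_univ _) h
  · have h0 : ∑ x : Fin d, (p.coeff x - q.coeff x) * (if n = (x : ℕ) then 1 else 0) = 0 := by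
      refine Finset.sum_eq_zero fun b _ => ?_
      have : n ≠ (b : ℕ) := fun h => hn (h ▸ b.2)
      simp [this]
    rw [h0, add_zero]
    rcases Nat.lt_or_ge d n with h | h
    · rw [coeff_eq_zero_of_natDegree_lt (hpd ▸ h), coeff_eq_zero_of_natDegree_lt (hqd ▸ h)]
    · have : n = d := le_antisymm h (not_lt.mp hn)
      subst this
      have h1 := hp.coeff_natDegree
      have h2 := hq.coeff_natDegree
      rw [hpd] at h1
      rw [hqd] at h2
      rw [h1, h2]

/-- `ρ_W = ρ_{W0} + ∑_{j < d} a_j T^j`, `a_j` the differences of the lower coefficients. -/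
theorem divPoly_eq_add_sum (z : F) {W W0 : Divisor K F} {d : ℕ}
    (hW : (divPoly z W).natDegree = d) (hW0 : (divPoly z W0).natDegree = d) :
    divPoly z W = divPoly z W0 +
      ∑ j : Fin d, C ((divPoly z W).coeff j - (divPoly z W0).coeff j) * X ^ (j : ℕ) :=
  eq_add_sum_of_monic (divPoly_monic z W) (divPoly_monic z W0) hW hW0

/-- a nonunit of a place has valuation at most `exp (-1)` -/
theorem adicValuation_le_exp_neg_one (Q : Place K F) {x : F}
    (hx : x ∈ Q.toValuationSubring.nonunits) : Q.adicValuation x ≤ WithZero.exp (-1 : ℤ) := by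
  rw [Place.adicValuation_le_exp_iff]
  by_cases h0 : x = 0
  · exact Or.inl h0
  · right
    have := (mem_nonunits_iff_ord_pos Q h0).mp hx
    omega

/-- valuation at most one means membership in the valuation ring of the place -/
theorem mem_of_adicValuation_le_one (v : Place K F) {f : F} (h : v.adicValuation f ≤ 1) :
    f ∈ v.toValuationSubring := by
  by_cases h0 : f = 0
  · rw [h0]
    exact zero_mem _
  · rcases v.adicValuation_le_one_iff.mp h with h1 | h1
    · exact absurd h1 h0
    · exact (Fermat.Agent.S24.place_mem_iff_ord_nonneg v h0).mpr h1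

end Generic

/-! ### Polynomials over `A` evaluated at an element of `O` -/

section EvalInt

variable {K : Type u} [Field K] {A : ValuationSubring K} {F : Type v} [Field F] [Algebra K F]
  {O : ValuationSubring F} {k : Type w} {κ : Type z} [Field k] [Field κ] [Algebra k κ]
  (R : RedSetup A O k κ)

/-- the structure map `A → O` -/
def toO : A →+* O where
  toFun a := ⟨algebraMap K F (a : K), R.algebraMap_mem a⟩
  map_one' := Subtype.ext (by simp)
  map_mul' a b := Subtype.ext (by simp)
  map_zero' := Subtype.ext (by simp)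
  map_add' a b := Subtype.ext (by simp)

theorem res_comp_toO : R.res.comp (toO R) = (algebraMap k κ).comp R.π :=
  RingHom.ext fun a => R.res_algebraMap a

theorem coe_eval₂_toO (q : Polynomial A) {x : F} (hx : x ∈ O) :
    ((q.eval₂ (toO R) ⟨x, hx⟩ : O) : F) = aeval x (q.map A.subtype) := by
  have h1 := Polynomial.hom_eval₂ q (toO R) O.subtype ⟨x, hx⟩
  rw [aeval_def, eval₂_map]
  exact h1

include R in
/-- a polynomial with coefficients in `A` maps `O` to `O` -/
theorem aeval_map_subtype_mem (q : Polynomial A) {x : F} (hx : x ∈ O) :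
    aeval x (q.map A.subtype) ∈ O := by
  rw [← coe_eval₂_toO R q hx]
  exact (q.eval₂ (toO R) ⟨x, hx⟩).2

/-- ... compatibly with the reductions -/
theorem res_aeval_map_subtype (q : Polynomial A) {x : F} (hx : x ∈ O) :
    R.res ⟨aeval x (q.map A.subtype), aeval_map_subtype_mem R q hx⟩ =
      aeval (R.res ⟨x, hx⟩) (q.map R.π) := by
  have h0 : (⟨aeval x (q.map A.subtype), aeval_map_subtype_mem R q hx⟩ : O) =
      q.eval₂ (toO R) ⟨x, hx⟩ := Subtype.ext (coe_eval₂_toO R q hx).symm
  rw [h0, Polynomial.hom_eval₂, res_comp_toO, aeval_def, eval₂_map]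

end EvalInt

/-! ### Values on residue discs -/

variable {K : Type u} [Field K] {A : ValuationSubring K} {F : Type v} [Field F] [Algebra K F]
  {O : ValuationSubring F} {k : Type w} {κ : Type z} [Field k] [Field κ] [Algebra k κ]

/-- `z` is regular on the residue discs of all points of `W`. -/
def RegSupp (G : GeoSetting A O k κ) (z : F) (W : Divisor K F) : Prop :=
  ∀ Q ∈ W.support, RegularOn G.sp (G.sp Q) z

variable {G : GeoSetting A O k κ} {z : F} {Q : Place K F} {W W0 : Divisor K F}

theorem hasValue_valAt_of_mem (G : GeoSetting A O k κ) (hQ : z ∈ Q.toValuationSubring) :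
    HasValue Q z (valAt Q z) :=
  hasValue_valAt (exists_hasValue_of_deg_eq_one Q (G.rrF.deg_one Q) hQ)

theorem hasValue_valAt_of_reg (hreg : RegularOn G.sp (G.sp Q) z) : HasValue Q z (valAt Q z) :=
  hasValue_valAt_of_mem G (hreg Q rfl)

theorem natDegree_divPoly_eq (G : GeoSetting A O k κ) (hW : 0 ≤ W) :
    ((divPoly z W).natDegree : ℤ) = Divisor.degree W :=
  natDegree_divPoly_of_nonneg z hW G.rrF.deg_one

/-- `oo` is not in the support of an effective divisor whose specialisation avoids `oob` -/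
theorem apply_oo_eq_zero (hW : 0 ≤ W) (h : G.oob ∉ (G.spDiv W).support) : W G.oo = 0 := by
  classical
  have h0 : G.spDiv W G.oob = 0 := Finsupp.notMem_support_iff.mp h
  rw [G.spDiv_apply, Finsupp.mapDomain, Finsupp.sum_apply] at h0
  have h1 : ∀ Q ∈ W.support, 0 ≤ (Finsupp.single (G.sp Q) (W Q)) G.oob := by
    intro Q _
    rw [Finsupp.single_apply]
    split_ifs
    · exact hW Q
    · exact le_refl _
  by_contra hne
  have hmem : G.oo ∈ W.support := Finsupp.mem_support_iff.mpr hne
  have h2 := (Finset.sum_eq_zero_iff_of_nonneg h1).mp h0 G.oo hmem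
  rw [G.sp_oo, Finsupp.single_eq_same] at h2
  exact hne h2

/-- the specialisation of a point of an effective divisor is a point of its specialisation -/
theorem sp_mem_support_spDiv (G : GeoSetting A O k κ) (hW : 0 ≤ W) (hQ : Q ∈ W.support) :
    G.sp Q ∈ (G.spDiv W).support := by
  classical
  rw [Finsupp.mem_support_iff]
  intro h0
  rw [G.spDiv_apply, Finsupp.mapDomain, Finsupp.sum_apply] at h0
  have h1 : ∀ Q' ∈ W.support, 0 ≤ (Finsupp.single (G.sp Q') (W Q')) (G.sp Q) := by
    intro Q' _
    rw [Finsupp.single_apply]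
    split_ifs
    · exact hW Q'
    · exact le_refl _
  have h2 := (Finset.sum_eq_zero_iff_of_nonneg h1).mp h0 Q hQ
  rw [Finsupp.single_eq_same] at h2
  exact (Finsupp.mem_support_iff.mp hQ) h2

/-- a function regular off the residue disc of `oo` is regular on the discs of the points of an
effective divisor whose specialisation avoids `oob` -/
theorem regSupp_of_regular_off (hzreg : ∀ w : Place k κ, w ≠ G.oob → RegularOn G.sp w z)
    (hW : 0 ≤ W) (h : G.oob ∉ (G.spDiv W).support) : RegSupp G z W := by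
  intro Q hQ
  refine hzreg _ fun h0 => h ?_
  rw [← h0]
  exact sp_mem_support_spDiv G hW hQ

/-- a function with poles only at `oo` is regular on every residue disc other than that of `oo` -/
theorem regularOn_of_mem_rrs (G : GeoSetting A O k κ) {e : ℕ}
    (hze : z ∈ riemannRochSpace (G.mulOo e)) {w : Place k κ} (hw : w ≠ G.oob) :
    RegularOn G.sp w z := by
  classical
  intro Q hQ
  have hQoo : Q ≠ G.oo := by
    rintro rfl
    exact hw (hQ.symm.trans G.sp_oo)
  refine mem_of_adicValuation_le_one Q ?_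
  have h := hze Q
  rwa [GeoSetting.mulOo, Finsupp.single_apply, if_neg (Ne.symm hQoo), WithZero.exp_zero] at h

/-- ... in particular on the discs of the points of `W` -/
theorem regSupp_of_mem_rrs {e : ℕ} (hze : z ∈ riemannRochSpace (G.mulOo e)) (hW : 0 ≤ W)
    (h : G.oob ∉ (G.spDiv W).support) : RegSupp G z W :=
  regSupp_of_regular_off (fun _ hw => regularOn_of_mem_rrs G hze hw) hW h

theorem regSupp_add (h1 : RegSupp G z W) (h2 : RegSupp G z W0) : RegSupp G z (W + W0) := by
  classical
  intro Q hQ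
  rcases Finset.mem_union.mp (Finsupp.support_add hQ) with h | h
  · exact h1 Q h
  · exact h2 Q h

theorem regSupp_zero (G : GeoSetting A O k κ) (z : F) : RegSupp G z (0 : Divisor K F) := by
  intro Q hQ
  simp at hQ

variable [HasPrincipalDivisors K F]

/-- the values of `z ∈ O` on a residue disc on which it is regular are integral -/
theorem valAt_mem (hz : z ∈ O) (hreg : RegularOn G.sp (G.sp Q) z) : valAt Q z ∈ A :=
  mem_of_hasValue G.spCompat hz hreg rfl (hasValue_valAt_of_reg hreg)

/-- ... and reduce to the values of `res z` -/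
theorem hasValue_res (hz : z ∈ O) (hreg : RegularOn G.sp (G.sp Q) z) :
    HasValue (G.sp Q) (G.R.res ⟨z, hz⟩) (G.R.π ⟨valAt Q z, valAt_mem hz hreg⟩) :=
  hasValue_sp G.spCompat hz hreg rfl (a := ⟨valAt Q z, valAt_mem hz hreg⟩)
    (hasValue_valAt_of_reg hreg)

theorem valAt_res (hz : z ∈ O) (hreg : RegularOn G.sp (G.sp Q) z) :
    valAt (G.sp Q) (G.R.res ⟨z, hz⟩) = G.R.π ⟨valAt Q z, valAt_mem hz hreg⟩ :=
  valAt_eq (hasValue_res hz hreg)

/-! ### The integral model of `ρ_W` -/

/-- the value `z(Q)` as an element of `A` (junk value `0`) -/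
def valA (A : ValuationSubring K) (z : F) (Q : Place K F) : A :=
  open Classical in if h : valAt Q z ∈ A then ⟨valAt Q z, h⟩ else 0

theorem coe_valA (h : valAt Q z ∈ A) : ((valA A z Q : A) : K) = valAt Q z := by
  unfold valA
  rw [dif_pos h]

/-- the integral model of `ρ_W` -/
def intPoly (A : ValuationSubring K) (z : F) (W : Divisor K F) : Polynomial A :=
  ∏ Q ∈ W.support, (X - C (valA A z Q)) ^ (W Q).toNat

theorem intPoly_monic (z : F) (W : Divisor K F) : (intPoly A z W).Monic :=
  monic_prod_of_monic _ _ fun Q _ => (monic_X_sub_C _).pow _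

theorem map_subtype_intPoly (hz : z ∈ O) (hreg : RegSupp G z W) :
    (intPoly A z W).map A.subtype = divPoly z W := by
  unfold intPoly divPoly
  rw [Polynomial.map_prod]
  refine Finset.prod_congr rfl fun Q hQ => ?_
  rw [Polynomial.map_pow, Polynomial.map_sub, map_X, map_C]
  congr 3
  exact coe_valA (valAt_mem hz (hreg Q hQ))

theorem spDiv_eq_sum (G : GeoSetting A O k κ) (hW : 0 ≤ W) :
    G.spDiv W = ∑ Q ∈ W.support, Finsupp.single (G.sp Q) (((W Q).toNat : ℕ) : ℤ) := by
  conv_lhs => rw [eq_sum_single_toNat hW]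
  rw [map_sum]
  exact Finset.sum_congr rfl fun Q _ => G.spDiv_single Q _

theorem map_π_intPoly (hz : z ∈ O) (hW : 0 ≤ W) (hreg : RegSupp G z W) :
    (intPoly A z W).map G.R.π = divPoly (G.R.res ⟨z, hz⟩) (G.spDiv W) := by
  rw [spDiv_eq_sum G hW, divPoly_sum_single]
  unfold intPoly
  rw [Polynomial.map_prod]
  refine Finset.prod_congr rfl fun Q hQ => ?_
  rw [Polynomial.map_pow, Polynomial.map_sub, map_X, map_C, valAt_res hz (hreg Q hQ)]
  congr 4
  exact Subtype.ext (coe_valA (valAt_mem hz (hreg Q hQ)))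

/-- **Integrality and reduction of `ρ_W`.** -/
theorem exists_int_divPoly (hz : z ∈ O) (hW : 0 ≤ W) (hreg : RegSupp G z W) :
    ∃ q : Polynomial A, q.Monic ∧ q.map A.subtype = divPoly z W ∧
      q.map G.R.π = divPoly (G.R.res ⟨z, hz⟩) (G.spDiv W) :=
  ⟨intPoly A z W, intPoly_monic z W, map_subtype_intPoly hz hreg, map_π_intPoly hz hW hreg⟩

theorem coeff_divPoly_eq (hz : z ∈ O) (hreg : RegSupp G z W) (l : ℕ) :
    (divPoly z W).coeff l = (((intPoly A z W).coeff l : A) : K) := by
  rw [← map_subtype_intPoly hz hreg, coeff_map]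
  rfl

/-- the coefficients of `ρ_W` are integral -/
theorem coeff_divPoly_mem (hz : z ∈ O) (hreg : RegSupp G z W) (l : ℕ) :
    (divPoly z W).coeff l ∈ A := by
  rw [coeff_divPoly_eq hz hreg l]
  exact ((intPoly A z W).coeff l).2

/-- ... and reduce to the coefficients of `ρ_{sp W}` -/
theorem π_coeff_divPoly (hz : z ∈ O) (hW : 0 ≤ W) (hreg : RegSupp G z W) (l : ℕ) :
    G.R.π ⟨(divPoly z W).coeff l, coeff_divPoly_mem hz hreg l⟩ =
      (divPoly (G.R.res ⟨z, hz⟩) (G.spDiv W)).coeff l := by
  rw [← map_π_intPoly hz hW hreg, coeff_map]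
  congr 1
  exact Subtype.ext (coeff_divPoly_eq hz hreg l)

/-- divisors with the same specialisation have congruent `ρ` (element form) -/
theorem coeff_sub_mem_maximalIdeal (hz : z ∈ O) (hW : 0 ≤ W) (hW0 : 0 ≤ W0)
    (hreg : RegSupp G z W) (hreg0 : RegSupp G z W0) (hsp : G.spDiv W = G.spDiv W0) (l : ℕ) :
    (⟨(divPoly z W).coeff l, coeff_divPoly_mem hz hreg l⟩ : A) -
      ⟨(divPoly z W0).coeff l, coeff_divPoly_mem hz hreg0 l⟩ ∈ maximalIdeal A := by
  rw [← G.R.π_eq_zero_iff, map_sub, π_coeff_divPoly hz hW hreg, π_coeff_divPoly hz hW0 hreg0, hsp,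
    sub_self]

/-- divisors with the same specialisation have congruent `ρ` -/
theorem coeff_sub_mem_nonunits (hz : z ∈ O) (hW : 0 ≤ W) (hW0 : 0 ≤ W0)
    (hreg : RegSupp G z W) (hreg0 : RegSupp G z W0) (hsp : G.spDiv W = G.spDiv W0) (l : ℕ) :
    (divPoly z W).coeff l - (divPoly z W0).coeff l ∈ A.nonunits := by
  have h := coeff_sub_mem_maximalIdeal hz hW hW0 hreg hreg0 hsp l
  rw [ValuationSubring.mem_nonunits_iff_exists_mem_maximalIdeal]
  exact ⟨sub_mem (coeff_divPoly_mem hz hreg l) (coeff_divPoly_mem hz hreg0 l), h⟩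

/-! ### The function `ρ_W(z)` -/

/-- `ρ_W(z) ∈ O` -/
theorem aeval_divPoly_mem (hz : z ∈ O) (hreg : RegSupp G z W) :
    aeval z (divPoly z W) ∈ O := by
  rw [← map_subtype_intPoly hz hreg]
  exact aeval_map_subtype_mem G.R _ hz

/-- the reduction of `ρ_W(z)` is `ρ_{sp W}(res z)` -/
theorem res_aeval_divPoly (hz : z ∈ O) (hW : 0 ≤ W) (hreg : RegSupp G z W) :
    G.R.res ⟨aeval z (divPoly z W), aeval_divPoly_mem hz hreg⟩ =
      aeval (G.R.res ⟨z, hz⟩) (divPoly (G.R.res ⟨z, hz⟩) (G.spDiv W)) := by
  have h0 : (⟨aeval z (divPoly z W), aeval_divPoly_mem hz hreg⟩ : O) =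
      ⟨aeval z ((intPoly A z W).map A.subtype), aeval_map_subtype_mem G.R _ hz⟩ :=
    Subtype.ext (by
      show aeval z (divPoly z W) = aeval z ((intPoly A z W).map A.subtype)
      rw [map_subtype_intPoly hz hreg])
  rw [h0, res_aeval_map_subtype, map_π_intPoly hz hW hreg]

/-- zeros of `ρ_W(z)`: at a place `Q` at which `z` is regular, `ord_Q ρ_W(z) ≥ W Q`
(valuation form) -/
theorem adicValuation_aeval_divPoly_le (G : GeoSetting A O k κ) (hW : 0 ≤ W)
    (hzQ : z ∈ Q.toValuationSubring) :
    Q.adicValuation (aeval z (divPoly z W)) ≤ WithZero.exp (-(W Q)) := by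
  classical
  rw [aeval_divPoly, map_prod]
  have hfac : ∀ Q' ∈ W.support,
      Q.adicValuation ((z - algebraMap K F (valAt Q' z)) ^ (W Q').toNat) ≤ 1 := by
    intro Q' _
    rw [map_pow]
    exact pow_le_one' (Q.adicValuation_le_one_of_mem (sub_mem hzQ (Q.algebraMap_mem' _))) _
  by_cases hQ : Q ∈ W.support
  · rw [← Finset.mul_prod_erase _ _ hQ]
    have h1 : Q.adicValuation ((z - algebraMap K F (valAt Q z)) ^ (W Q).toNat) ≤
        WithZero.exp (-(W Q)) := by
      rw [map_pow]
      have h2 := adicValuation_le_exp_neg_one Q (hasValue_valAt_of_mem G hzQ)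
      calc Q.adicValuation (z - algebraMap K F (valAt Q z)) ^ (W Q).toNat
          ≤ (WithZero.exp (-1 : ℤ)) ^ (W Q).toNat := pow_le_pow_left' h2 _
        _ = WithZero.exp (-(W Q)) := by
          rw [← WithZero.exp_nsmul]
          congr 1
          rw [nsmul_eq_mul, Int.toNat_of_nonneg (hW Q)]
          ring
    calc _ ≤ WithZero.exp (-(W Q)) * 1 :=
          mul_le_mul' h1 (Finset.prod_le_one' fun Q' hQ' => hfac Q' (Finset.mem_of_mem_erase hQ'))
      _ = _ := mul_one _
  · have h0 : W Q = 0 := Finsupp.notMem_support_iff.mp hQ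
    rw [h0, neg_zero, WithZero.exp_zero]
    exact Finset.prod_le_one' fun Q' hQ' => hfac Q' hQ'

/-- `ρ_W(z) ∈ L(e · deg W · oo - W)` when `z ∈ L(e · oo)` and `oo ∉ supp W` -/
theorem aeval_divPoly_mem_rrs (G : GeoSetting A O k κ) (e : ℕ)
    (hze : z ∈ riemannRochSpace (G.mulOo e)) (hW : 0 ≤ W) (hoo : W G.oo = 0) :
    aeval z (divPoly z W) ∈
      riemannRochSpace (G.mulOo (e * (divPoly z W).natDegree) - W) := by
  classical
  intro v
  show v.adicValuation _ ≤ WithZero.exp ((G.mulOo (e * (divPoly z W).natDegree) - W) v)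
  rw [Finsupp.sub_apply]
  by_cases hv : v = G.oo
  · rw [hv, hoo, sub_zero, GeoSetting.mulOo, Finsupp.single_eq_same, aeval_divPoly, map_prod]
    have hz1 : G.oo.adicValuation z ≤ WithZero.exp (e : ℤ) := by
      have h := hze G.oo
      rwa [GeoSetting.mulOo, Finsupp.single_eq_same] at h
    have he1 : (1 : WithZero (Multiplicative ℤ)) ≤ WithZero.exp (e : ℤ) := by
      rw [← WithZero.exp_zero]
      exact WithZero.exp_le_exp.mpr (Int.natCast_nonneg e)
    have hfac : ∀ Q ∈ W.support,
        G.oo.adicValuation ((z - algebraMap K F (valAt Q z)) ^ (W Q).toNat) ≤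
          WithZero.exp (e : ℤ) ^ (W Q).toNat := by
      intro Q _
      rw [map_pow]
      refine pow_le_pow_left' ?_ _
      exact (Valuation.map_sub _ _ _).trans
        (max_le hz1 ((G.oo.adicValuation_algebraMap_le_one _).trans he1))
    calc ∏ Q ∈ W.support, G.oo.adicValuation ((z - algebraMap K F (valAt Q z)) ^ (W Q).toNat)
        ≤ ∏ Q ∈ W.support, WithZero.exp (e : ℤ) ^ (W Q).toNat := Finset.prod_le_prod' hfac
      _ = WithZero.exp (e : ℤ) ^ (∑ Q ∈ W.support, (W Q).toNat) :=
          Finset.prod_pow_eq_pow_sum _ _ _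
      _ = WithZero.exp (((e * (divPoly z W).natDegree : ℕ) : ℤ)) := by
          rw [natDegree_divPoly, ← WithZero.exp_nsmul]
          congr 1
          rw [nsmul_eq_mul]
          push_cast
          ring
  · have h0 : (G.mulOo (e * (divPoly z W).natDegree)) v = 0 := by
      rw [GeoSetting.mulOo, Finsupp.single_apply, if_neg (Ne.symm hv)]
    rw [h0, zero_sub]
    refine adicValuation_aeval_divPoly_le G hW (mem_of_adicValuation_le_one v ?_)
    have h := hze v
    rwa [GeoSetting.mulOo, Finsupp.single_apply, if_neg (Ne.symm hv), WithZero.exp_zero] at h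

/-- zeros of `ρ_W(z)` (order form) -/
theorem ord_aeval_divPoly_ge (G : GeoSetting A O k κ) (hW : 0 ≤ W)
    (hzQ : z ∈ Q.toValuationSubring) :
    aeval z (divPoly z W) = 0 ∨ W Q ≤ Q.ord (aeval z (divPoly z W)) := by
  have h := Q.adicValuation_le_exp_iff.mp (adicValuation_aeval_divPoly_le G hW hzQ)
  rwa [neg_neg] at h

/-- `ρ_W(z) ∈ L(e · deg W · oo)` when `z ∈ L(e · oo)` and `oo ∉ supp W` -/
theorem aeval_divPoly_mem_rrs_mulOo (G : GeoSetting A O k κ) (e : ℕ)
    (hze : z ∈ riemannRochSpace (G.mulOo e)) (hW : 0 ≤ W) (hoo : W G.oo = 0) :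
    aeval z (divPoly z W) ∈ riemannRochSpace (G.mulOo (e * (divPoly z W).natDegree)) := by
  intro v
  refine (aeval_divPoly_mem_rrs G e hze hW hoo v).trans (WithZero.exp_le_exp.mpr ?_)
  rw [Finsupp.sub_apply]
  exact sub_le_self _ (hW v)

end Fermat.Agent.S19x.Geo.DivPolyRed
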