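import Fermat.Agent.S27x.Lift.FactorSystem

/-!
# P-S19, block A, a piece of leaf L6: the Jacobian of the factorisation system is a unit

`S27x/Lift/FactorSystem.exists_isSol_lift_of_surjective` lifts a residue solution of the
factorisation system by Hensel's lemma.  In P-S19 no Hensel *existence* is used (true solutions
come from Riemann-Roch, approximants from the Newton iteration), but the Newton iteration needs the
Jacobian matrix of the square system at the base solution to be invertible over `A`.  This file
extracts that statement, for an arbitrary local ring `A` (no henselianity):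

* `isUnit_det_jacobian` : if the differential `dval` of the reduced system at the residue point
  `π ∘ x0` has trivial kernel on directions with vanishing normalised coordinate, then the
  Jacobian determinant `det (∂ᵢ G_j (x0))` of the square system `G' j = D.G g (e.symm j)` is a unit
  of `A`.
* `det_jacobian_residue_ne_zero` : the residue form (determinant over `k` nonzero).
-/

set_option autoImplicit false

noncomputable section

namespace Fermat.Agent.S19x.Geo.FactorJac

open MvPolynomial IsLocalRing Fermat.Agent.S27x.Lift.FactorSystem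

variable {I1 I2 I3 : Type*} {g : ℕ} [Fintype I1] [Fintype I2]
  [DecidableEq I1] [DecidableEq I2]
variable {A B : Type*} [CommRing A] [CommRing B] [Algebra A B]
variable {k : Type*} [Field k] {Bbar : Type*} [CommRing Bbar] [Algebra k Bbar]

/-- the square system attached to an identification `e` of equations and unknowns. -/
def sq (D : Data A B I1 I2 I3) (e : I3 ⊕ Unit ≃ Idx I1 I2 g) :
    Idx I1 I2 g → MvPolynomial (Idx I1 I2 g) A := fun j => D.G g (e.symm j)

/-- **the reduced Jacobian is nonsingular**: for a ring hom `π : A → k` to a field, a residue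
point `xbar` at which the differential of the reduced system is injective on directions with
vanishing normalised coordinate. -/
theorem det_jacobian_residue_ne_zero (π : A →+* k)
    (D : Data A B I1 I2 I3) (e : I3 ⊕ Unit ≃ Idx I1 I2 g)
    (red : B →+* Bbar) (φbar : I3 → (Bbar →ₗ[k] k))
    (hφ : ∀ w b, φbar w (red b) = π (D.φ w b))
    (xbar : Idx I1 I2 g → k)
    (hker : ∀ v : Idx I1 I2 g → k,
      (∀ w, φbar w ((D.toCore.map red).dval (ptbar xbar) (ptbar v)) = 0) →
      v (uIdx D.t0) = 0 → v = 0) :
    Matrix.det (Matrix.of fun i j => eval₂ π xbar (pderiv i (sq D e j))) ≠ 0 := by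
  classical
  have hval : ∀ (w : I3) (P : MvPolynomial (Idx I1 I2 g) B),
      eval₂ π xbar (mapLin (D.φ w) P)
        = φbar w (eval (ptbar xbar) (MvPolynomial.map red P)) := fun w P =>
    eval₂_mapLin π red (D.φ w) (φbar w) (hφ w) xbar P
  intro hdet
  obtain ⟨v, hv0, hv⟩ := Matrix.exists_vecMul_eq_zero_iff.mpr hdet
  apply hv0
  apply hker v
  · intro w
    have := congrFun hv (e (Sum.inl w))
    simp only [Matrix.vecMul, dotProduct, Matrix.of_apply, Pi.zero_apply] at this
    rw [← this, ← Core.dirD_master, dirD, map_sum]
    refine Finset.sum_congr rfl fun i _ => ?_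
    show _ = v i * eval₂ π xbar (pderiv i (D.G g (e.symm (e (Sum.inl w)))))
    rw [Equiv.symm_apply_apply, Data.G, pderiv_mapLin, hval, ← MvPolynomial.pderiv_map,
      Core.map_master, ptbar, ← Algebra.smul_def, map_smul, smul_eq_mul]
  · have := congrFun hv (e (Sum.inr ()))
    simp only [Matrix.vecMul, dotProduct, Matrix.of_apply, Pi.zero_apply] at this
    rw [← this]
    symm
    have h1 : ∀ i, eval₂ π xbar (pderiv i (sq D e (e (Sum.inr ()))))
        = if i = uIdx D.t0 then 1 else 0 := by
      intro i
      show eval₂ π xbar (pderiv i (D.G g (e.symm (e (Sum.inr ()))))) = _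
      rw [Equiv.symm_apply_apply, Data.G, map_sub, pderiv_X, pderiv_C, sub_zero,
        Pi.single_apply]
      by_cases h : i = uIdx D.t0
      · simp [h]
      · simp [h, Ne.symm h]
    simp only [h1, mul_ite, mul_one, mul_zero, Finset.sum_ite_eq', Finset.mem_univ, if_true]

/-- evaluation at `x0` followed by `π` is `eval₂ π` at `π ∘ x0`. -/
theorem map_eval_eq_eval₂ {ι : Type*} (π : A →+* k) (x0 : ι → A) (p : MvPolynomial ι A) :
    π (eval x0 p) = eval₂ π (fun i => π (x0 i)) p := by
  rw [MvPolynomial.eval, MvPolynomial.coe_eval₂Hom, MvPolynomial.eval₂_comp_left π]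
  rfl

/-- **the Jacobian determinant at a point `x0` over the local ring `A` is a unit** as soon as the
differential of the reduced system at `π ∘ x0` is injective on directions with vanishing normalised
coordinate.  No henselianity, and `x0` need not be a solution. -/
theorem isUnit_det_jacobian [IsLocalRing A] (π : A →+* k) (hπ : Function.Surjective π)
    (D : Data A B I1 I2 I3) (e : I3 ⊕ Unit ≃ Idx I1 I2 g)
    (red : B →+* Bbar) (φbar : I3 → (Bbar →ₗ[k] k))
    (hφ : ∀ w b, φbar w (red b) = π (D.φ w b))
    (x0 : Idx I1 I2 g → A)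
    (hker : ∀ v : Idx I1 I2 g → k,
      (∀ w, φbar w ((D.toCore.map red).dval (ptbar fun i => π (x0 i)) (ptbar v)) = 0) →
      v (uIdx D.t0) = 0 → v = 0) :
    IsUnit (Matrix.det (Matrix.of fun i j => eval x0 (pderiv i (sq D e j)))) := by
  classical
  have hkerπ : RingHom.ker π = maximalIdeal A := ker_eq_maximalIdeal π hπ
  have hJ := det_jacobian_residue_ne_zero π D e red φbar hφ (fun i => π (x0 i)) hker
  by_contra hnu
  have hm : Matrix.det (Matrix.of fun i j => eval x0 (pderiv i (sq D e j)))
      ∈ maximalIdeal A := by rwa [mem_maximalIdeal, mem_nonunits_iff]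
  rw [← hkerπ, RingHom.mem_ker, RingHom.map_det] at hm
  apply hJ
  rw [← hm]
  congr 1
  ext i j
  simp [map_eval_eq_eval₂]

/-- the same with the square-ness of the system given by cardinalities. -/
theorem isUnit_det_jacobian_of_card [IsLocalRing A] [Fintype I3] (π : A →+* k)
    (hπ : Function.Surjective π) (D : Data A B I1 I2 I3)
    (hcard : Fintype.card I3 + 1 = Fintype.card I1 + Fintype.card I2 + g)
    (red : B →+* Bbar) (φbar : I3 → (Bbar →ₗ[k] k))
    (hφ : ∀ w b, φbar w (red b) = π (D.φ w b))
    (x0 : Idx I1 I2 g → A)
    (hker : ∀ v : Idx I1 I2 g → k,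
      (∀ w, φbar w ((D.toCore.map red).dval (ptbar fun i => π (x0 i)) (ptbar v)) = 0) →
      v (uIdx D.t0) = 0 → v = 0) :
    ∃ e : I3 ⊕ Unit ≃ Idx I1 I2 g,
      IsUnit (Matrix.det (Matrix.of fun i j => eval x0 (pderiv i (sq D e j)))) := by
  have hc : Fintype.card (I3 ⊕ Unit) = Fintype.card (Idx I1 I2 g) := by
    simp only [Fintype.card_sum, Fintype.card_unit, Fintype.card_fin]
    omega
  exact ⟨Fintype.equivOfCardEq hc,
    isUnit_det_jacobian π hπ D (Fintype.equivOfCardEq hc) red φbar hφ x0 hker⟩

end Fermat.Agent.S19x.Geo.FactorJac
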