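/-
P-S19 block A: `FixData` for `S` = inertia (helper3; Q3 backup of helper42's `FixDataInertiaBase`,
at a distinct path, in a form which does not mention the modular function field).

`P` a valuation subring of `Qbar` over `ℓ`, `R : C0.RedSetup P O k κ` any reduction set-up over
`(Qbar, P)`, `S` a set of semilinear automorphisms of `F / Qbar` whose base automorphisms are exactly
the elements of the inertia group of `P`.  Then the fields `residue_surj` and `unif` of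
`LatticeFixed.FixData R S` hold (`Hens/InertiaResidue`), hence `FixData R S` follows from the
`scal_fixed` field alone (`Geo/ScalFixed` in the modular case).
-/
import Mathlib
import Fermat.Agent.S19x.Hens.InertiaResidue
import Fermat.Agent.S19x.Geo.LatticeFixed
import Fermat.Prelude.Def_ModularCurve_ArithmeticGalois

set_option autoImplicit false

namespace Fermat.Agent.S19x.Geo.FixDataInertiaB

open AlgebraicCurve IsLocalRing
open Fermat.Agent.Gateway.C0 Fermat.Agent.S19x.Geo.LatticeFixed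
open Fermat.Agent.S56x.Flat.InertiaField Fermat.Agent.S19x.Hens.InertiaResidue

local notation "Qbar" => AlgebraicClosure ℚ

variable {P : ValuationSubring Qbar} {ℓ : ℕ} {F : Type*} [Field F] [Algebra Qbar F]
  {O : ValuationSubring F} {k κ : Type*} [Field k] [Field κ] [Algebra k κ]
  (R : RedSetup P O k κ) (S : Set (SemilinearAut Qbar F))

/-- An element of `inertiaInt P` is fixed by `S` when the base automorphisms of `S` are inertia
elements. -/
theorem isFixedK_of_mem_inertiaInt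
    (hS : ∀ s ∈ S, ∃ σ ∈ P.inertiaSubgroupIn ℚ, ∀ c : Qbar, SemilinearAut.baseAut s c = σ c)
    {c : Qbar} (hc : c ∈ inertiaInt P) : IsFixedK S c := by
  intro s hs
  obtain ⟨σ, hσ, hσs⟩ := hS s hs
  rw [hσs]
  exact hc.2 σ hσ

/-- An `S`-fixed element is inertia-fixed when every inertia element is the base automorphism of
an element of `S`. -/
theorem fixed_of_isFixedK
    (hS' : ∀ σ ∈ P.inertiaSubgroupIn ℚ, ∃ s ∈ S, ∀ c : Qbar, SemilinearAut.baseAut s c = σ c)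
    {c : Qbar} (hc : IsFixedK S c) : ∀ σ ∈ P.inertiaSubgroupIn ℚ, σ c = c := by
  intro σ hσ
  obtain ⟨s, hs, hσs⟩ := hS' σ hσ
  rw [← hσs]
  exact hc s hs

/-- **`FixData.residue_surj` for inertia.** -/
theorem residue_surj (hℓ : ℓ.Prime) (hP : P.LiesOverPrime ℓ)
    (hS : ∀ s ∈ S, ∃ σ ∈ P.inertiaSubgroupIn ℚ, ∀ c : Qbar, SemilinearAut.baseAut s c = σ c)
    (a : P) : ∃ a₀ : P, IsFixedK S (a₀ : Qbar) ∧ R.π a₀ = R.π a := by
  obtain ⟨a₀, ha₀, hsub⟩ := exists_fixed_sub_mem_nonunits P hℓ hP a.2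
  refine ⟨⟨a₀, ha₀.1⟩, isFixedK_of_mem_inertiaInt S hS ha₀, ?_⟩
  rw [← sub_eq_zero, ← map_sub, R.π_eq_zero_iff, ← ValuationSubring.coe_mem_nonunits_iff]
  exact hsub

/-- **`FixData.unif` for inertia**, with uniformiser `ℓ`. -/
theorem unif (hℓ : ℓ.Prime) (hP : P.LiesOverPrime ℓ)
    (hS : ∀ s ∈ S, ∃ σ ∈ P.inertiaSubgroupIn ℚ, ∀ c : Qbar, SemilinearAut.baseAut s c = σ c)
    (hS' : ∀ σ ∈ P.inertiaSubgroupIn ℚ, ∃ s ∈ S, ∀ c : Qbar, SemilinearAut.baseAut s c = σ c) :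
    ∃ ϖ : P, ϖ ∈ maximalIdeal P ∧ ϖ ≠ 0 ∧ IsFixedK S (ϖ : Qbar) ∧
      ∀ c : P, IsFixedK S (c : Qbar) → c ∈ maximalIdeal P → ϖ ∣ c := by
  have hℓP : (ℓ : Qbar) ∈ P := (natCast_mem_inertiaInt P (ℓ := ℓ)).1
  refine ⟨⟨(ℓ : Qbar), hℓP⟩, ?_, ?_, ?_, ?_⟩
  · rw [← ValuationSubring.coe_mem_nonunits_iff]
    exact hP
  · intro h
    exact natCast_ne_zero_Qbar P hℓ hP (congrArg (fun z : P => (z : Qbar)) h)
  · exact isFixedK_of_mem_inertiaInt S hS (natCast_mem_inertiaInt P)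
  · intro c hc hcm
    rw [← ValuationSubring.coe_mem_nonunits_iff] at hcm
    obtain ⟨d, hd, hcd⟩ := exists_eq_natCast_mul_of_fixed P hℓ hP hcm (fixed_of_isFixedK S hS' hc)
    exact ⟨⟨d, hd.1⟩, Subtype.ext hcd⟩

/-- **`FixData` for inertia** from its `scal_fixed` field. -/
theorem fixData (hℓ : ℓ.Prime) (hP : P.LiesOverPrime ℓ)
    (hS : ∀ s ∈ S, ∃ σ ∈ P.inertiaSubgroupIn ℚ, ∀ c : Qbar, SemilinearAut.baseAut s c = σ c)
    (hS' : ∀ σ ∈ P.inertiaSubgroupIn ℚ, ∃ s ∈ S, ∀ c : Qbar, SemilinearAut.baseAut s c = σ c)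
    (hscal : ∀ f : F, f ≠ 0 → IsFixed S f →
      ∃ c : Qbar, c ≠ 0 ∧ IsFixedK S c ∧ O.valuation (c • f) = 1) : FixData R S :=
  ⟨residue_surj R S hℓ hP hS, unif S hℓ hP hS hS', hscal⟩

/-- **`FixData` for the coefficientwise action of inertia** on a base-changed Laurent-series
function field (`S = arithmeticGalois F₀ '' I`), from its `scal_fixed` field. -/
theorem fixData_arithmeticGalois (F₀ : IntermediateField ℚ (LaurentSeries ℚ))
    {O' : ValuationSubring (ModularCurve.laurentBaseChange Qbar F₀)} (R' : RedSetup P O' k κ)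
    (hℓ : ℓ.Prime) (hP : P.LiesOverPrime ℓ)
    (hscal : ∀ f : ModularCurve.laurentBaseChange Qbar F₀, f ≠ 0 →
      IsFixed (ModularCurve.arithmeticGalois (L := Qbar) F₀ ''
        (P.inertiaSubgroupIn ℚ : Set (Qbar ≃ₐ[ℚ] Qbar))) f →
      ∃ c : Qbar, c ≠ 0 ∧
        IsFixedK (ModularCurve.arithmeticGalois (L := Qbar) F₀ ''
          (P.inertiaSubgroupIn ℚ : Set (Qbar ≃ₐ[ℚ] Qbar))) c ∧
        O'.valuation (c • f) = 1) :
    FixData R' (ModularCurve.arithmeticGalois (L := Qbar) F₀ ''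
      (P.inertiaSubgroupIn ℚ : Set (Qbar ≃ₐ[ℚ] Qbar))) := by
  refine fixData R' _ hℓ hP ?_ ?_ hscal
  · rintro _ ⟨σ, hσ, rfl⟩
    exact ⟨σ, hσ, fun c => rfl⟩
  · intro σ hσ
    exact ⟨_, ⟨σ, hσ, rfl⟩, fun c => rfl⟩

end Fermat.Agent.S19x.Geo.FixDataInertiaB
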