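/-
P-S19, block A, leaf (L2-b) INSTANCE, parts `residue_surj` and `unif`  (owner: helper42).

`Qbar = AlgebraicClosure ℚ`, `P` a valuation subring of `Qbar` over the prime `p`,
`I = P.inertiaSubgroupIn ℚ`.

* `exists_pow_sub_mem_nonunits` : the residue field of `P` is algebraic over `𝔽_p`: for `a ∈ P`
  there is `n > 0` with `a ≡ a ^ (p ^ n)` modulo the maximal ideal (a Frobenius lift has a finite
  orbit on `a`);
* `exists_fixed_sub_mem_nonunits` : every residue class of `P` has an `I`-fixed representative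
  (the Teichmueller representative: `0` or a root of unity of order prime to `p`); i.e. the
  residue field of the inertia field is the whole residue field;
* `residue_surj`, `unif` : the fields `residue_surj`, `unif` of `Geo/LatticeFixed.FixData`
  (helper5, note 1809) for `S = ` arithmetic Galois automorphisms coming from inertia, in unfolded
  form (`IsFixedK S c = ∀ s ∈ S, baseAut s c = c`), `ϖ = p`.
-/
import Mathlib
import Fermat.Prelude.Def_ModularCurve_ArithmeticGalois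
import Fermat.Agent.Gateway.C0.Count
import Fermat.Agent.S19x.Hens.DecompResidue

set_option autoImplicit false
set_option linter.unusedVariables false
set_option linter.unusedSectionVars false

open scoped Pointwise
open IsLocalRing AlgebraicCurve ModularCurve

noncomputable section

namespace Fermat.Agent.S19x.Geo.FixDataInertiaBase

local notation "Qbar" => AlgebraicClosure ℚ
local notation "Γℚ" => (AlgebraicClosure ℚ ≃ₐ[ℚ] AlgebraicClosure ℚ)

open Fermat.Agent.Lib Fermat.Agent.S56x.Hens Fermat.Agent.S56x.Flat.InertiaField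

variable (P : ValuationSubring Qbar) {p : ℕ}

/-! ### Elementary facts on the maximal ideal -/

/-- The maximal ideal of `P` is prime. -/
theorem mem_nonunits_or_of_mul {x y : Qbar} (hx : x ∈ P) (hy : y ∈ P)
    (h : x * y ∈ P.nonunits) : x ∈ P.nonunits ∨ y ∈ P.nonunits := by
  by_contra hcon
  obtain ⟨hx', hy'⟩ := not_or.mp hcon
  obtain ⟨hx0, hxinv⟩ := inv_mem_of_notMem_nonunits P hx hx'
  apply hy'
  have h1 : y = (x * y) * x⁻¹ := by field_simp
  rw [h1]
  exact mul_mem_nonunits_of_mem P h hxinv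

/-- `x ≡ y` implies `x ^ N ≡ y ^ N` modulo the maximal ideal. -/
theorem pow_sub_pow_mem_nonunits {x y : Qbar} (hx : x ∈ P) (hy : y ∈ P)
    (h : x - y ∈ P.nonunits) (N : ℕ) : x ^ N - y ^ N ∈ P.nonunits := by
  obtain ⟨w, hw⟩ := sub_dvd_pow_sub_pow (⟨x, hx⟩ : P) ⟨y, hy⟩ N
  have h1 : x ^ N - y ^ N = (x - y) * (w : Qbar) := by
    have := congrArg (fun z : P => (z : Qbar)) hw
    simpa using this
  rw [h1]
  exact mul_mem_nonunits_of_mem P h w.2

/-- A root of unity lies in `P`. -/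
theorem mem_of_pow_eq_one {ζ : Qbar} {m : ℕ} (hm : 0 < m) (hζ : ζ ^ m = 1) : ζ ∈ P := by
  apply mem_valuationSubring_of_isIntegral P
  apply IsIntegral.of_pow hm
  rw [hζ]
  exact isIntegral_one

/-! ### The residue field is algebraic over the prime field -/

/-- Every automorphism has a finite orbit on every element. -/
theorem exists_pow_apply_eq (φ : Γℚ) (a : Qbar) : ∃ n : ℕ, 0 < n ∧ (φ ^ n) a = a := by
  have : Algebra.IsAlgebraic ℚ Qbar := AlgebraicClosure.isAlgebraic ℚ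
  have hint : IsIntegral ℚ a := (Algebra.IsAlgebraic.isAlgebraic a).isIntegral
  have hmem : ∀ n : ℕ, (φ ^ n) a ∈ (minpoly ℚ a).rootSet Qbar := by
    intro n
    rw [Polynomial.mem_rootSet]
    refine ⟨minpoly.ne_zero hint, ?_⟩
    rw [Polynomial.aeval_algHom_apply, minpoly.aeval, map_zero]
  have hfin : Finite ((minpoly ℚ a).rootSet Qbar) := Polynomial.rootSet_finite _ _
  let f : ℕ → (minpoly ℚ a).rootSet Qbar := fun n => ⟨(φ ^ n) a, hmem n⟩
  obtain ⟨i, j, hij, hf⟩ := Finite.exists_ne_map_eq_of_infinite f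
  have hf' : (φ ^ i) a = (φ ^ j) a := congrArg Subtype.val hf
  -- wlog `i < j`
  have key : ∀ i j : ℕ, i < j → (φ ^ i) a = (φ ^ j) a → ∃ n : ℕ, 0 < n ∧ (φ ^ n) a = a := by
    intro i j hlt h
    refine ⟨j - i, Nat.sub_pos_of_lt hlt, ?_⟩
    have h1 : φ ^ j = φ ^ i * φ ^ (j - i) := by
      rw [← pow_add, Nat.add_sub_cancel' hlt.le]
    rw [h1, AlgEquiv.mul_apply] at h
    exact ((φ ^ i).injective h).symm
  rcases lt_or_gt_of_ne hij with h | h
  · exact key i j h hf'
  · exact key j i h hf'.symm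

/-- Powers of a Frobenius lift act as powers of the Frobenius modulo the maximal ideal. -/
theorem frob_pow_sub_mem (φ : Γℚ) (hφ : ∀ x ∈ P, φ x - x ^ p ∈ P.nonunits) :
    ∀ n : ℕ, ∀ c ∈ P, (φ ^ n) c - c ^ (p ^ n) ∈ P.nonunits := by
  intro n
  induction n with
  | zero =>
    intro c hc
    have : ((φ ^ 0) c) - c ^ (p ^ 0) = 0 := by simp
    rw [this]
    exact P.nonunits.zero_mem
  | succ n ih =>
    intro c hc
    have hcp : c ^ p ∈ P := pow_mem hc p
    have hφc : φ c ∈ P := by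
      have h1 : φ c = (φ c - c ^ p) + c ^ p := by ring
      rw [h1]
      exact P.add_mem _ _ (P.nonunits_subset (hφ c hc)) hcp
    have h1 := ih (φ c) hφc
    have h2 := pow_sub_pow_mem_nonunits P hφc hcp (hφ c hc) (p ^ n)
    have h3 : (φ ^ (n + 1)) c - c ^ (p ^ (n + 1)) =
        ((φ ^ n) (φ c) - (φ c) ^ (p ^ n)) + ((φ c) ^ (p ^ n) - (c ^ p) ^ (p ^ n)) := by
      rw [pow_succ φ n, AlgEquiv.mul_apply, pow_succ' p n, pow_mul]
      ring
    rw [h3]
    exact P.nonunits.add_mem h1 h2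

/-- **The residue field of `P` is algebraic over `𝔽_p`.** -/
theorem exists_pow_sub_mem_nonunits (hp : p.Prime) (hP : P.LiesOverPrime p) {a : Qbar}
    (ha : a ∈ P) : ∃ n : ℕ, 0 < n ∧ a - a ^ (p ^ n) ∈ P.nonunits := by
  obtain ⟨φ, hφ, -⟩ := Fermat.Agent.Lib.exists_isFrobeniusAt_of_liesOverPrime hp P hP
  rw [isFrobeniusAt_iff] at hφ
  obtain ⟨n, hn, hna⟩ := exists_pow_apply_eq φ a
  refine ⟨n, hn, ?_⟩
  have h := frob_pow_sub_mem P φ hφ.2 n a ha
  rwa [hna] at h

/-! ### Teichmueller representatives -/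

/-- If `a ^ m ≡ 1` then `a` is congruent to an `m`-th root of unity. -/
theorem exists_root_sub_mem {a : Qbar} (ha : a ∈ P) {m : ℕ} (hm : 0 < m)
    (h : a ^ m - 1 ∈ P.nonunits) : ∃ ζ : Qbar, ζ ^ m = 1 ∧ a - ζ ∈ P.nonunits := by
  classical
  have : CharZero Qbar := algebraRat.charZero Qbar
  have : NeZero m := ⟨hm.ne'⟩
  obtain ⟨ζ₀, hζ₀⟩ := HasEnoughRootsOfUnity.exists_primitiveRoot Qbar m
  have hprod := Polynomial.X_pow_sub_one_eq_prod hm hζ₀
  have heval : a ^ m - 1 = ∏ ζ ∈ Polynomial.nthRootsFinset m (1 : Qbar), (a - ζ) := by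
    have := congrArg (Polynomial.eval a) hprod
    simpa [Polynomial.eval_prod] using this
  by_contra hcon
  have hcon : ∀ ζ : Qbar, ζ ^ m = 1 → a - ζ ∉ P.nonunits := fun ζ hζ hz => hcon ⟨ζ, hζ, hz⟩
  have hval : ∀ ζ ∈ Polynomial.nthRootsFinset m (1 : Qbar), P.valuation (a - ζ) = 1 := by
    intro ζ hζ
    have hζ1 : ζ ^ m = 1 := (Polynomial.mem_nthRootsFinset hm 1).mp hζ
    have hζP : ζ ∈ P := mem_of_pow_eq_one P hm hζ1
    have h1 : P.valuation (a - ζ) ≤ 1 := (P.valuation_le_one_iff _).mpr (P.toSubring.sub_mem ha hζP)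
    have h2 : ¬ P.valuation (a - ζ) < 1 := by
      rw [← ValuationSubring.mem_nonunits_iff]
      exact hcon ζ hζ1
    exact le_antisymm h1 (not_lt.mp h2)
  rw [ValuationSubring.mem_nonunits_iff, heval, map_prod, Finset.prod_eq_one hval] at h
  exact lt_irrefl _ h

/-- A root of unity of order dividing `p ^ n - 1` is fixed by inertia. -/
theorem root_fixed (hp : p.Prime) (hP : P.LiesOverPrime p) {n : ℕ} (hn : 0 < n) {ζ : Qbar}
    (hζ : ζ ^ (p ^ n - 1) = 1) {t : Γℚ} (ht : t ∈ P.inertiaSubgroupIn ℚ) : t ζ = ζ := by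
  have hpP : ((p : ℕ) : Qbar) ∈ P.nonunits := hP
  have hpn : 2 ≤ p ^ n := by
    calc 2 ≤ p := hp.two_le
      _ = p ^ 1 := (pow_one p).symm
      _ ≤ p ^ n := Nat.pow_le_pow_right hp.pos hn
  set m := p ^ n - 1 with hmdef
  have hm : 0 < m := by omega
  have hm1 : m + 1 = p ^ n := by omega
  have hζP : ζ ∈ P := mem_of_pow_eq_one P hm hζ
  have hζ0 : ζ ≠ 0 := by
    rintro rfl
    rw [zero_pow hm.ne'] at hζ
    exact zero_ne_one hζ
  have hζinv : ζ⁻¹ ∈ P := by
    have h1 : ζ⁻¹ = ζ ^ (m - 1) := by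
      have h2 : ζ ^ (m - 1) * ζ = 1 := by
        rw [← pow_succ, Nat.sub_add_cancel hm, hζ]
      exact (eq_inv_of_mul_eq_one_left h2).symm
    rw [h1]
    exact pow_mem hζP _
  have htζ : t ζ - ζ ∈ P.nonunits := ((mem_inertiaSubgroupIn_iff P t).mp ht).2 ζ hζP
  -- `η = t ζ / ζ`
  set η : Qbar := t ζ * ζ⁻¹ with hηdef
  have hηm : η ^ m = 1 := by
    rw [hηdef, mul_pow, ← map_pow, inv_pow, hζ, map_one, inv_one, mul_one]
  have hηP : η ∈ P := mem_of_pow_eq_one P hm hηm
  have hη1 : η - 1 ∈ P.nonunits := by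
    have h1 : η - 1 = (t ζ - ζ) * ζ⁻¹ := by
      rw [hηdef, sub_mul, mul_inv_cancel₀ hζ0]
    rw [h1]
    exact mul_mem_nonunits_of_mem P htζ hζinv
  by_contra hne
  have hηne : η ≠ 1 := by
    intro h1
    apply hne
    have h2 : t ζ = η * ζ := by
      rw [hηdef, mul_assoc, inv_mul_cancel₀ hζ0, mul_one]
    rw [h2, h1, one_mul]
  -- the geometric sum vanishes
  have hgeom : ∑ i ∈ Finset.range m, η ^ i = 0 := by
    have h1 := geom_sum_mul η m
    rw [hηm, sub_self] at h1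
    rcases mul_eq_zero.mp h1 with h2 | h2
    · exact h2
    · exact absurd (sub_eq_zero.mp h2) hηne
  -- but it is congruent to `m`
  have hsum : ∑ i ∈ Finset.range m, (η ^ i - 1) ∈ P.nonunits := by
    refine sum_mem fun i _ => ?_
    have h1 := pow_sub_pow_mem_nonunits P hηP P.one_mem hη1 i
    rwa [one_pow] at h1
  have hmP : (m : Qbar) ∈ P.nonunits := by
    have h1 : (m : Qbar) = -∑ i ∈ Finset.range m, (η ^ i - 1) := by
      rw [Finset.sum_sub_distrib, hgeom, Finset.sum_const, Finset.card_range, nsmul_one]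
      ring
    rw [h1]
    exact P.nonunits.neg_mem hsum
  have hpnP : ((p : ℕ) : Qbar) ^ n ∈ P.nonunits := by
    have h1 : ((p : ℕ) : Qbar) ^ n = (p : Qbar) * (p : Qbar) ^ (n - 1) := by
      rw [← pow_succ', Nat.sub_add_cancel hn]
    rw [h1]
    exact mul_mem_nonunits_of_mem P hpP (pow_mem (P.nonunits_subset hpP) _)
  have hone : (1 : Qbar) = ((p : ℕ) : Qbar) ^ n - (m : Qbar) := by
    have h1 : ((m + 1 : ℕ) : Qbar) = ((p ^ n : ℕ) : Qbar) := by rw [hm1]
    push_cast at h1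
    rw [← h1]
    ring
  apply one_notMem_nonunits P
  rw [hone]
  exact P.nonunits.sub_mem hpnP hmP

/-- **The residue field of the inertia field is the whole residue field.**  Every residue class
of `P` has a representative fixed by the inertia group of `P`. -/
theorem exists_fixed_sub_mem_nonunits (hp : p.Prime) (hP : P.LiesOverPrime p) {a : Qbar}
    (ha : a ∈ P) :
    ∃ a₀ : Qbar, a₀ ∈ P ∧ (∀ t ∈ P.inertiaSubgroupIn ℚ, t a₀ = a₀) ∧ a - a₀ ∈ P.nonunits := by
  obtain ⟨n, hn, h⟩ := exists_pow_sub_mem_nonunits P hp hP ha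
  have hpn : 2 ≤ p ^ n := by
    calc 2 ≤ p := hp.two_le
      _ = p ^ 1 := (pow_one p).symm
      _ ≤ p ^ n := Nat.pow_le_pow_right hp.pos hn
  have hm : 0 < p ^ n - 1 := by omega
  have hm1 : p ^ n - 1 + 1 = p ^ n := by omega
  have h' : a * (a ^ (p ^ n - 1) - 1) ∈ P.nonunits := by
    have h1 : a * (a ^ (p ^ n - 1) - 1) = -(a - a ^ (p ^ n)) := by
      conv_rhs => rw [← hm1, pow_succ]
      ring
    rw [h1]
    exact P.nonunits.neg_mem h
  rcases mem_nonunits_or_of_mul P ha (P.toSubring.sub_mem (pow_mem ha _) P.one_mem) h' with h1 | h1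
  · exact ⟨0, P.zero_mem, fun t _ => map_zero t, by simpa using h1⟩
  · obtain ⟨ζ, hζ, hz⟩ := exists_root_sub_mem P ha hm h1
    exact ⟨ζ, mem_of_pow_eq_one P hm hζ, fun t ht => root_fixed P hp hP hn hζ ht, hz⟩

/-! ### The fields `residue_surj` and `unif` of `FixData` for the inertia group -/

section FixData

variable {F₀ : IntermediateField ℚ (LaurentSeries ℚ)}
  {O : ValuationSubring (laurentBaseChange Qbar F₀)} {k κ : Type*} [Field k] [Field κ]
  [Algebra k κ] (R : Fermat.Agent.Gateway.C0.RedSetup P O k κ)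
  (S : Set (SemilinearAut Qbar (laurentBaseChange Qbar F₀)))

/-- **`FixData.residue_surj` for inertia.** -/
theorem residue_surj (hp : p.Prime) (hP : P.LiesOverPrime p)
    (hS : ∀ s ∈ S, ∃ σ ∈ P.inertiaSubgroupIn ℚ, s = arithmeticGalois F₀ σ) (a : P) :
    ∃ a₀ : P, (∀ s ∈ S, SemilinearAut.baseAut s (a₀ : Qbar) = (a₀ : Qbar)) ∧
      R.π a₀ = R.π a := by
  obtain ⟨a₀, ha₀, hfix, hsub⟩ := exists_fixed_sub_mem_nonunits P hp hP a.2
  refine ⟨⟨a₀, ha₀⟩, ?_, ?_⟩
  · intro s hs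
    obtain ⟨σ, hσ, rfl⟩ := hS s hs
    exact hfix σ hσ
  · symm
    rw [← sub_eq_zero, ← map_sub, R.π_eq_zero_iff, ← ValuationSubring.coe_mem_nonunits_iff]
    exact hsub

/-- **`FixData.unif` for inertia**, with uniformiser `ϖ = p`. -/
theorem unif (hp : p.Prime) (hP : P.LiesOverPrime p)
    (hS' : ∀ σ ∈ P.inertiaSubgroupIn ℚ, arithmeticGalois F₀ σ ∈ S) :
    ∃ ϖ : P, ϖ ∈ maximalIdeal P ∧ ϖ ≠ 0 ∧
      (∀ s ∈ S, SemilinearAut.baseAut s (ϖ : Qbar) = (ϖ : Qbar)) ∧
      ∀ c : P, (∀ s ∈ S, SemilinearAut.baseAut s (c : Qbar) = (c : Qbar)) →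
        c ∈ maximalIdeal P → ϖ ∣ c := by
  have hpP : ((p : ℕ) : Qbar) ∈ P.nonunits := hP
  have hcoe : (((p : ℕ) : P) : Qbar) = ((p : ℕ) : Qbar) := by simp
  refine ⟨((p : ℕ) : P), ?_, ?_, ?_, ?_⟩
  · rw [← ValuationSubring.coe_mem_nonunits_iff, hcoe]
    exact hpP
  · intro h0
    have h1 := congrArg (fun z : P => (z : Qbar)) h0
    simp only [hcoe] at h1
    exact natCast_ne_zero_Qbar P hp hP h1
  · intro s hs
    rw [hcoe, map_natCast]
  · intro c hcfix hc
    have hc' : (c : Qbar) ∈ P.nonunits := ValuationSubring.coe_mem_nonunits_iff.mpr hc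
    obtain ⟨d, hd, hcd⟩ := div_mem_of_fixed P hp hP (c : Qbar) hc'
      (fun t ht => hcfix _ (hS' t ht))
    refine ⟨⟨d, hd⟩, Subtype.ext ?_⟩
    rw [hcd]
    push_cast
    rfl

end FixData

end Fermat.Agent.S19x.Geo.FixDataInertiaBase
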