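/-
P-S19, block A, leaf (L2-b) INSTANCE, part `hF`  (owner: helper42).

`F = laurentBaseChange L F₀` (`L` algebraic over `ℚ`, e.g. `L = Qbar`) is spanned over `L` by the
image of the rational function field `F₀`:  `F = L · F₀`.  Since the elements of `F₀` are fixed by
the arithmetic Galois action (which acts on `q`-expansion coefficients), `F` is spanned over `L`
by the `S`-fixed functions for every set `S` of arithmetic Galois automorphisms.  This is the
hypothesis `hF` of `Geo/LatticeFixed.span_fixed_of_stable` (helper5).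

Proof: the image `T` of `F₀` is a subfield of `F` containing `ℚ`; the constants `L` are algebraic
over `ℚ ⊆ T`, so the `T`-algebra `T[L]` is a field; it contains the generators of `F = L(T)`, so
it is all of `F`; and `T[L]` is the `L`-span of `T`.
-/
import Mathlib
import Fermat.Prelude.Def_ModularCurve_ArithmeticGalois

set_option autoImplicit false
set_option linter.unusedVariables false
set_option linter.unusedSectionVars false

open AlgebraicCurve ModularCurve

noncomputable section

namespace Fermat.Agent.S19x.Geo.FixDataInertiaSpan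

variable (L : Type*) [Field L] [Algebra ℚ L]
variable (F₀ : IntermediateField ℚ (LaurentSeries ℚ))

/-- The embedding of the rational function field `F₀` into its base change. -/
def ratEmb : F₀ →+* laurentBaseChange L F₀ where
  toFun x := ⟨coeffEmb L (x : LaurentSeries ℚ), coeffEmb_mem_laurentBaseChange L x.2⟩
  map_one' := Subtype.ext (map_one (coeffEmb L))
  map_mul' x y := Subtype.ext (map_mul (coeffEmb L) _ _)
  map_zero' := Subtype.ext (map_zero (coeffEmb L))
  map_add' x y := Subtype.ext (map_add (coeffEmb L) _ _)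

@[simp]
theorem coe_ratEmb (x : F₀) :
    ((ratEmb L F₀ x : laurentBaseChange L F₀) : LaurentSeries L) =
      coeffEmb L (x : LaurentSeries ℚ) := rfl

variable {L F₀} in
/-- Rational functions are fixed by the arithmetic Galois action. -/
theorem arithmeticGalois_smul_ratEmb (σ : L ≃ₐ[ℚ] L) (x : F₀) :
    arithmeticGalois F₀ σ • ratEmb L F₀ x = ratEmb L F₀ x := by
  apply Subtype.ext
  rw [coe_arithmeticGalois_smul, coe_ratEmb, coeffMap_coeffEmb]

/-- The `L`-span of the rational functions. -/
def ratSpan : Submodule L (laurentBaseChange L F₀) :=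
  Submodule.span L (Set.range (ratEmb L F₀))

theorem ratEmb_mem_ratSpan (x : F₀) : ratEmb L F₀ x ∈ ratSpan L F₀ :=
  Submodule.subset_span ⟨x, rfl⟩

theorem one_mem_ratSpan : (1 : laurentBaseChange L F₀) ∈ ratSpan L F₀ := by
  have := ratEmb_mem_ratSpan L F₀ 1
  rwa [map_one] at this

theorem algebraMap_mem_ratSpan (c : L) :
    algebraMap L (laurentBaseChange L F₀) c ∈ ratSpan L F₀ := by
  rw [Algebra.algebraMap_eq_smul_one]
  exact (ratSpan L F₀).smul_mem c (one_mem_ratSpan L F₀)

theorem mul_mem_ratSpan {x y : laurentBaseChange L F₀} (hx : x ∈ ratSpan L F₀)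
    (hy : y ∈ ratSpan L F₀) : x * y ∈ ratSpan L F₀ := by
  induction hx using Submodule.span_induction with
  | mem x hx =>
    obtain ⟨a, rfl⟩ := hx
    induction hy using Submodule.span_induction with
    | mem y hy =>
      obtain ⟨b, rfl⟩ := hy
      rw [← map_mul]
      exact ratEmb_mem_ratSpan L F₀ _
    | zero => rw [mul_zero]; exact zero_mem _
    | add y z _ _ hy hz => rw [mul_add]; exact add_mem hy hz
    | smul c y _ hy => rw [mul_smul_comm]; exact Submodule.smul_mem _ c hy
  | zero => rw [zero_mul]; exact zero_mem _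
  | add x z _ _ hx hz => rw [add_mul]; exact add_mem hx hz
  | smul c x _ hx => rw [smul_mul_assoc]; exact Submodule.smul_mem _ c hx

section Algebraic

variable [Algebra.IsAlgebraic ℚ L]

/-- The `L`-span of the rational functions is closed under inverses: the constants are algebraic
over the field of rational functions. -/
theorem inv_mem_ratSpan {x : laurentBaseChange L F₀} (hx : x ∈ ratSpan L F₀) :
    x⁻¹ ∈ ratSpan L F₀ := by
  have : CharZero L := algebraRat.charZero L
  have : CharZero (laurentBaseChange L F₀) :=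
    charZero_of_injective_algebraMap (algebraMap L (laurentBaseChange L F₀)).injective
  let _ : Algebra ℚ (laurentBaseChange L F₀) := DivisionRing.toRatAlgebra
  -- the field of rational functions
  let T : IntermediateField ℚ (laurentBaseChange L F₀) := (ratEmb L F₀).toRatAlgHom.fieldRange
  have hT : ∀ y : laurentBaseChange L F₀, y ∈ T ↔ ∃ a : F₀, ratEmb L F₀ a = y := by
    intro y
    rw [AlgHom.mem_fieldRange]
    rfl
  -- `T[L]`
  let B : Subalgebra T (laurentBaseChange L F₀) :=
    Algebra.adjoin T (Set.range (algebraMap L (laurentBaseChange L F₀)))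
  have halg : ∀ y ∈ Set.range (algebraMap L (laurentBaseChange L F₀)), IsAlgebraic T y := by
    rintro _ ⟨c, rfl⟩
    have h1 : IsIntegral ℚ c := Algebra.IsIntegral.isIntegral c
    have h2 : IsIntegral ℚ ((algebraMap L (laurentBaseChange L F₀)).toRatAlgHom c) :=
      h1.map (algebraMap L (laurentBaseChange L F₀)).toRatAlgHom
    have h3 : IsIntegral T ((algebraMap L (laurentBaseChange L F₀)).toRatAlgHom c) :=
      h2.tower_top
    exact h3.isAlgebraic
  have hB : (IntermediateField.adjoin T
      (Set.range (algebraMap L (laurentBaseChange L F₀)))).toSubalgebra = B :=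
    IntermediateField.adjoin_toSubalgebra_of_isAlgebraic halg
  have hinv : ∀ y : laurentBaseChange L F₀, y ∈ B → y⁻¹ ∈ B := by
    intro y hy
    have h1 : y ∈ (IntermediateField.adjoin T
        (Set.range (algebraMap L (laurentBaseChange L F₀)))).toSubalgebra := by
      rw [hB]; exact hy
    have h2 : y⁻¹ ∈ (IntermediateField.adjoin T
        (Set.range (algebraMap L (laurentBaseChange L F₀)))).toSubalgebra :=
      (IntermediateField.adjoin T _).inv_mem h1
    rw [hB] at h2
    exact h2
  have h12 : ∀ y : laurentBaseChange L F₀, y ∈ ratSpan L F₀ → y ∈ B := by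
    intro y hy
    induction hy using Submodule.span_induction with
    | mem y hy =>
      obtain ⟨a, rfl⟩ := hy
      exact B.algebraMap_mem ⟨ratEmb L F₀ a, (hT _).mpr ⟨a, rfl⟩⟩
    | zero => exact zero_mem _
    | add y z _ _ hy hz => exact add_mem hy hz
    | smul c y _ hy =>
      rw [Algebra.smul_def]
      exact B.mul_mem (Algebra.subset_adjoin ⟨c, rfl⟩) hy
  have h21 : ∀ y : laurentBaseChange L F₀, y ∈ B → y ∈ ratSpan L F₀ := by
    intro y hy
    induction hy using Algebra.adjoin_induction with
    | mem y hy =>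
      obtain ⟨c, rfl⟩ := hy
      exact algebraMap_mem_ratSpan L F₀ c
    | algebraMap t =>
      obtain ⟨a, ha⟩ := (hT _).mp t.2
      show (t : laurentBaseChange L F₀) ∈ ratSpan L F₀
      rw [← ha]
      exact ratEmb_mem_ratSpan L F₀ a
    | add y z _ _ hy hz => exact add_mem hy hz
    | mul y z _ _ hy hz => exact mul_mem_ratSpan L F₀ hy hz
  exact h21 _ (hinv _ (h12 _ hx))

/-- **`F = L · F₀`.** The base-changed function field is spanned over `L` by the rational
functions. -/
theorem span_range_ratEmb : Submodule.span L (Set.range (ratEmb L F₀)) = ⊤ := by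
  have key : ∀ x : LaurentSeries L,
      x ∈ IntermediateField.adjoin L (⇑(coeffEmb L) '' (F₀ : Set (LaurentSeries ℚ))) →
      ∃ y : laurentBaseChange L F₀, y ∈ ratSpan L F₀ ∧ (y : LaurentSeries L) = x := by
    intro x hx
    induction hx using IntermediateField.adjoin_induction with
    | mem x hx =>
      obtain ⟨a, ha, rfl⟩ := hx
      exact ⟨ratEmb L F₀ ⟨a, ha⟩, ratEmb_mem_ratSpan L F₀ ⟨a, ha⟩, rfl⟩
    | algebraMap c =>
      exact ⟨algebraMap L (laurentBaseChange L F₀) c, algebraMap_mem_ratSpan L F₀ c, rfl⟩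
    | add x y _ _ hx hy =>
      obtain ⟨x', hx1, rfl⟩ := hx
      obtain ⟨y', hy1, rfl⟩ := hy
      exact ⟨x' + y', add_mem hx1 hy1, (laurentBaseChange L F₀).coe_add x' y'⟩
    | inv x _ hx =>
      obtain ⟨x', hx1, rfl⟩ := hx
      exact ⟨x'⁻¹, inv_mem_ratSpan L F₀ hx1,
        map_inv₀ (algebraMap (laurentBaseChange L F₀) (LaurentSeries L)) x'⟩
    | mul x y _ _ hx hy =>
      obtain ⟨x', hx1, rfl⟩ := hx
      obtain ⟨y', hy1, rfl⟩ := hy
      exact ⟨x' * y', mul_mem_ratSpan L F₀ hx1 hy1, (laurentBaseChange L F₀).coe_mul x' y'⟩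
  rw [eq_top_iff]
  rintro ⟨x, hx⟩ -
  obtain ⟨y, hy, hyx⟩ := key x hx
  have : y = ⟨x, hx⟩ := Subtype.ext hyx
  rw [← this]
  exact hy

variable {L F₀} in
/-- **`hF`.** For every set `S` of arithmetic Galois automorphisms, `F` is spanned over `L` by
the `S`-fixed functions. -/
theorem span_fixed_eq_top (S : Set (SemilinearAut L (laurentBaseChange L F₀)))
    (hS : ∀ s ∈ S, ∃ σ : L ≃ₐ[ℚ] L, s = arithmeticGalois F₀ σ) :
    Submodule.span L {f : laurentBaseChange L F₀ | ∀ s ∈ S, s • f = f} = ⊤ := by
  rw [eq_top_iff, ← span_range_ratEmb L F₀]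
  apply Submodule.span_mono
  rintro _ ⟨a, rfl⟩ s hs
  obtain ⟨σ, rfl⟩ := hS s hs
  exact arithmeticGalois_smul_ratEmb σ a

end Algebraic

end Fermat.Agent.S19x.Geo.FixDataInertiaSpan
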