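import Mathlib
import Fermat.Agent.Gateway.GoodRed.GaussAbstract

/-!
# P-S19, block A: the Gauss normalisation of a FIXED Laurent series has a FIXED constant

Abstract setting of `Gateway/GoodRed/GaussAbstract.lean`: `L` a field, `A` a valuation subring,
`π : A →+* k`, `x : A((q))` and a finite family `e i : A((q))` whose reductions are linearly
independent over `k[x̄]` (`IndepMod`).  Let `S` be a set of ring endomorphisms of `L` (for us: the
inertia group acting on `ℚ̄`) fixing the coefficients of `x` and of the `e i`.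

* `linearIndependent_of_indepMod` : the `e i` are linearly independent over `L[x]`;
* `exists_fixed_relation` (descent): if `f ∈ L((q))` has `S`-fixed coefficients and satisfies a
  relation `Q(x) f = ∑ P_i(x) e_i` with `Q ≠ 0`, it satisfies such a relation with `S`-fixed
  `Q, P_i` (take `Q` monic of minimal degree);
* `exists_fixed_const_mul_unit` : then `f = c * u` with `c ≠ 0` `S`-FIXED and `u` a unit of the Gauss
  ring with nonzero reduction.  (The constant of the Gauss normalisation is a quotient of a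
  coefficient of some `P_i` by a coefficient of `Q`.)

No valuation subring of the fixed field, no transport between fields of coefficients is needed.
-/

set_option autoImplicit false

noncomputable section

namespace Fermat.Agent.S19x.Geo.GaussFixed

open Polynomial ModularCurve Fermat.Agent.Gateway.Red Fermat.Agent.Gateway.GoodRed

variable {L : Type*} [Field L] (A : ValuationSubring L) {k : Type*} [Field k] (π : A →+* k)

/-! ### Content with a named constant -/

/-- `exists_content` of `GaussAbstract`, remembering that the constant is one of the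
coefficients. -/
theorem exists_content_coeff {ι' : Type*} [Fintype ι'] (P : ι' → L[X]) (hP : ∃ i, P i ≠ 0) :
    ∃ c : L, c ≠ 0 ∧ (∃ i n, c = (P i).coeff n) ∧ ∃ P' : ι' → A[X],
      (∀ i, (P' i).map A.subtype = C c⁻¹ * P i) ∧ ∃ i, (P' i).map π ≠ 0 := by
  classical
  let S : Finset (Σ _ : ι', ℕ) := Finset.univ.sigma fun i => (P i).support
  have hS : S.Nonempty := by
    obtain ⟨i, hi⟩ := hP
    obtain ⟨n, hn⟩ := Polynomial.nonempty_support_iff.mpr hi
    exact ⟨⟨i, n⟩, Finset.mem_sigma.mpr ⟨Finset.mem_univ _, hn⟩⟩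
  obtain ⟨s₀, hs₀, hmax⟩ := Finset.exists_max_image S
    (fun s => A.valuation ((P s.1).coeff s.2)) hS
  set c := (P s₀.1).coeff s₀.2 with hc
  have hc0 : c ≠ 0 := Polynomial.mem_support_iff.mp (Finset.mem_sigma.mp hs₀).2
  have hlift : ∀ i, ∃ p : A[X], p.map A.subtype = C c⁻¹ * P i := by
    intro i
    rw [← Polynomial.mem_lifts, Polynomial.lifts_iff_coeff_lifts]
    intro n
    rw [Polynomial.coeff_C_mul]
    by_cases h0 : (P i).coeff n = 0
    · rw [h0, mul_zero]; exact ⟨0, map_zero _⟩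
    · have hin : (⟨i, n⟩ : Σ _ : ι', ℕ) ∈ S :=
        Finset.mem_sigma.mpr ⟨Finset.mem_univ _, Polynomial.mem_support_iff.mpr h0⟩
      have hle := hmax _ hin
      have hmem : c⁻¹ * (P i).coeff n ∈ A := by
        rw [← A.valuation_le_one_iff, map_mul, map_inv₀]
        have hvc : A.valuation c ≠ 0 := (A.valuation.ne_zero_iff).mpr hc0
        rw [inv_mul_le_iff₀ (zero_lt_iff.mpr hvc), mul_one]
        exact hle
      exact ⟨⟨_, hmem⟩, rfl⟩
  choose P' hP' using hlift
  refine ⟨c, hc0, ⟨s₀.1, s₀.2, rfl⟩, P', hP', s₀.1, ?_⟩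
  intro h0
  have h1 : ((P' s₀.1).coeff s₀.2 : L) = 1 := by
    have := congrArg (fun p => Polynomial.coeff p s₀.2) (hP' s₀.1)
    simp only [Polynomial.coeff_map, Polynomial.coeff_C_mul] at this
    rw [← hc, inv_mul_cancel₀ hc0] at this
    exact this
  have h2 : (P' s₀.1).coeff s₀.2 = 1 := Subtype.ext h1
  have h3 := congrArg (fun p => Polynomial.coeff p s₀.2) h0
  simp only [Polynomial.coeff_map, Polynomial.coeff_zero] at h3
  rw [h2, map_one] at h3
  exact one_ne_zero h3

theorem exists_content_single_coeff (Q : L[X]) (hQ : Q ≠ 0) :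
    ∃ c : L, c ≠ 0 ∧ (∃ n, c = Q.coeff n) ∧
      ∃ Q' : A[X], Q'.map A.subtype = C c⁻¹ * Q ∧ Q'.map π ≠ 0 := by
  obtain ⟨c, hc, ⟨_, n, hn⟩, P', hP', ⟨_, hi⟩⟩ :=
    exists_content_coeff A π (fun _ : Unit => Q) ⟨(), hQ⟩
  exact ⟨c, hc, ⟨n, hn⟩, P' (), hP' (), hi⟩

variable {ι : Type*} [Fintype ι] {x : LaurentSeries A} {e : ι → LaurentSeries A}
variable {A π}

/-! ### Independence over `L[x]` -/

/-- the `e i` are linearly independent over `L[x]` (from the independence modulo `π`). -/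
theorem eq_zero_of_sum_eq_zero (h : IndepMod A π x e) {P : ι → L[X]}
    (h0 : ∑ i, pev (embA A x) (P i) * embA A (e i) = 0) : ∀ i, P i = 0 := by
  by_contra hcon
  push Not at hcon
  obtain ⟨c, hc, P', hP', hPπ⟩ := exists_content A π P hcon
  have e2 : embA A (∑ i, pev x (P' i) * e i)
      = HahnSeries.C c⁻¹ * ∑ i, pev (embA A x) (P i) * embA A (e i) := by
    rw [map_sum, Finset.mul_sum]
    refine Finset.sum_congr rfl fun i _ => ?_
    rw [map_mul, embA_pev, hP', pev_mul, pev_C, mul_assoc]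
  rw [h0, mul_zero, embA_eq_zero_iff] at e2
  exact h.redA_sum_ne_zero hPπ (by rw [e2, map_zero])

/-! ### The relation predicate -/

/-- `Q(x) f = ∑ P_i(x) e_i`. -/
def Rel (x : LaurentSeries A) (e : ι → LaurentSeries A) (f : LaurentSeries L) (Q : L[X])
    (P : ι → L[X]) : Prop :=
  pev (embA A x) Q * f = ∑ i, pev (embA A x) (P i) * embA A (e i)

theorem Rel.smul {f : LaurentSeries L} {Q : L[X]} {P : ι → L[X]} (h : Rel x e f Q P) (c : L) :
    Rel x e f (C c * Q) (fun i => C c * P i) := by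
  unfold Rel at h ⊢
  rw [pev_mul, mul_assoc, h, Finset.mul_sum]
  refine Finset.sum_congr rfl fun i _ => ?_
  rw [pev_mul, mul_assoc]

theorem Rel.sub {f : LaurentSeries L} {Q Q' : L[X]} {P P' : ι → L[X]} (h : Rel x e f Q P)
    (h' : Rel x e f Q' P') : Rel x e f (Q - Q') (fun i => P i - P' i) := by
  unfold Rel at h h' ⊢
  rw [sub_eq_add_neg, pev_add, pev_neg, add_mul, neg_mul, h, h', ← sub_eq_add_neg,
    ← Finset.sum_sub_distrib]
  refine Finset.sum_congr rfl fun i _ => ?_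
  show _ = pev (embA A x) (P i - P' i) * embA A (e i)
  rw [sub_eq_add_neg (P i), pev_add, pev_neg]
  ring

/-- transport of a relation by a ring endomorphism of `L` fixing `x`, the `e i` and `f`. -/
theorem Rel.map {f : LaurentSeries L} {Q : L[X]} {P : ι → L[X]} (h : Rel x e f Q P)
    (σ : L →+* L) (hx : coeffMap σ (embA A x) = embA A x)
    (he : ∀ i, coeffMap σ (embA A (e i)) = embA A (e i)) (hf : coeffMap σ f = f) :
    Rel x e f (Q.map σ) (fun i => (P i).map σ) := by
  unfold Rel at h ⊢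
  have h1 := congrArg (coeffMap σ) h
  rw [map_mul, map_sum, coeffMap_pev, hx, hf] at h1
  rw [h1]
  refine Finset.sum_congr rfl fun i _ => ?_
  rw [map_mul, coeffMap_pev, hx, he]

/-! ### Descent of the relation -/

/-- **Descent.**  If `x`, the `e i` and `f` have `S`-fixed coefficients and `f` satisfies a
relation `Q(x) f = ∑ P_i(x) e_i`, `Q ≠ 0`, then it satisfies one with `S`-fixed `Q ≠ 0`, `P_i`. -/
theorem exists_fixed_relation (h : IndepMod A π x e) (S : Set (L →+* L))
    (hx : ∀ σ ∈ S, coeffMap σ (embA A x) = embA A x)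
    (he : ∀ σ ∈ S, ∀ i, coeffMap σ (embA A (e i)) = embA A (e i))
    {f : LaurentSeries L} (hf : ∀ σ ∈ S, coeffMap σ f = f)
    {Q : L[X]} (hQ : Q ≠ 0) {P : ι → L[X]} (hrel : Rel x e f Q P) :
    ∃ (Q' : L[X]) (P' : ι → L[X]), Q' ≠ 0 ∧ Rel x e f Q' P' ∧
      (∀ σ ∈ S, Q'.map σ = Q') ∧ ∀ σ ∈ S, ∀ i, (P' i).map σ = P' i := by
  classical
  -- the degrees of monic relations
  let D : ℕ → Prop := fun d => ∃ (Q' : L[X]) (P' : ι → L[X]),
    Q'.Monic ∧ Q'.natDegree = d ∧ Rel x e f Q' P'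
  have hmonic : ∀ {Q' : L[X]} {P' : ι → L[X]}, Q' ≠ 0 → Rel x e f Q' P' →
      D Q'.natDegree := by
    intro Q' P' hQ' hrel'
    have hlc : Q'.leadingCoeff ≠ 0 := Polynomial.leadingCoeff_ne_zero.mpr hQ'
    refine ⟨C Q'.leadingCoeff⁻¹ * Q', fun i => C Q'.leadingCoeff⁻¹ * P' i, ?_, ?_,
      hrel'.smul _⟩
    · rw [mul_comm]
      exact Polynomial.monic_mul_leadingCoeff_inv hQ'
    · rw [Polynomial.natDegree_C_mul (inv_ne_zero hlc)]
  have hD : ∃ d, D d := ⟨_, hmonic hQ hrel⟩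
  obtain ⟨Q', P', hQ'm, hQ'd, hrel'⟩ := Nat.find_spec hD
  have hmin : ∀ d, D d → Nat.find hD ≤ d := fun d hd => Nat.find_min' hD hd
  have hQfix : ∀ σ ∈ S, Q'.map σ = Q' := by
    intro σ hσ
    by_contra hne
    have hrelσ := hrel'.map σ (hx σ hσ) (fun i => he σ hσ i) (hf σ hσ)
    have hsub := hrelσ.sub hrel'
    have hne' : Q'.map σ - Q' ≠ 0 := sub_ne_zero.mpr hne
    have hmσ : (Q'.map σ).Monic := hQ'm.map σ
    have hdeg : (Q'.map σ - Q').natDegree < Q'.natDegree := by
      have hdσ : (Q'.map σ).natDegree = Q'.natDegree := hQ'm.natDegree_map σ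
      have hlt : (Q'.map σ - Q').degree < (Q'.map σ).degree := by
        apply Polynomial.degree_sub_lt_left
        · rw [Polynomial.degree_eq_natDegree hmσ.ne_zero, Polynomial.degree_eq_natDegree hQ'm.ne_zero,
            hdσ]
        · exact hmσ.ne_zero
        · rw [hmσ.leadingCoeff, hQ'm.leadingCoeff]
      rw [← hdσ]
      exact (Polynomial.natDegree_lt_natDegree_iff hne').mpr hlt
    have := hmin _ (hmonic hne' hsub)
    omega
  refine ⟨Q', P', hQ'm.ne_zero, hrel', hQfix, ?_⟩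
  intro σ hσ i
  have hrelσ := hrel'.map σ (hx σ hσ) (fun i => he σ hσ i) (hf σ hσ)
  have hsub := hrelσ.sub hrel'
  unfold Rel at hsub
  rw [hQfix σ hσ, sub_self, pev_zero, zero_mul] at hsub
  have := eq_zero_of_sum_eq_zero h hsub.symm i
  exact sub_eq_zero.mp this

/-! ### The fixed Gauss normalisation -/

/-- normal form with named constants: `c = cp / cq`, `cp` a coefficient of some `P i`, `cq` a
coefficient of `Q`. -/
theorem exists_normal_form_coeff [Nonempty ι] (h : IndepMod A π x e) {f : LaurentSeries L}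
    (hf : f ≠ 0) {Q : L[X]} (hQ : Q ≠ 0) {P : ι → L[X]} (hrel : Rel x e f Q P) :
    ∃ (cp cq : L) (P' : ι → A[X]) (Q' : A[X]), cp ≠ 0 ∧ cq ≠ 0 ∧ (∃ i n, cp = (P i).coeff n) ∧
      (∃ n, cq = Q.coeff n) ∧ (∃ i, (P' i).map π ≠ 0) ∧ Q'.map π ≠ 0 ∧
      f * embA A (pev x Q') = HahnSeries.C (cp / cq) * embA A (∑ i, pev x (P' i) * e i) := by
  have hP : ∃ i, P i ≠ 0 := by
    by_contra hcon
    push Not at hcon
    have h0 : pev (embA A x) Q * f = 0 := by
      rw [hrel]
      refine Finset.sum_eq_zero fun i _ => ?_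
      rw [hcon i, pev_zero, zero_mul]
    rcases mul_eq_zero.mp h0 with h1 | h1
    · exact h.pev_embA_ne_zero hQ h1
    · exact hf h1
  obtain ⟨cp, hcp, hcp', P', hP', hPπ⟩ := exists_content_coeff A π P hP
  obtain ⟨cq, hcq, hcq', Q', hQ', hQπ⟩ := exists_content_single_coeff A π Q hQ
  refine ⟨cp, cq, P', Q', hcp, hcq, hcp', hcq', hPπ, hQπ, ?_⟩
  have e1 : embA A (pev x Q') = HahnSeries.C cq⁻¹ * pev (embA A x) Q := by
    rw [embA_pev, hQ', pev_mul, pev_C]
  have e2 : embA A (∑ i, pev x (P' i) * e i)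
      = HahnSeries.C cp⁻¹ * ∑ i, pev (embA A x) (P i) * embA A (e i) := by
    rw [map_sum, Finset.mul_sum]
    refine Finset.sum_congr rfl fun i _ => ?_
    rw [map_mul, embA_pev, hP', pev_mul, pev_C, mul_assoc]
  have hcc : cp / cq * cp⁻¹ = cq⁻¹ := by field_simp
  rw [e1, e2, ← hrel, ← mul_assoc (HahnSeries.C (cp / cq)), ← map_mul, hcc]
  ring

/-- Gauss normalisation with a named constant. -/
theorem exists_const_mul_unit_coeff [Nonempty ι] (h : IndepMod A π x e) {f : LaurentSeries L}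
    (hf : f ≠ 0) {Q : L[X]} (hQ : Q ≠ 0) {P : ι → L[X]} (hrel : Rel x e f Q P) :
    ∃ (cp cq : L) (u : gaussRing A π), cp ≠ 0 ∧ cq ≠ 0 ∧ (∃ i n, cp = (P i).coeff n) ∧
      (∃ n, cq = Q.coeff n) ∧ gaussRed A π u ≠ 0 ∧
      f = HahnSeries.C (cp / cq) * (u : LaurentSeries L) := by
  obtain ⟨cp, cq, P', Q', hcp, hcq, hcp', hcq', hPπ, hQπ, hnf⟩ :=
    exists_normal_form_coeff h hf hQ hrel
  have hd : redA A π (pev x Q') ≠ 0 := h.redA_pev_ne_zero hQπ
  have hn : redA A π (∑ i, pev x (P' i) * e i) ≠ 0 := h.redA_sum_ne_zero hPπ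
  have hd0 : embA A (pev x Q') ≠ 0 := by
    intro h0
    rw [embA_eq_zero_iff] at h0
    exact hd (by rw [h0, map_zero])
  obtain ⟨u₀, hu₀⟩ : ∃ u₀ : LaurentSeries L,
      u₀ = embA A (∑ i, pev x (P' i) * e i) / embA A (pev x Q') := ⟨_, rfl⟩
  have hmul : u₀ * embA A (pev x Q') = embA A (∑ i, pev x (P' i) * e i) := by
    rw [hu₀, div_mul_cancel₀ _ hd0]
  have hu₀mem : u₀ ∈ gaussRing A π := ⟨∑ i, pev x (P' i) * e i, pev x Q', hd, hmul⟩
  refine ⟨cp, cq, ⟨u₀, hu₀mem⟩, hcp, hcq, hcp', hcq', ?_, ?_⟩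
  · rw [gaussRed_eq_div A π ⟨u₀, hu₀mem⟩ hd hmul]
    exact div_ne_zero hn hd
  · show f = HahnSeries.C (cp / cq) * u₀
    rw [hu₀, mul_div_assoc', ← hnf, mul_div_assoc, div_self hd0, mul_one]

/-- **Fixed Gauss normalisation.**  A nonzero `f ∈ L((q))` with `S`-fixed coefficients which
satisfies a relation `Q(x) f = ∑ P_i(x) e_i` (`Q ≠ 0`; `x`, `e i` with `S`-fixed coefficients) is
`c * u` with `c ≠ 0` fixed by `S` and `u` in the Gauss ring with nonzero reduction. -/
theorem exists_fixed_const_mul_unit [Nonempty ι] (h : IndepMod A π x e) (S : Set (L →+* L))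
    (hx : ∀ σ ∈ S, coeffMap σ (embA A x) = embA A x)
    (he : ∀ σ ∈ S, ∀ i, coeffMap σ (embA A (e i)) = embA A (e i))
    {f : LaurentSeries L} (hf0 : f ≠ 0) (hf : ∀ σ ∈ S, coeffMap σ f = f)
    {Q : L[X]} (hQ : Q ≠ 0) {P : ι → L[X]}
    (hrel : pev (embA A x) Q * f = ∑ i, pev (embA A x) (P i) * embA A (e i)) :
    ∃ (c : L) (u : gaussRing A π), c ≠ 0 ∧ (∀ σ ∈ S, σ c = c) ∧ gaussRed A π u ≠ 0 ∧
      f = HahnSeries.C c * (u : LaurentSeries L) := by
  obtain ⟨Q', P', hQ', hrel', hQfix, hPfix⟩ := exists_fixed_relation h S hx he hf hQ hrel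
  obtain ⟨cp, cq, u, hcp, hcq, ⟨i, n, hcp'⟩, ⟨m, hcq'⟩, hu, hfu⟩ :=
    exists_const_mul_unit_coeff h hf0 hQ' hrel'
  refine ⟨cp / cq, u, div_ne_zero hcp hcq, ?_, hu, hfu⟩
  intro σ hσ
  have h1 : σ cp = cp := by
    have := congrArg (fun p => Polynomial.coeff p n) (hPfix σ hσ i)
    simp only [Polynomial.coeff_map] at this
    rw [hcp']
    exact this
  have h2 : σ cq = cq := by
    have := congrArg (fun p => Polynomial.coeff p m) (hQfix σ hσ)
    simp only [Polynomial.coeff_map] at this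
    rw [hcq']
    exact this
  rw [map_div₀, h1, h2]

end Fermat.Agent.S19x.Geo.GaussFixed
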