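import Mathlib
import Fermat.Agent.S19x.Geo.GaussFixed
import Fermat.Agent.Gateway.GoodRed.GaussBar
import Fermat.Prelude.Def_ModularCurve_ArithmeticGalois

/-!
# P-S19, block A: `scal_fixed` — the Gauss valuation is unramified on Galois-fixed functions

Setting of `Gateway/GoodRed/GaussBar.lean`: `L` a field of characteristic zero, `A` a valuation
subring, `π : A →+* k` onto an algebraically closed field of characteristic `ℓ ∤ N`,
`F = FBar L N = laurentBaseChange L (modularFunctionFieldFull N)`, `O = OvVal A π N ℓ hπ hℓN`.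

Let `S` be ANY set of `ℚ`-automorphisms of `L` (for us: the inertia group of a place of `ℚ̄` over
`ℓ`), acting on `F` coefficientwise (`arithmeticGalois`).

* `exists_fixed_const_mul_unit_FBar` : a nonzero `f ∈ F` with `S`-fixed `q`-expansion is `c * u`,
  `c ∈ Lˣ` FIXED by `S`, `u` a Gauss unit;
* `scal_fixed` : hence `O.valuation (c • f) = 1` for some nonzero `S`-fixed `c` — the field
  `scal_fixed` of `Geo/LatticeFixed.FixData` (note `S19-IFACE-A-L2b`);
* `scal_fixed_semilinear` : the same, phrased with the set `arithmeticGalois '' S` of semilinear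
  automorphisms and `SemilinearAut.baseAut`.

Proof: `GaussFixed.exists_fixed_const_mul_unit` (descent of the relation
`Q(j) f = ∑ P_μ(j) e_μ` to `S`-fixed coefficients by taking `Q` monic of minimal degree; the
Gauss constant is a quotient of a coefficient of some `P_μ` by a coefficient of `Q`).
-/

set_option autoImplicit false
set_option linter.unusedSectionVars false
set_option linter.style.haveILetI false

noncomputable section

namespace Fermat.Agent.S19x.Geo.ScalFixed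

open Polynomial ModularCurve AlgebraicCurve Fermat.Agent.S28 Fermat.Agent.S28.Tower
  Fermat.Agent.Gateway.Red Fermat.Agent.Gateway.GoodRed Fermat.Agent.S19x.Geo.GaussFixed

variable {L : Type*} [Field L] [Algebra ℚ L] (A : ValuationSubring L)
  {k : Type} [Field k] (π : A →+* k)
  [IsAlgClosed k] (ℓ : ℕ) [Fact ℓ.Prime] [CharP k ℓ] {N : ℕ} [NeZero N]

/-- **Fixed Gauss normalisation in the modular function field.** -/
theorem exists_fixed_const_mul_unit_FBar (hℓN : ¬ ℓ ∣ N) (S : Set (L ≃ₐ[ℚ] L))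
    {f : LaurentSeries L} (hf : f ∈ FBar L N) (hf0 : f ≠ 0)
    (hfix : ∀ σ ∈ S, coeffMap ((σ : L ≃ₐ[ℚ] L) : L →+* L) f = f) :
    ∃ (c : L) (u : gaussRing A π), c ≠ 0 ∧ (∀ σ ∈ S, σ c = c) ∧
      (u : LaurentSeries L) ∈ FBar L N ∧ gaussRed A π u ≠ 0 ∧
      f = HahnSeries.C c * (u : LaurentSeries L) := by
  obtain ⟨Q, hQ, P, hrel⟩ := baseChange_span_poly L N hf
  have hrel' : pev (embA A (jqModC A)) Q * f
      = ∑ μ : box N, pev (embA A (jqModC A)) (P μ) * embA A (ev A (μ : ℕ →₀ ℕ)) := by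
    rw [embA_jqModC, ← aeval_eq_pev_field, hrel]
    refine Finset.sum_congr rfl fun μ _ => ?_
    rw [embA_ev, aeval_eq_pev_field]
  let S' : Set (L →+* L) := (fun σ : L ≃ₐ[ℚ] L => (σ : L →+* L)) '' S
  have hx : ∀ σ ∈ S', coeffMap σ (embA A (jqModC A)) = embA A (jqModC A) := by
    rintro _ ⟨σ, -, rfl⟩
    rw [embA_jqModC, coeffMap_jqModC]
  have he : ∀ σ ∈ S', ∀ μ : box N,
      coeffMap σ (embA A (ev A (μ : ℕ →₀ ℕ))) = embA A (ev A (μ : ℕ →₀ ℕ)) := by
    rintro _ ⟨σ, -, rfl⟩ μ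
    rw [embA_ev, coeffMap_ev]
  have hf' : ∀ σ ∈ S', coeffMap σ f = f := by
    rintro _ ⟨σ, hσ, rfl⟩
    exact hfix σ hσ
  obtain ⟨c, u, hc, hcfix, hu0, hfu⟩ :=
    exists_fixed_const_mul_unit (indepMod_box A π ℓ hℓN) S' hx he hf0 hf' hQ hrel'
  refine ⟨c, u, hc, fun σ hσ => hcfix _ ⟨σ, hσ, rfl⟩, ?_, hu0, hfu⟩
  have hCc : (HahnSeries.C c : LaurentSeries L) ≠ 0 := by
    rw [Ne, map_eq_zero_iff _ HahnSeries.C_injective]
    exact hc
  have : (u : LaurentSeries L) = (HahnSeries.C c)⁻¹ * f := by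
    rw [hfu, ← mul_assoc, inv_mul_cancel₀ hCc, one_mul]
  rw [this]
  exact mul_mem (inv_mem (hahnC_mem_FBar N c)) hf

variable (N)

/-- **`scal_fixed`.**  A nonzero `f ∈ F` fixed by a set `S` of Galois automorphisms (acting
coefficientwise on `q`-expansions) can be scaled by a nonzero `S`-FIXED constant to an element of
Gauss valuation `1`. -/
theorem scal_fixed (hπ : Function.Surjective π) (hℓN : ¬ ℓ ∣ N) (S : Set (L ≃ₐ[ℚ] L))
    (f : FBar L N) (hf : f ≠ 0)
    (hfix : ∀ σ ∈ S, arithmeticGalois (modularFunctionFieldFull N) σ • f = f) :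
    ∃ c : L, c ≠ 0 ∧ (∀ σ ∈ S, σ c = c) ∧ (OvVal A π N ℓ hπ hℓN).valuation (c • f) = 1 := by
  have hf0 : (f : LaurentSeries L) ≠ 0 := fun h => hf (Subtype.ext h)
  have hfix' : ∀ σ ∈ S, coeffMap ((σ : L ≃ₐ[ℚ] L) : L →+* L) (f : LaurentSeries L)
      = (f : LaurentSeries L) := by
    intro σ hσ
    have := congrArg (fun x : FBar L N => (x : LaurentSeries L)) (hfix σ hσ)
    exact this
  obtain ⟨c, u, hc, hcfix, huF, hu0, hfu⟩ :=
    exists_fixed_const_mul_unit_FBar A π ℓ hℓN S f.2 hf0 hfix'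
  refine ⟨c⁻¹, inv_ne_zero hc, fun σ hσ => by rw [map_inv₀, hcfix σ hσ], ?_⟩
  -- `c⁻¹ • f = u`, a unit of the Gauss ring
  set uF : FBar L N := ⟨(u : LaurentSeries L), huF⟩ with huFdef
  have huOv : uF ∈ Ov A π (FBar L N) := u.2
  have hcu : c⁻¹ • f = uF := by
    apply Subtype.ext
    have h1 : ((c⁻¹ • f : FBar L N) : LaurentSeries L)
        = ((algebraMap L (FBar L N) c⁻¹ : FBar L N) : LaurentSeries L) * (f : LaurentSeries L) := by
      rw [Algebra.smul_def]
      rfl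
    rw [h1, coe_algebraMap_FBar, hfu, ← mul_assoc, ← map_mul, inv_mul_cancel₀ hc, map_one, one_mul]
  have hred : redV A π (FBar L N) ⟨uF, huOv⟩ ≠ 0 := hu0
  have hinv : uF⁻¹ ∈ Ov A π (FBar L N) := inv_mem_Ov A π (FBar L N) huOv hred
  rw [hcu]
  have h1 : (OvVal A π N ℓ hπ hℓN).valuation uF ≤ 1 :=
    ((OvVal A π N ℓ hπ hℓN).valuation_le_one_iff uF).mpr huOv
  have h2 : (OvVal A π N ℓ hπ hℓN).valuation uF⁻¹ ≤ 1 :=
    ((OvVal A π N ℓ hπ hℓN).valuation_le_one_iff uF⁻¹).mpr hinv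
  have hu0' : uF ≠ 0 := by
    intro h
    apply hred
    have : (⟨uF, huOv⟩ : Ov A π (FBar L N)) = 0 := Subtype.ext h
    rw [this, map_zero]
  have hv0 : (OvVal A π N ℓ hπ hℓN).valuation uF ≠ 0 :=
    ((OvVal A π N ℓ hπ hℓN).valuation.ne_zero_iff).mpr hu0'
  rw [map_inv₀, inv_le_one₀ (zero_lt_iff.mpr hv0)] at h2
  exact le_antisymm h1 h2

/-- `scal_fixed` phrased with semilinear automorphisms: the set `arithmeticGalois '' S` and
`SemilinearAut.baseAut` (shape of `Geo/LatticeFixed.FixData.scal_fixed`). -/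
theorem scal_fixed_semilinear (hπ : Function.Surjective π) (hℓN : ¬ ℓ ∣ N)
    (S : Set (L ≃ₐ[ℚ] L)) (f : FBar L N) (hf : f ≠ 0)
    (hfix : ∀ s ∈ (arithmeticGalois (L := L) (modularFunctionFieldFull N)) '' S, s • f = f) :
    ∃ c : L, c ≠ 0 ∧
      (∀ s ∈ (arithmeticGalois (L := L) (modularFunctionFieldFull N)) '' S,
        SemilinearAut.baseAut s c = c) ∧
      (OvVal A π N ℓ hπ hℓN).valuation (c • f) = 1 := by
  obtain ⟨c, hc, hcfix, hval⟩ := scal_fixed A π ℓ N hπ hℓN S f hf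
    (fun σ hσ => hfix _ ⟨σ, hσ, rfl⟩)
  refine ⟨c, hc, ?_, hval⟩
  rintro _ ⟨σ, hσ, rfl⟩
  rw [baseAut_arithmeticGalois]
  exact hcfix σ hσ

end Fermat.Agent.S19x.Geo.ScalFixed
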