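/-
P-S19 block A, L1 support (helper3): the last two conjuncts of `AMainTargets.L1Target` at the
modular function field, for `S` = the image of the inertia group of `P` under `arithmeticGalois`.

* `fixData_modular` : `LatticeFixed.FixData R S` for EVERY reduction set-up `R` over the Gauss
  valuation ring `OvVal P π M ℓ` (`residue_surj`, `unif` from `Geo/FixDataInertiaB`
  = `Hens/InertiaResidue`; `scal_fixed` from `Geo/ScalFixed`).
* `span_fixed_modular` : `F = ℚ̄ · F^S` (`Geo/FixDataInertiaSpan`).
* `fixData_modular_of_eq`, `span_fixed_modular_of_eq` : the same for any set `S'` given with a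
  proof `S' = arithmeticGalois '' I` (e.g. the coercion of `Subgroup.map`).
-/
import Mathlib
import Fermat.Agent.S19x.Geo.FixDataInertiaB
import Fermat.Agent.S19x.Geo.FixDataInertiaSpan
import Fermat.Agent.S19x.Geo.ScalFixed

set_option autoImplicit false
set_option linter.unusedSectionVars false

namespace Fermat.Agent.S19x.Geo.FixDataModular

open AlgebraicCurve ModularCurve IsLocalRing
open Fermat.Agent.Gateway.C0 Fermat.Agent.Gateway.GoodRed Fermat.Agent.S19x.Geo.LatticeFixed

local notation "Qbar" => AlgebraicClosure ℚ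

variable (P : ValuationSubring Qbar) {k₀ : Type} [Field k₀] (π : P →+* k₀) [IsAlgClosed k₀]
  (ℓ : ℕ) [Fact ℓ.Prime] [CharP k₀ ℓ] {M : ℕ} [NeZero M]
  (hπ : Function.Surjective π) (hℓM : ¬ ℓ ∣ M)

/-- The set of semilinear automorphisms of the modular function field induced by the inertia group
of `P`. -/
def inertiaSet : Set (SemilinearAut Qbar (FBar Qbar M)) :=
  arithmeticGalois (L := Qbar) (modularFunctionFieldFull M) ''
    (P.inertiaSubgroupIn ℚ : Set (Qbar ≃ₐ[ℚ] Qbar))

theorem mem_inertiaSet {s : SemilinearAut Qbar (FBar Qbar M)} :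
    s ∈ inertiaSet P (M := M) ↔
      ∃ σ ∈ P.inertiaSubgroupIn ℚ, arithmeticGalois (modularFunctionFieldFull M) σ = s :=
  Iff.rfl

theorem arithmeticGalois_mem_inertiaSet {σ : Qbar ≃ₐ[ℚ] Qbar} (hσ : σ ∈ P.inertiaSubgroupIn ℚ) :
    arithmeticGalois (modularFunctionFieldFull M) σ ∈ inertiaSet P (M := M) :=
  ⟨σ, hσ, rfl⟩

/-- **`FixData` for inertia at the modular function field**, for every reduction set-up over the
Gauss valuation ring. -/
theorem fixData_modular (hP : P.LiesOverPrime ℓ) {k κ : Type*} [Field k] [Field κ] [Algebra k κ]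
    (R : RedSetup P (OvVal P π M ℓ hπ hℓM) k κ) : FixData R (inertiaSet P (M := M)) :=
  FixDataInertiaB.fixData_arithmeticGalois (modularFunctionFieldFull M) R Fact.out hP
    (fun f hf hfix =>
      ScalFixed.scal_fixed_semilinear P π ℓ M hπ hℓM
        (P.inertiaSubgroupIn ℚ : Set (Qbar ≃ₐ[ℚ] Qbar)) f hf hfix)

/-- **`hF` for inertia at the modular function field.** -/
theorem span_fixed_modular :
    Submodule.span Qbar {f : FBar Qbar M | IsFixed (inertiaSet P (M := M)) f} = ⊤ := by
  have : Algebra.IsAlgebraic ℚ Qbar := AlgebraicClosure.isAlgebraic ℚ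
  refine FixDataInertiaSpan.span_fixed_eq_top (inertiaSet P (M := M)) ?_
  rintro _ ⟨σ, -, rfl⟩
  exact ⟨σ, rfl⟩

/-- `FixData` for a set given with a proof that it is the image of inertia. -/
theorem fixData_modular_of_eq (hP : P.LiesOverPrime ℓ) {k κ : Type*} [Field k] [Field κ]
    [Algebra k κ] (R : RedSetup P (OvVal P π M ℓ hπ hℓM) k κ)
    {S' : Set (SemilinearAut Qbar (FBar Qbar M))} (hS' : S' = inertiaSet P (M := M)) :
    FixData R S' :=
  hS' ▸ fixData_modular P π ℓ hπ hℓM hP R

theorem span_fixed_modular_of_eq {S' : Set (SemilinearAut Qbar (FBar Qbar M))}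
    (hS' : S' = inertiaSet P (M := M)) :
    Submodule.span Qbar {f : FBar Qbar M | IsFixed S' f} = ⊤ :=
  hS' ▸ span_fixed_modular P

/-- The coercion of `Subgroup.map` is the image. -/
theorem coe_map_inertia :
    (((P.inertiaSubgroupIn ℚ).map
      (arithmeticGalois (L := Qbar) (modularFunctionFieldFull M)) :
        Subgroup (SemilinearAut Qbar (FBar Qbar M))) : Set (SemilinearAut Qbar (FBar Qbar M))) =
      inertiaSet P (M := M) :=
  rfl

end Fermat.Agent.S19x.Geo.FixDataModular
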