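/-
P-S19, block A: the descent hypotheses of `Geo/AMainTargets.L1Target` at a modular level
(owner: helper42).  ONE application each:

`P` a valuation subring of `Qbar` over `ℓ`, `π : P →+* k` onto an algebraically closed field of
characteristic `ℓ ∤ N`, `O = OvVal P π N ℓ hπ hℓN` the Gauss valuation subring of `FBar Qbar N`,
`R` ANY `C0.RedSetup P O k κ`, `S = arithmeticGalois '' inertia`.  Then
* `fixData_inertia` : `LatticeFixed.FixData R S`   (helper3's `FixDataInertiaB` + helper6's
  `ScalFixed`);
* `span_isFixed_inertia` : `F` is spanned over `Qbar` by its `S`-fixed elements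
  (`FixDataInertiaSpan`);
* the same two for a subgroup `T` of semilinear automorphisms with
  `(T : Set _) = arithmeticGalois '' inertia` (the shape `I.S` of `Setting.InertiaData`), and for
  `T = (inertia).map arithmeticGalois`.
-/
import Mathlib
import Fermat.Agent.S19x.Geo.FixDataInertiaB
import Fermat.Agent.S19x.Geo.FixDataInertiaSpan
import Fermat.Agent.S19x.Geo.ScalFixed

set_option autoImplicit false
set_option linter.unusedVariables false
set_option linter.unusedSectionVars false

noncomputable section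

namespace Fermat.Agent.S19x.Geo.FixDataPlug

open AlgebraicCurve ModularCurve
open Fermat.Agent.Gateway.C0 Fermat.Agent.Gateway.GoodRed Fermat.Agent.S19x.Geo.LatticeFixed

local notation "Qbar" => AlgebraicClosure ℚ

variable (P : ValuationSubring Qbar) {k : Type} [Field k] (π : P →+* k) [IsAlgClosed k]
  (ℓ : ℕ) [Fact ℓ.Prime] [CharP k ℓ] {N : ℕ} [NeZero N]
  (hπ : Function.Surjective π) (hℓN : ¬ ℓ ∣ N)
  {κ : Type*} [Field κ] [Algebra k κ]

/-- The set of semilinear automorphisms of `FBar Qbar N` coming from the inertia group of `P`. -/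
def inertiaSet : Set (SemilinearAut Qbar (FBar Qbar N)) :=
  arithmeticGalois (L := Qbar) (modularFunctionFieldFull N) ''
    (P.inertiaSubgroupIn ℚ : Set (Qbar ≃ₐ[ℚ] Qbar))

/-- **`FixData` for the inertia group at a modular level.** -/
theorem fixData_inertia (hP : P.LiesOverPrime ℓ) (R : RedSetup P (OvVal P π N ℓ hπ hℓN) k κ) :
    FixData R (inertiaSet P (N := N)) :=
  FixDataInertiaB.fixData_arithmeticGalois (modularFunctionFieldFull N) R
    (Fact.out : ℓ.Prime) hP
    (fun f hf hfix => ScalFixed.scal_fixed_semilinear P π ℓ N hπ hℓN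
      (P.inertiaSubgroupIn ℚ : Set (Qbar ≃ₐ[ℚ] Qbar)) f hf hfix)

/-- **`F` is spanned by its inertia-fixed elements.** -/
theorem span_isFixed_inertia :
    Submodule.span Qbar {f : FBar Qbar N | IsFixed (inertiaSet P (N := N)) f} = ⊤ := by
  have : Algebra.IsAlgebraic ℚ Qbar := AlgebraicClosure.isAlgebraic ℚ
  refine FixDataInertiaSpan.span_fixed_eq_top (L := Qbar)
    (F₀ := modularFunctionFieldFull N) (inertiaSet P (N := N)) ?_
  rintro _ ⟨σ, -, rfl⟩
  exact ⟨σ, rfl⟩

/-- The two descent hypotheses for a subgroup `T` whose underlying set is the image of inertia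
(the shape `I.S` of `Setting.InertiaData`). -/
theorem fixData_and_span_of_coe_eq (hP : P.LiesOverPrime ℓ)
    (R : RedSetup P (OvVal P π N ℓ hπ hℓN) k κ)
    (T : Subgroup (SemilinearAut Qbar (FBar Qbar N)))
    (hT : (T : Set (SemilinearAut Qbar (FBar Qbar N))) = inertiaSet P (N := N)) :
    FixData R (T : Set (SemilinearAut Qbar (FBar Qbar N))) ∧
      Submodule.span Qbar {f : FBar Qbar N |
        IsFixed (T : Set (SemilinearAut Qbar (FBar Qbar N))) f} = ⊤ := by
  rw [hT]
  exact ⟨fixData_inertia P π ℓ hπ hℓN hP R, span_isFixed_inertia P⟩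

/-- The image of the inertia group as a subgroup of semilinear automorphisms. -/
def inertiaSubgroup : Subgroup (SemilinearAut Qbar (FBar Qbar N)) :=
  (P.inertiaSubgroupIn ℚ).map (arithmeticGalois (L := Qbar) (modularFunctionFieldFull N))

theorem coe_inertiaSubgroup :
    ((inertiaSubgroup P (N := N) : Subgroup (SemilinearAut Qbar (FBar Qbar N))) :
      Set (SemilinearAut Qbar (FBar Qbar N))) = inertiaSet P (N := N) := rfl

theorem mem_inertiaSubgroup_of_mem {σ : Qbar ≃ₐ[ℚ] Qbar} (hσ : σ ∈ P.inertiaSubgroupIn ℚ) :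
    arithmeticGalois (L := Qbar) (modularFunctionFieldFull N) σ ∈ inertiaSubgroup P (N := N) :=
  ⟨σ, hσ, rfl⟩

/-- **The two descent hypotheses of `L1Target` for `I.S = inertiaSubgroup P`.** -/
theorem fixData_and_span_inertiaSubgroup (hP : P.LiesOverPrime ℓ)
    (R : RedSetup P (OvVal P π N ℓ hπ hℓN) k κ) :
    FixData R ((inertiaSubgroup P (N := N) : Subgroup (SemilinearAut Qbar (FBar Qbar N))) :
      Set (SemilinearAut Qbar (FBar Qbar N))) ∧
      Submodule.span Qbar {f : FBar Qbar N |
        IsFixed ((inertiaSubgroup P (N := N) : Subgroup (SemilinearAut Qbar (FBar Qbar N))) :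
          Set (SemilinearAut Qbar (FBar Qbar N))) f} = ⊤ :=
  fixData_and_span_of_coe_eq P π ℓ hπ hℓN hP R _ (coe_inertiaSubgroup P)

end Fermat.Agent.S19x.Geo.FixDataPlug
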