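import Fermat.Agent.S19x.Geo.LatticeFixedGeo
import Fermat.Agent.S19x.Geo.FixDataInertiaB
import Fermat.Agent.S19x.Geo.FixDataInertiaSpan
import Fermat.Agent.S19x.Geo.ScalFixed

/-!
# P-S19 block A: `FixInputs` for the modular function field and the inertia group

For ANY geometric setting `G` over the Gauss valuation ring `OvVal A π M ℓ` of
`FBar Qbar M = Qbar · F_M` (`A` a valuation subring of `Qbar` over `ℓ`, `ℓ ∤ M`) and ANY inertia
datum `I` whose group is the image of the inertia group of `A` under the coefficientwise action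
`arithmeticGalois`, the hypotheses `LatticeFixedGeo.FixInputs G I` hold.  Hence
(`LatticeFixedGeo`) the lift lemma, the fixed orthonormal frames and `Frame.FixedLatticeFacts`.

Ingredients: `FixDataInertiaB.fixData_arithmeticGalois` (helper3: residue field and uniformiser of
`inertiaInt A`), `ScalFixed.scal_fixed_semilinear` (helper6: fixed Gauss normalisation),
`FixDataInertiaSpan.span_fixed_eq_top` (helper42: `F = Qbar · F_ℚ`).
-/

set_option autoImplicit false
set_option linter.unusedSectionVars false

noncomputable section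

namespace Fermat.Agent.S19x.Geo.FixInputsModular

open AlgebraicCurve ModularCurve IsLocalRing
open Fermat.Agent.Gateway.C0 Fermat.Agent.Gateway.GoodRed Fermat.Agent.S19x.Geo
  Fermat.Agent.S19x.Geo.LatticeFixed

local notation "Qbar" => AlgebraicClosure ℚ

variable (A : ValuationSubring Qbar) {k : Type} [Field k] (π : A →+* k) [IsAlgClosed k]
  (ℓ : ℕ) [Fact ℓ.Prime] [CharP k ℓ] (M : ℕ) [NeZero M]
  (hπ : Function.Surjective π) (hℓM : ¬ ℓ ∣ M)
  {κ : Type} [Field κ] [Algebra k κ]

/-- the image of the inertia group of `A` under the coefficientwise Galois action -/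
abbrev inertiaSet : Set (SemilinearAut Qbar (FBar Qbar M)) :=
  arithmeticGalois (L := Qbar) (modularFunctionFieldFull M) ''
    (A.inertiaSubgroupIn ℚ : Set (Qbar ≃ₐ[ℚ] Qbar))

/-- **`FixData` for the modular function field and inertia**, for any reduction set-up over the
Gauss valuation ring. -/
theorem fixData (hA : A.LiesOverPrime ℓ) (R : RedSetup A (OvVal A π M ℓ hπ hℓM) k κ) :
    FixData R (inertiaSet A M) :=
  FixDataInertiaB.fixData_arithmeticGalois (modularFunctionFieldFull M) R Fact.out hA
    (fun f hf hfix => ScalFixed.scal_fixed_semilinear A π ℓ M hπ hℓM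
      (A.inertiaSubgroupIn ℚ : Set (Qbar ≃ₐ[ℚ] Qbar)) f hf hfix)

/-- `FBar Qbar M` is spanned over `Qbar` by the inertia-fixed functions. -/
theorem span_fixed :
    Submodule.span Qbar {f : FBar Qbar M | IsFixed (inertiaSet A M) f} = ⊤ := by
  have : Algebra.IsAlgebraic ℚ Qbar := AlgebraicClosure.isAlgebraic ℚ
  refine FixDataInertiaSpan.span_fixed_eq_top (inertiaSet A M) ?_
  rintro _ ⟨σ, -, rfl⟩
  exact ⟨σ, rfl⟩

/-- **`FixInputs` for the modular function field and inertia.** -/
theorem fixInputs (hA : A.LiesOverPrime ℓ) (G : GeoSetting A (OvVal A π M ℓ hπ hℓM) k κ)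
    (I : InertiaData G)
    (hIS : (I.S : Set (SemilinearAut Qbar (FBar Qbar M))) = inertiaSet A M) :
    LatticeFixedGeo.FixInputs G I := by
  refine ⟨?_, ?_⟩
  · show FixData G.R (I.S : Set (SemilinearAut Qbar (FBar Qbar M)))
    rw [hIS]
    exact fixData A π ℓ M hπ hℓM hA G.R
  · show Submodule.span Qbar
      {f : FBar Qbar M | IsFixed (I.S : Set (SemilinearAut Qbar (FBar Qbar M))) f} = ⊤
    rw [hIS]
    exact span_fixed A M

/-- the same for `I.S = (inertia).map arithmeticGalois`. -/
theorem fixInputs_of_map (hA : A.LiesOverPrime ℓ) (G : GeoSetting A (OvVal A π M ℓ hπ hℓM) k κ)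
    (I : InertiaData G)
    (hIS : I.S = (A.inertiaSubgroupIn ℚ).map
      (arithmeticGalois (L := Qbar) (modularFunctionFieldFull M))) :
    LatticeFixedGeo.FixInputs G I :=
  fixInputs A π ℓ M hπ hℓM hA G I (by rw [hIS]; exact Subgroup.coe_map _ _)

end Fermat.Agent.S19x.Geo.FixInputsModular

end
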