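import Fermat.Agent.S19x.Geo.Targets

/-!
# P-S19, BLOCK A: transport of coefficient rings `A^S ⊆ A` ⟶ a `Subring K` (helper30)

The abstract targets (`Geo/Targets.lean`: `ResidualOut.spec`, `AbsSumChart.sum3`) produce
polynomials over `I.fixedRing : Subring ↥A` (a subring of the valuation subring `A`), evaluated in
`K` through `Algebra.ofSubring`.  The concrete consumers (`Geo/Assemble.SumChart.sum3`,
`S19x/Iface.LocalChartData`) want polynomials over a `Subring K` (for us `inertiaInt P`).

For any `R : Subring ↥A` and `Aur : Subring K` with the same elements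
(`hR : ∀ a : K, a ∈ Aur ↔ ∃ ha : a ∈ A, ⟨a, ha⟩ ∈ R`):

* `toSubring hR : R ≃+* Aur`, the identity on underlying elements of `K`;
* `aeval_map_toSubring` : `aeval x (map (toSubring hR) Θ) = aeval x Θ` for `x : σ → K`;
* `constantCoeff_map_toSubring_eq_zero`;
* `exists_transport` : a family of polynomials over `R` with zero constant terms satisfying a
  property of its values gives such a family over `Aur`;
* `sum3_transport` : the field `sum3` of `AbsSumChart` over `Aur`.
-/

set_option autoImplicit false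
set_option linter.unusedSectionVars false

noncomputable section

namespace Fermat.Agent.S19x.Geo.FixedRingTransport

open Fermat.Agent.S19x.Geo

universe u

variable {K : Type u} [Field K] {A : ValuationSubring K} {R : Subring A} {Aur : Subring K}

/-- the coefficient of `R ⊆ A` as an element of `K` -/
theorem algebraMap_apply (r : R) : algebraMap R K r = ((r : A) : K) := rfl

variable (hR : ∀ a : K, a ∈ Aur ↔ ∃ ha : a ∈ A, (⟨a, ha⟩ : A) ∈ R)

/-- `R ≃+* Aur`, the identity on the underlying elements of `K`. -/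
def toSubring : R ≃+* Aur where
  toFun r := ⟨((r : A) : K), (hR _).mpr ⟨(r : A).2, r.2⟩⟩
  invFun a := ⟨⟨(a : K), ((hR _).mp a.2).1⟩, ((hR _).mp a.2).2⟩
  left_inv _ := rfl
  right_inv _ := rfl
  map_mul' _ _ := rfl
  map_add' _ _ := rfl

@[simp]
theorem coe_toSubring (r : R) : ((toSubring hR r : Aur) : K) = ((r : A) : K) := rfl

theorem algebraMap_comp_toSubring :
    (algebraMap Aur K).comp (toSubring hR : R →+* Aur) = algebraMap R K := rfl

/-- evaluating the transported polynomial = evaluating the polynomial. -/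
theorem aeval_map_toSubring {σ : Type*} (x : σ → K) (Θ : MvPolynomial σ R) :
    MvPolynomial.aeval x (MvPolynomial.map (toSubring hR : R →+* Aur) Θ)
      = MvPolynomial.aeval x Θ := by
  rw [MvPolynomial.aeval_def, MvPolynomial.aeval_def, MvPolynomial.eval₂_map,
    algebraMap_comp_toSubring]

theorem constantCoeff_map_toSubring_eq_zero {σ : Type*} {Θ : MvPolynomial σ R}
    (h : MvPolynomial.constantCoeff Θ = 0) :
    MvPolynomial.constantCoeff (MvPolynomial.map (toSubring hR : R →+* Aur) Θ) = 0 := by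
  rw [MvPolynomial.constantCoeff_map, h, map_zero]

include hR in
/-- **Transport of a family of polynomials with a property of their values.** -/
theorem exists_transport {σ ι : Type*}
    (Q : (ι → (σ → K) → K) → Prop)
    (h : ∃ Φ : ι → MvPolynomial σ R, (∀ l, MvPolynomial.constantCoeff (Φ l) = 0) ∧
      Q fun l x => MvPolynomial.aeval x (Φ l)) :
    ∃ Φ : ι → MvPolynomial σ Aur, (∀ l, MvPolynomial.constantCoeff (Φ l) = 0) ∧
      Q fun l x => MvPolynomial.aeval x (Φ l) := by
  obtain ⟨Φ, h0, hQ⟩ := h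
  refine ⟨fun l => MvPolynomial.map (toSubring hR : R →+* Aur) (Φ l),
    fun l => constantCoeff_map_toSubring_eq_zero hR (h0 l), ?_⟩
  have key : ∀ (l : ι) (x : σ → K),
      MvPolynomial.aeval x (MvPolynomial.map (toSubring hR : R →+* Aur) (Φ l))
        = MvPolynomial.aeval x (Φ l) := fun l x => aeval_map_toSubring hR x (Φ l)
  simp only [key]
  exact hQ

include hR in
/-- the same without the condition on constant terms. -/
theorem exists_transport' {σ ι : Type*}
    (Q : (ι → (σ → K) → K) → Prop)
    (h : ∃ Φ : ι → MvPolynomial σ R, Q fun l x => MvPolynomial.aeval x (Φ l)) :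
    ∃ Φ : ι → MvPolynomial σ Aur, Q fun l x => MvPolynomial.aeval x (Φ l) := by
  obtain ⟨Φ, hQ⟩ := h
  refine ⟨fun l => MvPolynomial.map (toSubring hR : R →+* Aur) (Φ l), ?_⟩
  have key : ∀ (l : ι) (x : σ → K),
      MvPolynomial.aeval x (MvPolynomial.map (toSubring hR : R →+* Aur) (Φ l))
        = MvPolynomial.aeval x (Φ l) := fun l x => aeval_map_toSubring hR x (Φ l)
  simp only [key]
  exact hQ

section Sum3

variable {F : Type*} [Field F] [Algebra K F] {O : ValuationSubring F}
  {k : Type*} {κ : Type*} [Field k] [Field κ] [Algebra k κ]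
  {G : GeoSetting A O k κ} {I : InertiaData G} {ρ : RedMap G}

/-- **the three-term addition law of `AbsSumChart` with coefficients in a `Subring K`** having the
same elements as `A^S`. -/
theorem sum3_transport (C : AbsSumChart I ρ)
    (hI : ∀ a : K, a ∈ Aur ↔ ∃ ha : a ∈ A, (⟨a, ha⟩ : A) ∈ I.fixedRing) (n : ℕ) :
    ∃ Φ : Fin G.g → MvPolynomial (Fin G.g ⊕ (Fin G.g ⊕ Fin G.g)) Aur,
      ∀ x y d, ρ.red x = 0 → ρ.red y = 0 → ρ.red d = 0 → ∀ t ∈ A,
        (∀ l, DvdInA A t (C.X0 x l)) → (∀ l, DvdInA A t (C.X0 y l)) →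
        (∀ l, DvdInA A t (C.X0 d l)) →
        ∀ l, DvdInA A (t ^ (n + 1))
          (C.X0 (x + y + d) l -
            MvPolynomial.aeval (Sum.elim (C.X0 x) (Sum.elim (C.X0 y) (C.X0 d))) (Φ l)) :=
  exists_transport' hI
    (fun val => ∀ x y d, ρ.red x = 0 → ρ.red y = 0 → ρ.red d = 0 → ∀ t ∈ A,
        (∀ l, DvdInA A t (C.X0 x l)) → (∀ l, DvdInA A t (C.X0 y l)) →
        (∀ l, DvdInA A t (C.X0 d l)) →
        ∀ l, DvdInA A (t ^ (n + 1))
          (C.X0 (x + y + d) l - val l (Sum.elim (C.X0 x) (Sum.elim (C.X0 y) (C.X0 d)))))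
    (C.sum3 n)

end Sum3

end Fermat.Agent.S19x.Geo.FixedRingTransport
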