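import Fermat.Agent.S19x.Geo.Setting

/-!
# P-S19, BLOCK A: the fixed ring `A^S` of an `InertiaData` is a valuation ring (helper30)

For ANY `I : InertiaData G` (no hypothesis on the group `S`) the subring `I.fixedRing = A^S` of the
valuation ring `A` is a valuation ring (of its fraction field `K^S`): for `a, b ∈ A^S` one of
`a / b`, `b / a` lies in `A`, and it is `S`-fixed because `S` acts through field automorphisms.
Hence `A^S` is a local domain, its units are the elements that are units of `A`, and its maximal
ideal is `A^S ∩ 𝔪_A = ker (π|A^S)`.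

These are the instance hypotheses `[ValuationRing I.fixedRing]` / `[IsLocalRing I.fixedRing]` of
`Geo/Frame.lean`, and `[IsLocalRing O₀]` of `Geo/ResidualCoreNA.residual_core_of_hker`,
`Geo/FactorJac.isUnit_det_jacobian` for `O₀ := I.fixedRing`.
-/

set_option autoImplicit false
set_option linter.unusedSectionVars false
set_option linter.style.haveILetI false

noncomputable section

namespace Fermat.Agent.S19x.Geo.FixedRingVal

open AlgebraicCurve IsLocalRing
open Fermat.Agent.S19x.Geo

universe u v w z

variable {K : Type u} [Field K] {A : ValuationSubring K} {F : Type v} [Field F] [Algebra K F]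
  {O : ValuationSubring F} {k : Type w} {κ : Type z} [Field k] [Field κ] [Algebra k κ]
  {G : GeoSetting A O k κ} (I : InertiaData G)

/-- an `S`-fixed element of `A` as an element of `A^S` -/
def mkFixed (a : K) (ha : a ∈ A)
    (hfix : ∀ s ∈ I.S, SemilinearAut.baseAut s a = a) : I.fixedRing :=
  ⟨⟨a, ha⟩, fun s hs => hfix s hs⟩

@[simp]
theorem coe_mkFixed (a : K) (ha : a ∈ A) (hfix : ∀ s ∈ I.S, SemilinearAut.baseAut s a = a) :
    (((mkFixed I a ha hfix : I.fixedRing) : A) : K) = a := rfl

theorem baseAut_coe (a : I.fixedRing) {s : SemilinearAut K F} (hs : s ∈ I.S) :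
    SemilinearAut.baseAut s ((a : A) : K) = ((a : A) : K) := a.2 s hs

/-- **`A^S` is a valuation ring.** -/
theorem valuationRing_fixedRing : ValuationRing I.fixedRing := by
  haveI : PreValuationRing I.fixedRing := ⟨fun a b => ?_⟩
  · exact ⟨⟩
  by_cases hb : ((b : A) : K) = 0
  · -- `b = 0 = a * 0`
    refine ⟨0, Or.inl ?_⟩
    rw [mul_zero]
    exact (Subtype.ext (Subtype.ext hb)).symm
  by_cases ha : ((a : A) : K) = 0
  · refine ⟨0, Or.inr ?_⟩
    rw [mul_zero]
    exact (Subtype.ext (Subtype.ext ha)).symm
  have hfix : ∀ x y : I.fixedRing, ∀ s ∈ I.S,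
      SemilinearAut.baseAut s (((x : A) : K) / ((y : A) : K)) = ((x : A) : K) / ((y : A) : K) := by
    intro x y s hs
    rw [map_div₀, baseAut_coe I x hs, baseAut_coe I y hs]
  rcases A.mem_or_inv_mem (((b : A) : K) / ((a : A) : K)) with h | h
  · refine ⟨mkFixed I _ h (hfix b a), Or.inl ?_⟩
    apply Subtype.ext
    apply Subtype.ext
    show ((a : A) : K) * (((b : A) : K) / ((a : A) : K)) = ((b : A) : K)
    field_simp
  · rw [inv_div] at h
    refine ⟨mkFixed I _ h (hfix a b), Or.inr ?_⟩
    apply Subtype.ext
    apply Subtype.ext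
    show ((b : A) : K) * (((a : A) : K) / ((b : A) : K)) = ((a : A) : K)
    field_simp

/-- **`A^S` is a local ring.** -/
theorem isLocalRing_fixedRing : IsLocalRing I.fixedRing :=
  haveI := valuationRing_fixedRing I
  inferInstance

/-- an element of `A^S` is a unit iff it is a unit of `A`. -/
theorem isUnit_iff (a : I.fixedRing) : IsUnit a ↔ IsUnit (a : A) := by
  constructor
  · intro h
    exact h.map (Subring.subtype I.fixedRing)
  · intro h
    have h0 : ((a : A) : K) ≠ 0 := by
      intro h0
      have : (a : A) = 0 := Subtype.ext h0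
      rw [this] at h
      exact not_isUnit_zero h
    have hinv : (((a : A) : K))⁻¹ ∈ A := by
      obtain ⟨c, hc⟩ := h.exists_right_inv
      have hc' : ((a : A) : K) * (c : K) = 1 := congrArg Subtype.val hc
      have : (((a : A) : K))⁻¹ = (c : K) := inv_eq_of_mul_eq_one_right hc'
      rw [this]
      exact c.2
    refine IsUnit.of_mul_eq_one (mkFixed I _ hinv fun s hs => ?_) ?_
    · rw [map_inv₀, baseAut_coe I a hs]
    · apply Subtype.ext
      apply Subtype.ext
      show ((a : A) : K) * (((a : A) : K))⁻¹ = 1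
      exact mul_inv_cancel₀ h0

/-- the maximal ideal of `A^S` is `A^S ∩ 𝔪_A`. -/
theorem mem_maximalIdeal_iff (a : I.fixedRing) :
    haveI := isLocalRing_fixedRing I
    a ∈ maximalIdeal I.fixedRing ↔ (a : A) ∈ maximalIdeal A := by
  haveI := isLocalRing_fixedRing I
  rw [mem_maximalIdeal, mem_maximalIdeal, mem_nonunits_iff, mem_nonunits_iff, isUnit_iff]

/-- the maximal ideal of `A^S` is the kernel of the residue map `π`. -/
theorem mem_maximalIdeal_iff_π (a : I.fixedRing) :
    haveI := isLocalRing_fixedRing I
    a ∈ maximalIdeal I.fixedRing ↔ G.R.π (a : A) = 0 := by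
  rw [mem_maximalIdeal_iff, G.R.π_eq_zero_iff]

/-- in `K`: an `S`-fixed element of `A` whose inverse lies in `A` -/
theorem coe_ne_zero_of_ne_zero {a : I.fixedRing} (ha : a ≠ 0) : ((a : A) : K) ≠ 0 := fun h =>
  ha (Subtype.ext (Subtype.ext h))

end Fermat.Agent.S19x.Geo.FixedRingVal
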