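import Mathlib

/-!
# P-S19, BLOCK A, leaf (L2-c), abstract part (helper27): adapted frames of a filtered lattice

Mathlib only.  `R` a valuation ring (in the application the DVR `O^ur = inertiaInt P`) with
residue map `π : R → k`, `M` a torsion-free `R`-module (the ring `B^S = ⋃ₘ Λ(m∞)^S`), `Mbar` a
`k`-vector space (the ring `⋃ₘ L(m ∞bar)` on the special fibre), `red : M → Mbar` a `π`-semilinear
map (the reduction `res`).

`FiltRed π M Mbar` bundles: exhaustive increasing filtrations `L n ⊆ M`, `Lbar n ⊆ Mbar`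
(`L n = Λ(n∞)^S`, `Lbar n = L(n ∞bar)`) with `red (L n) ⊆ Lbar n`, each `L n` finitely generated with
`ker red ∩ L n ⊆ 𝔪 • L n`; a family `e0 : Fin r0 → L N0` whose reductions are a `k`-basis of
`Lbar N0`; and elements `f j ∈ L (N0 + j + 1)` whose reductions generate the rank-one steps
`Lbar (N0 + j + 1) = Lbar (N0 + j) ⊕ k • red (f j)`.

Output: the frame `e : ℕ → M` (`e i = e0 i` for `i < r0`, `e (r0 + j) = f j`) is an `R`-basis of `M`
adapted to the filtration (`span (e '' [0, r0 + j)) = L (N0 + j)`), its reduction is a `k`-basis of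
`Mbar` adapted to `Lbar`, and the coordinate functionals `coord i : M →ₗ[R] R`,
`coordBar i : Mbar →ₗ[k] k` satisfy `coordBar i (red x) = π (coord i x)`.  This is what
`S27x/Lift/FactorSystem.Data` needs (`b1`, `b2`, `φ`, `φbar`, `hφ`, `hsep`).
-/

set_option autoImplicit false

noncomputable section

namespace Fermat.Agent.S19x.Geo.FrameAlg

open IsLocalRing Submodule

variable {R : Type*} [CommRing R] [IsDomain R] [ValuationRing R]
  {k : Type*} [Field k]

/-- The filtered reduction data (see the file header). -/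
structure FiltRed (π : R →+* k) (M : Type*) [AddCommGroup M] [Module R M]
    (Mbar : Type*) [AddCommGroup Mbar] [Module k Mbar] where
  π_surj : Function.Surjective π
  /-- the reduction map -/
  red : M →+ Mbar
  red_smul : ∀ (a : R) (x : M), red (a • x) = π a • red x
  /-- the filtration of `M` -/
  L : ℕ → Submodule R M
  /-- the filtration of `Mbar` -/
  Lbar : ℕ → Submodule k Mbar
  L_mono : Monotone L
  Lbar_mono : Monotone Lbar
  exists_mem_L : ∀ x : M, ∃ n, x ∈ L n
  exists_mem_Lbar : ∀ y : Mbar, ∃ n, y ∈ Lbar n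
  red_mem : ∀ n x, x ∈ L n → red x ∈ Lbar n
  fg : ∀ n, (L n).FG
  ker_le : ∀ n x, x ∈ L n → red x = 0 → x ∈ maximalIdeal R • L n
  /-- the base level -/
  N0 : ℕ
  /-- the rank of the base level -/
  r0 : ℕ
  /-- a family in `L N0` reducing to a basis of `Lbar N0` -/
  e0 : Fin r0 → M
  e0_mem : ∀ i, e0 i ∈ L N0
  e0bar_li : LinearIndependent k (fun i => red (e0 i))
  e0bar_span : Lbar N0 ≤ span k (Set.range fun i => red (e0 i))
  /-- generators of the rank-one steps -/
  f : ℕ → M
  f_mem : ∀ j, f j ∈ L (N0 + j + 1)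
  f_not_mem : ∀ j, red (f j) ∉ Lbar (N0 + j)
  step : ∀ j, Lbar (N0 + j + 1) ≤ Lbar (N0 + j) ⊔ span k {red (f j)}


/-- In a valuation ring, a nonempty finite family has a member dividing all the others. -/
theorem exists_dvd_all {ι : Type*} (s : Finset ι) (hs : s.Nonempty) (g : ι → R) :
    ∃ i0 ∈ s, ∀ i ∈ s, g i0 ∣ g i := by
  classical
  induction hs using Finset.Nonempty.cons_induction with
  | singleton a => exact ⟨a, Finset.mem_singleton_self a, fun i hi => by
      rw [Finset.mem_singleton] at hi; rw [hi]⟩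
  | cons a s ha hs ih =>
    obtain ⟨i0, hi0, h0⟩ := ih
    rcases ValuationRing.dvd_total (g a) (g i0) with h | h
    · refine ⟨a, Finset.mem_cons_self a s, fun i hi => ?_⟩
      rcases Finset.mem_cons.mp hi with rfl | hi
      · exact dvd_rfl
      · exact h.trans (h0 i hi)
    · refine ⟨i0, Finset.mem_cons.mpr (Or.inr hi0), fun i hi => ?_⟩
      rcases Finset.mem_cons.mp hi with rfl | hi
      · exact h
      · exact h0 i hi

namespace FiltRed

variable {π : R →+* k} {M : Type*} [AddCommGroup M] [Module R M]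
  {Mbar : Type*} [AddCommGroup Mbar] [Module k Mbar] (D : FiltRed π M Mbar)

/-- the frame: first the base family, then the step generators. -/
def frame (i : ℕ) : M := if h : i < D.r0 then D.e0 ⟨i, h⟩ else D.f (i - D.r0)

/-- the reduced frame. -/
def frameBar (i : ℕ) : Mbar := D.red (D.frame i)

theorem frame_of_lt {i : ℕ} (h : i < D.r0) : D.frame i = D.e0 ⟨i, h⟩ := by
  rw [frame, dif_pos h]

theorem frame_add (j : ℕ) : D.frame (D.r0 + j) = D.f j := by
  rw [frame, dif_neg (by omega), Nat.add_sub_cancel_left]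

theorem frame_mem (j : ℕ) {i : ℕ} (hi : i < D.r0 + j) : D.frame i ∈ D.L (D.N0 + j) := by
  by_cases h : i < D.r0
  · rw [D.frame_of_lt h]
    exact D.L_mono (Nat.le_add_right _ _) (D.e0_mem _)
  · obtain ⟨j', rfl⟩ : ∃ j', i = D.r0 + j' := ⟨i - D.r0, by omega⟩
    rw [D.frame_add]
    exact D.L_mono (by omega) (D.f_mem j')

theorem frameBar_mem (j : ℕ) {i : ℕ} (hi : i < D.r0 + j) : D.frameBar i ∈ D.Lbar (D.N0 + j) :=
  D.red_mem _ _ (D.frame_mem j hi)

/-- The image under `red` of an `R`-submodule, as a `k`-submodule (uses surjectivity of `π`). -/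
def redMap (S : Submodule R M) : Submodule k Mbar where
  carrier := {y | ∃ s ∈ S, D.red s = y}
  add_mem' := by
    rintro _ _ ⟨s, hs, rfl⟩ ⟨t, ht, rfl⟩
    exact ⟨s + t, S.add_mem hs ht, map_add _ _ _⟩
  zero_mem' := ⟨0, S.zero_mem, map_zero _⟩
  smul_mem' := by
    rintro c _ ⟨s, hs, rfl⟩
    obtain ⟨a, rfl⟩ := D.π_surj c
    exact ⟨a • s, S.smul_mem a hs, D.red_smul a s⟩

theorem mem_redMap {S : Submodule R M} {y : Mbar} : y ∈ D.redMap S ↔ ∃ s ∈ S, D.red s = y :=
  Iff.rfl

theorem red_sum {ι : Type*} (s : Finset ι) (c : ι → R) (v : ι → M) :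
    D.red (∑ i ∈ s, c i • v i) = ∑ i ∈ s, π (c i) • D.red (v i) := by
  rw [map_sum]
  exact Finset.sum_congr rfl fun i _ => D.red_smul _ _

/-! ### The reduced frame is an adapted basis of `Mbar` -/

theorem span_frameBar (j : ℕ) :
    span k (D.frameBar '' Set.Iio (D.r0 + j)) = D.Lbar (D.N0 + j) := by
  induction j with
  | zero =>
    refine le_antisymm (span_le.mpr ?_) (D.e0bar_span.trans (span_mono ?_))
    · rintro _ ⟨i, hi, rfl⟩
      exact D.frameBar_mem 0 hi
    · rintro _ ⟨i, rfl⟩
      refine ⟨i, by simp, ?_⟩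
      show D.red (D.frame i) = _
      rw [D.frame_of_lt i.2]
  | succ j ih =>
    have hset : Set.Iio (D.r0 + (j + 1)) = insert (D.r0 + j) (Set.Iio (D.r0 + j)) := by
      ext i
      simp only [Set.mem_Iio, Set.mem_insert_iff]
      omega
    rw [hset, Set.image_insert_eq, span_insert, ih]
    refine le_antisymm (sup_le ?_ (D.Lbar_mono (by omega))) ?_
    · rw [span_singleton_le_iff_mem]
      exact D.frameBar_mem (j + 1) (by omega)
    · have := D.step j
      rw [show D.N0 + (j + 1) = D.N0 + j + 1 from rfl]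
      refine this.trans ?_
      rw [sup_comm]
      show _ ≤ span k {D.red (D.frame (D.r0 + j))} ⊔ _
      rw [D.frame_add]

theorem linearIndependent_frameBar_fin (j : ℕ) :
    LinearIndependent k (fun i : Fin (D.r0 + j) => D.frameBar i) := by
  induction j with
  | zero =>
    have : (fun i : Fin (D.r0 + 0) => D.frameBar i) = fun i : Fin D.r0 => D.red (D.e0 i) := by
      funext i
      show D.red (D.frame i) = _
      rw [D.frame_of_lt i.2]
      rfl
    exact this ▸ D.e0bar_li
  | succ j ih =>
    have hfun : (fun i : Fin (D.r0 + j + 1) => D.frameBar i)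
        = Fin.snoc (fun i : Fin (D.r0 + j) => D.frameBar i) (D.frameBar (D.r0 + j)) := by
      funext i
      refine Fin.lastCases ?_ (fun i => ?_) i
      · simp
      · simp
    show LinearIndependent k (fun i : Fin (D.r0 + j + 1) => D.frameBar i)
    rw [hfun, linearIndependent_finSnoc]
    refine ⟨ih, fun hmem => ?_⟩
    have hrange : Set.range (fun i : Fin (D.r0 + j) => D.frameBar i)
        = D.frameBar '' Set.Iio (D.r0 + j) := by
      ext y
      constructor
      · rintro ⟨i, rfl⟩
        exact ⟨i, i.2, rfl⟩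
      · rintro ⟨i, hi, rfl⟩
        exact ⟨⟨i, hi⟩, rfl⟩
    rw [hrange, D.span_frameBar j] at hmem
    apply D.f_not_mem j
    have h2 : D.frameBar (D.r0 + j) = D.red (D.f j) := by
      show D.red (D.frame (D.r0 + j)) = _
      rw [D.frame_add]
    rwa [h2] at hmem

theorem linearIndependent_frameBar : LinearIndependent k D.frameBar := by
  classical
  rw [linearIndependent_iff_finset_linearIndependent]
  intro s
  obtain ⟨n, hn⟩ : ∃ n, ∀ i ∈ s, i < D.r0 + n := by
    refine ⟨s.sup id + 1, fun i hi => ?_⟩
    have : i ≤ s.sup id := Finset.le_sup (f := id) hi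
    omega
  have h := D.linearIndependent_frameBar_fin n
  let φ : s → Fin (D.r0 + n) := fun i => ⟨i.1, hn i.1 i.2⟩
  have hφ : Function.Injective φ := fun a b hab => Subtype.ext (by simpa [φ] using hab)
  exact h.comp φ hφ

theorem span_range_frameBar : ⊤ ≤ span k (Set.range D.frameBar) := by
  intro y _
  obtain ⟨n, hn⟩ := D.exists_mem_Lbar y
  have h1 : y ∈ D.Lbar (D.N0 + n) := D.Lbar_mono (by omega) hn
  rw [← D.span_frameBar n] at h1
  exact span_mono (Set.image_subset_range _ _) h1

/-- the reduced frame as a basis of `Mbar`. -/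
def frameBarBasis : Module.Basis ℕ k Mbar :=
  Module.Basis.mk D.linearIndependent_frameBar D.span_range_frameBar

@[simp] theorem frameBarBasis_apply (i : ℕ) : D.frameBarBasis i = D.frameBar i := by
  rw [frameBarBasis, Module.Basis.mk_apply]

/-! ### The frame is an adapted basis of `M` -/

variable [NoZeroSMulDivisors R M]

theorem linearIndependent_frame : LinearIndependent R D.frame := by
  classical
  rw [linearIndependent_iff']
  intro s g hsum i hi
  by_contra hgi
  have hsne : s.Nonempty := ⟨i, hi⟩
  obtain ⟨i0, hi0, hdvd⟩ := exists_dvd_all s hsne g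
  have hg0 : g i0 ≠ 0 := by
    intro h0
    obtain ⟨c, hc⟩ := hdvd i hi
    rw [h0, zero_mul] at hc
    exact hgi hc
  choose! c hc using hdvd
  have hc0 : c i0 = 1 := by
    have := hc i0 hi0
    have h2 : g i0 * 1 = g i0 * c i0 := by rw [mul_one]; exact this
    exact (mul_left_cancel₀ hg0 h2).symm
  have hsum2 : g i0 • ∑ i ∈ s, c i • D.frame i = 0 := by
    rw [Finset.smul_sum, ← hsum]
    refine Finset.sum_congr rfl fun i hi => ?_
    rw [smul_smul, ← hc i hi]
  have hsum3 : ∑ i ∈ s, c i • D.frame i = 0 :=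
    (smul_eq_zero.mp hsum2).resolve_left hg0
  have hred := congrArg D.red hsum3
  rw [D.red_sum, map_zero] at hred
  have hli := D.linearIndependent_frameBar
  rw [linearIndependent_iff'] at hli
  have := hli s (fun i => π (c i)) hred i0 hi0
  rw [hc0, map_one] at this
  exact one_ne_zero this

omit [NoZeroSMulDivisors R M] in
theorem span_frame (j : ℕ) :
    span R (D.frame '' Set.Iio (D.r0 + j)) = D.L (D.N0 + j) := by
  refine le_antisymm (span_le.mpr ?_) ?_
  · rintro _ ⟨i, hi, rfl⟩
    exact D.frame_mem j hi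
  · refine le_of_le_smul_of_le_jacobson_bot (D.fg _)
      (IsLocalRing.maximalIdeal_le_jacobson ⊥) fun x hx => ?_
    -- `red x` lies in the reduction of the span
    have h1 : D.red x ∈ D.redMap (span R (D.frame '' Set.Iio (D.r0 + j))) := by
      have h2 : D.red x ∈ span k (D.frameBar '' Set.Iio (D.r0 + j)) := by
        rw [D.span_frameBar j]
        exact D.red_mem _ _ hx
      refine (span_le.mpr ?_ : span k (D.frameBar '' Set.Iio (D.r0 + j)) ≤ _) h2
      rintro _ ⟨i, hi, rfl⟩
      exact ⟨D.frame i, subset_span ⟨i, hi, rfl⟩, rfl⟩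
    obtain ⟨s, hs, hsx⟩ := h1
    have hs' : s ∈ D.L (D.N0 + j) := by
      refine (span_le.mpr ?_ : span R (D.frame '' Set.Iio (D.r0 + j)) ≤ _) hs
      rintro _ ⟨i, hi, rfl⟩
      exact D.frame_mem j hi
    have h3 : x - s ∈ maximalIdeal R • D.L (D.N0 + j) :=
      D.ker_le _ _ (sub_mem hx hs') (by rw [map_sub, hsx, sub_self])
    have : x = s + (x - s) := by abel
    rw [this]
    exact add_mem (mem_sup_left hs) (mem_sup_right h3)

omit [NoZeroSMulDivisors R M] in
theorem span_range_frame : ⊤ ≤ span R (Set.range D.frame) := by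
  intro x _
  obtain ⟨n, hn⟩ := D.exists_mem_L x
  have h1 : x ∈ D.L (D.N0 + n) := D.L_mono (by omega) hn
  rw [← D.span_frame n] at h1
  exact span_mono (Set.image_subset_range _ _) h1

/-- the frame as a basis of `M`. -/
def frameBasis : Module.Basis ℕ R M :=
  Module.Basis.mk D.linearIndependent_frame D.span_range_frame

@[simp] theorem frameBasis_apply (i : ℕ) : D.frameBasis i = D.frame i := by
  rw [frameBasis, Module.Basis.mk_apply]

theorem red_frameBasis (i : ℕ) : D.red (D.frameBasis i) = D.frameBarBasis i := by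
  rw [frameBasis_apply, frameBarBasis_apply]; rfl

/-! ### Coordinate functionals -/

/-- the `i`-th coordinate functional on `M`. -/
def coord (i : ℕ) : M →ₗ[R] R := D.frameBasis.coord i

/-- the `i`-th coordinate functional on `Mbar`. -/
def coordBar (i : ℕ) : Mbar →ₗ[k] k := D.frameBarBasis.coord i

theorem coord_frame (i i' : ℕ) : D.coord i (D.frame i') = if i' = i then 1 else 0 := by
  rw [coord, ← D.frameBasis_apply i', Module.Basis.coord_apply, Module.Basis.repr_self,
    Finsupp.single_apply]

omit [NoZeroSMulDivisors R M] in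
theorem coordBar_frameBar (i i' : ℕ) :
    D.coordBar i (D.frameBar i') = if i' = i then 1 else 0 := by
  rw [coordBar, ← D.frameBarBasis_apply i', Module.Basis.coord_apply, Module.Basis.repr_self,
    Finsupp.single_apply]

/-- the coordinates commute with reduction. -/
theorem repr_red (x : M) :
    D.frameBarBasis.repr (D.red x) = (D.frameBasis.repr x).mapRange π (map_zero π) := by
  classical
  have hx : x = ∑ i ∈ (D.frameBasis.repr x).support, D.frameBasis.repr x i • D.frame i := by
    conv_lhs => rw [← D.frameBasis.linearCombination_repr x]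
    rw [Finsupp.linearCombination_apply, Finsupp.sum]
    exact Finset.sum_congr rfl fun i _ => by rw [D.frameBasis_apply]
  have h1 : D.red x = Finsupp.linearCombination k D.frameBarBasis
      ((D.frameBasis.repr x).mapRange π (map_zero π)) := by
    rw [Finsupp.linearCombination_apply, Finsupp.sum_mapRange_index (by intro i; simp)]
    conv_lhs => rw [hx]
    rw [D.red_sum, Finsupp.sum]
    exact Finset.sum_congr rfl fun i _ => by rw [D.frameBarBasis_apply]; rfl
  rw [h1, Module.Basis.repr_linearCombination]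

theorem coordBar_red (i : ℕ) (x : M) : D.coordBar i (D.red x) = π (D.coord i x) := by
  rw [coordBar, coord, Module.Basis.coord_apply, Module.Basis.coord_apply, D.repr_red]
  rfl

theorem coord_eq_zero_of_mem {j : ℕ} {x : M} (hx : x ∈ D.L (D.N0 + j)) {i : ℕ}
    (hi : D.r0 + j ≤ i) : D.coord i x = 0 := by
  rw [← D.span_frame j] at hx
  have hx' : x ∈ span R (D.frameBasis '' Set.Iio (D.r0 + j)) := by
    have : (D.frameBasis : ℕ → M) = D.frame := funext D.frameBasis_apply
    rwa [this]
  have := D.frameBasis.repr_support_subset_of_mem_span _ hx'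
  rw [coord, Module.Basis.coord_apply]
  by_contra h
  have hmem : i ∈ (D.frameBasis.repr x).support := Finsupp.mem_support_iff.mpr h
  have := this hmem
  simp only [Set.mem_Iio] at this
  omega

omit [NoZeroSMulDivisors R M] in
theorem coordBar_eq_zero_of_mem {j : ℕ} {y : Mbar} (hy : y ∈ D.Lbar (D.N0 + j)) {i : ℕ}
    (hi : D.r0 + j ≤ i) : D.coordBar i y = 0 := by
  rw [← D.span_frameBar j] at hy
  have hy' : y ∈ span k (D.frameBarBasis '' Set.Iio (D.r0 + j)) := by
    have : (D.frameBarBasis : ℕ → Mbar) = D.frameBar := funext D.frameBarBasis_apply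
    rwa [this]
  have := D.frameBarBasis.repr_support_subset_of_mem_span _ hy'
  rw [coordBar, Module.Basis.coord_apply]
  by_contra h
  have hmem : i ∈ (D.frameBarBasis.repr y).support := Finsupp.mem_support_iff.mpr h
  have := this hmem
  simp only [Set.mem_Iio] at this
  omega

/-- the first `r0 + j` coordinates separate the points of `L (N0 + j)`. -/
theorem eq_zero_of_coord_eq_zero {j : ℕ} {x : M} (hx : x ∈ D.L (D.N0 + j))
    (h : ∀ i, i < D.r0 + j → D.coord i x = 0) : x = 0 := by
  apply D.frameBasis.repr.injective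
  rw [map_zero]
  ext i
  rcases lt_or_ge i (D.r0 + j) with hi | hi
  · exact h i hi
  · exact D.coord_eq_zero_of_mem hx hi

omit [NoZeroSMulDivisors R M] in
/-- the first `r0 + j` coordinates separate the points of `Lbar (N0 + j)`. -/
theorem eq_zero_of_coordBar_eq_zero {j : ℕ} {y : Mbar} (hy : y ∈ D.Lbar (D.N0 + j))
    (h : ∀ i, i < D.r0 + j → D.coordBar i y = 0) : y = 0 := by
  apply D.frameBarBasis.repr.injective
  rw [map_zero]
  ext i
  rcases lt_or_ge i (D.r0 + j) with hi | hi
  · exact h i hi
  · exact D.coordBar_eq_zero_of_mem hy hi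

end FiltRed

end Fermat.Agent.S19x.Geo.FrameAlg
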