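import Fermat.Agent.S19x.Geo.Setting
import Fermat.Agent.S19x.Geo.Lattice
import Fermat.Agent.S19x.Geo.FrameAlg

/-!
# P-S19, BLOCK A, leaf (L2-c), part 2 (helper27): the frame of `B^S = ⋃ₘ Λ(m∞)^S`

Setting: `G : GeoSetting A O k κ`, `I : InertiaData G` (`Geo/Setting.lean`), `A^S = I.fixedRing`.

* `nOo G n = n·∞`, `nOob G n = n·∞bar`;
* `LamS G I n = Λ(n∞)^S`, an `A^S`-submodule of `F` (`S`-fixed elements of `L(n∞) ∩ O`);
* `BS G I : Subalgebra A^S F` = the ring `B^S = ⋃ₙ Λ(n∞)^S`, `Bbar G : Subalgebra k κ` = the ring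
  `⋃ₙ L(n ∞bar)`; `LamS_mul` (product rule), `resB G I : B^S →+* Bbar` (the reduction);
* `FixedLatticeFacts G I N0` : the inputs from (L2-a)/(L2-b) at the levels `n ≥ N0`
  (residue field of `A^S` is `k`; an orthonormal `A^S`-basis of `Λ(n∞)^S`; the lift lemma);
* `frameData` : the `FrameAlg.FiltRed` structure (`L n = Λ(n∞)^S`, `Lbar n = L(n ∞bar)`) for
  `2g - 1 ≤ N0`, so that `FrameAlg` provides ONE adapted `A^S`-basis of `B^S`, its reduction, and the
  coordinate functionals (`FactorSystem.Data.φ`, `φbar`, `hφ`, `hsep`).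
-/

set_option autoImplicit false
set_option linter.unusedSectionVars false
set_option linter.style.haveILetI false

noncomputable section

namespace Fermat.Agent.S19x.Geo.Frame

open AlgebraicCurve IsLocalRing Module
open Fermat.Agent.Gateway.C0 Fermat.Agent.Gateway.Red Fermat.Agent.S27x.Spec.Inj
  Fermat.Agent.S27x.Spec.Disc Fermat.Agent.S19x.Geo Fermat.Agent.S19x.Geo.Lattice
  Fermat.Agent.S19x.Geo.FrameAlg

universe u v w z

variable {K : Type u} [Field K] {A : ValuationSubring K}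
  {F : Type v} [Field F] [Algebra K F] {O : ValuationSubring F}
  {k : Type w} {κ : Type z} [Field k] [Field κ] [Algebra k κ]
  (G : GeoSetting A O k κ) (I : InertiaData G)

/-! ### The divisors `n·∞` -/

/-- the divisor `n·∞` -/
def nOo (n : ℕ) : Divisor K F := Finsupp.single G.oo (n : ℤ)

/-- the divisor `n·∞bar` -/
def nOob (n : ℕ) : Divisor k κ := Finsupp.single G.oob (n : ℤ)

theorem nOo_add (m n : ℕ) : nOo G (m + n) = nOo G m + nOo G n := by
  rw [nOo, nOo, nOo, Nat.cast_add, Finsupp.single_add]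

theorem nOob_add (m n : ℕ) : nOob G (m + n) = nOob G m + nOob G n := by
  rw [nOob, nOob, nOob, Nat.cast_add, Finsupp.single_add]

theorem nOo_zero : nOo G 0 = 0 := by rw [nOo, Nat.cast_zero, Finsupp.single_zero]

theorem nOob_zero : nOob G 0 = 0 := by rw [nOob, Nat.cast_zero, Finsupp.single_zero]

theorem nOo_mono {m n : ℕ} (h : m ≤ n) : nOo G m ≤ nOo G n := by
  classical
  intro v
  rw [nOo, nOo, Finsupp.single_apply, Finsupp.single_apply]
  split_ifs
  · exact_mod_cast h
  · exact le_rfl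

theorem nOob_mono {m n : ℕ} (h : m ≤ n) : nOob G m ≤ nOob G n := by
  classical
  intro v
  rw [nOob, nOob, Finsupp.single_apply, Finsupp.single_apply]
  split_ifs
  · exact_mod_cast h
  · exact le_rfl

theorem spDiv_nOo (n : ℕ) : G.spDiv (nOo G n) = nOob G n := G.spDiv_single _ _

theorem degree_nOob (n : ℕ) : Divisor.degree (nOob G n) = n := by
  rw [nOob, Divisor.degree_single, G.rrκ.deg_one, Nat.cast_one, mul_one]

/-! ### The lattices `Λ(n∞)^S` -/

theorem fixedRing_smul_eq (a : I.fixedRing) (f : F) : a • f = algebraMap K F ((a : A) : K) * f := by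
  show ((a : A) : K) • f = _
  rw [Algebra.smul_def]

theorem isFixed_smul {a : I.fixedRing} {f : F} (hf : I.IsFixed f) : I.IsFixed (a • f) := by
  intro s hs
  rw [fixedRing_smul_eq, smul_mul', I.isFixed_algebraMap a.2 s hs, hf s hs]

/-- `Λ(n∞)^S`: the `S`-fixed elements of `L(n∞) ∩ O`, an `A^S`-module. -/
def LamS (n : ℕ) : Submodule I.fixedRing F where
  carrier := {f | f ∈ Lam G.R (nOo G n) ∧ I.IsFixed f}
  zero_mem' := ⟨(Lam G.R (nOo G n)).zero_mem, fun s _ => smul_zero s⟩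
  add_mem' := fun {f g} hf hg => ⟨(Lam G.R (nOo G n)).add_mem hf.1 hg.1, fun s hs => by
    rw [smul_add, hf.2 s hs, hg.2 s hs]⟩
  smul_mem' := fun a f hf => ⟨(Lam G.R (nOo G n)).smul_mem (a : A) hf.1, isFixed_smul G I hf.2⟩

theorem mem_LamS {n : ℕ} {f : F} :
    f ∈ LamS G I n ↔ f ∈ Lam G.R (nOo G n) ∧ I.IsFixed f := Iff.rfl

theorem LamS_mono {m n : ℕ} (h : m ≤ n) : LamS G I m ≤ LamS G I n :=
  fun _ hf => ⟨Lam_mono G.R (nOo_mono G h) hf.1, hf.2⟩

theorem mem_O_of_mem_LamS {n : ℕ} {f : F} (hf : f ∈ LamS G I n) : f ∈ O := hf.1.2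

theorem one_mem_LamS : (1 : F) ∈ LamS G I 0 := by
  refine ⟨⟨?_, O.one_mem⟩, fun s _ => smul_one s⟩
  rw [nOo_zero]
  exact one_mem_rrs_zero

/-- the product rule `Λ(m∞)^S · Λ(n∞)^S ⊆ Λ((m+n)∞)^S`. -/
theorem LamS_mul {m n : ℕ} {f g : F} (hf : f ∈ LamS G I m) (hg : g ∈ LamS G I n) :
    f * g ∈ LamS G I (m + n) := by
  refine ⟨⟨?_, mul_mem hf.1.2 hg.1.2⟩, fun s hs => by rw [smul_mul', hf.2 s hs, hg.2 s hs]⟩
  rw [nOo_add]
  exact mul_mem_rrs hf.1.1 hg.1.1

theorem algebraMap_mem_LamS (a : I.fixedRing) : algebraMap I.fixedRing F a ∈ LamS G I 0 := by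
  have : algebraMap I.fixedRing F a = a • (1 : F) := by rw [Algebra.smul_def, mul_one]
  rw [this]
  exact (LamS G I 0).smul_mem a (one_mem_LamS G I)

/-! ### The rings `B^S` and `Bbar` -/

/-- the ring `B^S = ⋃ₙ Λ(n∞)^S`. -/
def BS : Subalgebra I.fixedRing F where
  carrier := {f | ∃ n, f ∈ LamS G I n}
  mul_mem' := by
    rintro f g ⟨m, hf⟩ ⟨n, hg⟩
    exact ⟨m + n, LamS_mul G I hf hg⟩
  add_mem' := by
    rintro f g ⟨m, hf⟩ ⟨n, hg⟩
    exact ⟨max m n, (LamS G I _).add_mem (LamS_mono G I (le_max_left m n) hf)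
      (LamS_mono G I (le_max_right m n) hg)⟩
  algebraMap_mem' := fun a => ⟨0, algebraMap_mem_LamS G I a⟩

theorem mem_BS {f : F} : f ∈ BS G I ↔ ∃ n, f ∈ LamS G I n := Iff.rfl

theorem mem_BS_of_mem_LamS {n : ℕ} {f : F} (hf : f ∈ LamS G I n) : f ∈ BS G I := ⟨n, hf⟩

theorem mem_O_of_mem_BS {f : F} (hf : f ∈ BS G I) : f ∈ O := by
  obtain ⟨n, hn⟩ := hf
  exact mem_O_of_mem_LamS G I hn

/-- the ring `⋃ₙ L(n ∞bar)` on the special fibre. -/
def Bbar : Subalgebra k κ where
  carrier := {y | ∃ n, y ∈ riemannRochSpace (nOob G n)}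
  mul_mem' := by
    rintro f g ⟨m, hf⟩ ⟨n, hg⟩
    refine ⟨m + n, ?_⟩
    rw [nOob_add]
    exact mul_mem_rrs hf hg
  add_mem' := by
    rintro f g ⟨m, hf⟩ ⟨n, hg⟩
    exact ⟨max m n, (riemannRochSpace _).add_mem
      (riemannRochSpace_mono (nOob_mono G (le_max_left m n)) hf)
      (riemannRochSpace_mono (nOob_mono G (le_max_right m n)) hg)⟩
  algebraMap_mem' := fun c => ⟨0, by
    rw [nOob_zero, Algebra.algebraMap_eq_smul_one]
    exact (riemannRochSpace _).smul_mem c one_mem_rrs_zero⟩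

theorem mem_Bbar {y : κ} : y ∈ Bbar G ↔ ∃ n, y ∈ riemannRochSpace (nOob G n) := Iff.rfl

variable [HasPrincipalDivisors K F]

/-- reduction maps `Λ(n∞)^S` into `L(n ∞bar)`. -/
theorem res_mem_rrs_of_mem_LamS {n : ℕ} {f : F} (hf : f ∈ LamS G I n) :
    G.R.res ⟨f, hf.1.2⟩ ∈ riemannRochSpace (nOob G n) := by
  have := res_mem_rrs G.spCompat hf.1.2 hf.1.1
  rwa [← spDiv_nOo G n]

/-- the reduction `B^S → Bbar`. -/
def resB : BS G I →+* Bbar G where
  toFun f := ⟨G.R.res ⟨(f : F), mem_O_of_mem_BS G I f.2⟩, by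
    obtain ⟨n, hn⟩ := f.2
    exact ⟨n, res_mem_rrs_of_mem_LamS G I hn⟩⟩
  map_one' := Subtype.ext (map_one G.R.res)
  map_mul' f g := Subtype.ext (map_mul G.R.res ⟨(f : F), mem_O_of_mem_BS G I f.2⟩
    ⟨(g : F), mem_O_of_mem_BS G I g.2⟩)
  map_zero' := Subtype.ext (map_zero G.R.res)
  map_add' f g := Subtype.ext (map_add G.R.res ⟨(f : F), mem_O_of_mem_BS G I f.2⟩
    ⟨(g : F), mem_O_of_mem_BS G I g.2⟩)

@[simp] theorem coe_resB (f : BS G I) :
    ((resB G I f : Bbar G) : κ) = G.R.res ⟨(f : F), mem_O_of_mem_BS G I f.2⟩ := rfl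

/-- the residue map of `A^S`. -/
def πS : I.fixedRing →+* k := G.R.π.comp (Subring.subtype I.fixedRing)

@[simp] theorem πS_apply (a : I.fixedRing) : πS G I a = G.R.π (a : A) := rfl

theorem resB_smul (a : I.fixedRing) (f : BS G I) :
    resB G I (a • f) = πS G I a • resB G I f := by
  apply Subtype.ext
  show G.R.res ⟨((a • f : BS G I) : F), _⟩ = G.R.π (a : A) • G.R.res ⟨(f : F), _⟩
  rw [← G.R.res_smul (a : A) (mem_O_of_mem_BS G I f.2)]
  rfl


/-! ### The inputs from (L2-a)/(L2-b) -/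

/-- **The inputs from (L2-a)/(L2-b)** at the levels `n ≥ N0`: the residue field of `A^S` is `k`,
`Λ(n∞)^S` has a finite `A^S`-spanning family with `k`-linearly independent reductions, and every
element of `L(n ∞bar)` lifts to `Λ(n∞)^S`. -/
structure FixedLatticeFacts (N0 : ℕ) : Prop where
  /-- the residue field of `A^S` is `k` -/
  residue_surj : ∀ c : k, ∃ a : I.fixedRing, G.R.π (a : A) = c
  /-- an orthonormal `A^S`-basis of `Λ(n∞)^S` -/
  basis : ∀ n, N0 ≤ n → ∃ (r : ℕ) (b : Fin r → F) (hb : ∀ i, b i ∈ LamS G I n),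
    LinearIndependent k (fun i => G.R.res ⟨b i, (hb i).1.2⟩) ∧
    ∀ f ∈ LamS G I n, ∃ c : Fin r → I.fixedRing, f = ∑ i, c i • b i
  /-- the lift lemma -/
  lift : ∀ n, N0 ≤ n → ∀ y ∈ riemannRochSpace (nOob G n),
    ∃ (f : F) (hf : f ∈ LamS G I n), G.R.res ⟨f, hf.1.2⟩ = y

/-! ### The filtrations of `B^S` and `Bbar` -/

/-- the filtration of `B^S` (levels below `N0` are identified with level `N0`). -/
def filtL (N0 n : ℕ) : Submodule I.fixedRing (BS G I) :=
  (LamS G I (max n N0)).comap (BS G I).val.toLinearMap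

/-- the filtration of `Bbar` (levels below `N0` are identified with level `N0`). -/
def filtLbar (N0 n : ℕ) : Submodule k (Bbar G) :=
  (riemannRochSpace (nOob G (max n N0))).comap (Bbar G).val.toLinearMap

theorem mem_filtL {N0 n : ℕ} {x : BS G I} :
    x ∈ filtL G I N0 n ↔ (x : F) ∈ LamS G I (max n N0) := Iff.rfl

theorem mem_filtLbar {N0 n : ℕ} {y : Bbar G} :
    y ∈ filtLbar G N0 n ↔ (y : κ) ∈ riemannRochSpace (nOob G (max n N0)) := Iff.rfl

theorem filtL_add {N0 j : ℕ} {x : BS G I} :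
    x ∈ filtL G I N0 (N0 + j) ↔ (x : F) ∈ LamS G I (N0 + j) := by
  rw [mem_filtL, max_eq_left (Nat.le_add_right N0 j)]

theorem filtLbar_add {N0 j : ℕ} {y : Bbar G} :
    y ∈ filtLbar G N0 (N0 + j) ↔ (y : κ) ∈ riemannRochSpace (nOob G (N0 + j)) := by
  rw [mem_filtLbar, max_eq_left (Nat.le_add_right N0 j)]

theorem filtL_mono (N0 : ℕ) : Monotone (filtL G I N0) := fun _ _ h _ hx =>
  LamS_mono G I (max_le_max h le_rfl) hx

theorem filtLbar_mono (N0 : ℕ) : Monotone (filtLbar G N0) := fun _ _ h _ hy =>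
  riemannRochSpace_mono (nOob_mono G (max_le_max h le_rfl)) hy

theorem exists_mem_filtL (N0 : ℕ) (x : BS G I) : ∃ n, x ∈ filtL G I N0 n := by
  obtain ⟨n, hn⟩ := x.2
  exact ⟨n, LamS_mono G I (le_max_left n N0) hn⟩

theorem exists_mem_filtLbar (N0 : ℕ) (y : Bbar G) : ∃ n, y ∈ filtLbar G N0 n := by
  obtain ⟨n, hn⟩ := y.2
  exact ⟨n, riemannRochSpace_mono (nOob_mono G (le_max_left n N0)) hn⟩

theorem resB_mem_filtLbar {N0 n : ℕ} {x : BS G I} (hx : x ∈ filtL G I N0 n) :
    resB G I x ∈ filtLbar G N0 n :=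
  res_mem_rrs_of_mem_LamS G I hx


/-! ### Finite generation and the kernel of the reduction -/

section Facts

variable {G I} {N0 : ℕ} (H : FixedLatticeFacts G I N0)

include H in
theorem πS_surjective : Function.Surjective (πS G I) := fun c => by
  obtain ⟨a, ha⟩ := H.residue_surj c
  exact ⟨a, ha⟩

/-- the reduction of an `A^S`-combination. -/
theorem res_sum_smul {r : ℕ} (b : Fin r → F) (hb : ∀ i, b i ∈ O) (c : Fin r → I.fixedRing)
    (hs : ∑ i, c i • b i ∈ O) :
    G.R.res ⟨∑ i, c i • b i, hs⟩ = ∑ i, G.R.π (c i : A) • G.R.res ⟨b i, hb i⟩ := by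
  have hmem : ∀ i, c i • b i ∈ O := fun i => G.R.smul_mem_O (c i : A) (hb i)
  rw [G.R.res_sum _ _ hmem hs]
  exact Finset.sum_congr rfl fun i _ => G.R.res_smul (c i : A) (hb i)

include H in
theorem filtL_fg (n : ℕ) : (filtL G I N0 n).FG := by
  obtain ⟨r, b, hb, -, hspan⟩ := H.basis (max n N0) (le_max_right n N0)
  let b' : Fin r → BS G I := fun i => ⟨b i, mem_BS_of_mem_LamS G I (hb i)⟩
  have heq : filtL G I N0 n = Submodule.span I.fixedRing (Set.range b') := by
    refine le_antisymm (fun x hx => ?_) (Submodule.span_le.mpr ?_)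
    · obtain ⟨c, hc⟩ := hspan (x : F) hx
      have : x = ∑ i, c i • b' i := by
        apply Subtype.ext
        rw [hc, AddSubmonoidClass.coe_finsetSum]
        rfl
      rw [this]
      exact Submodule.sum_mem _ fun i _ =>
        Submodule.smul_mem _ _ (Submodule.subset_span ⟨i, rfl⟩)
    · rintro _ ⟨i, rfl⟩
      exact hb i
  rw [heq]
  exact Submodule.fg_span (Set.finite_range _)

theorem mem_maximalIdeal_fixedRing [IsLocalRing I.fixedRing] {a : I.fixedRing}
    (ha : G.R.π (a : A) = 0) : a ∈ maximalIdeal I.fixedRing := by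
  rw [mem_maximalIdeal, mem_nonunits_iff]
  intro hu
  have hu' : IsUnit (a : A) := hu.map (Subring.subtype I.fixedRing)
  have h1 : (a : A) ∈ maximalIdeal A := (G.R.π_eq_zero_iff _).mp ha
  exact (mem_nonunits_iff.mp ((mem_maximalIdeal _).mp h1)) hu'

include H in
theorem filtL_ker_le [IsLocalRing I.fixedRing] (n : ℕ) (x : BS G I) (hx : x ∈ filtL G I N0 n)
    (h0 : resB G I x = 0) : x ∈ maximalIdeal I.fixedRing • filtL G I N0 n := by
  obtain ⟨r, b, hb, hli, hspan⟩ := H.basis (max n N0) (le_max_right n N0)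
  let b' : Fin r → BS G I := fun i => ⟨b i, mem_BS_of_mem_LamS G I (hb i)⟩
  obtain ⟨c, hc⟩ := hspan (x : F) hx
  have hx' : x = ∑ i, c i • b' i := by
    apply Subtype.ext
    rw [hc, AddSubmonoidClass.coe_finsetSum]
    rfl
  have hs : ∑ i, c i • b i ∈ O := hc ▸ mem_O_of_mem_BS G I x.2
  have hres : ∑ i, G.R.π (c i : A) • G.R.res ⟨b i, (hb i).1.2⟩ = 0 := by
    rw [← res_sum_smul b (fun i => (hb i).1.2) c hs]
    have h1 : G.R.res ⟨(x : F), mem_O_of_mem_BS G I x.2⟩ = 0 := congrArg Subtype.val h0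
    rw [← h1]
    congr 1
    exact Subtype.ext hc.symm
  have hc0 : ∀ i, G.R.π (c i : A) = 0 := fun i =>
    (Fintype.linearIndependent_iff.mp hli) (fun i => G.R.π (c i : A)) hres i
  rw [hx']
  refine Submodule.sum_mem _ fun i _ => Submodule.smul_mem_smul
    (mem_maximalIdeal_fixedRing (hc0 i)) ?_
  exact hb i

include H in
/-- the reductions of the orthonormal basis span `L(n ∞bar)`. -/
theorem rrs_le_span_res {n : ℕ} (hn : N0 ≤ n) {r : ℕ} (b : Fin r → F)
    (hb : ∀ i, b i ∈ LamS G I n)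
    (hspan : ∀ f ∈ LamS G I n, ∃ c : Fin r → I.fixedRing, f = ∑ i, c i • b i) :
    riemannRochSpace (nOob G n) ≤
      Submodule.span k (Set.range fun i => G.R.res ⟨b i, (hb i).1.2⟩) := by
  intro y hy
  obtain ⟨f, hf, rfl⟩ := H.lift n hn y hy
  obtain ⟨c, hc⟩ := hspan f hf
  have hs : ∑ i, c i • b i ∈ O := hc ▸ hf.1.2
  have : G.R.res ⟨f, hf.1.2⟩ = ∑ i, G.R.π (c i : A) • G.R.res ⟨b i, (hb i).1.2⟩ := by
    rw [← res_sum_smul b (fun i => (hb i).1.2) c hs]
    congr 1
    exact Subtype.ext hc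
  rw [this]
  exact Submodule.sum_mem _ fun i _ => Submodule.smul_mem _ _ (Submodule.subset_span ⟨i, rfl⟩)

end Facts

/-! ### The rank-one steps on the special fibre -/

section RR

variable [HasPrincipalDivisors k κ] [∀ v : Place k κ, v.FiniteResidue]

theorem finrank_rrs_nOob {n : ℕ} (hn : 2 * (G.g : ℤ) - 1 ≤ n) :
    (finrank k (riemannRochSpace (nOob G n)) : ℤ) = n + 1 - G.g := by
  haveI := G.nonempty_placeκ
  have := G.rrκ.finrank_eq (D := nOob G n) (by rw [degree_nOob]; exact hn)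
  rw [degree_nOob] at this
  exact this

/-- for `n ≥ 2g - 1`, `L((n+1) ∞bar) = L(n ∞bar) ⊕ k y`. -/
theorem exists_step {n : ℕ} (hn : 2 * (G.g : ℤ) - 1 ≤ n) :
    ∃ y ∈ riemannRochSpace (nOob G (n + 1)), y ∉ riemannRochSpace (nOob G n) ∧
      riemannRochSpace (nOob G (n + 1)) ≤
        riemannRochSpace (nOob G n) ⊔ Submodule.span k {y} := by
  have h0 := finrank_rrs_nOob G hn
  have h1 := finrank_rrs_nOob G (n := n + 1) (by push_cast; omega)
  have hle : riemannRochSpace (nOob G n) ≤ riemannRochSpace (nOob G (n + 1)) :=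
    riemannRochSpace_mono (nOob_mono G (Nat.le_succ n))
  have hpos : 0 < finrank k (riemannRochSpace (nOob G (n + 1))) := by
    have : (0 : ℤ) < finrank k (riemannRochSpace (nOob G (n + 1))) := by
      rw [h1]; push_cast; omega
    exact_mod_cast this
  haveI : FiniteDimensional k (riemannRochSpace (nOob G (n + 1))) :=
    Module.finite_of_finrank_pos hpos
  have hsucc : finrank k (riemannRochSpace (nOob G (n + 1)))
      = finrank k (riemannRochSpace (nOob G n)) + 1 := by
    have : (finrank k (riemannRochSpace (nOob G (n + 1))) : ℤ)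
        = finrank k (riemannRochSpace (nOob G n)) + 1 := by
      rw [h0, h1]; push_cast; ring
    exact_mod_cast this
  have hex : ∃ y ∈ riemannRochSpace (nOob G (n + 1)), y ∉ riemannRochSpace (nOob G n) := by
    by_contra hcon
    push Not at hcon
    have heq : riemannRochSpace (nOob G n) = riemannRochSpace (nOob G (n + 1)) :=
      le_antisymm hle hcon
    rw [← heq] at hsucc
    omega
  obtain ⟨y, hy, hyn⟩ := hex
  refine ⟨y, hy, hyn, ?_⟩
  have hW : riemannRochSpace (nOob G n) ⊔ Submodule.span k {y}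
      ≤ riemannRochSpace (nOob G (n + 1)) :=
    sup_le hle ((Submodule.span_singleton_le_iff_mem _ _).mpr hy)
  have hlt : riemannRochSpace (nOob G n) < riemannRochSpace (nOob G n) ⊔ Submodule.span k {y} := by
    refine lt_of_le_of_ne le_sup_left fun heq => hyn ?_
    rw [heq]
    exact Submodule.mem_sup_right (Submodule.mem_span_singleton_self y)
  haveI : FiniteDimensional k
      (riemannRochSpace (nOob G n) ⊔ Submodule.span k {y} : Submodule k κ) :=
    Submodule.finiteDimensional_of_le hW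
  have hfin := Submodule.finrank_lt_finrank_of_lt hlt
  have := Submodule.eq_of_le_of_finrank_le hW (by omega)
  exact this.ge

end RR


/-! ### The frame datum -/

section Main

variable [HasPrincipalDivisors k κ] [∀ v : Place k κ, v.FiniteResidue]
variable [ValuationRing I.fixedRing]
variable {G I} {N0 : ℕ}

/-- **The filtered reduction datum of `B^S`** (`FrameAlg.FiltRed`), with all identifications. -/
theorem exists_filtRed (H : FixedLatticeFacts G I N0) (hN0 : 2 * (G.g : ℤ) - 1 ≤ N0) :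
    ∃ D : FiltRed (πS G I) (BS G I) (Bbar G),
      (∀ x, D.red x = resB G I x) ∧ (∀ n, D.L n = filtL G I N0 n) ∧
      (∀ n, D.Lbar n = filtLbar G N0 n) ∧ D.N0 = N0 ∧ (D.r0 : ℤ) = N0 + 1 - G.g := by
  obtain ⟨r, b, hb, hli, hspan⟩ := H.basis N0 le_rfl
  -- the steps
  have hstep : ∀ j : ℕ, ∃ y ∈ riemannRochSpace (nOob G (N0 + j + 1)),
      y ∉ riemannRochSpace (nOob G (N0 + j)) ∧
      riemannRochSpace (nOob G (N0 + j + 1)) ≤
        riemannRochSpace (nOob G (N0 + j)) ⊔ Submodule.span k {y} := fun j =>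
    exists_step G (n := N0 + j) (by push_cast; omega)
  choose y hy hyn hysup using hstep
  have hlift : ∀ j : ℕ, ∃ (f : F) (hf : f ∈ LamS G I (N0 + j + 1)),
      G.R.res ⟨f, hf.1.2⟩ = y j := fun j => H.lift (N0 + j + 1) (by omega) (y j) (hy j)
  choose f hf hfy using hlift
  have hb0 : ∀ i, b i ∈ LamS G I (max N0 N0) := fun i => by rw [max_self]; exact hb i
  -- the rank
  have hr : (r : ℤ) = N0 + 1 - G.g := by
    have h1 : Submodule.span k (Set.range fun i => G.R.res ⟨b i, (hb i).1.2⟩)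
        = riemannRochSpace (nOob G N0) := by
      refine le_antisymm (Submodule.span_le.mpr ?_) (rrs_le_span_res H le_rfl b hb hspan)
      rintro _ ⟨i, rfl⟩
      exact res_mem_rrs_of_mem_LamS G I (hb i)
    have h2 := finrank_span_eq_card hli
    rw [h1, Fintype.card_fin] at h2
    rw [← h2]
    exact finrank_rrs_nOob G hN0
  refine ⟨{
    π_surj := πS_surjective H
    red := (resB G I : BS G I →+ Bbar G)
    red_smul := resB_smul G I
    L := filtL G I N0
    Lbar := filtLbar G N0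
    L_mono := filtL_mono G I N0
    Lbar_mono := filtLbar_mono G N0
    exists_mem_L := exists_mem_filtL G I N0
    exists_mem_Lbar := exists_mem_filtLbar G N0
    red_mem := fun n x hx => resB_mem_filtLbar G I hx
    fg := filtL_fg H
    ker_le := fun n x hx h0 => filtL_ker_le H n x hx h0
    N0 := N0
    r0 := r
    e0 := fun i => ⟨b i, mem_BS_of_mem_LamS G I (hb i)⟩
    e0_mem := hb0
    e0bar_li := ?_
    e0bar_span := ?_
    f := fun j => ⟨f j, mem_BS_of_mem_LamS G I (hf j)⟩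
    f_mem := fun j => ?_
    f_not_mem := fun j => ?_
    step := fun j => ?_ }, fun _ => rfl, fun _ => rfl, fun _ => rfl, rfl, hr⟩
  · -- independence of the reduced base family
    refine LinearIndependent.of_comp (Bbar G).val.toLinearMap ?_
    exact hli
  · -- the reduced base family spans `Lbar N0`
    intro y' hy'
    have h1 : (y' : κ) ∈ riemannRochSpace (nOob G N0) := by
      have := (mem_filtLbar G (N0 := N0) (n := N0)).mp hy'
      rwa [max_self] at this
    have h2 := rrs_le_span_res H le_rfl b hb hspan h1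
    obtain ⟨c, hc⟩ := (Submodule.mem_span_range_iff_exists_fun k).mp h2
    have : y' = ∑ i, c i • (resB G I ⟨b i, mem_BS_of_mem_LamS G I (hb i)⟩) := by
      apply Subtype.ext
      rw [← hc, AddSubmonoidClass.coe_finsetSum]
      rfl
    rw [this]
    exact Submodule.sum_mem _ fun i _ =>
      Submodule.smul_mem _ _ (Submodule.subset_span ⟨i, rfl⟩)
  · exact (filtL_add G I (N0 := N0) (j := j + 1)).mpr (hf j)
  · intro hmem
    have := (filtLbar_add G (N0 := N0) (j := j)).mp hmem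
    apply hyn j
    rw [← hfy j]
    exact this
  · intro y' hy'
    have h1 : (y' : κ) ∈ riemannRochSpace (nOob G (N0 + j + 1)) :=
      (filtLbar_add G (N0 := N0) (j := j + 1)).mp hy'
    obtain ⟨a, ha, z, hz, haz⟩ := Submodule.mem_sup.mp (hysup j h1)
    obtain ⟨c, rfl⟩ := Submodule.mem_span_singleton.mp hz
    have haB : a ∈ Bbar G := ⟨N0 + j, ha⟩
    have : y' = (⟨a, haB⟩ : Bbar G)
        + c • (resB G I ⟨f j, mem_BS_of_mem_LamS G I (hf j)⟩) := by
      apply Subtype.ext
      rw [← haz, ← hfy j]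
      rfl
    rw [this]
    refine Submodule.add_mem _ (Submodule.mem_sup_left ?_)
      (Submodule.mem_sup_right (Submodule.smul_mem _ _ (Submodule.mem_span_singleton_self _)))
    exact (filtLbar_add G (N0 := N0) (j := j)).mpr ha

/-- the frame datum. -/
def frameData (H : FixedLatticeFacts G I N0) (hN0 : 2 * (G.g : ℤ) - 1 ≤ N0) :
    FiltRed (πS G I) (BS G I) (Bbar G) :=
  (exists_filtRed H hN0).choose

theorem frameData_red (H : FixedLatticeFacts G I N0) (hN0 : 2 * (G.g : ℤ) - 1 ≤ N0)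
    (x : BS G I) : (frameData H hN0).red x = resB G I x :=
  (exists_filtRed H hN0).choose_spec.1 x

theorem frameData_L (H : FixedLatticeFacts G I N0) (hN0 : 2 * (G.g : ℤ) - 1 ≤ N0) (n : ℕ) :
    (frameData H hN0).L n = filtL G I N0 n :=
  (exists_filtRed H hN0).choose_spec.2.1 n

theorem frameData_Lbar (H : FixedLatticeFacts G I N0) (hN0 : 2 * (G.g : ℤ) - 1 ≤ N0) (n : ℕ) :
    (frameData H hN0).Lbar n = filtLbar G N0 n :=
  (exists_filtRed H hN0).choose_spec.2.2.1 n

theorem frameData_N0 (H : FixedLatticeFacts G I N0) (hN0 : 2 * (G.g : ℤ) - 1 ≤ N0) :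
    (frameData H hN0).N0 = N0 :=
  (exists_filtRed H hN0).choose_spec.2.2.2.1

theorem frameData_r0 (H : FixedLatticeFacts G I N0) (hN0 : 2 * (G.g : ℤ) - 1 ≤ N0) :
    ((frameData H hN0).r0 : ℤ) = N0 + 1 - G.g :=
  (exists_filtRed H hN0).choose_spec.2.2.2.2

/-- membership in the levels of the frame datum. -/
theorem mem_frameData_L (H : FixedLatticeFacts G I N0) (hN0 : 2 * (G.g : ℤ) - 1 ≤ N0) (j : ℕ)
    (x : BS G I) :
    x ∈ (frameData H hN0).L ((frameData H hN0).N0 + j) ↔ (x : F) ∈ LamS G I (N0 + j) := by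
  rw [frameData_L, frameData_N0]
  exact filtL_add G I

theorem mem_frameData_Lbar (H : FixedLatticeFacts G I N0) (hN0 : 2 * (G.g : ℤ) - 1 ≤ N0) (j : ℕ)
    (y : Bbar G) :
    y ∈ (frameData H hN0).Lbar ((frameData H hN0).N0 + j) ↔
      (y : κ) ∈ riemannRochSpace (nOob G (N0 + j)) := by
  rw [frameData_Lbar, frameData_N0]
  exact filtLbar_add G

instance instNoZeroSMulDivisorsBS : NoZeroSMulDivisors I.fixedRing (BS G I) := by
  refine ⟨fun {a x} h => ?_⟩
  have h1 : ((a • x : BS G I) : F) = 0 := by rw [h]; rfl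
  have h2 : ((a • x : BS G I) : F) = algebraMap K F ((a : A) : K) * (x : F) := fixedRing_smul_eq G I a x
  rw [h2, mul_eq_zero] at h1
  rcases h1 with h1 | h1
  · left
    have : ((a : A) : K) = 0 := (algebraMap K F).injective (by rw [h1, map_zero])
    exact Subtype.ext (Subtype.ext this)
  · right
    exact Subtype.ext h1

end Main

end Fermat.Agent.S19x.Geo.Frame
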