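import Fermat.Agent.S19x.Geo.Frame

/-!
# P-S19, BLOCK A, leaf (L2-c), part 3 (helper27): the `A`-linear extensions of the frame coordinates

Asked by (L6) (helper13 note 1849 (4), helper70, helper62): the true solution of the residual system
has coordinates in `A`, not in `A^S`, so the coordinate functionals must extend `A`-linearly to
`B_A = ⋃ₘ Λ(m∞)` (there is NO nonzero `A`-linear map `F → A`).

* abstract: `coord_map_of_frame` — two `FrameAlg.FiltRed` data over `R → R'`, `M → M'` with the
  same frame have compatible coordinates `D'.coord i (ι x) = j (D.coord i x)`;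
* `BA G : Subalgebra A F` = `⋃ₘ Λ(m∞)`, `ιBA : B^S →+* B_A`, `resBA : B_A →+* Bbar`;
* `frameDataA H hN0 : FiltRed G.R.π (BA G) (Bbar G)` with the SAME frame as `frameData H hN0`
  (`frameA_eq`), levels `Λ((N0+j)∞)` (`mem_frameDataA_L`);
* `coordA H hN0 w : BA G →ₗ[A] A` with `coordA_ι : coordA w (ιBA b) = (coord w b : A)`,
  `coordBar_resBA : coordBar w (resBA x) = π (coordA w x)`, `eq_zero_of_coordA_eq_zero`.
-/

set_option autoImplicit false
set_option linter.unusedSectionVars false
set_option linter.style.haveILetI false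

noncomputable section

namespace Fermat.Agent.S19x.Geo.FrameA

open AlgebraicCurve IsLocalRing Module
open Fermat.Agent.Gateway.C0 Fermat.Agent.Gateway.Red Fermat.Agent.S27x.Spec.Inj
  Fermat.Agent.S27x.Spec.Disc Fermat.Agent.S19x.Geo Fermat.Agent.S19x.Geo.Lattice
  Fermat.Agent.S19x.Geo.FrameAlg Fermat.Agent.S19x.Geo.Frame

/-! ### Abstract: change of base ring with the same frame -/

section Abstract

variable {R : Type*} [CommRing R] [IsDomain R] [ValuationRing R]
  {R' : Type*} [CommRing R'] [IsDomain R'] [ValuationRing R']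
  {k : Type*} [Field k] {k' : Type*} [Field k'] {π : R →+* k} {π' : R' →+* k'}
  {M : Type*} [AddCommGroup M] [Module R M] [NoZeroSMulDivisors R M]
  {M' : Type*} [AddCommGroup M'] [Module R' M'] [NoZeroSMulDivisors R' M']
  {Mbar : Type*} [AddCommGroup Mbar] [Module k Mbar]
  {Mbar' : Type*} [AddCommGroup Mbar'] [Module k' Mbar']

/-- Two filtered reduction data with the same frame (along `j : R → R'`, `ι : M → M'`) have
compatible coordinates. -/
theorem repr_map_of_frame (D : FiltRed π M Mbar) (D' : FiltRed π' M' Mbar') (j : R →+* R')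
    (ι : M →+ M') (hι : ∀ (a : R) (x : M), ι (a • x) = j a • ι x)
    (hframe : ∀ i, D'.frame i = ι (D.frame i)) (x : M) :
    D'.frameBasis.repr (ι x) = (D.frameBasis.repr x).mapRange j (map_zero j) := by
  classical
  have hx : x = ∑ i ∈ (D.frameBasis.repr x).support, D.frameBasis.repr x i • D.frame i := by
    conv_lhs => rw [← D.frameBasis.linearCombination_repr x]
    rw [Finsupp.linearCombination_apply, Finsupp.sum]
    exact Finset.sum_congr rfl fun i _ => by rw [D.frameBasis_apply]
  have h1 : ι x = Finsupp.linearCombination R' D'.frameBasis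
      ((D.frameBasis.repr x).mapRange j (map_zero j)) := by
    rw [Finsupp.linearCombination_apply, Finsupp.sum_mapRange_index (by intro i; simp)]
    conv_lhs => rw [hx]
    rw [map_sum, Finsupp.sum]
    exact Finset.sum_congr rfl fun i _ => by rw [hι, D'.frameBasis_apply, hframe]
  rw [h1, Module.Basis.repr_linearCombination]

theorem coord_map_of_frame (D : FiltRed π M Mbar) (D' : FiltRed π' M' Mbar') (j : R →+* R')
    (ι : M →+ M') (hι : ∀ (a : R) (x : M), ι (a • x) = j a • ι x)
    (hframe : ∀ i, D'.frame i = ι (D.frame i)) (i : ℕ) (x : M) :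
    D'.coord i (ι x) = j (D.coord i x) := by
  rw [FiltRed.coord, FiltRed.coord, Module.Basis.coord_apply, Module.Basis.coord_apply,
    repr_map_of_frame D D' j ι hι hframe]
  rfl

end Abstract

universe u v w z

variable {K : Type u} [Field K] {A : ValuationSubring K}
  {F : Type v} [Field F] [Algebra K F] {O : ValuationSubring F}
  {k : Type w} {κ : Type z} [Field k] [Field κ] [Algebra k κ]
  (G : GeoSetting A O k κ) (I : InertiaData G)

/-! ### The ring `B_A = ⋃ₘ Λ(m∞)` -/

/-- the ring `B_A = ⋃ₙ Λ(n∞)`, an `A`-subalgebra of `F`. -/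
def BA : Subalgebra A F where
  carrier := {f | ∃ n, f ∈ Lam G.R (nOo G n)}
  mul_mem' := by
    rintro f g ⟨m, hf⟩ ⟨n, hg⟩
    refine ⟨m + n, ⟨?_, mul_mem hf.2 hg.2⟩⟩
    rw [nOo_add]
    exact mul_mem_rrs hf.1 hg.1
  add_mem' := by
    rintro f g ⟨m, hf⟩ ⟨n, hg⟩
    exact ⟨max m n, (Lam G.R _).add_mem (Lam_mono G.R (nOo_mono G (le_max_left m n)) hf)
      (Lam_mono G.R (nOo_mono G (le_max_right m n)) hg)⟩
  algebraMap_mem' := fun a => ⟨0, by
    have : algebraMap A F a = a • (1 : F) := by rw [Algebra.smul_def, mul_one]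
    rw [this]
    refine (Lam G.R _).smul_mem a ⟨?_, O.one_mem⟩
    rw [nOo_zero]
    exact one_mem_rrs_zero⟩

theorem mem_BA {f : F} : f ∈ BA G ↔ ∃ n, f ∈ Lam G.R (nOo G n) := Iff.rfl

theorem mem_O_of_mem_BA {f : F} (hf : f ∈ BA G) : f ∈ O := by
  obtain ⟨n, hn⟩ := hf
  exact hn.2

theorem mem_BA_of_mem_BS {f : F} (hf : f ∈ BS G I) : f ∈ BA G := by
  obtain ⟨n, hn⟩ := hf
  exact ⟨n, hn.1⟩

/-- the inclusion `B^S → B_A`. -/
def ιBA : BS G I →+* BA G where
  toFun f := ⟨(f : F), mem_BA_of_mem_BS G I f.2⟩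
  map_one' := rfl
  map_mul' _ _ := rfl
  map_zero' := rfl
  map_add' _ _ := rfl

@[simp] theorem coe_ιBA (f : BS G I) : ((ιBA G I f : BA G) : F) = (f : F) := rfl

theorem ιBA_smul (a : I.fixedRing) (f : BS G I) : ιBA G I (a • f) = (a : A) • ιBA G I f := rfl

theorem ιBA_injective : Function.Injective (ιBA G I) := fun a b h => by
  have h1 : ((ιBA G I a : BA G) : F) = ((ιBA G I b : BA G) : F) := by rw [h]
  exact Subtype.ext h1

variable [HasPrincipalDivisors K F]

/-- the reduction `B_A → Bbar`. -/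
def resBA : BA G →+* Bbar G where
  toFun f := ⟨G.R.res ⟨(f : F), mem_O_of_mem_BA G f.2⟩, by
    obtain ⟨n, hn⟩ := f.2
    refine ⟨n, ?_⟩
    have := res_mem_rrs G.spCompat hn.2 hn.1
    rwa [← spDiv_nOo G n]⟩
  map_one' := Subtype.ext (map_one G.R.res)
  map_mul' f g := Subtype.ext (map_mul G.R.res ⟨(f : F), mem_O_of_mem_BA G f.2⟩
    ⟨(g : F), mem_O_of_mem_BA G g.2⟩)
  map_zero' := Subtype.ext (map_zero G.R.res)
  map_add' f g := Subtype.ext (map_add G.R.res ⟨(f : F), mem_O_of_mem_BA G f.2⟩
    ⟨(g : F), mem_O_of_mem_BA G g.2⟩)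

@[simp] theorem coe_resBA (f : BA G) :
    ((resBA G f : Bbar G) : κ) = G.R.res ⟨(f : F), mem_O_of_mem_BA G f.2⟩ := rfl

theorem resBA_ιBA (f : BS G I) : resBA G (ιBA G I f) = resB G I f := rfl

theorem resBA_smul (a : A) (f : BA G) : resBA G (a • f) = G.R.π a • resBA G f := by
  apply Subtype.ext
  show G.R.res ⟨((a • f : BA G) : F), _⟩ = G.R.π a • G.R.res ⟨(f : F), _⟩
  rw [← G.R.res_smul a (mem_O_of_mem_BA G f.2)]
  rfl

/-- the filtration of `B_A`. -/
def filtLA (N0 n : ℕ) : Submodule A (BA G) :=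
  (Lam G.R (nOo G (max n N0))).comap (BA G).val.toLinearMap

theorem mem_filtLA {N0 n : ℕ} {x : BA G} :
    x ∈ filtLA G N0 n ↔ (x : F) ∈ Lam G.R (nOo G (max n N0)) := Iff.rfl

theorem filtLA_mono (N0 : ℕ) : Monotone (filtLA G N0) := fun _ _ h _ hx =>
  Lam_mono G.R (nOo_mono G (max_le_max h le_rfl)) hx

theorem exists_mem_filtLA (N0 : ℕ) (x : BA G) : ∃ n, x ∈ filtLA G N0 n := by
  obtain ⟨n, hn⟩ := x.2
  exact ⟨n, Lam_mono G.R (nOo_mono G (le_max_left n N0)) hn⟩

theorem filtLA_ker_le (N0 n : ℕ) (x : BA G) (hx : x ∈ filtLA G N0 n) (h0 : resBA G x = 0) :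
    x ∈ maximalIdeal A • filtLA G N0 n := by
  have h1 : resLam G.R G.spCompat (nOo G (max n N0)) ⟨(x : F), hx⟩ = 0 := by
    apply Subtype.ext
    have h2 : ((resBA G x : Bbar G) : κ) = ((0 : Bbar G) : κ) := by rw [h0]
    exact h2
  obtain ⟨ϖ, hϖ, y, hy⟩ := (resLam_eq_zero_iff G.R G.spCompat _ _).mp h1
  have hyB : (y : F) ∈ BA G := ⟨max n N0, y.2⟩
  have hxy : x = ϖ • (⟨(y : F), hyB⟩ : BA G) := by
    apply Subtype.ext
    have h2 : ((⟨(x : F), hx⟩ : Lam G.R (nOo G (max n N0))) : F) = ((ϖ • y : Lam G.R _) : F) := by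
      rw [hy]
    exact h2
  rw [hxy]
  exact Submodule.smul_mem_smul hϖ y.2

theorem filtLA_fg [∀ v : Place K F, v.FiniteResidue] (N0 n : ℕ) : (filtLA G N0 n).FG := by
  haveI := G.nonempty_placeF
  have hfg : (Lam G.R (nOo G (max n N0))).FG := G.cart _ inferInstance
  refine Submodule.fg_of_fg_map_injective (BA G).val.toLinearMap Subtype.val_injective ?_
  have : (filtLA G N0 n).map (BA G).val.toLinearMap = Lam G.R (nOo G (max n N0)) := by
    refine le_antisymm ?_ fun y hy => ?_
    · rintro _ ⟨x, hx, rfl⟩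
      exact hx
    · exact ⟨⟨y, ⟨max n N0, hy⟩⟩, hy, rfl⟩
  rw [this]
  exact hfg

instance instNoZeroSMulDivisorsBA : NoZeroSMulDivisors A (BA G) := by
  refine ⟨fun {a x} h => ?_⟩
  have h1 : ((a • x : BA G) : F) = 0 := by rw [h]; rfl
  have h2 : ((a • x : BA G) : F) = algebraMap K F (a : K) * (x : F) := by
    show (a : K) • (x : F) = _
    rw [Algebra.smul_def]
  rw [h2, mul_eq_zero] at h1
  rcases h1 with h1 | h1
  · left
    have : (a : K) = 0 := (algebraMap K F).injective (by rw [h1, map_zero])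
    exact Subtype.ext this
  · right
    exact Subtype.ext h1


/-! ### The frame datum over `A` -/

section Main

variable [HasPrincipalDivisors k κ] [∀ v : Place k κ, v.FiniteResidue]
  [∀ v : Place K F, v.FiniteResidue] [ValuationRing I.fixedRing]
variable {G I} {N0 : ℕ} (H : FixedLatticeFacts G I N0) (hN0 : 2 * (G.g : ℤ) - 1 ≤ N0)

theorem frameData_e0_mem (i : Fin (frameData H hN0).r0) :
    ((frameData H hN0).e0 i : F) ∈ LamS G I (max (frameData H hN0).N0 N0) := by
  have := (frameData H hN0).e0_mem i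
  rw [frameData_L] at this
  exact this

theorem frameData_f_mem (j : ℕ) :
    ((frameData H hN0).f j : F) ∈ LamS G I (max ((frameData H hN0).N0 + j + 1) N0) := by
  have := (frameData H hN0).f_mem j
  rw [frameData_L] at this
  exact this

/-- **The filtered reduction datum of `B_A`**, with the same frame as `frameData H hN0`. -/
def frameDataA : FiltRed G.R.π (BA G) (Bbar G) where
  π_surj := G.R.π_surj
  red := (resBA G : BA G →+ Bbar G)
  red_smul := resBA_smul G
  L := filtLA G N0
  Lbar := (frameData H hN0).Lbar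
  L_mono := filtLA_mono G N0
  Lbar_mono := (frameData H hN0).Lbar_mono
  exists_mem_L := exists_mem_filtLA G N0
  exists_mem_Lbar := (frameData H hN0).exists_mem_Lbar
  red_mem := fun n x hx => by
    rw [frameData_Lbar]
    show ((resBA G x : Bbar G) : κ) ∈ riemannRochSpace (nOob G (max n N0))
    have := res_mem_rrs G.spCompat hx.2 hx.1
    rwa [← spDiv_nOo G (max n N0)]
  fg := filtLA_fg G N0
  ker_le := filtLA_ker_le G N0
  N0 := (frameData H hN0).N0
  r0 := (frameData H hN0).r0
  e0 := fun i => ιBA G I ((frameData H hN0).e0 i)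
  e0_mem := fun i => (frameData_e0_mem H hN0 i).1
  e0bar_li := by
    have := (frameData H hN0).e0bar_li
    simp only [frameData_red] at this
    exact this
  e0bar_span := by
    have := (frameData H hN0).e0bar_span
    simp only [frameData_red] at this
    exact this
  f := fun j => ιBA G I ((frameData H hN0).f j)
  f_mem := fun j => (frameData_f_mem H hN0 j).1
  f_not_mem := fun j => by
    have := (frameData H hN0).f_not_mem j
    simp only [frameData_red] at this
    exact this
  step := fun j => by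
    have := (frameData H hN0).step j
    simp only [frameData_red] at this
    exact this

theorem frameDataA_red (x : BA G) : (frameDataA H hN0).red x = resBA G x := rfl

theorem frameDataA_N0 : (frameDataA H hN0).N0 = N0 := frameData_N0 H hN0

theorem frameDataA_r0 : (frameDataA H hN0).r0 = (frameData H hN0).r0 := rfl

theorem frameDataA_Lbar (n : ℕ) : (frameDataA H hN0).Lbar n = (frameData H hN0).Lbar n := rfl

/-- the two frames agree. -/
theorem frameA_eq (i : ℕ) :
    (frameDataA H hN0).frame i = ιBA G I ((frameData H hN0).frame i) := by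
  unfold FiltRed.frame
  by_cases h : i < (frameData H hN0).r0
  · rw [dif_pos h, dif_pos (show i < (frameDataA H hN0).r0 from h)]
    rfl
  · rw [dif_neg h, dif_neg (show ¬ i < (frameDataA H hN0).r0 from h)]
    rfl

theorem mem_frameDataA_L (j : ℕ) (x : BA G) :
    x ∈ (frameDataA H hN0).L ((frameDataA H hN0).N0 + j) ↔ (x : F) ∈ Lam G.R (nOo G (N0 + j)) := by
  rw [frameDataA_N0]
  show (x : F) ∈ Lam G.R (nOo G (max (N0 + j) N0)) ↔ _
  rw [max_eq_left (Nat.le_add_right N0 j)]

/-- the `A`-linear extension of the `w`-th frame coordinate. -/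
def coordA (w : ℕ) : BA G →ₗ[A] A := (frameDataA H hN0).coord w

/-- **Compatibility** of the `A`-linear extension with the `A^S`-coordinate. -/
theorem coordA_ι (w : ℕ) (b : BS G I) :
    coordA H hN0 w (ιBA G I b) = (((frameData H hN0).coord w b : I.fixedRing) : A) :=
  coord_map_of_frame (frameData H hN0) (frameDataA H hN0) (Subring.subtype I.fixedRing)
    (ιBA G I : BS G I →+ BA G) (fun a x => ιBA_smul G I a x) (frameA_eq H hN0) w b

theorem coordA_frame (w i : ℕ) :
    coordA H hN0 w (ιBA G I ((frameData H hN0).frame i)) = if i = w then 1 else 0 := by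
  rw [← frameA_eq, coordA, FiltRed.coord_frame]

/-- the reduced frames agree. -/
theorem frameBarA_eq (i : ℕ) : (frameDataA H hN0).frameBar i = (frameData H hN0).frameBar i := by
  show resBA G ((frameDataA H hN0).frame i) = (frameData H hN0).red ((frameData H hN0).frame i)
  rw [frameA_eq, resBA_ιBA, frameData_red]

theorem coordBarA_eq (w : ℕ) : (frameDataA H hN0).coordBar w = (frameData H hN0).coordBar w := by
  have hb : (frameDataA H hN0).frameBarBasis = (frameData H hN0).frameBarBasis := by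
    apply Module.Basis.eq_of_apply_eq
    intro i
    rw [FiltRed.frameBarBasis_apply, FiltRed.frameBarBasis_apply, frameBarA_eq]
  rw [FiltRed.coordBar, FiltRed.coordBar, hb]

/-- reduction of the `A`-coordinates. -/
theorem coordBar_resBA (w : ℕ) (x : BA G) :
    (frameData H hN0).coordBar w (resBA G x) = G.R.π (coordA H hN0 w x) := by
  rw [← coordBarA_eq, ← frameDataA_red H hN0 x]
  exact (frameDataA H hN0).coordBar_red w x

/-- the first `r0 + j` `A`-coordinates separate the points of `Λ((N0+j)∞)`. -/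
theorem eq_zero_of_coordA_eq_zero {j : ℕ} {x : BA G} (hx : (x : F) ∈ Lam G.R (nOo G (N0 + j)))
    (h : ∀ w, w < (frameData H hN0).r0 + j → coordA H hN0 w x = 0) : x = 0 :=
  (frameDataA H hN0).eq_zero_of_coord_eq_zero ((mem_frameDataA_L H hN0 j x).mpr hx) h

theorem coordA_eq_zero_of_mem {j : ℕ} {x : BA G} (hx : (x : F) ∈ Lam G.R (nOo G (N0 + j)))
    {w : ℕ} (hw : (frameData H hN0).r0 + j ≤ w) : coordA H hN0 w x = 0 :=
  (frameDataA H hN0).coord_eq_zero_of_mem ((mem_frameDataA_L H hN0 j x).mpr hx) hw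

end Main

end Fermat.Agent.S19x.Geo.FrameA
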