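import Fermat.Agent.Gateway.GoodRed.GaussBar
import Fermat.Agent.Gateway.ES.CoeffAut
import Fermat.Prelude.Def_ModularCurve_ArithmeticGalois

/-!
# P-S19, BLOCK A, leaf (L1) support: Galois stability of the Gauss ring (helper29)

For `σ : L ≃ₐ[ℚ] L` preserving the valuation subring `A` (`σA : A →+* A` with `↑(σA a) = σ a`) and
inducing `τ` on `k` (`π (σA a) = τ (π a)`), the coefficientwise action of `σ` on `L((q))`

* preserves the Gauss ring `Red.gaussRing A π` (`coeffMap_mem_gaussRing`), and
* commutes with the reduction: `gaussRed (σ y) = coeffMap τ (gaussRed y)` (`gaussRed_coeffMap`).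

Consequently, for the modular function field `FBar L N` (`ℓ ∤ N`), the Prelude's
`arithmeticGalois (modularFunctionFieldFull N) σ` preserves the Gauss valuation ring `OvVal` and
`resFk (σ • f) = coeffGaloisC k N τ • resFk f` (`smul_mem_OvVal`, `resFk_smul`).  For `τ = 1`
(inertia) this is `resFk (σ • f) = resFk f` (`resFk_smul_of_eq_one`); the specialisation to
`π = residue A`, `σ ∈ A.inertiaSubgroupIn ℚ` is `smul_mem_OvVal_of_mem_decomposition`,
`resFk_inertia_smul`.

These are the fields `smul_mem`, `res_smul` (and `base_mem`) of `Geo.InertiaData` at a good level.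
-/

set_option autoImplicit false
set_option linter.unusedSectionVars false

noncomputable section

namespace Fermat.Agent.S19x.Geo.GaussGalois

open ModularCurve AlgebraicCurve IntermediateField
open Fermat.Agent.Gateway.Red Fermat.Agent.Gateway.GoodRed Fermat.Agent.Gateway.ES

section Abstract

variable {L : Type*} [Field L] (A : ValuationSubring L) {k : Type*} [Field k] (π : A →+* k)
  (σ : L →+* L) (σA : A →+* A) (hσA : ∀ a : A, ((σA a : A) : L) = σ a)
  (τ : k →+* k) (hτ : ∀ a : A, π (σA a) = τ (π a))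

/-- `coeffMap` of an injective ring hom is injective -/
theorem coeffMap_inj {R S : Type*} [CommRing R] [CommRing S] (f : R →+* S)
    (hf : Function.Injective f) : Function.Injective (coeffMap f) := by
  intro x y h
  ext n
  apply hf
  have := congrArg (fun z => z.coeff n) h
  simpa using this

include hσA in
/-- `σ (embA a) = embA (σA a)` coefficientwise. -/
theorem coeffMap_embA (a : LaurentSeries A) :
    coeffMap σ (embA A a) = embA A (coeffMap σA a) := by
  rw [embA, coeffMap_coeffMap, coeffMap_coeffMap]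
  exact coeffMap_congr (RingHom.ext fun x => (hσA x).symm) a

include hτ in
/-- `redA (σA a) = τ (redA a)` coefficientwise. -/
theorem redA_coeffMap (a : LaurentSeries A) :
    redA A π (coeffMap σA a) = coeffMap τ (redA A π a) := by
  rw [redA, coeffMap_coeffMap, coeffMap_coeffMap]
  exact coeffMap_congr (RingHom.ext fun x => hτ x) a

include hσA hτ in
/-- the coefficientwise action of `σ` preserves the Gauss ring -/
theorem coeffMap_mem_gaussRing {y : LaurentSeries L} (hy : y ∈ gaussRing A π) :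
    coeffMap σ y ∈ gaussRing A π := by
  obtain ⟨a, b, hb, h⟩ := hy
  refine ⟨coeffMap σA a, coeffMap σA b, ?_, ?_⟩
  · rw [redA_coeffMap A π σA τ hτ, Ne, map_eq_zero_iff _ (coeffMap_inj τ τ.injective)]
    exact hb
  · rw [← coeffMap_embA A σ σA hσA, ← coeffMap_embA A σ σA hσA, ← map_mul, h]

include hσA hτ in
/-- ... and commutes with the reduction map -/
theorem gaussRed_coeffMap {y : LaurentSeries L} (hy : y ∈ gaussRing A π)
    (hy' : coeffMap σ y ∈ gaussRing A π) :
    gaussRed A π ⟨coeffMap σ y, hy'⟩ = coeffMap τ (gaussRed A π ⟨y, hy⟩) := by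
  have hy2 := hy
  obtain ⟨a, b, hb, h⟩ := hy2
  have hb' : redA A π (coeffMap σA b) ≠ 0 := by
    rw [redA_coeffMap A π σA τ hτ, Ne, map_eq_zero_iff _ (coeffMap_inj τ τ.injective)]
    exact hb
  have h' : coeffMap σ y * embA A (coeffMap σA b) = embA A (coeffMap σA a) := by
    rw [← coeffMap_embA A σ σA hσA, ← coeffMap_embA A σ σA hσA, ← map_mul, h]
  rw [gaussRed_eq_div A π ⟨coeffMap σ y, hy'⟩ hb' h', gaussRed_eq_div A π ⟨y, hy⟩ hb h,
    redA_coeffMap A π σA τ hτ, redA_coeffMap A π σA τ hτ, map_div₀]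

end Abstract

section Modular

variable {L : Type*} [Field L] [Algebra ℚ L] (A : ValuationSubring L)
  {k : Type} [Field k] (π : A →+* k) [IsAlgClosed k] (ℓ : ℕ) [Fact ℓ.Prime] [CharP k ℓ]
  (N : ℕ) [NeZero N] (hπ : Function.Surjective π) (hℓN : ¬ ℓ ∣ N)
  (σ : L ≃ₐ[ℚ] L) (σA : A →+* A) (hσA : ∀ a : A, ((σA a : A) : L) = σ a)
  (τ : k ≃+* k) (hτ : ∀ a : A, π (σA a) = τ (π a))

include hσA hτ in
/-- **`σ` preserves the Gauss valuation ring of the modular function field** -/
theorem smul_mem_OvVal {f : FBar L N} (hf : f ∈ OvVal A π N ℓ hπ hℓN) :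
    arithmeticGalois (modularFunctionFieldFull N) σ • f ∈ OvVal A π N ℓ hπ hℓN := by
  rw [mem_OvVal_iff, mem_Ov_iff, coe_arithmeticGalois_smul]
  exact coeffMap_mem_gaussRing A π (σ : L →+* L) σA hσA (τ : k →+* k) hτ hf

/-- **the reduction of functions is equivariant**: `res (σ • f) = τ • res f` -/
theorem resFk_smul {f : FBar L N} (hf : f ∈ OvVal A π N ℓ hπ hℓN) :
    resFk A π N ℓ hπ hℓN
        ⟨arithmeticGalois (modularFunctionFieldFull N) σ • f,
          smul_mem_OvVal A π ℓ N hπ hℓN σ σA hσA τ hτ hf⟩ =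
      coeffGaloisC k N τ • resFk A π N ℓ hπ hℓN ⟨f, hf⟩ := by
  apply Subtype.ext
  rw [coe_coeffGaloisC_smul, coe_resFk, coe_resFk, redV_apply, redV_apply]
  exact gaussRed_coeffMap A π (σ : L →+* L) σA hσA (τ : k →+* k) hτ hf _

/-- the case `τ = 1` (inertia): `res (σ • f) = res f` -/
theorem resFk_smul_of_eq_one (hτ1 : ∀ a : A, π (σA a) = π a)
    {f : FBar L N} (hf : f ∈ OvVal A π N ℓ hπ hℓN) :
    resFk A π N ℓ hπ hℓN
        ⟨arithmeticGalois (modularFunctionFieldFull N) σ • f,
          smul_mem_OvVal A π ℓ N hπ hℓN σ σA hσA 1 (fun a => hτ1 a) hf⟩ =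
      resFk A π N ℓ hπ hℓN ⟨f, hf⟩ := by
  rw [resFk_smul A π ℓ N hπ hℓN σ σA hσA 1 (fun a => hτ1 a) hf, map_one, one_smul]

end Modular

section Residue

variable {L : Type} [Field L] [Algebra ℚ L] (A : ValuationSubring L)
  [IsAlgClosed (IsLocalRing.ResidueField A)] (ℓ : ℕ) [Fact ℓ.Prime]
  [CharP (IsLocalRing.ResidueField A) ℓ] (N : ℕ) [NeZero N] (hℓN : ¬ ℓ ∣ N)

/-- the decomposition group preserves `A` -/
theorem decomposition_mem (g : A.decompositionSubgroup ℚ) {a : L} (ha : a ∈ A) :
    (g : L ≃ₐ[ℚ] L) a ∈ A :=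
  (MulSemiringAction.toRingHom (A.decompositionSubgroup ℚ) A g ⟨a, ha⟩).2

/-- the decomposition group preserves the Gauss valuation ring -/
theorem smul_mem_OvVal_of_mem_decomposition (g : A.decompositionSubgroup ℚ) {f : FBar L N}
    (hf : f ∈ OvVal A (IsLocalRing.residue A) N ℓ IsLocalRing.residue_surjective hℓN) :
    arithmeticGalois (modularFunctionFieldFull N) (g : L ≃ₐ[ℚ] L) • f ∈
      OvVal A (IsLocalRing.residue A) N ℓ IsLocalRing.residue_surjective hℓN :=
  smul_mem_OvVal A (IsLocalRing.residue A) ℓ N IsLocalRing.residue_surjective hℓN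
    (g : L ≃ₐ[ℚ] L) (MulSemiringAction.toRingHom (A.decompositionSubgroup ℚ) A g) (fun _ => rfl)
    (MulSemiringAction.toRingAut (A.decompositionSubgroup ℚ) (IsLocalRing.ResidueField A) g)
    (fun _ => rfl) hf

/-- the reduction of functions is equivariant for the decomposition group -/
theorem resFk_decomposition_smul (g : A.decompositionSubgroup ℚ) {f : FBar L N}
    (hf : f ∈ OvVal A (IsLocalRing.residue A) N ℓ IsLocalRing.residue_surjective hℓN) :
    resFk A (IsLocalRing.residue A) N ℓ IsLocalRing.residue_surjective hℓN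
        ⟨arithmeticGalois (modularFunctionFieldFull N) (g : L ≃ₐ[ℚ] L) • f,
          smul_mem_OvVal_of_mem_decomposition A ℓ N hℓN g hf⟩ =
      coeffGaloisC (IsLocalRing.ResidueField A) N
          (MulSemiringAction.toRingAut (A.decompositionSubgroup ℚ)
            (IsLocalRing.ResidueField A) g) •
        resFk A (IsLocalRing.residue A) N ℓ IsLocalRing.residue_surjective hℓN ⟨f, hf⟩ :=
  resFk_smul A (IsLocalRing.residue A) ℓ N IsLocalRing.residue_surjective hℓN
    (g : L ≃ₐ[ℚ] L) (MulSemiringAction.toRingHom (A.decompositionSubgroup ℚ) A g) (fun _ => rfl)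
    (MulSemiringAction.toRingAut (A.decompositionSubgroup ℚ) (IsLocalRing.ResidueField A) g)
    (fun _ => rfl) hf

/-- inertia preserves `A` -/
theorem inertia_mem {σ : L ≃ₐ[ℚ] L} (hσ : σ ∈ A.inertiaSubgroupIn ℚ) {a : L} (ha : a ∈ A) :
    σ a ∈ A := by
  obtain ⟨g, -, rfl⟩ := hσ
  exact decomposition_mem A g ha

/-- inertia preserves the Gauss valuation ring -/
theorem smul_mem_OvVal_of_mem_inertia {σ : L ≃ₐ[ℚ] L} (hσ : σ ∈ A.inertiaSubgroupIn ℚ)
    {f : FBar L N}
    (hf : f ∈ OvVal A (IsLocalRing.residue A) N ℓ IsLocalRing.residue_surjective hℓN) :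
    arithmeticGalois (modularFunctionFieldFull N) σ • f ∈
      OvVal A (IsLocalRing.residue A) N ℓ IsLocalRing.residue_surjective hℓN := by
  obtain ⟨g, -, rfl⟩ := hσ
  exact smul_mem_OvVal_of_mem_decomposition A ℓ N hℓN g hf

/-- **inertia acts trivially on the reduction of functions** -/
theorem resFk_inertia_smul {σ : L ≃ₐ[ℚ] L} (hσ : σ ∈ A.inertiaSubgroupIn ℚ) {f : FBar L N}
    (hf : f ∈ OvVal A (IsLocalRing.residue A) N ℓ IsLocalRing.residue_surjective hℓN) :
    resFk A (IsLocalRing.residue A) N ℓ IsLocalRing.residue_surjective hℓN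
        ⟨arithmeticGalois (modularFunctionFieldFull N) σ • f,
          smul_mem_OvVal_of_mem_inertia A ℓ N hℓN hσ hf⟩ =
      resFk A (IsLocalRing.residue A) N ℓ IsLocalRing.residue_surjective hℓN ⟨f, hf⟩ := by
  obtain ⟨g, hg, rfl⟩ := hσ
  have h1 : MulSemiringAction.toRingAut (A.decompositionSubgroup ℚ)
      (IsLocalRing.ResidueField A) g = 1 := hg
  have h2 := resFk_decomposition_smul A ℓ N hℓN g hf
  rw [h1, map_one, one_smul] at h2
  exact h2

end Residue

end Fermat.Agent.S19x.Geo.GaussGalois
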