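import Fermat.Agent.S19x.Geo.Setting
import Fermat.Agent.S56x.Flat.InertiaField
import Fermat.Prelude.Def_ModularCurve_ArithmeticGalois

/-!
# P-S19, BLOCK A, (L1) piece: `InertiaData` from a subgroup of Galois automorphisms (helper75)

`L` a field over `ℚ`, `F₀` a rational function field (an intermediate field of `ℚ((q))`),
`F = laurentBaseChange L F₀`, on which `Gal(L/ℚ)` acts semilinearly through the Prelude
`ModularCurve.arithmeticGalois F₀`; `gal F₀ σ` abbreviates `arithmeticGalois F₀ σ`.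

* `GalHyp G Γ₀` : the five function-level facts on a subgroup `Γ₀ ≤ Gal(L/ℚ)` and a geometric
  setting `G` on `F`: `Γ₀` preserves `A` and `O`, acts trivially on residues of functions and on
  specialisations of places, and fixes `oo`.  For `Γ₀ = A.inertiaSubgroupIn ℚ` these are the
  statements of helper88's `Geo/RedIfaceGal.lean` (`smul_mem_O`, `res_inertia_smul`),
  `Geo/RedIface.lean` (`sp_inertia_smul`), helper98's `Geo/CuspOo.lean` (`smul_ooPlace`) and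
  `inertia_map_mem` below.
* `ofGalois h : InertiaData G` with `S := Γ₀.map (arithmeticGalois F₀)`.
* dictionary: `mem_S_ofGalois`, `gal_mem_S`, `isFixed_ofGalois_iff`, `isFixedPlace_ofGalois_iff`,
  `mem_fixedRing_ofGalois_iff`; for `L = ℚ̄`, `Γ₀ = P.inertiaSubgroupIn ℚ`:
  `mem_fixedRing_inertia_iff : a ∈ fixedRing ↔ (a : ℚ̄) ∈ inertiaInt P`, the ring isomorphism
  `fixedRingEquivInertiaInt`, and `inertia_map_mem` (the inertia group preserves `P`).
-/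

set_option autoImplicit false
set_option linter.unusedSectionVars false

noncomputable section

namespace Fermat.Agent.S19x.Geo.InertiaInst

open AlgebraicCurve ModularCurve
open scoped Pointwise
open Fermat.Agent.S19x.Geo Fermat.Agent.S56x.Flat.InertiaField

universe u w z

variable {L : Type u} [Field L] [Algebra ℚ L] (F₀ : IntermediateField ℚ (LaurentSeries ℚ))

/-- the semilinear automorphism of `laurentBaseChange L F₀` attached to `σ ∈ Gal(L/ℚ)`
(abbreviation of the Prelude `arithmeticGalois F₀ σ`). -/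
abbrev gal (σ : L ≃ₐ[ℚ] L) : SemilinearAut L (laurentBaseChange L F₀) := arithmeticGalois F₀ σ

theorem gal_def (σ : L ≃ₐ[ℚ] L) : gal F₀ σ = arithmeticGalois F₀ σ := rfl

variable {F₀}
variable {A : ValuationSubring L} {O : ValuationSubring (laurentBaseChange L F₀)}
  {k : Type w} {κ : Type z} [Field k] [Field κ] [Algebra k κ]

/-- the function-level facts on `Γ₀` needed for `InertiaData`. -/
structure GalHyp (G : GeoSetting A O k κ) (Γ₀ : Subgroup (L ≃ₐ[ℚ] L)) : Prop where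
  /-- `Γ₀` preserves `A` -/
  map_mem : ∀ σ : L ≃ₐ[ℚ] L, σ ∈ Γ₀ → ∀ a : L, a ∈ A → σ a ∈ A
  /-- `Γ₀` preserves `O` -/
  smul_mem : ∀ σ : L ≃ₐ[ℚ] L, σ ∈ Γ₀ → ∀ f : laurentBaseChange L F₀, f ∈ O → gal F₀ σ • f ∈ O
  /-- `Γ₀` acts trivially on the residue function field -/
  res_smul : ∀ (σ : L ≃ₐ[ℚ] L) (hσ : σ ∈ Γ₀) (f : laurentBaseChange L F₀) (hf : f ∈ O),
    G.R.res ⟨gal F₀ σ • f, smul_mem σ hσ f hf⟩ = G.R.res ⟨f, hf⟩
  /-- `Γ₀` preserves the residue discs -/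
  sp_smul : ∀ σ : L ≃ₐ[ℚ] L, σ ∈ Γ₀ → ∀ Q : Place L (laurentBaseChange L F₀),
    G.sp (gal F₀ σ • Q) = G.sp Q
  /-- `Γ₀` fixes the distinguished place -/
  smul_oo : ∀ σ : L ≃ₐ[ℚ] L, σ ∈ Γ₀ → gal F₀ σ • G.oo = G.oo

variable {G : GeoSetting A O k κ} {Γ₀ : Subgroup (L ≃ₐ[ℚ] L)}

/-- **`InertiaData` from a subgroup of `Gal(L/ℚ)`** acting through `arithmeticGalois`. -/
def ofGalois (h : GalHyp G Γ₀) : InertiaData G where
  S := Γ₀.map (arithmeticGalois F₀)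
  base_mem := by
    rintro _ ⟨σ, hσ, rfl⟩ a ha
    exact h.map_mem σ hσ a ha
  smul_mem := by
    rintro _ ⟨σ, hσ, rfl⟩ f hf
    exact h.smul_mem σ hσ f hf
  res_smul := by
    rintro _ ⟨σ, hσ, rfl⟩ f hf
    exact h.res_smul σ hσ f hf
  sp_smul := by
    rintro _ ⟨σ, hσ, rfl⟩ Q
    exact h.sp_smul σ hσ Q
  smul_oo := by
    rintro _ ⟨σ, hσ, rfl⟩
    exact h.smul_oo σ hσ

section Dict

variable (h : GalHyp G Γ₀)

theorem S_ofGalois : (ofGalois h).S = Γ₀.map (arithmeticGalois F₀) := rfl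

theorem mem_S_ofGalois {s : SemilinearAut L (laurentBaseChange L F₀)} :
    s ∈ (ofGalois h).S ↔ ∃ σ ∈ Γ₀, gal F₀ σ = s :=
  Iff.rfl

theorem gal_mem_S {σ : L ≃ₐ[ℚ] L} (hσ : σ ∈ Γ₀) : gal F₀ σ ∈ (ofGalois h).S :=
  ⟨σ, hσ, rfl⟩

/-- the `S`-fixed functions are the functions fixed by `Γ₀`. -/
theorem isFixed_ofGalois_iff (f : laurentBaseChange L F₀) :
    (ofGalois h).IsFixed f ↔ ∀ σ : L ≃ₐ[ℚ] L, σ ∈ Γ₀ → gal F₀ σ • f = f := by
  constructor
  · intro hf σ hσ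
    exact hf _ ⟨σ, hσ, rfl⟩
  · rintro hf _ ⟨σ, hσ, rfl⟩
    exact hf σ hσ

/-- the `S`-fixed places are the places fixed by `Γ₀`. -/
theorem isFixedPlace_ofGalois_iff (Q : Place L (laurentBaseChange L F₀)) :
    (ofGalois h).IsFixedPlace Q ↔ ∀ σ : L ≃ₐ[ℚ] L, σ ∈ Γ₀ → gal F₀ σ • Q = Q := by
  constructor
  · intro hQ σ hσ
    exact hQ _ ⟨σ, hσ, rfl⟩
  · rintro hQ _ ⟨σ, hσ, rfl⟩
    exact hQ σ hσ

/-- the fixed ring `A^S` consists of the elements of `A` fixed by `Γ₀`. -/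
theorem mem_fixedRing_ofGalois_iff (a : A) :
    a ∈ (ofGalois h).fixedRing ↔ ∀ σ : L ≃ₐ[ℚ] L, σ ∈ Γ₀ → σ (a : L) = a := by
  constructor
  · intro ha σ hσ
    exact ha _ ⟨σ, hσ, rfl⟩
  · rintro ha _ ⟨σ, hσ, rfl⟩
    exact ha σ hσ

end Dict

/-! ### The inertia group of a valuation subring of `ℚ̄` -/

section Inertia

local notation "Qbar" => AlgebraicClosure ℚ

variable (P : ValuationSubring Qbar)

/-- the inertia group preserves `P` (field `map_mem` of `GalHyp`). -/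
theorem inertia_map_mem :
    ∀ σ : Qbar ≃ₐ[ℚ] Qbar, σ ∈ P.inertiaSubgroupIn ℚ → ∀ a : Qbar, a ∈ P → σ a ∈ P := by
  rintro _ ⟨σ, -, rfl⟩ a ha
  have h1 : (σ : Qbar ≃ₐ[ℚ] Qbar) • P = P := σ.2
  have h2 : (σ : Qbar ≃ₐ[ℚ] Qbar) a ∈ (σ : Qbar ≃ₐ[ℚ] Qbar) • P :=
    (ValuationSubring.mem_smul_pointwise_iff_exists _ _ _).2 ⟨a, ha, rfl⟩
  rw [h1] at h2
  exact h2

variable {P} {F₁ : IntermediateField ℚ (LaurentSeries ℚ)}
  {O₁ : ValuationSubring (laurentBaseChange Qbar F₁)} {G₁ : GeoSetting P O₁ k κ}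
  (h : GalHyp G₁ (P.inertiaSubgroupIn ℚ))

/-- `A^S = inertiaInt P`: an element of `P` lies in the fixed ring iff it lies in `O^ur`. -/
theorem mem_fixedRing_inertia_iff (a : P) :
    a ∈ (ofGalois h).fixedRing ↔ (a : Qbar) ∈ inertiaInt P := by
  rw [mem_fixedRing_ofGalois_iff, mem_inertiaInt]
  exact ⟨fun ha => ⟨a.2, ha⟩, fun ha => ha.2⟩

/-- the ring isomorphism `A^S ≃ inertiaInt P`. -/
def fixedRingEquivInertiaInt : (ofGalois h).fixedRing ≃+* inertiaInt P where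
  toFun a := ⟨((a : P) : Qbar), (mem_fixedRing_inertia_iff h a.1).1 a.2⟩
  invFun c := ⟨⟨(c : Qbar), c.2.1⟩, (mem_fixedRing_inertia_iff h ⟨(c : Qbar), c.2.1⟩).2 c.2⟩
  left_inv _ := rfl
  right_inv _ := rfl
  map_mul' _ _ := rfl
  map_add' _ _ := rfl

@[simp] theorem coe_fixedRingEquivInertiaInt (a : (ofGalois h).fixedRing) :
    ((fixedRingEquivInertiaInt h a : inertiaInt P) : Qbar) = ((a : P) : Qbar) :=
  rfl

end Inertia

end Fermat.Agent.S19x.Geo.InertiaInst
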