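import Fermat.Agent.S19x.Geo.JacKerMult
import Fermat.Agent.S19x.Geo.FactorJac

/-!
# P-S19, block A, leaf L6 (J): the dictionary `dval`-kernel vector ↦ `KerVecM`

The hypothesis `hker` of `FactorSystem.exists_isSol_lift_of_surjective` (and of
`Geo/FactorJac.isUnit_det_jacobian`) for the factorisation system with exponent `n = 1` on the
special fibre, discharged by the kernel lemma with multiplicities `Geo/JacKerMult`.

Setting: `κ / k` a function field, `Bbar` a `k`-algebra with an injective `k`-algebra map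
`ι : Bbar → κ` (think: the functions regular off `∞̄`), `K : Core Bbar I1 I2` the reduced
ring-level data with `K.n = 1`, `ι K.rfix = Rfix(z̄)` with `Rfix = ∏ (T - val Q) ^ μ Q`.  At a residue
point `xbar` with `u0 = ι (uOf xbar)`, `u0' = ι (vOf xbar)`, `Rvar = rvarPoly (xbar ∘ rIdx)` forming a
residue solution `ResSolM`, a direction `v : Idx I1 I2 g → k` gives the triple

  `(ι (uOf v), ι (vOf v), dR := ∑ l, v (rIdx l) T^l)`,

and `dval xbar v = 0` says exactly that it is a `KerVecM`.  If `ι ∘ b1`, `ι ∘ b2` are linearly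
independent, lie in `L(-ord u0 • P)`, `L(-ord u0' • P)`, and the normalised coordinate of `xbar` is
nonzero, then `v (uIdx t0) = 0` forces `v = 0`.
-/

set_option autoImplicit false
set_option linter.unusedSectionVars false

noncomputable section

open AlgebraicCurve Polynomial Module

namespace Fermat.Agent.S19x.Geo.KerDict

open Fermat.Agent.S27x.Lift.NiceRep Fermat.Agent.S24.ZP Fermat.Agent.S27x.Lift.JacInj
  Fermat.Agent.S27x.Lift.FactorSystem Fermat.Agent.S19x.Geo.JacKerMult

variable {k κ : Type*} [Field k] [Field κ] [Algebra k κ]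
variable {Bbar : Type*} [CommRing Bbar] [Algebra k Bbar]
variable {I1 I2 : Type*} [Fintype I1] [Fintype I2] {g : ℕ}

/-- the direction polynomial `∑_{l<g} v_l T^l`. -/
def dirPoly (v : Idx I1 I2 g → k) : k[X] :=
  ∑ l : Fin g, Polynomial.C (v (rIdx l)) * Polynomial.X ^ (l : ℕ)

theorem degree_dirPoly_lt (v : Idx I1 I2 g → k) : (dirPoly v).degree < (g : WithBot ℕ) :=
  Polynomial.degree_sum_fin_lt fun l => v (rIdx l)

theorem coeff_dirPoly (v : Idx I1 I2 g → k) (l : Fin g) : (dirPoly v).coeff l = v (rIdx l) := by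
  classical
  rw [dirPoly, Polynomial.finsetSum_coeff]
  simp only [Polynomial.coeff_C_mul_X_pow]
  rw [Finset.sum_eq_single l]
  · simp
  · intro b _ hb
    rw [if_neg]
    intro h
    exact hb (Fin.ext h.symm)
  · intro h
    exact absurd (Finset.mem_univ l) h

variable (ι : Bbar →ₐ[k] κ) (K : Core Bbar I1 I2)

theorem map_uOf (v : Idx I1 I2 g → k) :
    ι (K.uOf (ptbar v)) = ∑ s, v (uIdx s) • ι (K.b1 s) := by
  simp only [Core.uOf, ptbar, map_sum, map_mul, AlgHom.commutes, Algebra.smul_def]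

theorem map_vOf (v : Idx I1 I2 g → k) :
    ι (K.vOf (ptbar v)) = ∑ t, v (vIdx t) • ι (K.b2 t) := by
  simp only [Core.vOf, ptbar, map_sum, map_mul, AlgHom.commutes, Algebra.smul_def]

theorem map_rdot (v : Idx I1 I2 g → k) :
    ι (K.rdot (ptbar v)) = aeval (ι K.z) (dirPoly v) := by
  simp only [Core.rdot, ptbar, dirPoly, map_sum, map_mul, map_pow, AlgHom.commutes, aeval_C,
    aeval_X]

theorem map_rvar (v : Idx I1 I2 g → k) :
    ι (K.rvar (ptbar v)) = aeval (ι K.z) (rvarPoly fun l => v (rIdx l)) := by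
  simp only [Core.rvar, Core.rdot, ptbar, rvarPoly, map_sum, map_mul, map_pow, map_add,
    AlgHom.commutes, aeval_C, aeval_X]

/-- `dval` for the exponent `n = 1`. -/
theorem dval_of_n_eq_one (hn : K.n = 1) (y v : Idx I1 I2 g → Bbar) :
    K.dval y v = K.uOf v * K.vOf y + K.uOf y * K.vOf v - K.rfix * K.rdot v := by
  rw [Core.dval, hn]
  simp

/-- `k`-linear combinations of functions of order `≥ m` at `w` have order `≥ m`. -/
theorem ordGE_sum_smul {J : Type*} (w : Place k κ) (s : Finset J) (c : J → k) (f : J → κ)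
    (m : ℤ) (hf : ∀ j ∈ s, OrdGE w (f j) m) : OrdGE w (∑ j ∈ s, c j • f j) m := by
  classical
  induction s using Finset.induction_on with
  | empty => simpa using OrdGE.zero w m
  | insert a s ha ih =>
    rw [Finset.sum_insert ha]
    refine OrdGE.add ?_ (ih fun j hj => hf j (Finset.mem_insert_of_mem hj))
    rw [Algebra.smul_def]
    have := (OrdGE.algebraMap w (c a)).mul (hf a (Finset.mem_insert_self a s))
    rwa [zero_add] at this

/-- `k`-linear combinations of functions regular at `w` are regular at `w`. -/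
theorem sum_smul_mem {J : Type*} (w : Place k κ) (s : Finset J) (c : J → k) (f : J → κ)
    (hf : ∀ j ∈ s, f j ∈ w.toValuationSubring) :
    (∑ j ∈ s, c j • f j) ∈ w.toValuationSubring := by
  refine Subring.sum_mem _ fun j hj => ?_
  rw [Algebra.smul_def]
  exact mul_mem (w.algebraMap_mem' _) (hf j hj)

/-- **The dictionary.**  For the exponent `n = 1`, a residue solution in the sense of
`JacKerMult.ResSolM` and frames `b1`, `b2` which are linearly independent in `κ`, regular off `P`
and with pole orders at `P` bounded by those of `u0`, `u0'`: a direction `v` in the kernel of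
`dval` with vanishing normalised coordinate is zero. -/
theorem eq_zero_of_dval_eq_zero (hn : K.n = 1)
    {P : Place k κ} {Uvar Ufix : Finset (Place k κ)} {μ : Place k κ → ℕ} {val : Place k κ → k}
    (hg : Uvar.card = g)
    (hrfix : ι K.rfix = aeval (ι K.z) (rootPolyMult val Ufix μ))
    (xbar : Idx I1 I2 g → k)
    (S : ResSolM P Uvar Ufix μ (ι K.z) val (ι (K.uOf (ptbar xbar))) (ι (K.vOf (ptbar xbar))))
    (hl : finrank k (riemannRochSpace (finDiv Uvar)) = 1)
    (hb1 : LinearIndependent k fun s => ι (K.b1 s))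
    (hb2 : LinearIndependent k fun t => ι (K.b2 t))
    (hb1reg : ∀ s, ∀ w : Place k κ, w ≠ P → ι (K.b1 s) ∈ w.toValuationSubring)
    (hb1P : ∀ s, OrdGE P (ι (K.b1 s)) (P.ord (ι (K.uOf (ptbar xbar)))))
    (hb2reg : ∀ t, ∀ w : Place k κ, w ≠ P → ι (K.b2 t) ∈ w.toValuationSubring)
    (hb2P : ∀ t, OrdGE P (ι (K.b2 t)) (P.ord (ι (K.vOf (ptbar xbar)))))
    (t0 : I1) (hα : xbar (uIdx t0) ≠ 0)
    (v : Idx I1 I2 g → k) (hdval : ι (K.dval (ptbar xbar) (ptbar v)) = 0)
    (hv0 : v (uIdx t0) = 0) : v = 0 := by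
  classical
  -- the kernel vector
  have T : KerVecM P Uvar Ufix μ (ι K.z) val (ι (K.uOf (ptbar xbar))) (ι (K.vOf (ptbar xbar)))
      (ι (K.uOf (ptbar v))) (ι (K.vOf (ptbar v))) (dirPoly v) := by
    refine ⟨?_, ?_, ?_, ?_, ?_, ?_⟩
    · intro w hw
      rw [map_uOf]
      exact sum_smul_mem w _ _ _ fun s _ => hb1reg s w hw
    · rw [map_uOf ι K v]
      exact ordGE_sum_smul P _ _ _ _ fun s _ => hb1P s
    · intro w hw
      rw [map_vOf]
      exact sum_smul_mem w _ _ _ fun t _ => hb2reg t w hw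
    · rw [map_vOf ι K v]
      exact ordGE_sum_smul P _ _ _ _ fun t _ => hb2P t
    · rw [hg]
      exact degree_dirPoly_lt v
    · rw [dval_of_n_eq_one K hn, map_sub, map_add, map_mul, map_mul, map_mul, sub_eq_zero,
        hrfix, map_rdot] at hdval
      exact hdval
  -- `v` is a multiple of `u0`, hence zero by the normalisation
  obtain ⟨c, hc⟩ := S.exists_smul_eq T hl
  rw [map_uOf ι K v, map_uOf ι K xbar, Finset.smul_sum] at hc
  have hc' : ∑ s, (v (uIdx s) - c * xbar (uIdx s)) • ι (K.b1 s) = 0 := by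
    simp only [sub_smul, Finset.sum_sub_distrib, hc, mul_smul, sub_self]
  have hcoef := fun s => linearIndependent_iff'.mp hb1 Finset.univ _ hc' s (Finset.mem_univ s)
  have hc0 : c = 0 := by
    have := hcoef t0
    rw [hv0, zero_sub, neg_eq_zero] at this
    exact (mul_eq_zero.mp this).resolve_right hα
  have hu : ∀ s, v (uIdx s) = 0 := by
    intro s
    have := hcoef s
    rwa [hc0, zero_mul, sub_zero] at this
  have hv : ι (K.uOf (ptbar v)) = 0 := by
    rw [map_uOf]
    simp [hu]
  obtain ⟨hdR, hv'⟩ := S.eq_zero_of_v_eq_zero T hv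
  have hr : ∀ l, v (rIdx l) = 0 := by
    intro l
    rw [← coeff_dirPoly v l, hdR, Polynomial.coeff_zero]
  rw [map_vOf] at hv'
  have ht := fun t => linearIndependent_iff'.mp hb2 Finset.univ _ hv' t (Finset.mem_univ t)
  funext i
  rcases i with s | t | l
  · exact hu s
  · exact ht t
  · exact hr l

/-- the `hker` hypothesis of `FactorSystem.exists_isSol_lift_of_surjective` /
`FactorJac.isUnit_det_jacobian`, from the dictionary and a separation property of the reduced
coordinate functionals `φbar`. -/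
theorem hker_of_resSolM {I3 : Type*} (hn : K.n = 1)
    {P : Place k κ} {Uvar Ufix : Finset (Place k κ)} {μ : Place k κ → ℕ} {val : Place k κ → k}
    (hg : Uvar.card = g)
    (hrfix : ι K.rfix = aeval (ι K.z) (rootPolyMult val Ufix μ))
    (xbar : Idx I1 I2 g → k)
    (S : ResSolM P Uvar Ufix μ (ι K.z) val (ι (K.uOf (ptbar xbar))) (ι (K.vOf (ptbar xbar))))
    (hl : finrank k (riemannRochSpace (finDiv Uvar)) = 1)
    (hb1 : LinearIndependent k fun s => ι (K.b1 s))
    (hb2 : LinearIndependent k fun t => ι (K.b2 t))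
    (hb1reg : ∀ s, ∀ w : Place k κ, w ≠ P → ι (K.b1 s) ∈ w.toValuationSubring)
    (hb1P : ∀ s, OrdGE P (ι (K.b1 s)) (P.ord (ι (K.uOf (ptbar xbar)))))
    (hb2reg : ∀ t, ∀ w : Place k κ, w ≠ P → ι (K.b2 t) ∈ w.toValuationSubring)
    (hb2P : ∀ t, OrdGE P (ι (K.b2 t)) (P.ord (ι (K.vOf (ptbar xbar)))))
    (t0 : I1) (hα : xbar (uIdx t0) ≠ 0)
    (φbar : I3 → (Bbar →ₗ[k] k))
    (hsepbar : ∀ v : Idx I1 I2 g → k,
      (∀ w, φbar w (K.dval (ptbar xbar) (ptbar v)) = 0) → K.dval (ptbar xbar) (ptbar v) = 0) :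
    ∀ v : Idx I1 I2 g → k,
      (∀ w, φbar w (K.dval (ptbar xbar) (ptbar v)) = 0) → v (uIdx t0) = 0 → v = 0 := by
  intro v hφ hv0
  have h0 := hsepbar v hφ
  exact eq_zero_of_dval_eq_zero ι K hn hg hrfix xbar S hl hb1 hb2 hb1reg hb1P hb2reg hb2P t0 hα v
    (by rw [h0, map_zero]) hv0

/-- **Unit Jacobian from a residue solution.**  `Geo/FactorJac.isUnit_det_jacobian` with its
hypothesis `hker` discharged by the dictionary: for a `FactorSystem.Data` over a local ring `A`
with exponent `1`, a point `x0` whose residue is a residue solution in the sense of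
`JacKerMult.ResSolM` has a unit Jacobian determinant. -/
theorem isUnit_det_jacobian_of_resSolM {I3 : Type*} [DecidableEq I1] [DecidableEq I2]
    {A B : Type*} [CommRing A] [IsLocalRing A] [CommRing B] [Algebra A B]
    (π : A →+* k) (hπ : Function.Surjective π) (D : Data A B I1 I2 I3)
    (e : I3 ⊕ Unit ≃ Idx I1 I2 g) (red : B →+* Bbar) (φbar : I3 → (Bbar →ₗ[k] k))
    (hφ : ∀ w b, φbar w (red b) = π (D.φ w b)) (x0 : Idx I1 I2 g → A)
    (hn : D.n = 1)
    {P : Place k κ} {Uvar Ufix : Finset (Place k κ)} {μ : Place k κ → ℕ} {val : Place k κ → k}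
    (hg : Uvar.card = g)
    (hrfix : ι (red D.rfix) = aeval (ι (red D.z)) (rootPolyMult val Ufix μ))
    (S : ResSolM P Uvar Ufix μ (ι (red D.z)) val
      (ι ((D.toCore.map red).uOf (ptbar fun i => π (x0 i))))
      (ι ((D.toCore.map red).vOf (ptbar fun i => π (x0 i)))))
    (hl : finrank k (riemannRochSpace (finDiv Uvar)) = 1)
    (hb1 : LinearIndependent k fun s => ι (red (D.b1 s)))
    (hb2 : LinearIndependent k fun t => ι (red (D.b2 t)))
    (hb1reg : ∀ s, ∀ w : Place k κ, w ≠ P → ι (red (D.b1 s)) ∈ w.toValuationSubring)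
    (hb1P : ∀ s, OrdGE P (ι (red (D.b1 s)))
      (P.ord (ι ((D.toCore.map red).uOf (ptbar fun i => π (x0 i))))))
    (hb2reg : ∀ t, ∀ w : Place k κ, w ≠ P → ι (red (D.b2 t)) ∈ w.toValuationSubring)
    (hb2P : ∀ t, OrdGE P (ι (red (D.b2 t)))
      (P.ord (ι ((D.toCore.map red).vOf (ptbar fun i => π (x0 i))))))
    (hα : π (x0 (uIdx D.t0)) ≠ 0)
    (hsepbar : ∀ v : Idx I1 I2 g → k,
      (∀ w, φbar w ((D.toCore.map red).dval (ptbar fun i => π (x0 i)) (ptbar v)) = 0) →
        (D.toCore.map red).dval (ptbar fun i => π (x0 i)) (ptbar v) = 0) :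
    IsUnit (Matrix.det (Matrix.of fun i j =>
      MvPolynomial.eval x0 (MvPolynomial.pderiv i (FactorJac.sq D e j)))) :=
  FactorJac.isUnit_det_jacobian π hπ D e red φbar hφ x0
    (hker_of_resSolM ι (D.toCore.map red) hn hg hrfix (fun i => π (x0 i)) S hl hb1 hb2 hb1reg hb1P
      hb2reg hb2P D.t0 hα φbar hsepbar)

end Fermat.Agent.S19x.Geo.KerDict
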