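/-
P-S19, BLOCK A, leaf `Geo/RRBundle` (helper24): the characteristic-free Riemann-Roch
HYPOTHESIS BUNDLE, discharged for the special fibre `κ = Fk k M = modularFunctionFieldFullC k M`
of the modular curve of level `M` over an algebraically closed field `k` in which `M` is
invertible (e.g. `k` = residue field of a valuation subring of `ℚ̄` over `ℓ`, `ℓ ∤ M`), plus the
genus equality `genusFF k (Fk k M) = genusFF ℚ̄ (FBar ℚ̄ M)` at good levels.

Everything is a direct instantiation of `Lib/RiemannRoch/FunctionFieldRR` (Riemann-Roch for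
separably generated function fields, any characteristic) at the separating element `j`
(`Gateway/FkBasics/Modular`: `transcendental_jk`, `finiteDimensional_Fk`, `isSeparable_Fk`),
of `Gateway/C0/ExportsModular.genusFF_Fk_eq` and of `Gateway/Red/GoodFactsProved.goodFacts`.

* `SepBundle k κ` : the abstract bundle (a separating transcendental element exists); from it:
  `nonempty_place`, `finiteResidue`, `hasPrincipalDivisors`, `deg_eq_one`,
  `finite_riemannRochSpace`, `riemannRoch`, `riemannRoch'`, `riemann_ineq`,
  `finrank_zero_eq_one`, `finrank_eq_of_lt_degree`.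
* `sepBundle_Fk` : the bundle holds for `Fk k M` as soon as `(M : k) ≠ 0`; the same facts stated
  directly for `Fk k M` (`Fk.*`).
* `sepBundle_FBar` : the bundle for the generic fibre `FBar L M` (`L` alg. closed of char 0).
* `genusFF_Fk_eq_of_good` : the genus equality at a good level, for the residue field of a
  valuation subring of `ℚ̄` over `ℓ`; `sepBundle_Fk_residue`, `natCast_ne_zero_residue`.
-/
import Fermat.Agent.Lib.RiemannRoch.FunctionFieldRR
import Fermat.Agent.Gateway.FkBasics.Modular
import Fermat.Agent.Gateway.C0.ExportsModular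
import Fermat.Agent.Gateway.Red.GoodFactsProved

set_option autoImplicit false
set_option linter.unusedSectionVars false
set_option linter.style.haveILetI false

noncomputable section

open AlgebraicCurve Module IntermediateField

namespace Fermat.Agent.S19x.Geo.RRBundle

open Fermat.Agent.Lib.RiemannRoch Fermat.Agent.Gateway

/-- The function field `κ / k` has a separating transcendental element: the only input of the
Riemann-Roch library in arbitrary characteristic. -/
def SepBundle (k κ : Type*) [Field k] [Field κ] [Algebra k κ] : Prop :=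
  ∃ x : κ, Transcendental k x ∧ FiniteDimensional k⟮x⟯ κ ∧ Algebra.IsSeparable k⟮x⟯ κ

namespace SepBundle

variable {k κ : Type*} [Field k] [Field κ] [Algebra k κ] (h : SepBundle k κ)

include h

theorem nonempty_place : Nonempty (Place k κ) := by
  obtain ⟨x, hx, h1, h2⟩ := h
  exact FunctionFieldRR.nonempty_place hx

theorem finiteResidue (v : Place k κ) : v.FiniteResidue := by
  obtain ⟨x, hx, h1, h2⟩ := h
  exact FunctionFieldRR.finiteResidue x v

theorem hasPrincipalDivisors : HasPrincipalDivisors k κ := by
  obtain ⟨x, hx, h1, h2⟩ := h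
  exact FunctionFieldRR.hasPrincipalDivisors hx

theorem deg_eq_one [IsAlgClosed k] (v : Place k κ) : v.deg = 1 := by
  obtain ⟨x, hx, h1, h2⟩ := h
  exact FunctionFieldRR.deg_eq_one x v

theorem finite_riemannRochSpace (D : Divisor k κ) : Module.Finite k (riemannRochSpace D) := by
  obtain ⟨x, hx, h1, h2⟩ := h
  obtain ⟨W, -, -, hW⟩ := FunctionFieldRR.riemannRoch_sep hx
  exact (hW D).1

/-- **Riemann-Roch** over an algebraically closed field of any characteristic, full form. -/
theorem riemannRoch [IsAlgClosed k] :
    ∃ W : Divisor k κ,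
      Divisor.degree W = 2 * (genusFF k κ : ℤ) - 2 ∧
      finrank k (riemannRochSpace W) = genusFF k κ ∧
      ∀ D : Divisor k κ, Module.Finite k (riemannRochSpace D) ∧ Module.Finite k (H1 D) ∧
        finrank k (H1 D) = finrank k (riemannRochSpace (W - D)) ∧
        (finrank k (riemannRochSpace D) : ℤ) =
          Divisor.degree D + 1 - genusFF k κ + finrank k (riemannRochSpace (W - D)) := by
  obtain ⟨x, hx, h1, h2⟩ := h
  exact FunctionFieldRR.riemannRoch_sep_algClosed hx

/-- **Riemann-Roch**, the bare formula `l(D) = deg D + 1 - g + l(W - D)`. -/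
theorem riemannRoch' [IsAlgClosed k] :
    ∃ W : Divisor k κ, ∀ D : Divisor k κ,
      (finrank k (riemannRochSpace D) : ℤ) =
        Divisor.degree D + 1 - genusFF k κ + finrank k (riemannRochSpace (W - D)) := by
  obtain ⟨W, -, -, hW⟩ := h.riemannRoch
  exact ⟨W, fun D => (hW D).2.2.2⟩

/-- Riemann's inequality, and equality for `deg D > 2g - 2`. -/
theorem riemann_ineq [IsAlgClosed k] (D : Divisor k κ) :
    Divisor.degree D + 1 - genusFF k κ ≤ (finrank k (riemannRochSpace D) : ℤ) ∧
    (2 * (genusFF k κ : ℤ) - 2 < Divisor.degree D →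
      (finrank k (riemannRochSpace D) : ℤ) = Divisor.degree D + 1 - genusFF k κ) := by
  obtain ⟨x, hx, h1, h2⟩ := h
  exact FunctionFieldRR.riemann_ineq_algClosed hx D

/-- `l(D) = deg D + 1 - g` for `deg D ≥ 2g - 1`. -/
theorem finrank_eq_of_lt_degree [IsAlgClosed k] (D : Divisor k κ)
    (hD : 2 * (genusFF k κ : ℤ) - 2 < Divisor.degree D) :
    (finrank k (riemannRochSpace D) : ℤ) = Divisor.degree D + 1 - genusFF k κ :=
  (h.riemann_ineq D).2 hD

theorem finrank_zero_eq_one [IsAlgClosed k] :
    finrank k (riemannRochSpace (0 : Divisor k κ)) = 1 := by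
  haveI := h.nonempty_place
  haveI : ∀ v : Place k κ, v.FiniteResidue := h.finiteResidue
  haveI := h.hasPrincipalDivisors
  exact ell_zero_eq_one

end SepBundle

/-! ### The special fibre of the modular curve -/

section Fk

variable (k : Type) [Field k] [IsAlgClosed k] (M : ℕ) [NeZero M] (hM : (M : k) ≠ 0)

include hM

/-- The modular function field of level `M` over `k`, `M` invertible in `k`, is separably
generated (by `j`). -/
theorem sepBundle_Fk : SepBundle k (FkBasics.Fk k M) :=
  ⟨FkBasics.jk k M, FkBasics.transcendental_jk k M, FkBasics.finiteDimensional_Fk k M hM,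
    FkBasics.isSeparable_Fk k M hM⟩

namespace Fk

theorem nonempty_place : Nonempty (Place k (FkBasics.Fk k M)) :=
  (sepBundle_Fk k M hM).nonempty_place

theorem finiteResidue (v : Place k (FkBasics.Fk k M)) : v.FiniteResidue :=
  (sepBundle_Fk k M hM).finiteResidue v

theorem hasPrincipalDivisors : HasPrincipalDivisors k (FkBasics.Fk k M) :=
  (sepBundle_Fk k M hM).hasPrincipalDivisors

theorem deg_eq_one (v : Place k (FkBasics.Fk k M)) : v.deg = 1 :=
  (sepBundle_Fk k M hM).deg_eq_one v

theorem finite_riemannRochSpace (D : Divisor k (FkBasics.Fk k M)) :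
    Module.Finite k (riemannRochSpace D) :=
  (sepBundle_Fk k M hM).finite_riemannRochSpace D

theorem riemannRoch :
    ∃ W : Divisor k (FkBasics.Fk k M),
      Divisor.degree W = 2 * (genusFF k (FkBasics.Fk k M) : ℤ) - 2 ∧
      finrank k (riemannRochSpace W) = genusFF k (FkBasics.Fk k M) ∧
      ∀ D : Divisor k (FkBasics.Fk k M),
        Module.Finite k (riemannRochSpace D) ∧ Module.Finite k (H1 D) ∧
        finrank k (H1 D) = finrank k (riemannRochSpace (W - D)) ∧
        (finrank k (riemannRochSpace D) : ℤ) =
          Divisor.degree D + 1 - genusFF k (FkBasics.Fk k M) +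
            finrank k (riemannRochSpace (W - D)) :=
  (sepBundle_Fk k M hM).riemannRoch

theorem riemannRoch' :
    ∃ W : Divisor k (FkBasics.Fk k M), ∀ D : Divisor k (FkBasics.Fk k M),
      (finrank k (riemannRochSpace D) : ℤ) =
        Divisor.degree D + 1 - genusFF k (FkBasics.Fk k M) +
          finrank k (riemannRochSpace (W - D)) :=
  (sepBundle_Fk k M hM).riemannRoch'

theorem riemann_ineq (D : Divisor k (FkBasics.Fk k M)) :
    Divisor.degree D + 1 - genusFF k (FkBasics.Fk k M) ≤
        (finrank k (riemannRochSpace D) : ℤ) ∧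
    (2 * (genusFF k (FkBasics.Fk k M) : ℤ) - 2 < Divisor.degree D →
      (finrank k (riemannRochSpace D) : ℤ) =
        Divisor.degree D + 1 - genusFF k (FkBasics.Fk k M)) :=
  (sepBundle_Fk k M hM).riemann_ineq D

theorem finrank_zero_eq_one :
    finrank k (riemannRochSpace (0 : Divisor k (FkBasics.Fk k M))) = 1 :=
  (sepBundle_Fk k M hM).finrank_zero_eq_one

end Fk

end Fk


/-! ### The generic fibre -/

section FBar

open Fermat.Agent.Gateway.GoodRed Fermat.Agent.Gateway.GoodRed.ConjFamily ModularCurve

variable (L : Type) [Field L] [Algebra ℚ L] [IsAlgClosed L] [CharZero L] (M : ℕ) [NeZero M]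

/-- The modular function field of level `M` over an algebraically closed field of characteristic
zero is separably generated (by `j`). -/
theorem sepBundle_FBar : SepBundle L (FBar L M) := by
  haveI := C0.LevelFacts.finiteDimensional_jF L M
  haveI : CharZero L⟮GoodRed.jF L M⟯ :=
    charZero_of_injective_algebraMap (algebraMap L L⟮GoodRed.jF L M⟯).injective
  exact ⟨GoodRed.jF L M, C0.LevelFacts.transcendental_jF L M, inferInstance, inferInstance⟩

end FBar

/-! ### The residue field of a valuation subring of `ℚ̄` over `ℓ`, and the genus equality -/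

section Residue

local notation "Qb" => AlgebraicClosure ℚ

open Fermat.Agent.Gateway.GoodRed Fermat.Agent.Gateway.GoodRed.ConjFamily ModularCurve

variable (M : ℕ) [NeZero M] (ℓ : ℕ) [Fact ℓ.Prime] (hℓM : ¬ ℓ ∣ M)
  (A : ValuationSubring Qb) (hA : A.LiesOverPrime ℓ)

/-- the residue field of a valuation subring of `ℚ̄` is algebraically closed -/
theorem isAlgClosed_residue : IsAlgClosed (IsLocalRing.ResidueField A) :=
  residueField_isAlgClosed A

include hA in
/-- the residue field of a valuation subring of `ℚ̄` over `ℓ` has characteristic `ℓ` -/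
theorem charP_residue : CharP (IsLocalRing.ResidueField A) ℓ :=
  ES.charP_residueField_of_liesOverPrime A hA

include hℓM hA in
theorem natCast_ne_zero_residue : ((M : ℕ) : IsLocalRing.ResidueField A) ≠ 0 := by
  haveI := charP_residue ℓ A hA
  rw [Ne, CharP.cast_eq_zero_iff (IsLocalRing.ResidueField A) ℓ]
  exact hℓM

include hℓM hA in
/-- the Riemann-Roch bundle for the special fibre at a place over `ℓ ∤ M` -/
theorem sepBundle_Fk_residue :
    haveI := isAlgClosed_residue A
    SepBundle (IsLocalRing.ResidueField A) (FkBasics.Fk (IsLocalRing.ResidueField A) M) := by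
  haveI := isAlgClosed_residue A
  exact sepBundle_Fk _ M (natCast_ne_zero_residue M ℓ hℓM A hA)

include hℓM hA in
/-- **The genus equality at a good level**: the special fibre of the Gauss valuation at a place
over `ℓ ∤ M` has the same genus as the generic fibre (`4 ∣ M` for `ℓ` odd, `9 ∣ M` for `ℓ = 2`). -/
theorem genusFF_Fk_eq_of_good (hg : (ℓ ≠ 2 ∧ 4 ∣ M) ∨ (ℓ = 2 ∧ 9 ∣ M)) :
    genusFF (IsLocalRing.ResidueField A) (Fk (IsLocalRing.ResidueField A) M) =
      genusFF Qb (FBar Qb M) := by
  haveI := isAlgClosed_residue A
  haveI := charP_residue ℓ A hA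
  exact C0.genusFF_Fk_eq A (IsLocalRing.residue A) M ℓ IsLocalRing.residue_surjective hℓM hA
    (Red.goodFacts M ℓ hℓM hg A hA)

end Residue

end Fermat.Agent.S19x.Geo.RRBundle
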