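/-
P-S19, BLOCK A (helper24): bridge `Geo/RRBundle.SepBundle` (separating element, any
characteristic) ==> the Riemann-Roch package `Geo.RRBundle K F g` of `Geo/Setting.lean`
(helper33), with the instances for the two fibres of the modular curve of level `M` and the
SAME genus at good levels (what the fields `rrF`, `rrκ` of `GeoSetting` ask for).

* `rrBundle_of_sep` : `SepBundle k κ → RRBundle k κ (genusFF k κ)` (`k` algebraically closed);
* `rrBundle_Fk`, `rrBundle_FBar` : special / generic fibre, each with its own genus;
* `rrBundle_Fk_residue_of_good` : the special fibre at a place of `ℚ̄` over `ℓ ∤ M`, `M` a good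
  level, with `g = genusFF ℚ̄ (FBar ℚ̄ M)` (the genus of the generic fibre);
* `instances_of_sep` : the three instance hypotheses `HasPrincipalDivisors`, `FiniteResidue`,
  `Nonempty (Place ..)` in one statement.
-/
import Fermat.Agent.S19x.Geo.RRBundle
import Fermat.Agent.S19x.Geo.Setting

set_option autoImplicit false
set_option linter.unusedSectionVars false
set_option linter.style.haveILetI false

noncomputable section

open AlgebraicCurve Module IntermediateField

namespace Fermat.Agent.S19x.Geo.RRBundleInst

open Fermat.Agent.S19x.Geo Fermat.Agent.S19x.Geo.RRBundle Fermat.Agent.Gateway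

/-- A separably generated function field over an algebraically closed field satisfies the
Riemann-Roch package of `Geo/Setting.lean` with `g` its genus. -/
theorem rrBundle_of_sep {k κ : Type*} [Field k] [Field κ] [Algebra k κ] [IsAlgClosed k]
    (h : SepBundle k κ) : Geo.RRBundle k κ (genusFF k κ) where
  deg_one := h.deg_eq_one
  ell_zero := h.finrank_zero_eq_one
  exists_canonical := h.riemannRoch'

/-- the instance hypotheses of the geometry leaves -/
theorem instances_of_sep {k κ : Type*} [Field k] [Field κ] [Algebra k κ] (h : SepBundle k κ) :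
    HasPrincipalDivisors k κ ∧ (∀ v : Place k κ, v.FiniteResidue) ∧ Nonempty (Place k κ) :=
  ⟨h.hasPrincipalDivisors, h.finiteResidue, h.nonempty_place⟩

/-- the special fibre `Fk k M`, `M` invertible in `k` -/
theorem rrBundle_Fk (k : Type) [Field k] [IsAlgClosed k] (M : ℕ) [NeZero M]
    (hM : (M : k) ≠ 0) :
    Geo.RRBundle k (FkBasics.Fk k M) (genusFF k (FkBasics.Fk k M)) :=
  rrBundle_of_sep (sepBundle_Fk k M hM)

section

open Fermat.Agent.Gateway.GoodRed Fermat.Agent.Gateway.GoodRed.ConjFamily ModularCurve

local notation "Qb" => AlgebraicClosure ℚ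

/-- the generic fibre `FBar L M` -/
theorem rrBundle_FBar (L : Type) [Field L] [Algebra ℚ L] [IsAlgClosed L] [CharZero L]
    (M : ℕ) [NeZero M] : Geo.RRBundle L (FBar L M) (genusFF L (FBar L M)) :=
  rrBundle_of_sep (sepBundle_FBar L M)

/-- **The special fibre at a good level, with the genus of the generic fibre.** -/
theorem rrBundle_Fk_residue_of_good (M : ℕ) [NeZero M] (ℓ : ℕ) [Fact ℓ.Prime] (hℓM : ¬ ℓ ∣ M)
    (A : ValuationSubring Qb) (hA : A.LiesOverPrime ℓ)
    (hg : (ℓ ≠ 2 ∧ 4 ∣ M) ∨ (ℓ = 2 ∧ 9 ∣ M)) :
    Geo.RRBundle (IsLocalRing.ResidueField A) (Fk (IsLocalRing.ResidueField A) M)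
      (genusFF Qb (FBar Qb M)) := by
  haveI := isAlgClosed_residue A
  have h := rrBundle_of_sep (sepBundle_Fk_residue M ℓ hℓM A hA)
  rw [← genusFF_Fk_eq_of_good M ℓ hℓM A hA hg]
  exact h

end

end Fermat.Agent.S19x.Geo.RRBundleInst
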