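import Mathlib

/-!
# P-S19 block A, (L2-b) core: descent of a lattice to a discretely valued subring (pure algebra)

`A` a local domain (in the application the valuation ring `O_v` of `ℚ̄`), `M` a finite free
`A`-module with basis `e` (the lattice `Lam(D) = L(D) ∩ O`), `A0 ⊆ A` a subring (`O^ur`) with
`ℓ ∈ A0 ∩ 𝔪`, `M0 ⊆ M` an additive subgroup stable under `A0` (the inertia-fixed elements), such
that

* `hπ`   : `A0 → A/𝔪` is onto (the residue fields agree),
* `hrk`  : every nonzero `a ∈ A` divides a power of `ℓ` (rank one),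
* `hsat` : `M0 ∩ 𝔪M = ℓ M0` (the Gauss valuation of an inertia-fixed function lies in `ℤ·v(ℓ)`),
* `M0` contains a family `y` with `e.det y ≠ 0` (the inertia-fixed functions span `L(D)`).

Then `M` has an `A`-basis consisting of elements of `M0` (`exists_basis_mem`), hence every class
of `M/𝔪M` has a representative in `M0` (`exists_mem_sub_mem`): the LIFT LEMMA.

Proof: lattice reduction.  If `det y ∈ 𝔪`, a nontrivial relation `∑ āⱼ ȳⱼ = 0` over the residue
field lifts to `aⱼ ∈ A0`; `z = ∑ aⱼ yⱼ ∈ M0 ∩ 𝔪M = ℓ M0`, `z = ℓ z'`, and replacing `y_{j₀}`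
(`a_{j₀}` a unit) by `z'` divides the determinant by `ℓ` up to a unit.  Terminates by `hrk`.
-/

set_option autoImplicit false
set_option linter.unusedSectionVars false

noncomputable section

namespace Fermat.Agent.S19x.Geo.LatticeDescent

open IsLocalRing Module

variable {A : Type*} [CommRing A] [IsDomain A] [IsLocalRing A]
  {M : Type*} [AddCommGroup M] [Module A M]
  {ι : Type*} [Fintype ι] [DecidableEq ι]

/-- Coordinate criterion for membership in `𝔪 • M`. -/
theorem mem_maximalIdeal_smul_top_iff (e : Basis ι A M) (x : M) :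
    x ∈ maximalIdeal A • (⊤ : Submodule A M) ↔ ∀ i, e.repr x i ∈ maximalIdeal A := by
  constructor
  · intro hx
    refine Submodule.smul_induction_on hx ?_ ?_
    · intro a ha y _ i
      rw [map_smul, Finsupp.smul_apply, smul_eq_mul]
      exact Ideal.mul_mem_right _ _ ha
    · intro y z hy hz i
      rw [map_add, Finsupp.add_apply]
      exact Ideal.add_mem _ (hy i) (hz i)
  · intro h
    rw [← e.sum_repr x]
    exact Submodule.sum_mem _ fun i _ => Submodule.smul_mem_smul (h i) Submodule.mem_top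

/-- Replacing `y j₀` by a linear combination of the `y j` multiplies the determinant by the
coefficient of `y j₀`. -/
theorem det_update_sum (e : Basis ι A M) (y : ι → M) (j0 : ι) (a : ι → A) :
    e.det (Function.update y j0 (∑ j, a j • y j)) = a j0 * e.det y := by
  rw [AlternatingMap.map_update_sum]
  rw [Finset.sum_eq_single j0]
  · rw [AlternatingMap.map_update_smul, Function.update_eq_self, smul_eq_mul]
  · intro j _ hj
    rw [AlternatingMap.map_update_smul, AlternatingMap.map_update_self _ _ (Ne.symm hj), smul_zero]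
  · intro h
    exact absurd (Finset.mem_univ j0) h

section main

variable (e : Basis ι A M) (A0 : Subring A) (M0 : AddSubgroup M)
  (hsmul : ∀ a ∈ A0, ∀ x ∈ M0, a • x ∈ M0)
  (ℓ : A) (hℓ0 : ℓ ≠ 0)
  (hπ : ∀ a : A, ∃ a0 ∈ A0, a - a0 ∈ maximalIdeal A)
  (hsat : ∀ x ∈ M0, x ∈ maximalIdeal A • (⊤ : Submodule A M) → ∃ y ∈ M0, x = ℓ • y)

include hsmul hπ hsat hℓ0 in
/-- One step of the lattice reduction. -/
theorem exists_update_of_det_mem (y : ι → M) (hy : ∀ j, y j ∈ M0)
    (hdet : e.det y ∈ maximalIdeal A) :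
    ∃ (y' : ι → M) (u : A), (∀ j, y' j ∈ M0) ∧ IsUnit u ∧ ℓ * e.det y' = u * e.det y := by
  classical
  set C : Matrix ι ι A := e.toMatrix y with hC
  have hdetC : e.det y = C.det := e.det_apply y
  set Cb : Matrix ι ι (ResidueField A) := C.map (residue A) with hCb
  have hCb0 : Cb.det = 0 := by
    have h1 : (residue A) C.det = ((residue A).mapMatrix C).det := RingHom.map_det _ _
    rw [RingHom.mapMatrix_apply] at h1
    rw [hCb, ← h1, ← hdetC]
    exact (residue_eq_zero_iff _).mpr hdet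
  obtain ⟨vb, hvb0, hvb⟩ := Matrix.exists_mulVec_eq_zero_iff.mpr hCb0
  obtain ⟨j0, hj0⟩ : ∃ j0, vb j0 ≠ 0 := by
    by_contra h
    exact hvb0 (funext fun j => by
      by_contra hj
      exact h ⟨j, hj⟩)
  -- lift the relation to `A0`
  have hlift : ∀ j, ∃ a0 ∈ A0, residue A a0 = vb j := by
    intro j
    obtain ⟨a, ha⟩ := residue_surjective (vb j)
    obtain ⟨a0, ha0, hsub⟩ := hπ a
    refine ⟨a0, ha0, ?_⟩
    rw [← ha]
    have := (residue_eq_zero_iff _).mpr hsub
    rw [map_sub, sub_eq_zero] at this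
    exact this.symm
  choose a haA0 hares using hlift
  set z : M := ∑ j, a j • y j with hz
  have hzM0 : z ∈ M0 := AddSubgroup.sum_mem _ fun j _ => hsmul (a j) (haA0 j) (y j) (hy j)
  have hzm : z ∈ maximalIdeal A • (⊤ : Submodule A M) := by
    rw [mem_maximalIdeal_smul_top_iff e]
    intro i
    rw [← residue_eq_zero_iff]
    have h1 : e.repr z i = ∑ j, a j * C i j := by
      rw [hz, map_sum, Finsupp.coe_finsetSum, Finset.sum_apply]
      refine Finset.sum_congr rfl fun j _ => ?_
      rw [map_smul, Finsupp.smul_apply, smul_eq_mul, hC, Basis.toMatrix_apply]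
    rw [h1, map_sum]
    have h2 := congrFun hvb i
    rw [Matrix.mulVec, dotProduct, Pi.zero_apply] at h2
    rw [← h2]
    refine Finset.sum_congr rfl fun j _ => ?_
    rw [map_mul, hares j, hCb, Matrix.map_apply, mul_comm]
  obtain ⟨z', hz'M0, hzz'⟩ := hsat z hzM0 hzm
  refine ⟨Function.update y j0 z', a j0, fun j => ?_, ?_, ?_⟩
  · by_cases hj : j = j0
    · subst hj; rw [Function.update_self]; exact hz'M0
    · rw [Function.update_of_ne hj]; exact hy j
  · have : a j0 ∉ maximalIdeal A := by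
      intro h
      exact hj0 ((hares j0) ▸ (residue_eq_zero_iff _).mpr h)
    exact (notMem_maximalIdeal).mp this
  · have h1 : e.det (Function.update y j0 (ℓ • z')) = ℓ * e.det (Function.update y j0 z') := by
      rw [AlternatingMap.map_update_smul, smul_eq_mul]
    rw [← h1, ← hzz', hz, det_update_sum]

include hsmul hπ hsat hℓ0 in
/-- The lattice reduction terminates. -/
theorem exists_isUnit_det_aux : ∀ (n : ℕ) (y : ι → M), (∀ j, y j ∈ M0) → e.det y ≠ 0 →
    e.det y ∣ ℓ ^ n → ∃ y' : ι → M, (∀ j, y' j ∈ M0) ∧ IsUnit (e.det y') := by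
  intro n
  induction n with
  | zero =>
    intro y hy _ hdvd
    rw [pow_zero] at hdvd
    exact ⟨y, hy, isUnit_of_dvd_one hdvd⟩
  | succ n ih =>
    intro y hy hne hdvd
    by_cases hu : IsUnit (e.det y)
    · exact ⟨y, hy, hu⟩
    · have hm : e.det y ∈ maximalIdeal A := (mem_maximalIdeal _).mpr hu
      obtain ⟨y', u, hy', hu', hrel⟩ :=
        exists_update_of_det_mem e A0 M0 hsmul ℓ hℓ0 hπ hsat y hy hm
      have hne' : e.det y' ≠ 0 := by
        intro h0
        rw [h0, mul_zero] at hrel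
        exact (mul_ne_zero hu'.ne_zero hne) hrel.symm
      refine ih y' hy' hne' ?_
      obtain ⟨t, ht⟩ := hdvd
      obtain ⟨v, hv⟩ := hu'.exists_left_inv
      -- ℓ^(n+1) = det y * t, ℓ * det y' = u * det y  ⟹  ℓ^n = det y' * (v * t) ... after cancelling ℓ
      refine ⟨v * t, mul_left_cancel₀ hℓ0 ?_⟩
      calc ℓ * ℓ ^ n = ℓ ^ (n + 1) := (pow_succ' ℓ n).symm
        _ = e.det y * t := ht
        _ = (v * u) * e.det y * t := by rw [hv, one_mul]
        _ = v * (u * e.det y) * t := by ring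
        _ = v * (ℓ * e.det y') * t := by rw [hrel]
        _ = ℓ * (e.det y' * (v * t)) := by ring

include hsmul hπ hsat hℓ0 in
/-- **Descent of a lattice.**  `M` has an `A`-basis consisting of elements of `M0`. -/
theorem exists_basis_mem (hrk : ∀ a : A, a ≠ 0 → ∃ n : ℕ, a ∣ ℓ ^ n)
    (y : ι → M) (hy : ∀ j, y j ∈ M0) (hdet : e.det y ≠ 0) :
    ∃ b : Basis ι A M, ∀ j, b j ∈ M0 := by
  obtain ⟨n, hn⟩ := hrk _ hdet
  obtain ⟨y', hy', hu⟩ := exists_isUnit_det_aux e A0 M0 hsmul ℓ hℓ0 hπ hsat n y hy hdet hn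
  obtain ⟨hli, hsp⟩ := e.is_basis_iff_det.mpr hu
  refine ⟨Basis.mk hli hsp.ge, fun j => ?_⟩
  rw [Basis.mk_apply]
  exact hy' j

include hsmul hπ in
/-- Given a basis in `M0`, every class of `M / 𝔪M` has a representative in `M0`. -/
theorem exists_mem_sub_mem_of_basis (b : Basis ι A M) (hb : ∀ j, b j ∈ M0) (x : M) :
    ∃ y ∈ M0, x - y ∈ maximalIdeal A • (⊤ : Submodule A M) := by
  choose a haA0 ha using fun j => hπ (b.repr x j)
  refine ⟨∑ j, a j • b j, AddSubgroup.sum_mem _ fun j _ => hsmul (a j) (haA0 j) (b j) (hb j), ?_⟩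
  have hx : x = ∑ j, b.repr x j • b j := (b.sum_repr x).symm
  have : x - ∑ j, a j • b j = ∑ j, (b.repr x j - a j) • b j := by
    conv_lhs => rw [hx]
    rw [← Finset.sum_sub_distrib]
    exact Finset.sum_congr rfl fun j _ => (sub_smul _ _ _).symm
  rw [this]
  exact Submodule.sum_mem _ fun j _ => Submodule.smul_mem_smul (ha j) Submodule.mem_top

include hsmul hπ hsat hℓ0 in
/-- **Lift lemma**: every class of `M / 𝔪M` has a representative in `M0`. -/
theorem exists_mem_sub_mem (hrk : ∀ a : A, a ≠ 0 → ∃ n : ℕ, a ∣ ℓ ^ n)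
    (y : ι → M) (hy : ∀ j, y j ∈ M0) (hdet : e.det y ≠ 0) (x : M) :
    ∃ y ∈ M0, x - y ∈ maximalIdeal A • (⊤ : Submodule A M) := by
  obtain ⟨b, hb⟩ := exists_basis_mem e A0 M0 hsmul ℓ hℓ0 hπ hsat hrk y hy hdet
  exact exists_mem_sub_mem_of_basis A0 M0 hsmul hπ b hb x

include hsmul in
/-- If the coordinates of the elements of `M0` in a basis `b ⊆ M0` lie in `A0` (Galois: the
coordinates of a fixed vector in a fixed basis are fixed), then `M0` is the `A0`-span of `b`. -/
theorem mem_iff_repr_mem (b : Basis ι A M) (hb : ∀ j, b j ∈ M0)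
    (hfix : ∀ x ∈ M0, ∀ j, b.repr x j ∈ A0) (x : M) :
    x ∈ M0 ↔ ∀ j, b.repr x j ∈ A0 := by
  refine ⟨fun hx j => hfix x hx j, fun h => ?_⟩
  rw [← b.sum_repr x]
  exact AddSubgroup.sum_mem _ fun j _ => hsmul _ (h j) (b j) (hb j)

end main

end Fermat.Agent.S19x.Geo.LatticeDescent
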