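import Fermat.Agent.S19x.Geo.Setting
import Fermat.Agent.S19x.Geo.LatticeFixed
import Fermat.Agent.S19x.Geo.Frame
import Fermat.Agent.S34x.Inst.SigmaGlue

/-!
# P-S19 block A, leaf (L2-b), adapter: `LatticeFixed` in the language of `GeoSetting`/`InertiaData`

Inputs (`FixInputs G I`): the abstract hypotheses `LatticeFixed.FixData G.R I.S` (residue field of
`A^S` is `k`, `A^S` has a uniformiser, the Gauss valuation is unramified on `F^S / K^S`) and
`F = K · F^S`.

Outputs, for `G : GeoSetting A O k κ`, `I : InertiaData G`: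

* `valuationRing_fixedRing`, `isUnit_fixedRing_iff`, `exists_unif` : `A^S = I.fixedRing` is a
  valuation ring, units are detected in `A`, its maximal ideal is principal;
* `exists_fixedRing_lift` : the residue field of `A^S` is `k`;
* `rrs_stable` : `L(D)` is `S`-stable for an `S`-stable divisor `D`;
* `exists_fixedFrame_rrs` : a fixed orthonormal frame of `L(D)`;
* `redLat_rrs` : the reduction of `Λ(D)` is ALL of `L(sp D)` for `deg D ≥ 2g - 1`;
* `exists_fixed_lift_rrs` : **the lift lemma**: for an `S`-stable `D` with `deg D ≥ 2g - 1`, every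
  element of `L(sp D)` is the reduction of an `S`-fixed element of `L(D) ∩ O`;
* `fixedLatticeFacts` : the structure `Frame.FixedLatticeFacts G I N0` consumed by `Geo/Frame.lean`,
  for `2g - 1 ≤ N0`.
-/

set_option autoImplicit false
set_option linter.unusedSectionVars false
set_option linter.style.haveILetI false

noncomputable section

namespace Fermat.Agent.S19x.Geo.LatticeFixedGeo

open AlgebraicCurve IsLocalRing Module
open Fermat.Agent.Gateway.C0 Fermat.Agent.Gateway.Red Fermat.Agent.S27x.Spec.Inj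
  Fermat.Agent.S27x.Spec.Disc Fermat.Agent.Lib.RiemannRoch Fermat.Agent.S19x.Geo
  Fermat.Agent.S19x.Geo.Lattice

universe u v w z

variable {K : Type u} [Field K] {A : ValuationSubring K}
  {F : Type v} [Field F] [Algebra K F] {O : ValuationSubring F}
  {k : Type w} {κ : Type z} [Field k] [Field κ] [Algebra k κ]
  (G : GeoSetting A O k κ) (I : InertiaData G)

/-- the underlying set of the inertia group -/
abbrev SS : Set (SemilinearAut K F) := (I.S : Set (SemilinearAut K F))

theorem isFixed_iff {f : F} : I.IsFixed f ↔ LatticeFixed.IsFixed (SS G I) f := Iff.rfl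

theorem mem_fixedRing_iff {a : A} :
    a ∈ I.fixedRing ↔ LatticeFixed.IsFixedK (SS G I) (a : K) := Iff.rfl

/-- **The inputs**: the abstract hypotheses of `LatticeFixed` for the inertia group, and
`F = K · F^S`. -/
structure FixInputs : Prop where
  fixData : LatticeFixed.FixData G.R (SS G I)
  span_fixed : Submodule.span K {f : F | LatticeFixed.IsFixed (SS G I) f} = ⊤

/-! ### The ring `A^S` -/

/-- the inverse of a fixed unit of `A` is fixed -/
theorem isUnit_fixedRing_iff (a : I.fixedRing) : IsUnit a ↔ IsUnit (a : A) := by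
  constructor
  · exact fun h => h.map (Subring.subtype I.fixedRing)
  · intro h
    obtain ⟨b, hb⟩ := h.exists_right_inv
    have hbK : ((a : A) : K) * (b : K) = 1 := by
      have := congrArg Subtype.val hb
      simpa using this
    have ha0 : ((a : A) : K) ≠ 0 := left_ne_zero_of_mul_eq_one hbK
    have hb' : (b : K) = ((a : A) : K)⁻¹ := eq_inv_of_mul_eq_one_right hbK
    have hbfix : b ∈ I.fixedRing := by
      intro s hs
      rw [hb', map_inv₀, a.2 s hs]
    refine IsUnit.of_mul_eq_one (⟨b, hbfix⟩ : I.fixedRing) ?_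
    exact Subtype.ext hb

/-- `A^S` is a valuation ring. -/
theorem valuationRing_fixedRing : ValuationRing I.fixedRing := by
  refine @ValuationRing.mk _ _ _ ⟨fun a b => ?_⟩
  by_cases ha0 : a = 0
  · exact ⟨0, Or.inr (by rw [ha0, mul_zero])⟩
  by_cases hb0 : b = 0
  · exact ⟨0, Or.inl (by rw [hb0, mul_zero])⟩
  have haK : ((a : A) : K) ≠ 0 := fun h => ha0 (Subtype.ext (Subtype.ext h))
  have hbK : ((b : A) : K) ≠ 0 := fun h => hb0 (Subtype.ext (Subtype.ext h))
  rcases A.mem_or_inv_mem (((b : A) : K) / ((a : A) : K)) with h | h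
  · -- `b / a ∈ A`
    have hfix : (⟨_, h⟩ : A) ∈ I.fixedRing := by
      intro s hs
      show SemilinearAut.baseAut s (((b : A) : K) / ((a : A) : K)) = _
      rw [map_div₀, a.2 s hs, b.2 s hs]
    refine ⟨⟨⟨_, h⟩, hfix⟩, Or.inl ?_⟩
    apply Subtype.ext
    apply Subtype.ext
    show ((a : A) : K) * (((b : A) : K) / ((a : A) : K)) = ((b : A) : K)
    field_simp
  · rw [inv_div] at h
    have hfix : (⟨_, h⟩ : A) ∈ I.fixedRing := by
      intro s hs
      show SemilinearAut.baseAut s (((a : A) : K) / ((b : A) : K)) = _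
      rw [map_div₀, a.2 s hs, b.2 s hs]
    refine ⟨⟨⟨_, h⟩, hfix⟩, Or.inr ?_⟩
    apply Subtype.ext
    apply Subtype.ext
    show ((b : A) : K) * (((a : A) : K) / ((b : A) : K)) = ((a : A) : K)
    field_simp

/-- membership in the maximal ideal of `A^S` is detected in `A`. -/
theorem mem_maximalIdeal_fixedRing_iff [IsLocalRing I.fixedRing] (a : I.fixedRing) :
    a ∈ maximalIdeal I.fixedRing ↔ (a : A) ∈ maximalIdeal A := by
  rw [mem_maximalIdeal, mem_maximalIdeal, mem_nonunits_iff, mem_nonunits_iff,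
    isUnit_fixedRing_iff]

variable {G I}

/-- the residue field of `A^S` is `k` -/
theorem exists_fixedRing_lift (H : FixInputs G I) (cb : k) :
    ∃ ρ : A, G.R.π ρ = cb ∧ ρ ∈ I.fixedRing := by
  obtain ⟨a, hafix, ha⟩ := H.fixData.exists_fixed_coeff cb
  exact ⟨a, ha, hafix⟩

/-- the maximal ideal of `A^S` is principal. -/
theorem exists_unif (H : FixInputs G I) [IsLocalRing I.fixedRing] :
    ∃ ϖ : I.fixedRing, ϖ ≠ 0 ∧ (ϖ : A) ∈ maximalIdeal A ∧
      maximalIdeal I.fixedRing = Ideal.span {ϖ} := by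
  obtain ⟨ϖ, hϖm, hϖ0, hϖfix, hϖdvd⟩ := H.fixData.unif
  have hϖK : (ϖ : K) ≠ 0 := fun h => hϖ0 (Subtype.ext h)
  refine ⟨⟨ϖ, hϖfix⟩, fun h => hϖ0 (congrArg Subtype.val h), hϖm, ?_⟩
  apply le_antisymm
  · intro a ha
    rw [mem_maximalIdeal_fixedRing_iff] at ha
    obtain ⟨d, hd⟩ := hϖdvd (a : A) a.2 ha
    have hdK : (d : K) = ((a : A) : K) / (ϖ : K) := by
      rw [hd]
      show (d : K) = (ϖ : K) * (d : K) / (ϖ : K)
      rw [mul_div_cancel_left₀ _ hϖK]
    have hdfix : d ∈ I.fixedRing := by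
      intro s hs
      rw [hdK, map_div₀, a.2 s hs, hϖfix s hs]
    rw [Ideal.mem_span_singleton]
    exact ⟨⟨d, hdfix⟩, Subtype.ext hd⟩
  · rw [Ideal.span_le, Set.singleton_subset_iff]
    exact (mem_maximalIdeal_fixedRing_iff G I _).2 hϖm

/-! ### `L(D)` for an `S`-stable divisor -/

/-- `L(D)` is `S`-stable for an `S`-stable divisor `D`. -/
theorem rrs_stable {D : Divisor K F} (hD : ∀ s ∈ I.S, s • D = D) :
    ∀ s ∈ SS G I, ∀ f ∈ riemannRochSpace D, s • f ∈ riemannRochSpace D := by
  intro s hs f hf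
  have h := Fermat.Agent.S34x.Inst.SigmaGlue.smul_mem_rrs s hf
  rwa [hD s hs] at h

variable [HasPrincipalDivisors K F] [∀ v : Place K F, v.FiniteResidue]

/-- a fixed orthonormal frame of `L(D)`, for an `S`-stable divisor `D`. -/
theorem exists_fixedFrame_rrs (H : FixInputs G I) {D : Divisor K F}
    (hD : ∀ s ∈ I.S, s • D = D) :
    ∃ b : Fin (finrank K (riemannRochSpace D)) → F,
      LatticeFixed.FixedFrame G.R (SS G I) (riemannRochSpace D) b :=
  haveI := G.nonempty_placeF
  LatticeFixed.exists_fixedFrame_of_stable H.fixData H.span_fixed (riemannRochSpace D)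
    (G.cart _ inferInstance) (rrs_stable hD)

variable [HasPrincipalDivisors k κ] [∀ v : Place k κ, v.FiniteResidue]

/-- for `deg D ≥ 2g - 1`, the reduction of `Λ(D) = L(D) ∩ O` is all of `L(sp D)`. -/
theorem redLat_rrs {D : Divisor K F} (hdeg : 2 * (G.g : ℤ) - 1 ≤ Divisor.degree D) :
    G.R.redLat (riemannRochSpace D) = riemannRochSpace (G.spDiv D) := by
  haveI := G.nonempty_placeF
  haveI := G.nonempty_placeκ
  have hle : G.R.redLat (riemannRochSpace D) ≤ riemannRochSpace (G.spDiv D) := by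
    rintro y ⟨x, hxO, hxV, rfl⟩
    exact res_mem_rrs G.spCompat hxO hxV
  have h1 := G.rrF.finrank_eq hdeg
  have h2 := G.rrκ.finrank_eq (D := G.spDiv D) (by rw [G.degree_spDiv]; exact hdeg)
  rw [G.degree_spDiv] at h2
  have hdim : finrank k (riemannRochSpace (G.spDiv D)) ≤ finrank K (riemannRochSpace D) := by
    have : (finrank k (riemannRochSpace (G.spDiv D)) : ℤ) = finrank K (riemannRochSpace D) := by
      rw [h1, h2]
    exact_mod_cast this.le
  exact (G.R.redLat_eq_of_finrank_le (riemannRochSpace D) (G.cart _ inferInstance)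
    (riemannRochSpace (G.spDiv D)) hle hdim).1

/-- **The lift lemma**: for an `S`-stable divisor `D` with `deg D ≥ 2g - 1`, every element of
`L(sp D)` is the reduction of an `S`-fixed element of `L(D) ∩ O`. -/
theorem exists_fixed_lift_rrs (H : FixInputs G I) {D : Divisor K F}
    (hD : ∀ s ∈ I.S, s • D = D) (hdeg : 2 * (G.g : ℤ) - 1 ≤ Divisor.degree D)
    {y : κ} (hy : y ∈ riemannRochSpace (G.spDiv D)) :
    ∃ (f : F) (hf : f ∈ O), f ∈ riemannRochSpace D ∧ I.IsFixed f ∧ G.R.res ⟨f, hf⟩ = y := by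
  obtain ⟨b, hb⟩ := exists_fixedFrame_rrs H hD
  rw [← redLat_rrs hdeg] at hy
  exact hb.exists_fixed_lift H.fixData hy

/-- a fixed orthonormal frame of `L(D)` whose reductions form a basis of `L(sp D)`. -/
theorem exists_fixedFrame_rrs_span (H : FixInputs G I) {D : Divisor K F}
    (hD : ∀ s ∈ I.S, s • D = D) (hdeg : 2 * (G.g : ℤ) - 1 ≤ Divisor.degree D) :
    ∃ (b : Fin (finrank K (riemannRochSpace D)) → F)
      (hb : LatticeFixed.FixedFrame G.R (SS G I) (riemannRochSpace D) b),
      Submodule.span k (Set.range fun i => G.R.res ⟨b i, hb.mem_O i⟩)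
        = riemannRochSpace (G.spDiv D) := by
  obtain ⟨b, hb⟩ := exists_fixedFrame_rrs H hD
  exact ⟨b, hb, by rw [hb.span_res_eq, redLat_rrs hdeg]⟩

/-! ### The inputs of `Geo/Frame.lean` -/

theorem isFixedPlace_smul_nOo (n : ℕ) : ∀ s ∈ I.S, s • Frame.nOo G n = Frame.nOo G n := by
  intro s hs
  ext w
  rw [SemilinearAut.divisor_smul_apply, Frame.nOo]
  classical
  rw [Finsupp.single_apply, Finsupp.single_apply]
  have hoo := I.smul_oo s hs
  have h1 : G.oo = s⁻¹ • w ↔ G.oo = w := by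
    rw [eq_inv_smul_iff, hoo]
  simp only [h1]

theorem degree_nOo (n : ℕ) : Divisor.degree (Frame.nOo G n) = n := by
  rw [Frame.nOo, Divisor.degree_single, G.rrF.deg_one, Nat.cast_one, mul_one]

/-- **The inputs of `Geo/Frame.lean`.** -/
theorem fixedLatticeFacts (H : FixInputs G I) {N0 : ℕ} (hN0 : 2 * (G.g : ℤ) - 1 ≤ N0) :
    Frame.FixedLatticeFacts G I N0 := by
  refine ⟨?_, ?_, ?_⟩
  · intro c
    obtain ⟨ρ, hρ, hρfix⟩ := exists_fixedRing_lift H c
    exact ⟨⟨ρ, hρfix⟩, hρ⟩
  · intro n hn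
    obtain ⟨b, hb⟩ := exists_fixedFrame_rrs H (isFixedPlace_smul_nOo (G := G) (I := I) n)
    refine ⟨_, b, fun i => ⟨⟨hb.mem_V i, hb.mem_O i⟩, hb.fixed i⟩, hb.res_indep, ?_⟩
    intro f hf
    obtain ⟨c, hcfix, hc⟩ := hb.exists_fixed_coeff hf.1.1 hf.1.2 hf.2
    exact ⟨fun i => ⟨c i, hcfix i⟩, hc⟩
  · intro n hn y hy
    have hdeg : 2 * (G.g : ℤ) - 1 ≤ Divisor.degree (Frame.nOo G n) := by
      rw [degree_nOo]
      have : (N0 : ℤ) ≤ n := by exact_mod_cast hn
      omega
    rw [← Frame.spDiv_nOo G n] at hy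
    obtain ⟨f, hfO, hfV, hffix, hres⟩ :=
      exists_fixed_lift_rrs H (isFixedPlace_smul_nOo (G := G) (I := I) n) hdeg hy
    exact ⟨f, ⟨⟨hfV, hfO⟩, hffix⟩, hres⟩

end Fermat.Agent.S19x.Geo.LatticeFixedGeo

end
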