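/-
P-S19, BLOCK A (helper24): rank-one steps of the pole filtration, from the Riemann-Roch package
`Geo.RRBundle K F g` of `Geo/Setting.lean`.  Requested by helper27 for `Geo/Frame.lean`
(field `step` / `f_not_mem` of `FrameAlg.FiltRed` on the special fibre).

For `deg D ≥ 2g - 1` and any place `Q`:
* `finrank_add_single` : `l(D + Q) = l(D) + 1`;
* `exists_step` : there is `y ∈ L(D + Q)`, `y ∉ L(D)`, and `L(D + Q) ≤ L(D) ⊔ K ∙ y`;
* `exists_step_single` : the same for `D = n • oo` written as `Finsupp.single oo (n : ℤ)`,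
  `n ≥ 2g - 1`: `y ∈ L((n+1) oo)`, `y ∉ L(n oo)`, `L((n+1) oo) ≤ L(n oo) ⊔ K ∙ y`;
* `finrank_single` : `l(n oo) = n + 1 - g` for `n ≥ 2g - 1`;
* `rrs_single_mono` : `L(m oo) ≤ L(n oo)` for `m ≤ n`.
-/
import Fermat.Agent.S19x.Geo.Setting

set_option autoImplicit false
set_option linter.unusedSectionVars false
set_option linter.style.haveILetI false

noncomputable section

open AlgebraicCurve Module

namespace Fermat.Agent.S19x.Geo.RRSteps

open Fermat.Agent.S19x.Geo Fermat.Agent.Lib.RiemannRoch

universe u v

variable {K : Type u} {F : Type v} [Field K] [Field F] [Algebra K F] {g : ℕ}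
variable [HasPrincipalDivisors K F] [∀ v : Place K F, v.FiniteResidue] [Nonempty (Place K F)]

theorem rrs_mono {D D' : Divisor K F} (h : D ≤ D') :
    riemannRochSpace D ≤ riemannRochSpace D' :=
  FunctionFieldDeg.riemannRochSpace_mono h

theorem le_add_single (D : Divisor K F) (Q : Place K F) : D ≤ D + Finsupp.single Q 1 := by
  intro v
  rw [Finsupp.add_apply]
  have : (0 : ℤ) ≤ (Finsupp.single Q (1 : ℤ)) v := by
    classical
    rw [Finsupp.single_apply]
    split_ifs <;> omega
  omega

theorem degree_add_single (B : RRBundle K F g) (D : Divisor K F) (Q : Place K F) :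
    Divisor.degree (D + Finsupp.single Q 1) = Divisor.degree D + 1 := by
  rw [map_add, Divisor.degree_single, B.deg_one]
  simp

/-- `l(D + Q) = l(D) + 1` for `deg D ≥ 2g - 1`. -/
theorem finrank_add_single (B : RRBundle K F g) {D : Divisor K F}
    (hD : 2 * (g : ℤ) - 1 ≤ Divisor.degree D) (Q : Place K F) :
    finrank K (riemannRochSpace (D + Finsupp.single Q 1)) =
      finrank K (riemannRochSpace D) + 1 := by
  have h1 := B.finrank_eq hD
  have h2 := B.finrank_eq (D := D + Finsupp.single Q 1)
    (by rw [degree_add_single B]; omega)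
  rw [degree_add_single B] at h2
  omega

/-- **The rank-one step**: for `deg D ≥ 2g - 1` there is `y ∈ L(D + Q) \ L(D)` and
`L(D + Q) = L(D) ⊕ K y`. -/
theorem exists_step (B : RRBundle K F g) {D : Divisor K F}
    (hD : 2 * (g : ℤ) - 1 ≤ Divisor.degree D) (Q : Place K F) :
    ∃ y ∈ riemannRochSpace (D + Finsupp.single Q 1), y ∉ riemannRochSpace D ∧
      riemannRochSpace (D + Finsupp.single Q 1) ≤
        riemannRochSpace D ⊔ Submodule.span K {y} := by
  have hle : riemannRochSpace D ≤ riemannRochSpace (D + Finsupp.single Q 1) :=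
    rrs_mono (le_add_single D Q)
  have hfin := finrank_add_single B hD Q
  -- an element outside `L(D)`
  have hex : ∃ y ∈ riemannRochSpace (D + Finsupp.single Q 1), y ∉ riemannRochSpace D := by
    by_contra hcon
    have hcon' : riemannRochSpace (D + Finsupp.single Q 1) ≤ riemannRochSpace D :=
      fun y hy => by_contra fun h => hcon ⟨y, hy, h⟩
    have heq : riemannRochSpace (D + Finsupp.single Q 1) = riemannRochSpace D :=
      le_antisymm hcon' hle
    rw [heq] at hfin
    omega
  obtain ⟨y, hy, hyD⟩ := hex
  refine ⟨y, hy, hyD, ?_⟩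
  -- dimension count
  have hsup_le : riemannRochSpace D ⊔ Submodule.span K {y} ≤
      riemannRochSpace (D + Finsupp.single Q 1) :=
    sup_le hle ((Submodule.span_singleton_le_iff_mem _ _).mpr hy)
  have hlt : riemannRochSpace D < riemannRochSpace D ⊔ Submodule.span K {y} := by
    refine lt_of_le_of_ne le_sup_left fun h => hyD ?_
    rw [h]
    exact Submodule.mem_sup_right (Submodule.mem_span_singleton_self y)
  haveI : Module.Finite K (riemannRochSpace D ⊔ Submodule.span K {y} : Submodule K F) :=
    Module.Finite.of_injective (Submodule.inclusion hsup_le) (Submodule.inclusion_injective _)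
  have h1 : finrank K (riemannRochSpace D) <
      finrank K (riemannRochSpace D ⊔ Submodule.span K {y} : Submodule K F) :=
    Submodule.finrank_lt_finrank_of_lt hlt
  have h2 : finrank K (riemannRochSpace D ⊔ Submodule.span K {y} : Submodule K F) ≤
      finrank K (riemannRochSpace (D + Finsupp.single Q 1)) :=
    Submodule.finrank_mono hsup_le
  have h3 : finrank K (riemannRochSpace D ⊔ Submodule.span K {y} : Submodule K F) =
      finrank K (riemannRochSpace (D + Finsupp.single Q 1)) := by omega
  exact (Submodule.eq_of_le_of_finrank_eq hsup_le h3).ge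

/-! ### The pole filtration at one place -/

theorem rrs_single_mono (oo : Place K F) {m n : ℕ} (h : m ≤ n) :
    riemannRochSpace (Finsupp.single oo (m : ℤ)) ≤
      riemannRochSpace (Finsupp.single oo (n : ℤ)) := by
  refine rrs_mono fun v => ?_
  classical
  rw [Finsupp.single_apply, Finsupp.single_apply]
  split_ifs
  · exact_mod_cast h
  · exact le_rfl

theorem degree_single_nat (B : RRBundle K F g) (oo : Place K F) (n : ℕ) :
    Divisor.degree (Finsupp.single oo (n : ℤ)) = n := by
  rw [Divisor.degree_single, B.deg_one]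
  simp

/-- `l(n oo) = n + 1 - g` for `n ≥ 2g - 1`. -/
theorem finrank_single (B : RRBundle K F g) (oo : Place K F) {n : ℕ}
    (hn : 2 * (g : ℤ) - 1 ≤ n) :
    (finrank K (riemannRochSpace (Finsupp.single oo (n : ℤ))) : ℤ) = n + 1 - g := by
  have := B.finrank_eq (D := Finsupp.single oo (n : ℤ)) (by rw [degree_single_nat B]; exact hn)
  rw [degree_single_nat B] at this
  exact this

theorem single_succ (oo : Place K F) (n : ℕ) :
    (Finsupp.single oo ((n + 1 : ℕ) : ℤ) : Divisor K F) =
      Finsupp.single oo (n : ℤ) + Finsupp.single oo 1 := by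
  rw [← Finsupp.single_add]
  push_cast
  rfl

/-- **The rank-one step of the pole filtration**: for `n ≥ 2g - 1` there is
`y ∈ L((n+1) oo) \ L(n oo)` with `L((n+1) oo) ≤ L(n oo) ⊔ K y`. -/
theorem exists_step_single (B : RRBundle K F g) (oo : Place K F) {n : ℕ}
    (hn : 2 * (g : ℤ) - 1 ≤ n) :
    ∃ y ∈ riemannRochSpace (Finsupp.single oo ((n + 1 : ℕ) : ℤ)),
      y ∉ riemannRochSpace (Finsupp.single oo (n : ℤ)) ∧
      riemannRochSpace (Finsupp.single oo ((n + 1 : ℕ) : ℤ)) ≤
        riemannRochSpace (Finsupp.single oo (n : ℤ)) ⊔ Submodule.span K {y} := by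
  rw [single_succ]
  exact exists_step B (by rw [degree_single_nat B]; exact hn) oo

end Fermat.Agent.S19x.Geo.RRSteps
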