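/-
P-S19 BLOCK A (geometry), leaf (1) (helper88): the GATEWAY-RED INTERFACE.

At a GOOD level `M` (`ℓ ∤ M`; `4 ∣ M` for odd `ℓ`, `9 ∣ M` for `ℓ = 2`) and a valuation subring `A` of
`ℚ̄` over `ℓ`, with residue field `k = A/𝔪` (algebraically closed of characteristic `ℓ`), this file
packages, UNCONDITIONALLY, the reduction theory of `X₀(M)` proved in `Gateway/Red`, `Gateway/GoodRed`
with the CONCRETE reduction map of places `sp = Glue.glueRed` (not the `Exists.choose` hidden in
`ReductionInputsModL`), in the form consumed by `S27x/Spec/Disc`, `S27x/Spec/DiscSurj`: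

* `base`, `filtered`       : the `RedBase` of the Gauss valuation, `j` is a filtered chart coordinate;
* `RS`                     : the `C0.RedSetup` (Gauss valuation ring `O`, residue map `res`);
* `sp`, `spCompat`         : the reduction of places and `Inj.SpCompat RS (Disc.spD sp)`
                             (conservation of number), `sp_surjective`, `deg_sp`;
* `isRed`, `gen`           : the Prelude predicates `IsPlaceReductionAlong`,
                             `PrincipalGeneratedByIntegral` for `sp`;
* `sp_decomposition_smul`, `sp_inertia_smul` : equivariance of `sp` on PLACES for the decomposition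
                             group, triviality of inertia;
* `red`, `red_mk`, `red_decomposition_smul`, `red_inertia_smul` : the reduction
                             `JZero M →+ JZeroC k M` on ALL classes.
-/
import Fermat.Agent.Gateway.Red.Final
import Fermat.Agent.Gateway.Red.GoodFactsProved
import Fermat.Agent.Gateway.ES.S37Inputs
import Fermat.Agent.Gateway.C0.RankOne
import Fermat.Agent.S27x.Spec.InjBase
import Fermat.Agent.S27x.Spec.Disc
import Fermat.Agent.S27x.Spec.DiscSurj

set_option autoImplicit false
set_option linter.unusedSectionVars false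
set_option linter.style.haveILetI false

noncomputable section

namespace Fermat.Agent.S19x.Geo.RedIface

open ModularCurve AlgebraicCurve HahnSeries IntermediateField IsLocalRing
open Fermat.Agent.Gateway Fermat.Agent.Gateway.Red Fermat.Agent.Gateway.GoodRed
open Fermat.Agent.S27x.Spec

local notation "Qb" => AlgebraicClosure ℚ

section Level

set_option synthInstance.maxHeartbeats 400000
set_option maxHeartbeats 1600000

variable (M ℓ : ℕ) [NeZero M] [hℓ : Fact ℓ.Prime] (A : ValuationSubring Qb)
  [CharP (ResidueField A) ℓ] [IsAlgClosed (ResidueField A)]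
  (hℓM : ¬ ℓ ∣ M)

local notation "kA" => ResidueField A
local notation "πA" => residue A

/-- the reduction base data of the Gauss valuation at level `M` -/
abbrev base : RedBase Qb A kA (FBar Qb M) (modularFunctionFieldFullC kA M) :=
  modularRedBase A πA ℓ M residue_surjective hℓM

theorem base_O : (base M ℓ A hℓM).O = OvVal A πA M ℓ residue_surjective hℓM := rfl

theorem base_res : (base M ℓ A hℓM).res = resFk A πA M ℓ residue_surjective hℓM := rfl

theorem base_π : (base M ℓ A hℓM).π = πA := rfl

variable (hgood : (ℓ ≠ 2 ∧ 4 ∣ M) ∨ (ℓ = 2 ∧ 9 ∣ M)) (hA : A.LiesOverPrime ℓ)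

include hℓM hgood hA

/-- the level facts (G2) + (G3) at the good level `M` (unconditional) -/
theorem levelFacts : C0.GoodLevelFacts A πA M ℓ residue_surjective hℓM :=
  goodFacts M ℓ hℓM hgood A hA

/-- `j` is a filtered chart coordinate of the Gauss valuation at the good level `M` -/
theorem filtered : (base M ℓ A hℓM).IsFilteredChart (HK1.jL Qb M) :=
  isFilteredChart_jL A πA ℓ M residue_surjective hℓM hA (levelFacts M ℓ A hℓM hgood hA)

/-- `A` has rank one -/
theorem rankOne : ∀ x ∈ maximalIdeal A, ∀ c : A, c ≠ 0 → ∃ j : ℕ, c ∣ x ^ j :=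
  haveI : Algebra.IsAlgebraic ℚ Qb := AlgebraicClosure.isAlgebraic ℚ
  C0.rank_one_of_isAlgebraic A hℓ.out hA

/-- `A` is not a field -/
theorem exists_ne_zero : ∃ ϖ ∈ maximalIdeal A, ϖ ≠ 0 :=
  haveI : Algebra.IsAlgebraic ℚ Qb := AlgebraicClosure.isAlgebraic ℚ
  (C0.gaussRedSetup A πA M ℓ residue_surjective hℓM hA).exists_ne_zero

/-- the `RedSetup` of the Gauss valuation (the form consumed by `S27x/Spec/Disc`) -/
def RS : C0.RedSetup A (base M ℓ A hℓM).O kA (modularFunctionFieldFullC kA M) :=
  InjBase.redSetupOfBase (base M ℓ A hℓM) (rankOne M ℓ A hℓM hgood hA) (exists_ne_zero M ℓ A hℓM hgood hA)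

theorem RS_res : (RS M ℓ A hℓM hgood hA).res = (base M ℓ A hℓM).res := rfl

theorem RS_π : (RS M ℓ A hℓM hgood hA).π = πA := rfl

theorem RS_res_surjective : Function.Surjective (RS M ℓ A hℓM hgood hA).res :=
  (base M ℓ A hℓM).res_surj

/-- **Cartesian lattices**: `V ∩ O` is a finitely generated `A`-module for every finite-dimensional
`ℚ̄`-subspace `V` of the function field. -/
theorem cartesian (V : Submodule Qb (FBar Qb M)) (hV : FiniteDimensional Qb V) :
    ((RS M ℓ A hℓM hgood hA).lat V).FG :=
  fg_inf_OvVal A πA ℓ residue_surjective hℓM V _ (fun _ => Iff.rfl)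

/-- the genus does not drop under reduction (G2) -/
theorem genus_le : genusFF Qb (FBar Qb M) ≤ genusFF kA (modularFunctionFieldFullC kA M) :=
  (levelFacts M ℓ A hℓM hgood hA).genus_le

/-- **the reduction of places** `X₀(M)(ℚ̄) → X₀(M)(k)`: the glued two-chart reduction. -/
def sp : Place Qb (FBar Qb M) → Place kA (modularFunctionFieldFullC kA M) :=
  haveI := finiteDimensional_jL (L := Qb) M
  haveI := isSeparable_jL (L := Qb) M
  haveI := finiteDimensional_res_jL A πA ℓ M residue_surjective hℓM
  haveI := isSeparable_res_jL A πA ℓ M residue_surjective hℓM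
  Glue.glueRed (base M ℓ A hℓM) (HK1.jL Qb M) (filtered M ℓ A hℓM hgood hA).isChart
    (filtered M ℓ A hℓM hgood hA).isChart_inv (HK1.transcendental_jL Qb M)
    (transcendental_res_jL A πA ℓ M residue_surjective hℓM)

/-- **conservation of number** for `sp`, in the form of `S27x/Spec/Inj`. -/
theorem spCompat : Inj.SpCompat (RS M ℓ A hℓM hgood hA) (Disc.spD (sp M ℓ A hℓM hgood hA)) := by
  haveI := finiteDimensional_jL (L := Qb) M
  haveI := isSeparable_jL (L := Qb) M
  haveI := finiteDimensional_res_jL A πA ℓ M residue_surjective hℓM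
  haveI := isSeparable_res_jL A πA ℓ M residue_surjective hℓM
  haveI : CharZero Qb := algebraRat.charZero Qb
  exact InjBase.spCompat_spD (base M ℓ A hℓM) (HK1.jL Qb M) (filtered M ℓ A hℓM hgood hA).isChart
    (filtered M ℓ A hℓM hgood hA).isChart_inv (HK1.transcendental_jL Qb M)
    (transcendental_res_jL A πA ℓ M residue_surjective hℓM) (rankOne M ℓ A hℓM hgood hA)
    (exists_ne_zero M ℓ A hℓM hgood hA)

/-- conservation of number, global `mapDomain` form -/
theorem mapDomain_sp (u : (base M ℓ A hℓM).O) (hu : (base M ℓ A hℓM).res u ≠ 0)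
    (D : Divisor Qb (FBar Qb M)) (hD : ∀ P, D P = P.ord (u : FBar Qb M))
    (Q : Place kA (modularFunctionFieldFullC kA M)) :
    Finsupp.mapDomain (sp M ℓ A hℓM hgood hA) D Q = Q.ord ((base M ℓ A hℓM).res u) := by
  haveI := finiteDimensional_jL (L := Qb) M
  haveI := isSeparable_jL (L := Qb) M
  haveI := finiteDimensional_res_jL A πA ℓ M residue_surjective hℓM
  haveI := isSeparable_res_jL A πA ℓ M residue_surjective hℓM
  exact Glue.glue_count (base M ℓ A hℓM) (HK1.jL Qb M) (filtered M ℓ A hℓM hgood hA).isChart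
    (filtered M ℓ A hℓM hgood hA).isChart_inv (HK1.transcendental_jL Qb M)
    (transcendental_res_jL A πA ℓ M residue_surjective hℓM) u hu D hD Q

/-- **the reduction of places is surjective** -/
theorem sp_surjective : Function.Surjective (sp M ℓ A hℓM hgood hA) := by
  haveI := finiteDimensional_jL (L := Qb) M
  haveI := isSeparable_jL (L := Qb) M
  haveI := finiteDimensional_res_jL A πA ℓ M residue_surjective hℓM
  haveI := isSeparable_res_jL A πA ℓ M residue_surjective hℓM
  exact Glue.glueRed_surjective (base M ℓ A hℓM) (HK1.jL Qb M)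
    (filtered M ℓ A hℓM hgood hA).isChart (filtered M ℓ A hℓM hgood hA).isChart_inv
    (HK1.transcendental_jL Qb M) (transcendental_res_jL A πA ℓ M residue_surjective hℓM)

/-- all places of the generic fibre have degree one -/
theorem deg_eq_one (P : Place Qb (FBar Qb M)) : P.deg = 1 :=
  Hecke.deg_eq_one_full Qb M P

/-- `M` is invertible in the residue field -/
theorem natCast_ne_zero : (M : kA) ≠ 0 := fun h => hℓM ((CharP.cast_eq_zero_iff kA ℓ M).mp h)

/-- all places of the special fibre have degree one -/
theorem deg_eq_one_k (Q : Place kA (modularFunctionFieldFullC kA M)) : Q.deg = 1 :=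
  FkBasics.deg_eq_one_Fk kA M (natCast_ne_zero M ℓ A hℓM hgood hA) Q

/-- **`sp` is a place reduction in the sense of the Prelude.** -/
theorem isRed : IsPlaceReductionAlong A πA M (sp M ℓ A hℓM hgood hA) :=
  isPlaceReductionAlong_of_count A πA ℓ M residue_surjective hℓM (sp M ℓ A hℓM hgood hA)
    (fun u hu D hD Q => mapDomain_sp M ℓ A hℓM hgood hA u hu D hD Q)

/-- principal divisors are generated by divisors of integral functions with nonzero reduction -/
theorem gen : PrincipalGeneratedByIntegral A πA M :=
  principalGeneratedByIntegral A πA ℓ M residue_surjective hℓM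

/-- **(GAL) on divisors**: equivariance of the reduction for the decomposition group. -/
theorem mapDomain_sp_decomposition_smul (g : A.decompositionSubgroup ℚ)
    (D : Divisor Qb (FBar Qb M)) :
    Finsupp.mapDomain (sp M ℓ A hℓM hgood hA)
        (arithmeticGalois (modularFunctionFieldFull M) (g : Qb ≃ₐ[ℚ] Qb) • D) =
      ES.coeffGaloisC kA M (MulSemiringAction.toRingAut (A.decompositionSubgroup ℚ) kA g) •
        Finsupp.mapDomain (sp M ℓ A hℓM hgood hA) D := by
  have hMk := natCast_ne_zero M ℓ A hℓM hgood hA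
  have hr := isRed M ℓ A hℓM hgood hA
  obtain ⟨P1, P2, P3, h12, -, -⟩ := ES.exists_three_values hMk hr
  exact ES.mapDomain_galois_smul_of_bounded hr (gen M ℓ A hℓM hgood hA)
    (g : Qb ≃ₐ[ℚ] Qb)
    (MulSemiringAction.toRingHom (A.decompositionSubgroup ℚ) A g) (fun _ => rfl)
    _ (fun _ => rfl)
    (Hecke.deg_eq_one_full Qb M)
    (FkBasics.deg_eq_one_Fk kA M hMk)
    (ES.effectiveBound_modular M) ⟨P1, P2, h12⟩ D

/-- **(GAL) on places**: `sp (g • P) = ḡ • sp P` for `g` in the decomposition group of `A`. -/
theorem sp_decomposition_smul (g : A.decompositionSubgroup ℚ) (P : Place Qb (FBar Qb M)) :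
    sp M ℓ A hℓM hgood hA
        (arithmeticGalois (modularFunctionFieldFull M) (g : Qb ≃ₐ[ℚ] Qb) • P) =
      ES.coeffGaloisC kA M (MulSemiringAction.toRingAut (A.decompositionSubgroup ℚ) kA g) •
        sp M ℓ A hℓM hgood hA P := by
  have h := mapDomain_sp_decomposition_smul M ℓ A hℓM hgood hA g (Finsupp.single P 1)
  rw [SemilinearAut.smul_single, Finsupp.mapDomain_single, Finsupp.mapDomain_single,
    SemilinearAut.smul_single] at h
  exact Finsupp.single_left_injective one_ne_zero h

/-- **inertia acts trivially on the special fibre**: `sp (σ • P) = sp P` for `σ` in the inertia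
group of `A`. -/
theorem sp_inertia_smul {σ : Qb ≃ₐ[ℚ] Qb} (hσ : σ ∈ A.inertiaSubgroupIn ℚ)
    (P : Place Qb (FBar Qb M)) :
    sp M ℓ A hℓM hgood hA (arithmeticGalois (modularFunctionFieldFull M) σ • P) =
      sp M ℓ A hℓM hgood hA P := by
  obtain ⟨g, hg, rfl⟩ := hσ
  have h1 : MulSemiringAction.toRingAut (A.decompositionSubgroup ℚ) kA g = 1 := hg
  have := sp_decomposition_smul M ℓ A hℓM hgood hA g P
  rw [h1, map_one, one_smul] at this
  exact this

/-- **the reduction map** `J₀(M)(ℚ̄) → J₀(M)(k)` on ALL classes. -/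
def red : JZero M →+ JZeroC kA M :=
  reductionPic0Along (sp M ℓ A hℓM hgood hA) (isRed M ℓ A hℓM hgood hA) (gen M ℓ A hℓM hgood hA)

theorem red_mk (D : Divisor.degZero (K := Qb) (F := FBar Qb M)) :
    red M ℓ A hℓM hgood hA (Pic0.mk D) =
      Pic0.mk (reductionDegZeroAlong (sp M ℓ A hℓM hgood hA) (isRed M ℓ A hℓM hgood hA).1 D) :=
  rfl

theorem coe_reductionDegZeroAlong (D : Divisor.degZero (K := Qb) (F := FBar Qb M)) :
    (reductionDegZeroAlong (sp M ℓ A hℓM hgood hA) (isRed M ℓ A hℓM hgood hA).1 D :
      Divisor kA (modularFunctionFieldFullC kA M)) =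
      Finsupp.mapDomain (sp M ℓ A hℓM hgood hA) (D : Divisor Qb (FBar Qb M)) := rfl

/-- **(GAL) on `Pic⁰`**: equivariance for the decomposition group. -/
theorem red_decomposition_smul (g : A.decompositionSubgroup ℚ) (x : JZero M) :
    red M ℓ A hℓM hgood hA ((g : Qb ≃ₐ[ℚ] Qb) • x) =
      ES.coeffGaloisC kA M (MulSemiringAction.toRingAut (A.decompositionSubgroup ℚ) kA g) •
        red M ℓ A hℓM hgood hA x := by
  obtain ⟨D, rfl⟩ := Pic0.mk_surjective x
  rw [galois_smul_pic0_def, SemilinearAut.pic0_smul_mk, red_mk, red_mk,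
    SemilinearAut.pic0_smul_mk]
  exact congrArg Pic0.mk (Subtype.ext (mapDomain_sp_decomposition_smul M ℓ A hℓM hgood hA g D))

/-- **inertia acts trivially after reduction.** -/
theorem red_inertia_smul {σ : Qb ≃ₐ[ℚ] Qb} (hσ : σ ∈ A.inertiaSubgroupIn ℚ) (x : JZero M) :
    red M ℓ A hℓM hgood hA (σ • x) = red M ℓ A hℓM hgood hA x := by
  obtain ⟨g, hg, rfl⟩ := hσ
  have h1 : MulSemiringAction.toRingAut (A.decompositionSubgroup ℚ) kA g = 1 := hg
  have := red_decomposition_smul M ℓ A hℓM hgood hA g x
  rw [h1, map_one, one_smul] at this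
  exact this

end Level

end Fermat.Agent.S19x.Geo.RedIface
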