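/-
P-S19 BLOCK A (geometry), leaf (L1), final assembly (helper88): `l1Target : L1Target`.

At a good level `M` prime to `ℓ` and a valuation subring `A` of `ℚ̄` over `ℓ`:

* `geoSetting`  : the abstract setting `GeoSetting A O k κ` (`Geo/Setting.lean`) for the Gauss
                  valuation ring `O` of `ℚ̄(X₀(M))`, from `Geo/RedIface` (Gateway red), `Geo/RRBundleInst`
                  (Riemann-Roch on both fibres, same genus) and `Geo/CuspOo` (the cusp `∞`);
* `galHyp`, `inertiaData` : the inertia group of `A` acts as `InertiaData` (`Geo/InertiaInst`,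
                  `Geo/GaussGalois`, `RedIface.sp_inertia_smul`, `CuspOo.smul_ooPlace`);
* `redMap`      : the reduction `JZero M →+ JZeroC k M` as a `RedMap`;
* `l1Target`    : `AMainTargets.L1Target` (with the two descent conjuncts from `Geo/FixDataPlug`).
-/
import Fermat.Agent.S19x.Geo.RedIface
import Fermat.Agent.S19x.Geo.AMainTargets
import Fermat.Agent.S19x.Geo.InertiaInst
import Fermat.Agent.S19x.Geo.GaussGalois
import Fermat.Agent.S19x.Geo.CuspOo
import Fermat.Agent.S19x.Geo.RRBundleInst
import Fermat.Agent.S19x.Geo.FixDataPlug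

set_option autoImplicit false
set_option linter.unusedSectionVars false
set_option linter.style.haveILetI false
set_option linter.unusedVariables false

noncomputable section

namespace Fermat.Agent.S19x.Geo.RedIfaceL1

open ModularCurve AlgebraicCurve HahnSeries IntermediateField IsLocalRing
open Fermat.Agent.Gateway Fermat.Agent.Gateway.Red Fermat.Agent.Gateway.GoodRed
open Fermat.Agent.S19x.Geo

local notation "Qb" => AlgebraicClosure ℚ

section Level

set_option synthInstance.maxHeartbeats 400000
set_option maxHeartbeats 1600000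

variable (M ℓ : ℕ) [NeZero M] [hℓ : Fact ℓ.Prime] (A : ValuationSubring Qb)
  [CharP (ResidueField A) ℓ] [IsAlgClosed (ResidueField A)]
  (hℓM : ¬ ℓ ∣ M) (hgood : (ℓ ≠ 2 ∧ 4 ∣ M) ∨ (ℓ = 2 ∧ 9 ∣ M)) (hA : A.LiesOverPrime ℓ)

local notation "kA" => ResidueField A

/-- **the abstract geometric setting at a good level.** -/
def geoSetting : GeoSetting A (RedIface.base M ℓ A hℓM).O kA (modularFunctionFieldFullC kA M) where
  R := RedIface.RS M ℓ A hℓM hgood hA
  res_surj := RedIface.RS_res_surjective M ℓ A hℓM hgood hA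
  sp := RedIface.sp M ℓ A hℓM hgood hA
  spCompat := RedIface.spCompat M ℓ A hℓM hgood hA
  sp_surj := RedIface.sp_surjective M ℓ A hℓM hgood hA
  cart := RedIface.cartesian M ℓ A hℓM hgood hA
  g := genusFF Qb (FBar Qb M)
  rrF := haveI : CharZero Qb := algebraRat.charZero Qb
    RRBundleInst.rrBundle_FBar Qb M
  rrκ := RRBundleInst.rrBundle_Fk_residue_of_good M ℓ hℓM A hA hgood
  oo := CuspOo.ooPlace Qb M

theorem geoSetting_sp : (geoSetting M ℓ A hℓM hgood hA).sp = RedIface.sp M ℓ A hℓM hgood hA := rfl

theorem geoSetting_R : (geoSetting M ℓ A hℓM hgood hA).R = RedIface.RS M ℓ A hℓM hgood hA := rfl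

/-- the inertia group of `A` satisfies the hypotheses of `InertiaInst.ofGalois`. -/
theorem galHyp : InertiaInst.GalHyp (F₀ := modularFunctionFieldFull M)
    (geoSetting M ℓ A hℓM hgood hA) (A.inertiaSubgroupIn ℚ) where
  map_mem := InertiaInst.inertia_map_mem A
  smul_mem := fun σ hσ f hf => GaussGalois.smul_mem_OvVal_of_mem_inertia A ℓ M hℓM hσ hf
  res_smul := fun σ hσ f hf => GaussGalois.resFk_inertia_smul A ℓ M hℓM hσ hf
  sp_smul := fun σ hσ Q => RedIface.sp_inertia_smul M ℓ A hℓM hgood hA hσ Q
  smul_oo := fun σ _ => CuspOo.smul_ooPlace σ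

/-- **the inertia data at a good level.** -/
def inertiaData : InertiaData (geoSetting M ℓ A hℓM hgood hA) :=
  InertiaInst.ofGalois (galHyp M ℓ A hℓM hgood hA)

/-- **the reduction map as a `RedMap`.** -/
def redMap : RedMap (geoSetting M ℓ A hℓM hgood hA) where
  red := RedIface.red M ℓ A hℓM hgood hA
  red_mk := fun D => RedIface.red_mk M ℓ A hℓM hgood hA D

end Level

set_option synthInstance.maxHeartbeats 400000 in
set_option maxHeartbeats 1600000 in
/-- **(L1): the Gateway-red instantiation of the abstract setting of BLOCK A.** -/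
theorem l1Target : L1Target := by
  intro M _ ℓ _ hℓM hgood P hP
  haveI := ES.charP_residueField_of_liesOverPrime P hP
  haveI : IsAlgClosed (ResidueField P) := ES.isAlgClosed_residueField P
  haveI : CharZero Qb := algebraRat.charZero Qb
  obtain ⟨i1, i2, -⟩ := RRBundleInst.instances_of_sep (RRBundle.sepBundle_FBar Qb M)
  obtain ⟨i3, i4, -⟩ := RRBundleInst.instances_of_sep (RRBundle.sepBundle_Fk_residue M ℓ hℓM P hP)
  refine ⟨ResidueField P, modularFunctionFieldFullC (ResidueField P) M, inferInstance,
    inferInstance, inferInstance, inferInstance, (RedIface.base M ℓ P hℓM).O, i1, i2, i3, i4,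
    geoSetting M ℓ P hℓM hgood hP, inertiaData M ℓ P hℓM hgood hP, redMap M ℓ P hℓM hgood hP,
    ?_, ?_⟩
  · intro σ hσ
    exact ⟨σ, hσ, rfl⟩
  · exact FixDataPlug.fixData_and_span_of_coe_eq P (residue P) ℓ residue_surjective hℓM hP
      (geoSetting M ℓ P hℓM hgood hP).R (inertiaData M ℓ P hℓM hgood hP).S rfl

end Fermat.Agent.S19x.Geo.RedIfaceL1
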