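import Fermat.Agent.S19x.Geo.TrueSol
import Fermat.Agent.S19x.Geo.DivPoly

/-!
# P-S19, block A, leaf (L6), piece (TI): integrality of the root polynomials (helper57)

On top of `Geo/TrueSol` (helper72).  `I : TrueSol.Input G m e z zb vF Uvar Ufix μ val ub ub'`,
`W ≥ 0` an effective divisor of the generic fibre with `sp_* W = ∑_{w ∈ U} μ' w • w`, `U` inside
`Uvar ∪ Ufix`.  Then

* `exists_monic_map_eq` : `ρ_W = rhoV vF W` is the image of a monic `q ∈ A[T]` whose reduction is
  `∏_{w ∈ U} (T - val w) ^ μ' w` (so `rootPolyMult val Ufix μ` for `W`, `rootPoly val Uvar` for `E`: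
  `exists_monic_map_eq_fix`, `exists_monic_map_eq_var`);
* `coeff_rhoV_mem` : the coefficients of `ρ_W` lie in `A`;
* `coeff_rhoV_sub_mem_nonunits` : for two effective divisors with the SAME specialisation the
  coefficients of `ρ_W - ρ_W'` lie in the maximal ideal of `A` (the parameters
  `a_l = coeff_l ρ_W - coeff_l ρ_W0` of the residual system, and `coeff_l ρ_E - coeff_l ρ_Dc`);
* `rhoV_add` : `ρ_{W + W'} = ρ_W ρ_W'` for effective `W`, `W'`; `rhoV_zero`, `rhoV_single`,
  `rhoV_congr`;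
* `rhoV_valAt` : `rhoV (fun Q => valAt Q z) W = divPoly z W` (`Geo/DivPoly`, by `rfl`).
-/

set_option autoImplicit false
set_option linter.unusedSectionVars false
set_option linter.style.haveILetI false
set_option linter.deprecated false

noncomputable section

namespace Fermat.Agent.S19x.Geo.TrueSolInt

open AlgebraicCurve Polynomial Module IsLocalRing
open Fermat.Agent.Gateway.C0 Fermat.Agent.Gateway.Red Fermat.Agent.S27x.Spec.Inj
  Fermat.Agent.S27x.Spec.Disc Fermat.Agent.S27x.Lift.NiceRep Fermat.Agent.S27x.Lift.JacInj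
  Fermat.Agent.S19x.Geo.JacKerMult Fermat.Agent.S19x.Geo.Lattice Fermat.Agent.S19x.Geo.TrueSol

universe u v w z

/-! ### Formal properties of `rhoV` -/

section Rho

variable {K : Type u} {F : Type v} [Field K] [Field F] [Algebra K F]

theorem rhoV_zero (vF : Place K F → K) : rhoV vF (0 : Divisor K F) = 1 := by
  simp [rhoV]

/-- the product over any finite set containing the support -/
theorem rhoV_eq_prod_of_subset (vF : Place K F → K) (D : Divisor K F) {s : Finset (Place K F)}
    (hs : D.support ⊆ s) : rhoV vF D = ∏ Q ∈ s, (X - C (vF Q)) ^ (D Q).toNat := by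
  unfold rhoV
  refine Finset.prod_subset hs fun Q _ hQ => ?_
  rw [Finsupp.notMem_support_iff.mp hQ, Int.toNat_zero, pow_zero]

/-- **`ρ_{W + W'} = ρ_W ρ_W'`** for effective divisors. -/
theorem rhoV_add (vF : Place K F → K) {D E : Divisor K F} (hD : 0 ≤ D) (hE : 0 ≤ E) :
    rhoV vF (D + E) = rhoV vF D * rhoV vF E := by
  classical
  have h1 : (D + E).support ⊆ D.support ∪ E.support := Finsupp.support_add
  rw [rhoV_eq_prod_of_subset vF (D + E) h1,
    rhoV_eq_prod_of_subset vF D Finset.subset_union_left,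
    rhoV_eq_prod_of_subset vF E Finset.subset_union_right, ← Finset.prod_mul_distrib]
  refine Finset.prod_congr rfl fun Q _ => ?_
  rw [← pow_add, Finsupp.add_apply, Int.toNat_add (hD Q) (hE Q)]

theorem rhoV_single (vF : Place K F → K) (Q : Place K F) (n : ℕ) :
    rhoV vF (Finsupp.single Q (n : ℤ)) = (X - C (vF Q)) ^ n := by
  classical
  rcases Nat.eq_zero_or_pos n with rfl | hn
  · simp [rhoV]
  · have hne : (n : ℤ) ≠ 0 := by exact_mod_cast hn.ne'
    unfold rhoV
    rw [Finsupp.support_single_ne_zero _ hne, Finset.prod_singleton, Finsupp.single_eq_same,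
      Int.toNat_natCast]

/-- `rhoV` only depends on the values on the support. -/
theorem rhoV_congr {vF vF' : Place K F → K} {D : Divisor K F}
    (h : ∀ Q ∈ D.support, vF Q = vF' Q) : rhoV vF D = rhoV vF' D :=
  Finset.prod_congr rfl fun Q hQ => by rw [h Q hQ]

/-- with the canonical value function this is `divPoly` of `Geo/DivPoly`. -/
theorem rhoV_valAt (z : F) (D : Divisor K F) : rhoV (fun Q => valAt Q z) D = divPoly z D := rfl

/-- if `vF` gives the values of `z` on the support of `D`, then `rhoV vF D = divPoly z D`. -/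
theorem rhoV_eq_divPoly {vF : Place K F → K} {z : F} {D : Divisor K F}
    (h : ∀ Q ∈ D.support, HasValue Q z (vF Q)) : rhoV vF D = divPoly z D := by
  rw [← rhoV_valAt]
  exact rhoV_congr fun Q hQ => (valAt_eq (h Q hQ)).symm

open Classical in
/-- an `A`-valued version of a value function (junk value `0`). -/
def vA (A : ValuationSubring K) (vF : Place K F → K) : Place K F → A := fun Q =>
  if h : vF Q ∈ A then ⟨vF Q, h⟩ else 0

theorem vA_eq {A : ValuationSubring K} {vF : Place K F → K} {Q : Place K F} (h : vF Q ∈ A) :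
    vA A vF Q = ⟨vF Q, h⟩ := by
  unfold vA
  rw [dif_pos h]

end Rho

/-! ### Integrality and reduction -/

section Main

variable {K : Type u} [Field K] {A : ValuationSubring K}
  {F : Type v} [Field F] [Algebra K F] {O : ValuationSubring F}
  {k : Type w} {κ : Type z} [Field k] [Field κ] [Algebra k κ]
  [HasPrincipalDivisors K F] [∀ v : Place K F, v.FiniteResidue]
  [HasPrincipalDivisors k κ] [∀ v : Place k κ, v.FiniteResidue]
  {G : GeoSetting A O k κ} {m e : ℕ} {z : F} {zb : κ} {vF : Place K F → K}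
  {Uvar Ufix : Finset (Place k κ)} {μ : Place k κ → ℕ} {val : Place k κ → k} {ub ub' : κ}
  (I : Input G m e z zb vF Uvar Ufix μ val ub ub')
include I

/-- **`ρ_W ∈ A[T]`**: monic, with reduction `∏_{w ∈ U} (T - val w) ^ μ' w`. -/
theorem exists_monic_map_eq {W : Divisor K F} (hW : 0 ≤ W) {U : Finset (Place k κ)}
    {μ' : Place k κ → ℕ} (hspW : G.spDiv W = multDiv U μ')
    (hU : ∀ w ∈ U, w ∈ Uvar ∨ w ∈ Ufix) :
    ∃ q : A[X], q.Monic ∧ q.map A.subtype = rhoV vF W ∧
      q.map G.R.π = ∏ w ∈ U, (X - C (val w)) ^ μ' w := by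
  have hmem : ∀ Q ∈ W.support, G.sp Q ∈ Uvar ∨ G.sp Q ∈ Ufix := fun Q hQ =>
    hU _ (sp_mem_of_mem_support G.sp hW hspW hQ)
  refine ⟨∏ Q ∈ W.support, (X - C (vA A vF Q)) ^ (W Q).toNat,
    monic_prod_of_monic _ _ fun Q _ => (monic_X_sub_C _).pow _, ?_, ?_⟩
  · rw [Polynomial.map_prod]
    refine Finset.prod_congr rfl fun Q hQ => ?_
    rw [Polynomial.map_pow, Polynomial.map_sub, Polynomial.map_X, Polynomial.map_C,
      vA_eq (I.vF_mem (I.ne_oob_of_mem (hmem Q hQ)))]
    rfl
  · rw [Polynomial.map_prod]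
    have h1 : ∀ Q ∈ W.support, Polynomial.map G.R.π ((X - C (vA A vF Q)) ^ (W Q).toNat) =
        (fun w => (X - C (val w) : k[X])) (G.sp Q) ^ (W Q).toNat := fun Q hQ => by
      rw [Polynomial.map_pow, Polynomial.map_sub, Polynomial.map_X, Polynomial.map_C,
        vA_eq (I.vF_mem (I.ne_oob_of_mem (hmem Q hQ))), I.π_vF (hmem Q hQ)]
    rw [Finset.prod_congr rfl h1]
    exact prod_fibre G.sp (fun w => (X - C (val w) : k[X])) hW hspW

/-- the fixed part: `ρ_W` reduces to `rootPolyMult val Ufix μ`. -/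
theorem exists_monic_map_eq_fix {W : Divisor K F} (hW : 0 ≤ W)
    (hspW : G.spDiv W = multDiv Ufix μ) :
    ∃ q : A[X], q.Monic ∧ q.map A.subtype = rhoV vF W ∧
      q.map G.R.π = rootPolyMult val Ufix μ :=
  exists_monic_map_eq I hW hspW fun _ hw => Or.inr hw

/-- the variable part: `ρ_E` reduces to `rootPoly val Uvar`. -/
theorem exists_monic_map_eq_var {E : Divisor K F} (hE : 0 ≤ E)
    (hspE : G.spDiv E = finDiv Uvar) :
    ∃ q : A[X], q.Monic ∧ q.map A.subtype = rhoV vF E ∧ q.map G.R.π = rootPoly val Uvar := by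
  obtain ⟨q, h1, h2, h3⟩ := exists_monic_map_eq I (U := Uvar) (μ' := fun _ => 1) hE
    (by rw [hspE, multDiv_one]) fun _ hw => Or.inl hw
  refine ⟨q, h1, h2, ?_⟩
  rw [h3]
  unfold rootPoly
  simp

/-- **the coefficients of `ρ_W` lie in `A`.** -/
theorem coeff_rhoV_mem {W : Divisor K F} (hW : 0 ≤ W) {U : Finset (Place k κ)}
    {μ' : Place k κ → ℕ} (hspW : G.spDiv W = multDiv U μ')
    (hU : ∀ w ∈ U, w ∈ Uvar ∨ w ∈ Ufix) (l : ℕ) : (rhoV vF W).coeff l ∈ A := by
  obtain ⟨q, -, h2, -⟩ := exists_monic_map_eq I hW hspW hU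
  rw [← h2, Polynomial.coeff_map]
  exact (q.coeff l).2

/-- **two effective divisors with the same specialisation**: the coefficients of `ρ_W - ρ_W'` lie
in the maximal ideal of `A`. -/
theorem coeff_rhoV_sub_mem_nonunits {W W' : Divisor K F} (hW : 0 ≤ W) (hW' : 0 ≤ W')
    {U : Finset (Place k κ)} {μ' : Place k κ → ℕ} (hspW : G.spDiv W = multDiv U μ')
    (hspW' : G.spDiv W' = multDiv U μ') (hU : ∀ w ∈ U, w ∈ Uvar ∨ w ∈ Ufix) (l : ℕ) :
    (rhoV vF W).coeff l - (rhoV vF W').coeff l ∈ A.nonunits := by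
  obtain ⟨q, -, h2, h3⟩ := exists_monic_map_eq I hW hspW hU
  obtain ⟨q', -, h2', h3'⟩ := exists_monic_map_eq I hW' hspW' hU
  rw [← h2, ← h2', Polynomial.coeff_map, Polynomial.coeff_map]
  have hπ : G.R.π (q.coeff l - q'.coeff l) = 0 := by
    rw [map_sub, ← Polynomial.coeff_map, ← Polynomial.coeff_map, h3, h3', sub_self]
  have hmax := (G.R.π_eq_zero_iff _).mp hπ
  rw [ValuationSubring.mem_nonunits_iff_exists_mem_maximalIdeal]
  exact ⟨(q.coeff l - q'.coeff l).2, hmax⟩

/-- same statement for two divisors with the same specialisation, without naming `U`, `μ'`: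
fixed part. -/
theorem coeff_rhoV_sub_mem_nonunits_fix {W W' : Divisor K F} (hW : 0 ≤ W) (hW' : 0 ≤ W')
    (hspW : G.spDiv W = multDiv Ufix μ) (hspW' : G.spDiv W' = multDiv Ufix μ) (l : ℕ) :
    (rhoV vF W).coeff l - (rhoV vF W').coeff l ∈ A.nonunits :=
  coeff_rhoV_sub_mem_nonunits I hW hW' hspW hspW' (fun _ hw => Or.inr hw) l

/-- variable part. -/
theorem coeff_rhoV_sub_mem_nonunits_var {E E' : Divisor K F} (hE : 0 ≤ E) (hE' : 0 ≤ E')
    (hspE : G.spDiv E = finDiv Uvar) (hspE' : G.spDiv E' = finDiv Uvar) (l : ℕ) :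
    (rhoV vF E).coeff l - (rhoV vF E').coeff l ∈ A.nonunits :=
  coeff_rhoV_sub_mem_nonunits I (U := Uvar) (μ' := fun _ => 1) hE hE'
    (by rw [hspE, multDiv_one]) (by rw [hspE', multDiv_one]) (fun _ hw => Or.inl hw) l

end Main

end Fermat.Agent.S19x.Geo.TrueSolInt
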