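import Fermat.Agent.S19x.Geo.TrueSol
import Fermat.Agent.S19x.Geo.Targets

/-!
# P-S19, block A, leaf L6: the true solution in the binding `divPoly` encoding (helper72)

`Geo/TrueSol.lean` with the value function `vF Q := valAt Q z` of `Geo/DivPoly.lean`, in the shape
consumed by the geometric glue `Geo/Residual.lean`:

* `exists_hasValue_of_deg_one` : a function regular at a place of degree one has a value there;
* `hasValue_valAt_of_rrs` : `z ∈ L(e oo)` has the value `valAt Q z` at every place `Q ≠ oo`;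
* `rhoV_valAt` : `rhoV (fun Q => valAt Q z) W = divPoly z W`;
* `IsTrueSol.u_mem_Lam`, `IsTrueSol.u'_mem_Lam`, `IsTrueSol.isPrincipal`, `IsTrueSol.degree_E`;
* `exists_trueSol_divPoly` : the packaged statement.
-/

set_option autoImplicit false
set_option linter.unusedSectionVars false
set_option linter.style.haveILetI false

noncomputable section

namespace Fermat.Agent.S19x.Geo.TrueSol

open AlgebraicCurve Polynomial Module IsLocalRing
open Fermat.Agent.Gateway.C0 Fermat.Agent.Gateway.Red Fermat.Agent.S27x.Spec.Inj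
  Fermat.Agent.S27x.Spec.Disc Fermat.Agent.S27x.Lift.NiceRep Fermat.Agent.S27x.Lift.JacInj
  Fermat.Agent.S19x.Geo.JacKerMult Fermat.Agent.S19x.Geo.Lattice Fermat.Agent.S24.ZP

universe u v w z

section Values

variable {K : Type u} {F : Type v} [Field K] [Field F] [Algebra K F]

/-- a function regular at a place of degree one has a value there. -/
theorem exists_hasValue_of_deg_one (Q : Place K F) (hQ : Q.deg = 1) {f : F}
    (hf : f ∈ Q.toValuationSubring) : ∃ c : K, HasValue Q f c := by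
  have h1 : (1 : Q.ResidueField) ≠ 0 := one_ne_zero
  obtain ⟨c, hc⟩ := (finrank_eq_one_iff_of_nonzero' (1 : Q.ResidueField) h1).mp hQ
    (IsLocalRing.residue Q.toValuationSubring ⟨f, hf⟩)
  refine ⟨c, hasValue_iff.mpr ⟨hf, ?_⟩⟩
  rw [← hc, Algebra.smul_def, mul_one]
  rfl

theorem rhoV_valAt (z : F) (W : Divisor K F) : rhoV (fun Q => valAt Q z) W = divPoly z W := rfl

end Values

section Out

variable {K : Type u} [Field K] {A : ValuationSubring K}
  {F : Type v} [Field F] [Algebra K F] {O : ValuationSubring F}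
  {k : Type w} {κ : Type z} [Field k] [Field κ] [Algebra k κ]
  [HasPrincipalDivisors K F] [∀ v : Place K F, v.FiniteResidue]
  [HasPrincipalDivisors k κ] [∀ v : Place k κ, v.FiniteResidue]
  {G : GeoSetting A O k κ}

/-- `z ∈ L(e oo)` has the value `valAt Q z` at every place `Q ≠ oo`. -/
theorem hasValue_valAt_of_rrs {z : F} {e : ℕ}
    (hz : z ∈ riemannRochSpace (Finsupp.single G.oo (e : ℤ))) {Q : Place K F} (hQ : Q ≠ G.oo) :
    HasValue Q z (valAt Q z) := by
  apply hasValue_valAt
  apply exists_hasValue_of_deg_one Q (G.rrF.deg_one Q)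
  rcases mem_riemannRochSpace_iff.mp hz Q with h | h
  · rw [h]
    exact Q.toValuationSubring.zero_mem
  · rw [Finsupp.single_eq_of_ne hQ, neg_zero] at h
    exact mem_of_ord_nonneg Q h

namespace IsTrueSol

variable {m e : ℕ} {z : F} {vF : Place K F → K} {Uvar : Finset (Place k κ)} {ub ub' : κ}
  {W E : Divisor K F} {u u' : F} (T : IsTrueSol G m e z vF Uvar ub ub' W E u u')
include T

/-- `W + E - m oo = div u` is principal. -/
theorem isPrincipal : Divisor.IsPrincipal (W + E - G.mulOo m) :=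
  ⟨u, T.u_ne, fun v => (T.ord_u v).symm⟩

theorem u_mem_rrs (hW : 0 ≤ W) : u ∈ riemannRochSpace (G.mulOo m) := by
  rw [mem_riemannRochSpace_iff]
  intro v
  refine Or.inr ?_
  rw [T.ord_u v]
  have h1 := hW v
  have h2 := T.E_nonneg v
  simp only [Finsupp.coe_zero, Pi.zero_apply] at h1 h2
  simp only [Finsupp.sub_apply, Finsupp.add_apply, GeoSetting.mulOo]
  omega

/-- `u ∈ Λ(m oo)`. -/
theorem u_mem_Lam (hW : 0 ≤ W) : u ∈ Lam G.R (G.mulOo m) := ⟨T.u_mem_rrs hW, T.u_mem⟩

/-- `u' ∈ Λ((e m - m) oo)`. -/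
theorem u'_mem_Lam : u' ∈ Lam G.R (Finsupp.single G.oo ((e : ℤ) * m - m)) :=
  ⟨T.u'_rrs, T.u'_mem⟩

/-- the residual divisor has degree `g`. -/
theorem degree_E (hcard : Uvar.card = G.g) : Divisor.degree E = G.g := by
  rw [← G.degree_spDiv, T.sp_E]
  unfold finDiv
  rw [map_sum]
  simp only [Divisor.degree_single, G.rrκ.deg_one, Nat.cast_one, mul_one]
  rw [Finset.sum_const, nsmul_eq_mul, mul_one, hcard]

end IsTrueSol

/-- **The true solution, packaged in the `divPoly` encoding.**  `Input` with the value function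
`valAt · z`; for every effective `W` with the specialisation `∑ μ Q • Q` there are `E`, `u`, `u'`
as in `IsTrueSol`, the root polynomials being `divPoly z W`, `divPoly z E`. -/
theorem exists_trueSol_divPoly {m e : ℕ} {z : F} {zb : κ} {Uvar Ufix : Finset (Place k κ)}
    {μ : Place k κ → ℕ} {val : Place k κ → k} {ub ub' : κ}
    (I : Input G m e z zb (fun Q => valAt Q z) Uvar Ufix μ val ub ub')
    {W : Divisor K F} (hW : 0 ≤ W) (hspW : G.spDiv W = multDiv Ufix μ) :
    ∃ (E : Divisor K F) (u u' : F),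
      0 ≤ E ∧ Divisor.degree E = G.g ∧ G.spDiv E = finDiv Uvar ∧
      Divisor.IsPrincipal (W + E - G.mulOo m) ∧
      u ∈ Lam G.R (G.mulOo m) ∧ u' ∈ Lam G.R (Finsupp.single G.oo ((e : ℤ) * m - m)) ∧
      (∃ (hu : u ∈ O) (hu' : u' ∈ O), G.R.res ⟨u, hu⟩ = ub ∧ G.R.res ⟨u', hu'⟩ = ub') ∧
      u * u' = aeval z (divPoly z W) * aeval z (divPoly z E) := by
  obtain ⟨E, u, u', T⟩ := I.exists_isTrueSol hW hspW
  exact ⟨E, u, u', T.E_nonneg, T.degree_E I.card_var, T.sp_E, T.isPrincipal, T.u_mem_Lam hW,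
    T.u'_mem_Lam, ⟨T.u_mem, T.u'_mem, T.res_u, T.res_u'⟩, T.prod⟩

/-- the numerical relation `m = ∑ μ + #Uvar` follows from `deg (div ub) = 0`. -/
theorem m_eq_of_resSolM {m : ℕ} {zb : κ} {Uvar Ufix : Finset (Place k κ)}
    {μ : Place k κ → ℕ} {val : Place k κ → k} {ub ub' : κ}
    (S : ResSolM G.oob Uvar Ufix μ zb val ub ub') (ord_oob : G.oob.ord ub = -(m : ℤ)) :
    (m : ℤ) = ∑ Q ∈ Ufix, (μ Q : ℤ) + Uvar.card := by
  classical
  haveI := G.nonempty_placeκ
  obtain ⟨D, hD, hdeg⟩ := HasPrincipalDivisors.exists_divisor (K := k) ub S.u_ne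
  have hDeq : D = finDiv Uvar + multDiv Ufix μ - Finsupp.single G.oob (m : ℤ) := by
    ext w
    rw [hD w, Finsupp.sub_apply, Finsupp.add_apply]
    by_cases hw : w = G.oob
    · rw [hw, ord_oob, Finsupp.single_eq_same, finDiv_apply_of_notMem S.P_notMem_var,
        multDiv_apply_of_notMem S.P_notMem_fix]
      ring
    · rw [S.ord_u w hw, Finsupp.single_eq_of_ne hw]
      ring
  have h1 : Divisor.degree (finDiv Uvar) = Uvar.card := G.rrκ.degree_sum_single Uvar
  have h2 : Divisor.degree (multDiv Ufix μ) = ∑ Q ∈ Ufix, (μ Q : ℤ) := by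
    unfold multDiv
    rw [map_sum]
    refine Finset.sum_congr rfl fun Q _ => ?_
    rw [Divisor.degree_single, G.rrκ.deg_one, Nat.cast_one, mul_one]
  rw [hDeq, map_sub, map_add, h1, h2, Divisor.degree_single, G.rrκ.deg_one] at hdeg
  push_cast at hdeg
  linarith

/-- the `Input` for the value function `valAt · z`: the field `vF_spec` is automatic. -/
theorem Input.of_valAt {m e : ℕ} {z : F} {zb : κ} {Uvar Ufix : Finset (Place k κ)}
    {μ : Place k κ → ℕ} {val : Place k κ → k} {ub ub' : κ}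
    (z_mem : z ∈ O) (res_z : G.R.res ⟨z, z_mem⟩ = zb)
    (z_rrs : z ∈ riemannRochSpace (Finsupp.single G.oo (e : ℤ)))
    (resSol : ResSolM G.oob Uvar Ufix μ zb val ub ub')
    (nonspecial : finrank k (riemannRochSpace (finDiv Uvar)) = 1)
    (card_var : Uvar.card = G.g) (ord_oob : G.oob.ord ub = -(m : ℤ)) :
    Input G m e z zb (fun Q => valAt Q z) Uvar Ufix μ val ub ub' :=
  ⟨z_mem, res_z, z_rrs, fun _ hQ => hasValue_valAt_of_rrs z_rrs hQ, resSol, nonspecial, card_var,
    ord_oob, m_eq_of_resSolM resSol ord_oob⟩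

end Out

end Fermat.Agent.S19x.Geo.TrueSol
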