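import Fermat.Agent.S19x.Geo.ConfigOfLeaves

/-!
# P-S19, BLOCK A, leaf L6: the Residual-Theorem builder in genus zero (helper97)

`ConfigOfLeaves.ResidualBuilder G I` is quantified over every geometric setting, including those of
genus zero (e.g. level `4`), where the frames / Jacobian machinery of the Residual Theorem
degenerates (`m = m' = 0`, no coordinates).  In genus zero the statement is elementary: every
divisor of degree zero is principal (Riemann's inequality), the residual of every `W` near `W0` is
the base residual `Dc` itself, and the approximation statement is empty (`Fin 0`).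

* `eq_zero_of_nonneg_of_degree_le` : an effective divisor of degree `≤ 0` is zero;
* `isPrincipal_of_degree_eq_zero` : in genus zero a divisor of degree zero is principal;
* `residualOutOfGenusZero` : the `ResidualOut` of a configuration in genus zero;
* `residualBuilder_of_genus_zero : G.g = 0 → ConfigOfLeaves.ResidualBuilder G I`;
* `residualBuilder_of_pos` : a builder for `0 < G.g` gives a builder.
-/

set_option autoImplicit false
set_option linter.unusedSectionVars false
set_option linter.style.haveILetI false

noncomputable section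

namespace Fermat.Agent.S19x.Geo.ResidualGenusZero

open AlgebraicCurve IsLocalRing Module Polynomial
open Fermat.Agent.Gateway.C0 Fermat.Agent.Gateway.Red Fermat.Agent.S27x.Spec.Inj
  Fermat.Agent.S27x.Spec.Disc Fermat.Agent.Lib.RiemannRoch
open Fermat.Agent.S19x.Geo.LiftCfg Fermat.Agent.S19x.Geo.NiceRepL
  Fermat.Agent.S19x.Geo.ConfigOfLeaves

universe u v w z

variable {K : Type u} [Field K] {A : ValuationSubring K} {F : Type v} [Field F] [Algebra K F]
  {O : ValuationSubring F} {k : Type w} {κ : Type z} [Field k] [Field κ] [Algebra k κ]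
  [HasPrincipalDivisors K F] [∀ v : Place K F, v.FiniteResidue] [HasPrincipalDivisors k κ]
  [∀ v : Place k κ, v.FiniteResidue]
  {G : GeoSetting A O k κ} {I : InertiaData G}

/-! ### Divisors of degree zero in genus zero -/

/-- an effective divisor of degree `≤ 0` is zero (all places have positive degree) -/
theorem eq_zero_of_nonneg_of_degree_le {D : Divisor K F} (h : 0 ≤ D)
    (hd : Divisor.degree D ≤ 0) : D = 0 := by
  classical
  ext v
  by_contra hv
  have hpos : 0 < D v := lt_of_le_of_ne (h v) (Ne.symm hv)
  have h1 : Finsupp.single v (1 : ℤ) ≤ D := by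
    intro w
    by_cases hw : w = v
    · subst hw
      simp only [Finsupp.single_eq_same]
      omega
    · rw [Finsupp.single_eq_of_ne hw]
      exact h w
  have h2 := degree_mono h1
  rw [Divisor.degree_single] at h2
  have h3 : 0 < v.deg := deg_pos v
  have h4 : (0 : ℤ) < v.deg := by exact_mod_cast h3
  simp only [one_mul] at h2
  omega

/-- **In genus zero every divisor of degree zero is principal.** -/
theorem isPrincipal_of_degree_eq_zero (hg : G.g = 0) {D : Divisor K F}
    (hD : Divisor.degree D = 0) : Divisor.IsPrincipal D := by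
  haveI := G.nonempty_placeF
  have h1 := G.rrF.le_finrank D
  rw [hD, hg] at h1
  have h2 : 0 < finrank K (riemannRochSpace D) := by
    have : (1 : ℤ) ≤ finrank K (riemannRochSpace D) := by simpa using h1
    omega
  obtain ⟨⟨f, hf⟩, hf0⟩ := Module.finrank_pos_iff_exists_ne_zero.mp h2
  have hf0' : f ≠ 0 := fun h => hf0 (Subtype.ext h)
  have hnn : 0 ≤ divOf (K := K) f + D := by
    intro v
    have := (mem_riemannRochSpace_iff.mp hf v).resolve_left hf0'
    rw [Finsupp.add_apply, divOf_apply hf0']
    simp only [Finsupp.coe_zero, Pi.zero_apply]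
    omega
  have hz : divOf (K := K) f + D = 0 :=
    eq_zero_of_nonneg_of_degree_le hnn (by rw [map_add, degree_divOf, hD, add_zero])
  refine ⟨f⁻¹, inv_ne_zero hf0', fun v => ?_⟩
  have h3 := DFunLike.congr_fun hz v
  rw [Finsupp.add_apply, divOf_apply hf0'] at h3
  simp only [Finsupp.coe_zero, Pi.zero_apply] at h3
  rw [Place.ord_inv]
  omega

/-! ### The Residual-Theorem output in genus zero -/

/-- **The Residual-Theorem output of a configuration in genus zero**: the residual of every `W`
near `W0` is `Dc`, and there are no coordinates. -/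
def residualOutOfGenusZero (I : InertiaData G) (hg : G.g = 0) (zf : F) (m : ℕ)
    (W0 Dc : Divisor K F) (dW : ℕ) (hW0 : 0 ≤ W0) (hW0deg : Divisor.degree W0 = dW)
    (hDc : 0 ≤ Dc) (hDcdeg : Divisor.degree Dc = G.g)
    (hbase : Divisor.IsPrincipal (W0 + Dc - G.mulOo m)) : ResidualOut I where
  z := zf
  m := m
  W0 := W0
  Dc := Dc
  dW := dW
  W0_nonneg := hW0
  W0_deg := hW0deg
  Dc_nonneg := hDc
  Dc_deg := hDcdeg
  base_principal := hbase
  spec := fun _ => ⟨fun _ => 0, fun _ => map_zero _, fun W _ hsp =>
    ⟨Dc, hDc, hDcdeg, by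
      apply isPrincipal_of_degree_eq_zero hg
      have h0 := degree_eq_zero_of_isPrincipal hbase
      have h1 : Divisor.degree W = Divisor.degree W0 := by
        rw [← G.degree_spDiv W, hsp, G.degree_spDiv]
      rw [map_sub, map_add] at h0 ⊢
      rw [h1]
      exact h0, rfl, fun _ _ _ l => absurd (hg ▸ l.2 : (l : ℕ) < 0) (Nat.not_lt_zero _)⟩⟩

section Builder

variable [IsAlgClosed k]

/-- **The Residual-Theorem builder in genus zero.** -/
theorem residualBuilder_of_genus_zero (hg : G.g = 0) : ResidualBuilder G I := by
  haveI := G.nonempty_placeκ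
  intro m m' e c L _ _ _ _
  have hdW1 : Divisor.degree (W1 L) = ((m : ℕ) : ℤ) := by
    rw [degree_W1, hg]
    simp
  have hdW2 : Divisor.degree (W2 L) = ((m' : ℕ) : ℤ) := by
    rw [degree_W2, hg]
    simp
  exact ⟨⟨residualOutOfGenusZero I hg L.z m (W1 L) (D1 L) m (W1_nonneg L) hdW1 (D1_nonneg L)
      (degree_D1 L) (isPrincipal_W1 L), rfl, rfl, rfl, rfl⟩,
    ⟨residualOutOfGenusZero I hg L.z m' (W2 L) (D0 L) m' (W2_nonneg L) hdW2 (D0_nonneg L)
      (degree_D0 L) (isPrincipal_W2 L), rfl, rfl, rfl, rfl⟩⟩

/-- **Reduction to positive genus**: a Residual-Theorem builder for `0 < G.g` is enough. -/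
theorem residualBuilder_of_pos (h : 0 < G.g → ResidualBuilder G I) : ResidualBuilder G I := by
  rcases Nat.eq_zero_or_pos G.g with hg | hg
  · exact residualBuilder_of_genus_zero hg
  · exact h hg

end Builder

end Fermat.Agent.S19x.Geo.ResidualGenusZero
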