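import Mathlib
import Fermat.Agent.S27x.Lift.FactorSystem
import Fermat.Agent.S19x.Geo.FactorJac

/-!
# P-S19, block A, leaf L6 (helper62): the pure-algebra core of the Residual Theorem

The factorisation system `u * u' = R_fix(z) * R_var(z)` of `S27x/Lift/FactorSystem` (exponent
`n = 1`) over a base ring `O₀` (for us `O^ur = inertiaInt P`), with the fixed factor made to depend
POLYNOMIALLY on parameters `X_l` (`l : κ`):

  `R_fix(z) = rfix₀ + ∑ l, X_l * z ^ (d l)`.

* `GP D d : I3 ⊕ Unit → MvPolynomial (Idx I1 I2 g ⊕ κ) O₀` : the parametrised equations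
  (unknowns `Sum.inl`, parameters `Sum.inr`);
* `eval_GP_base` : at the parameter value `0` they are the equations `D.G g` of `FactorSystem`;
* `eval_pderiv_GP_base` : the partial derivatives with respect to the unknowns at `(x0 ; 0)` are
  those of `D.G g` at `x0` (so the Jacobian is the one of `Geo/FactorJac`);
* `coreP D ι d a` : the ring-level data of the system over a `P`-algebra `BP` (for us `P` = the
  valuation ring of `ℚ̄`, `BP` = functions regular off `∞`) at a parameter value `a : κ → P`;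
* `eval₂_GP_inl`, `eval₂_GP_inr`, `eval₂_GP_eq_zero` : a solution over `P` of the system with
  parameter `a` is a zero of `GP` under `eval₂ ψ (Sum.elim xs a)`;
* `residual_core` : the Newton-approximation statement (hypothesis `hNA`, to be discharged by
  `S19x/Alg/NewtonApprox.approx_spec`) turns into the statement consumed by the geometric
  Residual Theorem: polynomials `Θ l` over `O₀` in the parameters, with zero constant term,
  approximating the lower coefficients of `R_var` of ANY true solution congruent to the base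
  solution, to precision `𝔞 ^ (n+1)` for every ideal `𝔞 ≤ 𝔪` containing the parameters.
-/

set_option autoImplicit false
set_option linter.unusedSectionVars false

noncomputable section

namespace Fermat.Agent.S19x.Geo.ResidualCore

open MvPolynomial Fermat.Agent.S27x.Lift.FactorSystem Fermat.Agent.S19x.Geo.FactorJac

variable {I1 I2 I3 : Type*} {g : ℕ} [Fintype I1] [Fintype I2]
variable {O₀ B₀ : Type*} [CommRing O₀] [CommRing B₀] [Algebra O₀ B₀]
variable {κ : Type*} [Fintype κ]

/-! ### The parametrised equations -/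

/-- `R_var(z)` as a polynomial over `B₀` in the unknowns. -/
def rvarMv (K : Core B₀ I1 I2) (g : ℕ) : MvPolynomial (Idx I1 I2 g) B₀ :=
  C (K.z ^ g) + ∑ l : Fin g, X (rIdx l) * C (K.z ^ (l : ℕ))

omit [Fintype I1] [Fintype I2] in
theorem eval_rvarMv (K : Core B₀ I1 I2) (y : Idx I1 I2 g → B₀) :
    eval y (rvarMv K g) = K.rvar y := by
  simp only [rvarMv, Core.rvar, Core.rdot, map_add, map_sum, map_mul, eval_X, eval_C]

omit [Fintype I1] [Fintype I2] in
theorem map_rvarMv {B' : Type*} [CommRing B'] (K : Core B₀ I1 I2) (f : B₀ →+* B') :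
    MvPolynomial.map f (rvarMv K g) = rvarMv (K.map f) g := by
  simp only [rvarMv, Core.map, map_add, map_sum, map_mul, map_X, map_C, map_pow]

/-- the coefficient of the parameter `X_l` in the `w`-th equation: the `w`-th coordinate of
`z ^ (d l) * R_var(z)`. -/
def corr (D : Data O₀ B₀ I1 I2 I3) (d : κ → ℕ) (w : I3) (l : κ) :
    MvPolynomial (Idx I1 I2 g) O₀ :=
  mapLin (D.φ w) (C (D.z ^ d l) * rvarMv D.toCore g)

/-- **the parametrised equations**: unknowns `Sum.inl`, parameters `Sum.inr`. -/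
def GP (D : Data O₀ B₀ I1 I2 I3) (d : κ → ℕ) :
    I3 ⊕ Unit → MvPolynomial (Idx I1 I2 g ⊕ κ) O₀
  | Sum.inl w => rename Sum.inl (D.G g (Sum.inl w))
      - ∑ l : κ, X (Sum.inr l) * rename Sum.inl (corr D d w l)
  | Sum.inr u => rename Sum.inl (D.G g (Sum.inr u))

/-- the base point: unknowns `x0`, parameters `0`. -/
def basePt (x0 : Idx I1 I2 g → O₀) : Idx I1 I2 g ⊕ κ → O₀ := Sum.elim x0 (fun _ => 0)

omit [Fintype κ] in
theorem eval_basePt_rename (x0 : Idx I1 I2 g → O₀) (p : MvPolynomial (Idx I1 I2 g) O₀) :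
    eval (basePt (κ := κ) x0) (rename Sum.inl p) = eval x0 p := by
  rw [eval_rename]
  rfl

/-- at the parameter value `0` the parametrised equations are those of `FactorSystem`. -/
theorem eval_GP_base (D : Data O₀ B₀ I1 I2 I3) (d : κ → ℕ) (x0 : Idx I1 I2 g → O₀)
    (j : I3 ⊕ Unit) : eval (basePt x0) (GP D d j) = eval x0 (D.G g j) := by
  rcases j with w | u
  · rw [GP, map_sub, eval_basePt_rename, map_sum]
    rw [Finset.sum_eq_zero, sub_zero]
    intro l _
    rw [map_mul, eval_X]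
    simp [basePt]
  · rw [GP, eval_basePt_rename]

/-- the derivatives with respect to the unknowns at the base point. -/
theorem eval_pderiv_GP_base [DecidableEq I1] [DecidableEq I2] [DecidableEq κ]
    (D : Data O₀ B₀ I1 I2 I3) (d : κ → ℕ)
    (x0 : Idx I1 I2 g → O₀) (i : Idx I1 I2 g) (j : I3 ⊕ Unit) :
    eval (basePt x0) (pderiv (Sum.inl i) (GP D d j)) = eval x0 (pderiv i (D.G g j)) := by
  rcases j with w | u
  · rw [GP, map_sub, pderiv_rename Sum.inl_injective, map_sub, eval_basePt_rename, map_sum,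
      map_sum]
    rw [Finset.sum_eq_zero, sub_zero]
    intro l _
    rw [Derivation.leibniz, pderiv_X_of_ne (by simp), smul_zero, add_zero, smul_eq_mul, map_mul,
      eval_X]
    simp [basePt]
  · rw [GP, pderiv_rename Sum.inl_injective, eval_basePt_rename]

/-! ### The system over `P` at a parameter value -/

variable {P BP : Type*} [CommRing P] [CommRing BP] [Algebra P BP]

/-- the point of `BP` attached to a point of `P`. -/
def ptP (xs : Idx I1 I2 g → P) : Idx I1 I2 g → BP := fun i => algebraMap P BP (xs i)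

/-- the ring-level data over `BP` at the parameter value `a`:
`R_fix = ι rfix₀ + ∑ l, a l * (ι z) ^ (d l)`, exponent `1`. -/
def coreP (D : Data O₀ B₀ I1 I2 I3) (ι : B₀ →+* BP) (d : κ → ℕ) (a : κ → P) : Core BP I1 I2 where
  b1 := fun s => ι (D.b1 s)
  b2 := fun t => ι (D.b2 t)
  z := ι D.z
  rfix := ι D.rfix + ∑ l, algebraMap P BP (a l) * ι D.z ^ d l
  n := 1

/-- a zero of the system over `P`, in the unknown-coordinates `xs`, at the parameter `a`. -/
def IsSolP (D : Data O₀ B₀ I1 I2 I3) (ψ : O₀ →+* P) (ι : B₀ →+* BP) (d : κ → ℕ) (a : κ → P)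
    (xs : Idx I1 I2 g → P) : Prop :=
  (coreP D ι d a).uOf (ptP xs) * (coreP D ι d a).vOf (ptP xs)
      = (coreP D ι d a).rfix * (coreP D ι d a).rvar (ptP xs) ∧
    xs (uIdx D.t0) = ψ D.α0

theorem eval₂_GP_inl (D : Data O₀ B₀ I1 I2 I3) (hn : D.n = 1) (d : κ → ℕ)
    (ψ : O₀ →+* P) (ι : B₀ →+* BP) (φP : I3 → (BP →ₗ[P] P))
    (hφ : ∀ w b, φP w (ι b) = ψ (D.φ w b))
    (a : κ → P) (xs : Idx I1 I2 g → P) (w : I3) :
    eval₂ ψ (Sum.elim xs a) (GP D d (Sum.inl w))
      = φP w ((coreP D ι d a).value (ptP xs)) := by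
  have hren : ∀ p : MvPolynomial (Idx I1 I2 g) O₀,
      eval₂ ψ (Sum.elim xs a) (rename Sum.inl p) = eval₂ ψ xs p := by
    intro p
    rw [eval₂_rename]
    rfl
  have h1 : eval₂ ψ xs (D.G g (Sum.inl w))
      = φP w ((D.toCore.map ι).value (ptP xs)) := by
    rw [Data.G, eval₂_mapLin ψ ι (D.φ w) (φP w) (hφ w) xs, Core.map_master, Core.eval_master]
    rfl
  have h2 : ∀ l : κ, eval₂ ψ xs (corr D d w l)
      = φP w (ι D.z ^ d l * (D.toCore.map ι).rvar (ptP xs)) := by
    intro l
    rw [corr, eval₂_mapLin ψ ι (D.φ w) (φP w) (hφ w) xs, map_mul, map_C, map_rvarMv, map_mul,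
      eval_C, eval_rvarMv, map_pow]
    rfl
  rw [GP, eval₂_sub, hren, h1, eval₂_sum]
  have h3 : ∀ l : κ, eval₂ ψ (Sum.elim xs a) (X (Sum.inr l) * rename Sum.inl (corr D d w l))
      = φP w (algebraMap P BP (a l) * (ι D.z ^ d l * (D.toCore.map ι).rvar (ptP xs))) := by
    intro l
    rw [eval₂_mul, eval₂_X, hren, h2, Sum.elim_inr, ← Algebra.smul_def, map_smul, smul_eq_mul]
  simp only [h3]
  rw [← map_sum, ← map_sub]
  congr 1
  -- the two values agree
  have hu : (coreP D ι d a).uOf (ptP xs) = (D.toCore.map ι).uOf (ptP xs) := rfl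
  have hv : (coreP D ι d a).vOf (ptP xs) = (D.toCore.map ι).vOf (ptP xs) := rfl
  have hr : (coreP D ι d a).rvar (ptP xs) = (D.toCore.map ι).rvar (ptP xs) := rfl
  rw [Core.value, Core.value, hu, hv, hr]
  have hn' : (D.toCore.map ι).n = 1 := hn
  have hn'' : (coreP D ι d a).n = 1 := rfl
  rw [hn', hn'', pow_one, pow_one]
  have hrf : (coreP D ι d a).rfix = (D.toCore.map ι).rfix
      + ∑ l, algebraMap P BP (a l) * ι D.z ^ d l := rfl
  rw [hrf, add_mul, Finset.sum_mul]
  have : ∀ l : κ, algebraMap P BP (a l) * ι D.z ^ d l * (D.toCore.map ι).rvar (ptP xs)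
      = algebraMap P BP (a l) * (ι D.z ^ d l * (D.toCore.map ι).rvar (ptP xs)) :=
    fun l => mul_assoc _ _ _
  simp only [this]
  ring

theorem eval₂_GP_inr (D : Data O₀ B₀ I1 I2 I3) (d : κ → ℕ) (ψ : O₀ →+* P)
    (a : κ → P) (xs : Idx I1 I2 g → P) (u : Unit) :
    eval₂ ψ (Sum.elim xs a) (GP D d (Sum.inr u)) = xs (uIdx D.t0) - ψ D.α0 := by
  rw [GP, eval₂_rename, Data.G, eval₂_sub, eval₂_X, eval₂_C]
  rfl

/-- **a solution over `P` at the parameter `a` is a zero of the parametrised equations.** -/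
theorem eval₂_GP_eq_zero (D : Data O₀ B₀ I1 I2 I3) (hn : D.n = 1) (d : κ → ℕ)
    (ψ : O₀ →+* P) (ι : B₀ →+* BP) (φP : I3 → (BP →ₗ[P] P))
    (hφ : ∀ w b, φP w (ι b) = ψ (D.φ w b))
    (a : κ → P) (xs : Idx I1 I2 g → P) (hsol : IsSolP D ψ ι d a xs) (j : I3 ⊕ Unit) :
    eval₂ ψ (Sum.elim xs a) (GP D d j) = 0 := by
  rcases j with w | u
  · rw [eval₂_GP_inl D hn d ψ ι φP hφ a xs w, Core.value]
    have hn'' : (coreP D ι d a).n = 1 := rfl
    rw [hn'', pow_one, hsol.1, sub_self, map_zero]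
  · rw [eval₂_GP_inr, hsol.2, sub_self]

/-- the base solution is a zero of the parametrised equations at the parameter `0`. -/
theorem eval_GP_base_eq_zero (D : Data O₀ B₀ I1 I2 I3) (d : κ → ℕ) (x0 : Idx I1 I2 g → O₀)
    (hx0 : D.IsSol x0) (j : I3 ⊕ Unit) : eval (basePt x0) (GP D d j) = 0 := by
  rw [eval_GP_base]
  rcases j with w | u
  · rw [Data.eval_G_inl, ((D.isSol_iff x0).mp hx0).1, map_zero]
  · rw [Data.eval_G_inr, hx0.2, sub_self]

/-! ### The core statement -/

variable [DecidableEq I1] [DecidableEq I2]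

/-- the square parametrised system attached to an identification of equations and unknowns. -/
def sqP (D : Data O₀ B₀ I1 I2 I3) (d : κ → ℕ) (e : I3 ⊕ Unit ≃ Idx I1 I2 g) :
    Idx I1 I2 g → MvPolynomial (Idx I1 I2 g ⊕ κ) O₀ := fun j => GP D d (e.symm j)

/-- the Jacobian of the square parametrised system with respect to the unknowns at the base point
is the Jacobian of `Geo/FactorJac`. -/
theorem baseJac_sqP [DecidableEq κ] (D : Data O₀ B₀ I1 I2 I3) (d : κ → ℕ)
    (e : I3 ⊕ Unit ≃ Idx I1 I2 g) (x0 : Idx I1 I2 g → O₀) :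
    (Matrix.of fun i j => eval (basePt x0) (pderiv (Sum.inl i) (sqP D d e j)))
      = Matrix.of fun i j => eval x0 (pderiv i (FactorJac.sq D e j)) := by
  ext i j
  simp only [Matrix.of_apply, sqP, FactorJac.sq]
  exact eval_pderiv_GP_base D d x0 i (e.symm j)

/-- **The pure-algebra core of the Residual Theorem.**  `hNA` is the output of
`S19x/Alg/NewtonApprox.approx_spec` for the square system `sqP D d e` and the base point `x0`
(approximants `S i`, constant terms `x0 i`).  Conclusion: polynomials `Θ l` in the parameters with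
zero constant term approximating the lower coefficients of `R_var` of every true solution. -/
theorem residual_core [IsLocalRing P] (D : Data O₀ B₀ I1 I2 I3) (hn : D.n = 1) (d : κ → ℕ)
    (e : I3 ⊕ Unit ≃ Idx I1 I2 g)
    (ψ : O₀ →+* P) (ι : B₀ →+* BP) (φP : I3 → (BP →ₗ[P] P))
    (hφ : ∀ w b, φP w (ι b) = ψ (D.φ w b))
    (x0 : Idx I1 I2 g → O₀) (n : ℕ)
    (S : Idx I1 I2 g → MvPolynomial κ O₀) (hS0 : ∀ i, constantCoeff (S i) = x0 i)
    (hNA : ∀ (a : κ → P) (𝔞 : Ideal P), 𝔞 ≤ IsLocalRing.maximalIdeal P → (∀ l, a l ∈ 𝔞) →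
      ∀ sstar : Idx I1 I2 g → P,
        (∀ j, eval₂ ψ (Sum.elim sstar a) (sqP D d e j) = 0) →
        (∀ i, sstar i - ψ (x0 i) ∈ IsLocalRing.maximalIdeal P) →
        ∀ i, sstar i - eval₂ ψ a (S i) ∈ 𝔞 ^ (n + 1)) :
    ∃ Θ : Fin g → MvPolynomial κ O₀, (∀ l, constantCoeff (Θ l) = 0) ∧
      ∀ (a : κ → P) (𝔞 : Ideal P), 𝔞 ≤ IsLocalRing.maximalIdeal P → (∀ l, a l ∈ 𝔞) →
        ∀ xs : Idx I1 I2 g → P, IsSolP D ψ ι d a xs →
          (∀ i, xs i - ψ (x0 i) ∈ IsLocalRing.maximalIdeal P) →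
          ∀ l : Fin g, xs (rIdx l) - ψ (x0 (rIdx l)) - eval₂ ψ a (Θ l) ∈ 𝔞 ^ (n + 1) := by
  refine ⟨fun l => S (rIdx l) - C (x0 (rIdx l)), fun l => ?_, ?_⟩
  · rw [map_sub, hS0, constantCoeff_C, sub_self]
  · intro a 𝔞 h𝔞 ha xs hsol hnear l
    have h := hNA a 𝔞 h𝔞 ha xs
      (fun j => eval₂_GP_eq_zero D hn d ψ ι φP hφ a xs hsol (e.symm j)) hnear (rIdx l)
    rw [eval₂_sub, eval₂_C]
    have : xs (rIdx l) - ψ (x0 (rIdx l)) - (eval₂ ψ a (S (rIdx l)) - ψ (x0 (rIdx l)))
        = xs (rIdx l) - eval₂ ψ a (S (rIdx l)) := by ring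
    rw [this]
    exact h

end Fermat.Agent.S19x.Geo.ResidualCore
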