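import Mathlib
import Fermat.Agent.S19x.Geo.ResidualCore
import Fermat.Agent.S19x.Alg.NewtonApproxB

/-!
# P-S19, block A, leaf L6 (helper62): the algebraic Residual Theorem, Newton hypothesis discharged

`Geo/ResidualCore.residual_core` with its hypothesis `hNA` discharged by the landed
`Alg/NewtonApproxB.approx_spec` (helper23).  What remains as hypotheses is exactly what the geometry
supplies:

* `hx0 : D.IsSol x0` : the base solution of the factorisation system over `O₀`;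
* `hJ` : the Jacobian determinant of `Geo/FactorJac.sq D e` at `x0` is a unit of `O₀`
  (`Geo/FactorJac.isUnit_det_jacobian` + the kernel lemma `Geo/JacKerMult`);
* for every parameter value `a` the TRUE solution `xs` over `P` (`IsSolP`), congruent to the base
  solution modulo the maximal ideal of `P`.

Conclusion: for every `n` polynomials `Θ l` over `O₀` in the parameters, with zero constant term,
such that `xs (rIdx l) - x0 (rIdx l) - Θ l (a) ∈ 𝔞 ^ (n+1)` for every ideal `𝔞 ≤ 𝔪` containing the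
parameters `a`; and the valuation-ring form (`𝔞 = t P`).
-/

set_option autoImplicit false
set_option linter.unusedSectionVars false

noncomputable section

namespace Fermat.Agent.S19x.Geo.ResidualCoreNA

open MvPolynomial Fermat.Agent.S27x.Lift.FactorSystem Fermat.Agent.S19x.Geo.FactorJac
  Fermat.Agent.S19x.Geo.ResidualCore Fermat.Agent.S19x.Alg

variable {I1 I2 I3 : Type*} {g : ℕ} [Fintype I1] [Fintype I2] [DecidableEq I1] [DecidableEq I2]
variable {O₀ B₀ : Type*} [CommRing O₀] [CommRing B₀] [Algebra O₀ B₀]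
variable {κ : Type*} [Fintype κ] [DecidableEq κ]
variable {P BP : Type*} [CommRing P] [IsLocalRing P] [CommRing BP] [Algebra P BP]

/-- the Jacobian of `NewtonApproxB` for the square parametrised system is the Jacobian of
`Geo/FactorJac`. -/
theorem baseJac_eq (D : Data O₀ B₀ I1 I2 I3) (d : κ → ℕ) (e : I3 ⊕ Unit ≃ Idx I1 I2 g)
    (x0 : Idx I1 I2 g → O₀) :
    NewtonApproxB.baseJac (sqP D d e) x0
      = Matrix.of fun i j => eval x0 (pderiv i (FactorJac.sq D e j)) :=
  baseJac_sqP D d e x0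

/-- **The algebraic Residual Theorem** (no Newton hypothesis). -/
theorem residual_core_of_jacobian (D : Data O₀ B₀ I1 I2 I3) (hn : D.n = 1) (d : κ → ℕ)
    (e : I3 ⊕ Unit ≃ Idx I1 I2 g)
    (ψ : O₀ →+* P) (ι : B₀ →+* BP) (φP : I3 → (BP →ₗ[P] P))
    (hφ : ∀ w b, φP w (ι b) = ψ (D.φ w b))
    (x0 : Idx I1 I2 g → O₀) (hx0 : D.IsSol x0)
    (hJ : IsUnit (Matrix.det (Matrix.of fun i j => eval x0 (pderiv i (FactorJac.sq D e j)))))
    (n : ℕ) :
    ∃ Θ : Fin g → MvPolynomial κ O₀, (∀ l, constantCoeff (Θ l) = 0) ∧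
      ∀ (a : κ → P) (𝔞 : Ideal P), 𝔞 ≤ IsLocalRing.maximalIdeal P → (∀ l, a l ∈ 𝔞) →
        ∀ xs : Idx I1 I2 g → P, IsSolP D ψ ι d a xs →
          (∀ i, xs i - ψ (x0 i) ∈ IsLocalRing.maximalIdeal P) →
          ∀ l : Fin g, xs (rIdx l) - ψ (x0 (rIdx l)) - eval₂ ψ a (Θ l) ∈ 𝔞 ^ (n + 1) := by
  have hbase : ∀ j, eval (NewtonApproxB.basePt (κ := κ) x0) (sqP D d e j) = 0 := fun j =>
    eval_GP_base_eq_zero D d x0 hx0 (e.symm j)
  have hJ' : IsUnit (NewtonApproxB.baseJac (sqP D d e) x0).det := by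
    rw [baseJac_eq]; exact hJ
  refine residual_core D hn d e ψ ι φP hφ x0 n (NewtonApproxB.approx (sqP D d e) x0 n)
    (fun i => NewtonApproxB.constantCoeff_approx (sqP D d e) x0 hbase n i) ?_
  intro a 𝔞 h𝔞 ha sstar hsol hnear
  exact NewtonApproxB.approx_spec ψ (sqP D d e) x0 hbase hJ' n a 𝔞 h𝔞 ha sstar hsol hnear

/-- the same, with the Jacobian hypothesis in the residual form of `Geo/FactorJac`:
`π : O₀ → k` a surjection onto a field (`O₀` local), the differential of the reduced system at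
`π ∘ x0` injective on directions with vanishing normalised coordinate. -/
theorem residual_core_of_hker [IsLocalRing O₀] {k : Type*} [Field k] {Bbar : Type*} [CommRing Bbar]
    [Algebra k Bbar] (D : Data O₀ B₀ I1 I2 I3) (hn : D.n = 1) (d : κ → ℕ)
    (e : I3 ⊕ Unit ≃ Idx I1 I2 g)
    (ψ : O₀ →+* P) (ι : B₀ →+* BP) (φP : I3 → (BP →ₗ[P] P))
    (hφ : ∀ w b, φP w (ι b) = ψ (D.φ w b))
    (x0 : Idx I1 I2 g → O₀) (hx0 : D.IsSol x0)
    (π : O₀ →+* k) (hπ : Function.Surjective π) (red : B₀ →+* Bbar)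
    (φbar : I3 → (Bbar →ₗ[k] k)) (hφbar : ∀ w b, φbar w (red b) = π (D.φ w b))
    (hker : ∀ v : Idx I1 I2 g → k,
      (∀ w, φbar w ((D.toCore.map red).dval (ptbar fun i => π (x0 i)) (ptbar v)) = 0) →
      v (uIdx D.t0) = 0 → v = 0)
    (n : ℕ) :
    ∃ Θ : Fin g → MvPolynomial κ O₀, (∀ l, constantCoeff (Θ l) = 0) ∧
      ∀ (a : κ → P) (𝔞 : Ideal P), 𝔞 ≤ IsLocalRing.maximalIdeal P → (∀ l, a l ∈ 𝔞) →
        ∀ xs : Idx I1 I2 g → P, IsSolP D ψ ι d a xs →
          (∀ i, xs i - ψ (x0 i) ∈ IsLocalRing.maximalIdeal P) →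
          ∀ l : Fin g, xs (rIdx l) - ψ (x0 (rIdx l)) - eval₂ ψ a (Θ l) ∈ 𝔞 ^ (n + 1) :=
  residual_core_of_jacobian D hn d e ψ ι φP hφ x0 hx0
    (isUnit_det_jacobian π hπ D e red φbar hφbar x0 hker) n

end Fermat.Agent.S19x.Geo.ResidualCoreNA
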