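import Mathlib
import Fermat.Agent.S19x.Geo.ResidualCoreNA

/-!
# P-S19, block A, leaf L6 (helper87): normalising a true solution of the parametrised system

The true solution `(E, u, u')` produced by the geometry (`Geo/TrueSol`) is only determined up to
`u ↦ c u`, `u' ↦ c⁻¹ u'` (`c` a unit), whereas `Geo/ResidualCore.IsSolP` asks for the NORMALISED
solution: coordinate `t0` of `u` equal to `ψ α0`.  This file does the rescaling, in pure algebra:

* `scalePt lam mu ys` : multiply the `u`-coordinates by `lam`, the `u'`-coordinates by `mu`, keep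
  the `R_var`-coordinates;
* `exists_isSolP_of_unnormalised` : an unnormalised solution `ys` over the local ring `P`,
  congruent to `ψ ∘ x0` modulo the maximal ideal, with `x0 (uIdx t0) = α0` and `ψ α0` a unit, can
  be rescaled to an `IsSolP`-solution `xs`, still congruent to `ψ ∘ x0`, with the SAME
  `R_var`-coordinates;
* `residual_core_of_jacobian_unnormalised`, `residual_core_of_hker_unnormalised` : the algebraic
  Residual Theorem of `Geo/ResidualCoreNA` for unnormalised true solutions.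
-/

set_option autoImplicit false
set_option linter.unusedSectionVars false

noncomputable section

namespace Fermat.Agent.S19x.Geo.ResidualNorm

open MvPolynomial Fermat.Agent.S27x.Lift.FactorSystem Fermat.Agent.S19x.Geo.FactorJac
  Fermat.Agent.S19x.Geo.ResidualCore Fermat.Agent.S19x.Geo.ResidualCoreNA

variable {I1 I2 I3 : Type*} {g : ℕ} [Fintype I1] [Fintype I2]
variable {O₀ B₀ : Type*} [CommRing O₀] [CommRing B₀] [Algebra O₀ B₀]
variable {κ : Type*} [Fintype κ]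
variable {P BP : Type*} [CommRing P] [CommRing BP] [Algebra P BP]

/-- the unnormalised system over `P` at the parameter value `a`: `u u' = R_fix(z) R_var(z)`, no
normalisation of `u`. -/
def IsSolPU (D : Data O₀ B₀ I1 I2 I3) (ι : B₀ →+* BP) (d : κ → ℕ) (a : κ → P)
    (ys : Idx I1 I2 g → P) : Prop :=
  (coreP D ι d a).uOf (ptP ys) * (coreP D ι d a).vOf (ptP ys)
    = (coreP D ι d a).rfix * (coreP D ι d a).rvar (ptP ys)

theorem IsSolP.isSolPU {D : Data O₀ B₀ I1 I2 I3} {ψ : O₀ →+* P} {ι : B₀ →+* BP} {d : κ → ℕ}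
    {a : κ → P} {xs : Idx I1 I2 g → P} (h : IsSolP D ψ ι d a xs) : IsSolPU D ι d a xs := h.1

/-- rescale the `u`-coordinates by `lam`, the `u'`-coordinates by `mu`. -/
def scalePt (lam mu : P) (ys : Idx I1 I2 g → P) : Idx I1 I2 g → P
  | Sum.inl s => lam * ys (Sum.inl s)
  | Sum.inr (Sum.inl t) => mu * ys (Sum.inr (Sum.inl t))
  | Sum.inr (Sum.inr l) => ys (Sum.inr (Sum.inr l))

@[simp] theorem scalePt_uIdx (lam mu : P) (ys : Idx I1 I2 g → P) (s : I1) :
    scalePt lam mu ys (uIdx s) = lam * ys (uIdx s) := rfl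

@[simp] theorem scalePt_vIdx (lam mu : P) (ys : Idx I1 I2 g → P) (t : I2) :
    scalePt lam mu ys (vIdx t) = mu * ys (vIdx t) := rfl

@[simp] theorem scalePt_rIdx (lam mu : P) (ys : Idx I1 I2 g → P) (l : Fin g) :
    scalePt lam mu ys (rIdx l) = ys (rIdx l) := rfl

theorem uOf_scalePt (K : Core BP I1 I2) (lam mu : P) (ys : Idx I1 I2 g → P) :
    K.uOf (ptP (scalePt lam mu ys)) = algebraMap P BP lam * K.uOf (ptP ys) := by
  simp only [Core.uOf, ptP, scalePt_uIdx, map_mul, Finset.mul_sum, mul_assoc]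

theorem vOf_scalePt (K : Core BP I1 I2) (lam mu : P) (ys : Idx I1 I2 g → P) :
    K.vOf (ptP (scalePt lam mu ys)) = algebraMap P BP mu * K.vOf (ptP ys) := by
  simp only [Core.vOf, ptP, scalePt_vIdx, map_mul, Finset.mul_sum, mul_assoc]

omit [Fintype I1] [Fintype I2] in
theorem rvar_scalePt (K : Core BP I1 I2) (lam mu : P) (ys : Idx I1 I2 g → P) :
    K.rvar (ptP (scalePt lam mu ys)) = K.rvar (ptP ys) := by
  simp only [Core.rvar, Core.rdot, ptP, scalePt_rIdx]

/-- rescaling by `lam`, `mu` with `lam * mu = 1` preserves the unnormalised system. -/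
theorem isSolPU_scalePt (D : Data O₀ B₀ I1 I2 I3) (ι : B₀ →+* BP) (d : κ → ℕ) (a : κ → P)
    (ys : Idx I1 I2 g → P) (h : IsSolPU D ι d a ys) (lam mu : P) (hlm : lam * mu = 1) :
    IsSolPU D ι d a (scalePt lam mu ys) := by
  unfold IsSolPU at h ⊢
  rw [uOf_scalePt, vOf_scalePt, rvar_scalePt, ← h]
  have : algebraMap P BP lam * algebraMap P BP mu = 1 := by
    rw [← map_mul, hlm, map_one]
  calc algebraMap P BP lam * (coreP D ι d a).uOf (ptP ys)
        * (algebraMap P BP mu * (coreP D ι d a).vOf (ptP ys))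
      = (algebraMap P BP lam * algebraMap P BP mu)
        * ((coreP D ι d a).uOf (ptP ys) * (coreP D ι d a).vOf (ptP ys)) := by ring
    _ = _ := by rw [this, one_mul]

variable [IsLocalRing P]

/-- **normalisation**: an unnormalised solution near the base solution can be rescaled to a
normalised one, still near the base solution, with the same `R_var`-coordinates. -/
theorem exists_isSolP_of_unnormalised (D : Data O₀ B₀ I1 I2 I3) (ψ : O₀ →+* P) (ι : B₀ →+* BP)
    (d : κ → ℕ) (a : κ → P) (x0 : Idx I1 I2 g → O₀) (hα : x0 (uIdx D.t0) = D.α0)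
    (hunit : IsUnit (ψ D.α0)) (ys : Idx I1 I2 g → P) (hsol : IsSolPU D ι d a ys)
    (hnear : ∀ i, ys i - ψ (x0 i) ∈ IsLocalRing.maximalIdeal P) :
    ∃ xs : Idx I1 I2 g → P, IsSolP D ψ ι d a xs ∧
      (∀ i, xs i - ψ (x0 i) ∈ IsLocalRing.maximalIdeal P) ∧
      ∀ l : Fin g, xs (rIdx l) = ys (rIdx l) := by
  set 𝔪 := IsLocalRing.maximalIdeal P with h𝔪
  -- the coordinate `c` of `u` at `t0` is a unit, congruent to `ψ α0`
  have hc𝔪 : ys (uIdx D.t0) - ψ D.α0 ∈ 𝔪 := by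
    have := hnear (uIdx D.t0)
    rwa [hα] at this
  have hcu : IsUnit (ys (uIdx D.t0)) := by
    by_contra hcon
    have h1 : ys (uIdx D.t0) ∈ 𝔪 := (IsLocalRing.mem_maximalIdeal _).mpr hcon
    have h2 : ψ D.α0 ∈ 𝔪 := by
      have := Ideal.sub_mem _ h1 hc𝔪
      simpa using this
    exact (IsLocalRing.mem_maximalIdeal _).mp h2 hunit
  obtain ⟨c, hc⟩ := hcu
  obtain ⟨α, hαu⟩ := hunit
  -- `lam = α / c`, `mu = c / α`
  set lam : P := α * ↑c⁻¹ with hlam
  set mu : P := c * ↑α⁻¹ with hmu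
  have hlm : lam * mu = 1 := by
    rw [hlam, hmu]
    calc (α : P) * ↑c⁻¹ * (↑c * ↑α⁻¹) = ((α : P) * ↑α⁻¹) * (↑c⁻¹ * ↑c) := by ring
      _ = 1 := by rw [Units.mul_inv, Units.inv_mul, one_mul]
  have hlam1 : lam - 1 ∈ 𝔪 := by
    have : lam - 1 = ↑c⁻¹ * ((α : P) - c) := by
      rw [hlam, mul_sub, Units.inv_mul]; ring
    rw [this]
    refine Ideal.mul_mem_left _ _ ?_
    have h := (Ideal.neg_mem_iff _).mpr hc𝔪
    rw [← hc, ← hαu] at h
    simpa using h
  have hmu1 : mu - 1 ∈ 𝔪 := by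
    have : mu - 1 = ↑α⁻¹ * ((c : P) - α) := by
      rw [hmu, mul_sub, Units.inv_mul]; ring
    rw [this]
    refine Ideal.mul_mem_left _ _ ?_
    have h := hc𝔪
    rw [← hc, ← hαu] at h
    exact h
  refine ⟨scalePt lam mu ys, ⟨isSolPU_scalePt D ι d a ys hsol lam mu hlm, ?_⟩, ?_, fun l => rfl⟩
  · -- the normalisation
    rw [scalePt_uIdx, ← hc, ← hαu, hlam, mul_assoc, Units.inv_mul, mul_one]
  · intro i
    have key : ∀ (ν : P), ν - 1 ∈ 𝔪 → ν * ys i - ψ (x0 i) ∈ 𝔪 := by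
      intro ν hν
      have : ν * ys i - ψ (x0 i) = (ν - 1) * ys i + (ys i - ψ (x0 i)) := by ring
      rw [this]
      exact Ideal.add_mem _ (Ideal.mul_mem_right _ _ hν) (hnear i)
    rcases i with s | t | l
    · exact key lam hlam1
    · exact key mu hmu1
    · exact hnear _

variable [DecidableEq I1] [DecidableEq I2] [DecidableEq κ]

/-- **The algebraic Residual Theorem for unnormalised true solutions** (Jacobian form). -/
theorem residual_core_of_jacobian_unnormalised (D : Data O₀ B₀ I1 I2 I3) (hn : D.n = 1)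
    (d : κ → ℕ) (e : I3 ⊕ Unit ≃ Idx I1 I2 g)
    (ψ : O₀ →+* P) (ι : B₀ →+* BP) (φP : I3 → (BP →ₗ[P] P))
    (hφ : ∀ w b, φP w (ι b) = ψ (D.φ w b))
    (x0 : Idx I1 I2 g → O₀) (hx0 : D.IsSol x0) (hunit : IsUnit (ψ D.α0))
    (hJ : IsUnit (Matrix.det (Matrix.of fun i j => eval x0 (pderiv i (FactorJac.sq D e j)))))
    (n : ℕ) :
    ∃ Θ : Fin g → MvPolynomial κ O₀, (∀ l, constantCoeff (Θ l) = 0) ∧
      ∀ (a : κ → P) (𝔞 : Ideal P), 𝔞 ≤ IsLocalRing.maximalIdeal P → (∀ l, a l ∈ 𝔞) →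
        ∀ ys : Idx I1 I2 g → P, IsSolPU D ι d a ys →
          (∀ i, ys i - ψ (x0 i) ∈ IsLocalRing.maximalIdeal P) →
          ∀ l : Fin g, ys (rIdx l) - ψ (x0 (rIdx l)) - eval₂ ψ a (Θ l) ∈ 𝔞 ^ (n + 1) := by
  obtain ⟨Θ, hΘ0, hΘ⟩ := residual_core_of_jacobian D hn d e ψ ι φP hφ x0 hx0 hJ n
  refine ⟨Θ, hΘ0, ?_⟩
  intro a 𝔞 h𝔞 ha ys hsol hnear l
  obtain ⟨xs, hxs, hxnear, hxr⟩ :=
    exists_isSolP_of_unnormalised D ψ ι d a x0 hx0.2 hunit ys hsol hnear
  have := hΘ a 𝔞 h𝔞 ha xs hxs hxnear l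
  rwa [hxr l] at this

/-- **The algebraic Residual Theorem for unnormalised true solutions** (kernel form of
`Geo/FactorJac`, as produced by `Geo/KerDict`). -/
theorem residual_core_of_hker_unnormalised [IsLocalRing O₀] {k : Type*} [Field k]
    {Bbar : Type*} [CommRing Bbar] [Algebra k Bbar] (D : Data O₀ B₀ I1 I2 I3) (hn : D.n = 1)
    (d : κ → ℕ) (e : I3 ⊕ Unit ≃ Idx I1 I2 g)
    (ψ : O₀ →+* P) (ι : B₀ →+* BP) (φP : I3 → (BP →ₗ[P] P))
    (hφ : ∀ w b, φP w (ι b) = ψ (D.φ w b))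
    (x0 : Idx I1 I2 g → O₀) (hx0 : D.IsSol x0) (hunit : IsUnit (ψ D.α0))
    (π : O₀ →+* k) (hπ : Function.Surjective π) (red : B₀ →+* Bbar)
    (φbar : I3 → (Bbar →ₗ[k] k)) (hφbar : ∀ w b, φbar w (red b) = π (D.φ w b))
    (hker : ∀ v : Idx I1 I2 g → k,
      (∀ w, φbar w ((D.toCore.map red).dval (ptbar fun i => π (x0 i)) (ptbar v)) = 0) →
      v (uIdx D.t0) = 0 → v = 0)
    (n : ℕ) :
    ∃ Θ : Fin g → MvPolynomial κ O₀, (∀ l, constantCoeff (Θ l) = 0) ∧
      ∀ (a : κ → P) (𝔞 : Ideal P), 𝔞 ≤ IsLocalRing.maximalIdeal P → (∀ l, a l ∈ 𝔞) →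
        ∀ ys : Idx I1 I2 g → P, IsSolPU D ι d a ys →
          (∀ i, ys i - ψ (x0 i) ∈ IsLocalRing.maximalIdeal P) →
          ∀ l : Fin g, ys (rIdx l) - ψ (x0 (rIdx l)) - eval₂ ψ a (Θ l) ∈ 𝔞 ^ (n + 1) :=
  residual_core_of_jacobian_unnormalised D hn d e ψ ι φP hφ x0 hx0 hunit
    (isUnit_det_jacobian π hπ D e red φbar hφbar x0 hker) n

end Fermat.Agent.S19x.Geo.ResidualNorm
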