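import Fermat.Agent.S19x.Geo.ResidualOfFrames
import Fermat.Agent.S19x.Geo.TrueSolCfg
import Fermat.Agent.S19x.Geo.ConfigFixed
import Fermat.Agent.S19x.Geo.ConfigOfLeaves
import Fermat.Agent.S19x.Geo.BaseCfgExact

/-!
# P-S19, block A, leaf L6, FINAL (helper89): the Residual-Theorem builder

`ConfigOfLeaves.ResidualBuilder G I` (what the configuration side of block A asks from leaf L6):
for every lifted configuration the two Residual-Theorem outputs `ResidualOut I` at its data
(`Cfg1 = (W1, D1, m)`, `Cfg2 = (W2, D0, m')`).  Obtained by applying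
`ResidualOfFrames.exists_residualOut` twice, at the inputs `TrueSol.input1/2` of `Geo/TrueSolCfg`,
with base functions `L.u0`, `L.u0'` and their cofactors `u0cof1/2` (fixed by `Geo/ConfigFixed`,
exact pole orders by `Geo/BaseCfgExact`).
-/

set_option autoImplicit false
set_option linter.unusedSectionVars false
set_option linter.unusedVariables false

noncomputable section

namespace Fermat.Agent.S19x.Geo.ResidualBuilderMain

open AlgebraicCurve IsLocalRing Module Polynomial
open Fermat.Agent.Gateway.C0 Fermat.Agent.Gateway.Red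
  Fermat.Agent.S27x.Lift.NiceRep Fermat.Agent.S27x.Lift.JacInj
  Fermat.Agent.S19x.Geo Fermat.Agent.S19x.Geo.Lattice Fermat.Agent.S19x.Geo.Frame
  Fermat.Agent.S19x.Geo.JacKerMult Fermat.Agent.S19x.Geo.NiceRepL
  Fermat.Agent.S19x.Geo.LiftCfg Fermat.Agent.S19x.Geo.ConfigOfLeaves
  Fermat.Agent.S19x.Geo.ConfigFixed Fermat.Agent.S19x.Geo.BaseCfgResSol
  Fermat.Agent.S19x.Geo.BaseCfgExact

universe u v w z

variable {K : Type u} [Field K] {A : ValuationSubring K} {F : Type v} [Field F] [Algebra K F]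
  {O : ValuationSubring F} {k : Type w} {κ : Type z} [Field k] [Field κ] [Algebra k κ]
  [HasPrincipalDivisors K F] [∀ v : Place K F, v.FiniteResidue] [HasPrincipalDivisors k κ]
  [∀ v : Place k κ, v.FiniteResidue]
  {G : GeoSetting A O k κ} {I : InertiaData G}

section Cfg

variable [Nonempty (Place k κ)] [IsAlgClosed k] {m m' n : ℕ}
  {c : BaseCfg G.oob m m' (n : ℤ)} (L : LiftedCfg (I := I) c)
  {N0 : ℕ} (H : FixedLatticeFacts G I N0) (hN0 : 2 * (G.g : ℤ) - 1 ≤ N0)
  (hgen : genusFF k κ = G.g)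

include H hN0 hgen in
/-- the Residual Theorem at the first configuration. -/
theorem exists_residualOut1 (hn : 0 < n) (hordz : G.oob.ord c.z = -(n : ℤ))
    (hN0m : N0 ≤ m) (hN0N2 : N0 ≤ n * m - m) :
    ∃ R : ResidualOut I, R.z = L.z ∧ R.m = m ∧ R.W0 = W1 L ∧ R.Dc = D1 L := by
  have T1 := TrueSol.isTrueSol_base1 L hgen
  have hN2 : n * m - m + m = n * m := by
    have : m ≤ n * m := Nat.le_mul_of_pos_left m hn
    omega
  have hN2int : ((n * m - m : ℕ) : ℤ) = (n : ℤ) * m - m := by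
    have : ((n * m - m + m : ℕ) : ℤ) = ((n * m : ℕ) : ℤ) := by rw [hN2]
    push_cast at this ⊢
    linarith
  have hu0 : L.u0 ∈ LamS G I m := ⟨T1.u_mem_Lam (TrueSol.W01_nonneg L), L.u0_fixed⟩
  have hu0' : TrueSol.u0cof1 L ∈ LamS G I (n * m - m) := by
    refine ⟨?_, isFixed_u0cof1 L⟩
    have := T1.u'_mem_Lam
    unfold nOo
    rw [hN2int]
    exact this
  have hord' : G.oob.ord (u1' c) = -((n * m - m : ℕ) : ℤ) := by
    rw [hN2int]
    exact ord_u1'_oo c (by exact_mod_cast hn) hordz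
  have hprinc : Divisor.IsPrincipal (TrueSol.W01 L + TrueSol.D1L L - G.mulOo m) := by
    rw [W01_eq, D1L_eq]
    exact isPrincipal_W1 L
  obtain ⟨R, h1, h2, h3, h4⟩ := ResidualOfFrames.exists_residualOut H hN0 (TrueSol.input1 L hgen)
    L.z_fixed hN2 hu0 hu0' L.res_u0 T1.res_u' hord' hN0m hN0N2 (TrueSol.W01_nonneg L)
    (TrueSol.spDiv_W01 L) (TrueSol.D1L_nonneg L) (TrueSol.spDiv_D1L L) (rho_W01_fixed L)
    (rho_D1L_fixed L) T1.prod hprinc
  exact ⟨R, h1, h2, h3.trans (W01_eq L), h4.trans (D1L_eq L)⟩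

include H hN0 hgen in
/-- the Residual Theorem at the second configuration. -/
theorem exists_residualOut2 (hn : 0 < n) (hordz : G.oob.ord c.z = -(n : ℤ))
    (hN0m : N0 ≤ m') (hN0N2 : N0 ≤ n * m' - m') :
    ∃ R : ResidualOut I, R.z = L.z ∧ R.m = m' ∧ R.W0 = W2 L ∧ R.Dc = D0 L := by
  have T2 := TrueSol.isTrueSol_base2 L hgen
  have hN2 : n * m' - m' + m' = n * m' := by
    have : m' ≤ n * m' := Nat.le_mul_of_pos_left m' hn
    omega
  have hN2int : ((n * m' - m' : ℕ) : ℤ) = (n : ℤ) * m' - m' := by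
    have : ((n * m' - m' + m' : ℕ) : ℤ) = ((n * m' : ℕ) : ℤ) := by rw [hN2]
    push_cast at this ⊢
    linarith
  have hu0 : L.u0' ∈ LamS G I m' := ⟨T2.u_mem_Lam (TrueSol.W02_nonneg L), L.u0'_fixed⟩
  have hu0' : TrueSol.u0cof2 L ∈ LamS G I (n * m' - m') := by
    refine ⟨?_, isFixed_u0cof2 L⟩
    have := T2.u'_mem_Lam
    unfold nOo
    rw [hN2int]
    exact this
  have hord' : G.oob.ord (u2' c) = -((n * m' - m' : ℕ) : ℤ) := by
    rw [hN2int]
    exact ord_u2'_oo c (by exact_mod_cast hn) hordz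
  have hprinc : Divisor.IsPrincipal (TrueSol.W02 L + TrueSol.D0L L - G.mulOo m') := by
    rw [W02_eq, D0L_eq]
    exact isPrincipal_W2 L
  obtain ⟨R, h1, h2, h3, h4⟩ := ResidualOfFrames.exists_residualOut H hN0 (TrueSol.input2 L hgen)
    L.z_fixed hN2 hu0 hu0' L.res_u0' T2.res_u' hord' hN0m hN0N2 (TrueSol.W02_nonneg L)
    (TrueSol.spDiv_W02 L) (TrueSol.D0L_nonneg L) (TrueSol.spDiv_D0L L) (rho_W02_fixed L)
    (rho_D0L_fixed L) T2.prod hprinc
  exact ⟨R, h1, h2, h3.trans (W02_eq L), h4.trans (D0L_eq L)⟩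

end Cfg

/-- **Leaf L6, final form**: the Residual-Theorem builder of `Geo/ConfigOfLeaves`, from the fixed
lattice facts at the level `N0 = 2 g` and the genus of the special fibre. -/
theorem residualBuilder [IsAlgClosed k] (H : FixedLatticeFacts G I (2 * G.g))
    (hgen : haveI := G.nonempty_placeκ; genusFF k κ = G.g) : ResidualBuilder G I := by
  have := G.nonempty_placeκ
  intro m m' e c L hm hm' he hordz
  have he0 : 0 ≤ e := by
    have h1 : (0 : ℤ) ≤ m := Int.natCast_nonneg _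
    have h2 : (0 : ℤ) ≤ m' := Int.natCast_nonneg _
    omega
  obtain ⟨n, rfl⟩ := Int.eq_ofNat_of_zero_le he0
  have hn : 0 < n := by omega
  have hN0 : 2 * (G.g : ℤ) - 1 ≤ ((2 * G.g : ℕ) : ℤ) := by push_cast; omega
  have key : ∀ M : ℕ, 4 * G.g ≤ M → M ≤ m + m' → 2 * G.g ≤ n * M - M := by
    intro M hM hMle
    rcases Nat.eq_zero_or_pos M with h0 | h0
    · subst h0; omega
    · have h3 : 3 ≤ n := by omega
      have h4 : 3 * M ≤ n * M := Nat.mul_le_mul_right M h3
      omega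
  refine ⟨exists_residualOut1 L H hN0 hgen hn hordz (by omega) (key m (by omega) (by omega)),
    exists_residualOut2 L H hN0 hgen hn hordz (by omega) (key m' hm' (by omega))⟩

end Fermat.Agent.S19x.Geo.ResidualBuilderMain
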