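import Mathlib
import Fermat.Agent.S19x.Geo.ResidualCoreNA

/-!
# P-S19, block A, leaf L6 (helper62): the algebraic Residual Theorem, field-of-fractions route

`Geo/ResidualCoreNA.residual_core_of_jacobian` needs `P`-linear functionals on a `P`-algebra `BP`.
In the geometric situation `P = A` is a valuation ring of `K = Qbar`, the equations live in the
function field `F` (a `K`-vector space, on which there are no nonzero `A`-linear functionals), and
the frame functionals extend to `K`-LINEAR functionals `ΦK w : F →ₗ[K] K`.  This file gives the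
corresponding variants:

* `eval₂_GP_eq_zero_of_injective` : a solution over `(Q, BQ)` whose coordinates and parameters come
  from `P` through an injective `j : P →+* Q` is a zero of the parametrised equations over `P`;
* `residual_core_of_injective` : the algebraic Residual Theorem with the solutions over `(Q, BQ)`;
* `residual_core_valuationSubring` : the valuation-ring form, in the literal divisibility shape
  `∃ c ∈ A, x = t ^ (n+1) * c` of `Geo/Targets.DvdInA` (any `t ∈ A`, unit or not).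
-/

set_option autoImplicit false
set_option linter.unusedSectionVars false

noncomputable section

namespace Fermat.Agent.S19x.Geo.ResidualCoreK

open MvPolynomial Fermat.Agent.S27x.Lift.FactorSystem Fermat.Agent.S19x.Geo.FactorJac
  Fermat.Agent.S19x.Geo.ResidualCore Fermat.Agent.S19x.Alg

variable {I1 I2 I3 : Type*} {g : ℕ} [Fintype I1] [Fintype I2] [DecidableEq I1] [DecidableEq I2]
variable {O₀ B₀ : Type*} [CommRing O₀] [CommRing B₀] [Algebra O₀ B₀]
variable {κ : Type*} [Fintype κ] [DecidableEq κ]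
variable {P : Type*} [CommRing P]
variable {Q BQ : Type*} [CommRing Q] [CommRing BQ] [Algebra Q BQ]

/-- a solution over `(Q, BQ)` with coordinates and parameters in `P ↪ Q` is a zero of the
parametrised equations over `P`. -/
theorem eval₂_GP_eq_zero_of_injective (D : Data O₀ B₀ I1 I2 I3) (hn : D.n = 1) (d : κ → ℕ)
    (ψ : O₀ →+* P) (j : P →+* Q) (hj : Function.Injective j)
    (ι : B₀ →+* BQ) (φQ : I3 → (BQ →ₗ[Q] Q))
    (hφ : ∀ w b, φQ w (ι b) = j (ψ (D.φ w b)))
    (a : κ → P) (xs : Idx I1 I2 g → P)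
    (hsol : IsSolP D (j.comp ψ) ι d (fun l => j (a l)) (fun i => j (xs i))) (i : I3 ⊕ Unit) :
    eval₂ ψ (Sum.elim xs a) (GP D d i) = 0 := by
  apply hj
  rw [map_zero, eval₂_comp_left j ψ (Sum.elim xs a) (GP D d i)]
  have h := eval₂_GP_eq_zero D hn d (j.comp ψ) ι φQ (fun w b => by rw [hφ]; rfl)
    (fun l => j (a l)) (fun i => j (xs i)) hsol i
  have hcomp : (⇑j ∘ Sum.elim xs a) = Sum.elim (fun i => j (xs i)) (fun l => j (a l)) := by
    funext s
    rcases s with s | s <;> rfl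
  rw [hcomp]
  exact h

/-- **The algebraic Residual Theorem, solutions over an extension `(Q, BQ)` of `P`.** -/
theorem residual_core_of_injective [IsLocalRing P] (D : Data O₀ B₀ I1 I2 I3) (hn : D.n = 1)
    (d : κ → ℕ) (e : I3 ⊕ Unit ≃ Idx I1 I2 g)
    (ψ : O₀ →+* P) (j : P →+* Q) (hj : Function.Injective j)
    (ι : B₀ →+* BQ) (φQ : I3 → (BQ →ₗ[Q] Q))
    (hφ : ∀ w b, φQ w (ι b) = j (ψ (D.φ w b)))
    (x0 : Idx I1 I2 g → O₀) (hx0 : D.IsSol x0)
    (hJ : IsUnit (Matrix.det (Matrix.of fun i j => eval x0 (pderiv i (FactorJac.sq D e j)))))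
    (n : ℕ) :
    ∃ Θ : Fin g → MvPolynomial κ O₀, (∀ l, constantCoeff (Θ l) = 0) ∧
      ∀ (a : κ → P) (𝔞 : Ideal P), 𝔞 ≤ IsLocalRing.maximalIdeal P → (∀ l, a l ∈ 𝔞) →
        ∀ xs : Idx I1 I2 g → P,
          IsSolP D (j.comp ψ) ι d (fun l => j (a l)) (fun i => j (xs i)) →
          (∀ i, xs i - ψ (x0 i) ∈ IsLocalRing.maximalIdeal P) →
          ∀ l : Fin g, xs (rIdx l) - ψ (x0 (rIdx l)) - eval₂ ψ a (Θ l) ∈ 𝔞 ^ (n + 1) := by
  have hbase : ∀ i, eval (NewtonApproxB.basePt (κ := κ) x0) (sqP D d e i) = 0 := fun i =>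
    eval_GP_base_eq_zero D d x0 hx0 (e.symm i)
  have hJ' : IsUnit (NewtonApproxB.baseJac (sqP D d e) x0).det := by
    rw [ResidualCoreNA.baseJac_eq]; exact hJ
  refine ⟨fun l => NewtonApproxB.approx (sqP D d e) x0 n (rIdx l) - C (x0 (rIdx l)),
    fun l => ?_, ?_⟩
  · rw [map_sub, NewtonApproxB.constantCoeff_approx (sqP D d e) x0 hbase n, constantCoeff_C,
      sub_self]
  · intro a 𝔞 h𝔞 ha xs hsol hnear l
    have h := NewtonApproxB.approx_spec ψ (sqP D d e) x0 hbase hJ' n a 𝔞 h𝔞 ha xs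
      (fun i => eval₂_GP_eq_zero_of_injective D hn d ψ j hj ι φQ hφ a xs hsol (e.symm i))
      hnear (rIdx l)
    rw [eval₂_sub, eval₂_C]
    have : xs (rIdx l) - ψ (x0 (rIdx l))
          - (eval₂ ψ a (NewtonApproxB.approx (sqP D d e) x0 n (rIdx l)) - ψ (x0 (rIdx l)))
        = xs (rIdx l) - eval₂ ψ a (NewtonApproxB.approx (sqP D d e) x0 n (rIdx l)) := by ring
    rw [this]
    exact h

/-- **The algebraic Residual Theorem over a valuation ring `A` of a field `K`**, equations in a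
`K`-algebra `F` with `K`-linear functionals, in the divisibility shape of `Geo/Targets.DvdInA`:
for EVERY `t ∈ A` dividing (in `A`) all the parameters `a l`, the error is divisible by
`t ^ (n+1)` in `A`.  The solution `xs` must have coordinates in `A`, congruent to the base
solution modulo the nonunits. -/
theorem residual_core_valuationSubring {K : Type*} [Field K] (A : ValuationSubring K)
    {F : Type*} [CommRing F] [Algebra K F]
    (D : Data O₀ B₀ I1 I2 I3) (hn : D.n = 1)
    (d : κ → ℕ) (e : I3 ⊕ Unit ≃ Idx I1 I2 g)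
    (ψ : O₀ →+* A) (ι : B₀ →+* F) (ΦK : I3 → (F →ₗ[K] K))
    (hΦ : ∀ w b, ΦK w (ι b) = ((ψ (D.φ w b) : A) : K))
    (x0 : Idx I1 I2 g → O₀) (hx0 : D.IsSol x0)
    (hJ : IsUnit (Matrix.det (Matrix.of fun i j => eval x0 (pderiv i (FactorJac.sq D e j)))))
    (n : ℕ) :
    ∃ Θ : Fin g → MvPolynomial κ O₀, (∀ l, constantCoeff (Θ l) = 0) ∧
      ∀ (a : κ → K) (t : K), t ∈ A → (∀ l, ∃ c ∈ A, a l = t * c) →
        ∀ xs : Idx I1 I2 g → K, (∀ i, xs i ∈ A) →
          IsSolP D (A.subtype.comp ψ) ι d a xs →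
          (∀ i, xs i - ((ψ (x0 i) : A) : K) ∈ A.nonunits) →
          ∀ l : Fin g, ∃ c ∈ A,
            xs (rIdx l) - ((ψ (x0 (rIdx l)) : A) : K) - eval₂ (A.subtype.comp ψ) a (Θ l)
              = t ^ (n + 1) * c := by
  obtain ⟨Θ, hΘ0, hΘ⟩ := residual_core_of_injective (P := A) (Q := K) (BQ := F) D hn d e ψ
    A.subtype A.subtype_injective ι ΦK (fun w b => hΦ w b) x0 hx0 hJ n
  refine ⟨Θ, hΘ0, ?_⟩
  intro a t ht ha xs hxs hsol hnear l
  have haA : ∀ l, a l ∈ A := fun l => by
    obtain ⟨c, hc, e⟩ := ha l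
    rw [e]; exact A.mul_mem _ _ ht hc
  set a' : κ → A := fun l => ⟨a l, haA l⟩ with ha'
  set xs' : Idx I1 I2 g → A := fun i => ⟨xs i, hxs i⟩ with hxs'
  -- the error term lives in `A`
  have hval : xs (rIdx l) - ((ψ (x0 (rIdx l)) : A) : K) - eval₂ (A.subtype.comp ψ) a (Θ l)
      = ((xs' (rIdx l) - ψ (x0 (rIdx l)) - eval₂ ψ a' (Θ l) : A) : K) := by
    have h1 := eval₂_comp_left A.subtype ψ a' (Θ l)
    have h2 : (⇑A.subtype ∘ a') = a := by funext s; rfl
    rw [h2] at h1
    rw [← h1]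
    rfl
  by_cases htu : t ∈ A.nonunits
  · -- the nonunit case: the ideal `t A`
    set t' : A := ⟨t, ht⟩ with ht'
    have ht'm : t' ∈ IsLocalRing.maximalIdeal A := by
      obtain ⟨h, hm⟩ := A.mem_nonunits_iff_exists_mem_maximalIdeal.mp htu
      exact hm
    have h𝔞 : Ideal.span {t'} ≤ IsLocalRing.maximalIdeal A := by
      rw [Ideal.span_le, Set.singleton_subset_iff]; exact ht'm
    have ha'm : ∀ l, a' l ∈ Ideal.span {t'} := fun l => by
      obtain ⟨c, hc, e⟩ := ha l
      rw [Ideal.mem_span_singleton']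
      exact ⟨⟨c, hc⟩, Subtype.ext (by simp [ha', ht', e, mul_comm])⟩
    have hnear' : ∀ i, xs' i - ψ (x0 i) ∈ IsLocalRing.maximalIdeal A := fun i => by
      obtain ⟨h, hm⟩ := A.mem_nonunits_iff_exists_mem_maximalIdeal.mp (hnear i)
      exact hm
    have h := hΘ a' (Ideal.span {t'}) h𝔞 ha'm xs' hsol hnear' l
    rw [Ideal.span_singleton_pow, Ideal.mem_span_singleton'] at h
    obtain ⟨c, hc⟩ := h
    refine ⟨(c : K), c.2, ?_⟩
    rw [hval, ← hc]
    simp [ht', mul_comm]
  · -- the unit case: divisibility is integrality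
    rw [A.mem_nonunits_iff_or, not_or, not_not] at htu
    obtain ⟨ht0, htinv⟩ := htu
    refine ⟨(t⁻¹) ^ (n + 1) * (xs (rIdx l) - ((ψ (x0 (rIdx l)) : A) : K)
      - eval₂ (A.subtype.comp ψ) a (Θ l)), ?_, ?_⟩
    · refine A.mul_mem _ _ (pow_mem htinv _) ?_
      rw [hval]
      exact Subtype.coe_prop _
    · rw [← mul_assoc, ← mul_pow, mul_inv_cancel₀ ht0, one_pow, one_mul]

end Fermat.Agent.S19x.Geo.ResidualCoreK
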