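import Fermat.Agent.S19x.Geo.FrameAlg
import Fermat.Agent.S19x.Geo.KerDict
import Fermat.Agent.S19x.Geo.ResidualCore
import Fermat.Agent.S19x.Alg.NewtonApproxB

/-!
# P-S19, block A, leaf L6 (glue, helper89): the Residual Theorem over adapted frames

Pure algebra over the landed `Geo/FrameAlg` (`FiltRed`), `Geo/KerDict`, `Geo/ResidualCore` and
`Alg/NewtonApproxB`.

Setting: `RS` (for us `A^S = inertiaInt P`) and `R` (for us `A`, the valuation ring of `ℚ̄`)
valuation rings with residue maps `πS`, `π` to the same field `k`, a ring hom `ψ : RS → R`;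
`B₀` (the `S`-fixed functions regular off `∞`) an `RS`-algebra, `BP` (all functions of Gauss norm
`≤ 1` regular off `∞`) an `R`-algebra, `ι : B₀ → BP`; `Bbar` (functions on the special fibre
regular off `∞̄`) with an injective `k`-algebra map `jbar : Bbar → κ`; filtered reduction data
`DS : FiltRed πS B₀ Bbar`, `DP : FiltRed π BP Bbar` with the SAME frame (`DP.frame i = ι (DS.frame i)`).

v2: the special-fibre hypotheses are stated ONLY at the levels `N0 + j` (`Hyp.Lbar_iff` = the shape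
of `Frame.mem_frameData_Lbar`), because `Frame.frameData` identifies the levels below `N0`; the
multiplicativity of pole orders is proved inside, in `κ` (`PoleLE`).

* `sum_coord_smul_frame` : expansion of an element of a level of the filtration in the frame;
* `coord_map` : `DP.coord i (ι b) = ψ (DS.coord i b)`;
* `dataOf`, `basePoint`, `isSol_basePoint` : the factorisation system of the base configuration
  and its base solution;
* `isUnit_det_jacobian` : its Jacobian is a unit (via `KerDict`);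
* `spec_of_frames` : **the Residual Theorem in frame form**.
-/

set_option autoImplicit false
set_option linter.unusedSectionVars false
set_option linter.unusedVariables false

noncomputable section

namespace Fermat.Agent.S19x.Geo.ResidualFrames

open IsLocalRing Submodule Polynomial
open Fermat.Agent.S19x.Geo.FrameAlg Fermat.Agent.S27x.Lift.FactorSystem

/-! ### Complements on `FiltRed` -/

section Frame

variable {R : Type*} [CommRing R] [IsDomain R] [ValuationRing R] {k : Type*} [Field k]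
  {π : R →+* k} {M : Type*} [AddCommGroup M] [Module R M]
  {Mbar : Type*} [AddCommGroup Mbar] [Module k Mbar] (D : FiltRed π M Mbar)
  [NoZeroSMulDivisors R M]

/-- expansion in the adapted frame of an element of the level `N0 + j`. -/
theorem sum_coord_smul_frame {j : ℕ} {x : M} (hx : x ∈ D.L (D.N0 + j)) :
    ∑ i : Fin (D.r0 + j), D.coord i x • D.frame i = x := by
  classical
  have h1 : x = ∑ i ∈ (D.frameBasis.repr x).support, D.frameBasis.repr x i • D.frame i := by
    conv_lhs => rw [← D.frameBasis.linearCombination_repr x]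
    rw [Finsupp.linearCombination_apply, Finsupp.sum]
    exact Finset.sum_congr rfl fun i _ => by rw [D.frameBasis_apply]
  have hsub : (D.frameBasis.repr x).support ⊆ Finset.range (D.r0 + j) := by
    intro i hi
    rw [Finset.mem_range]
    by_contra hlt
    have := D.coord_eq_zero_of_mem hx (Nat.le_of_not_lt hlt)
    rw [FiltRed.coord, Module.Basis.coord_apply] at this
    exact (Finsupp.mem_support_iff.mp hi) this
  rw [Fin.sum_univ_eq_sum_range (fun i => D.coord i x • D.frame i) (D.r0 + j)]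
  conv_rhs => rw [h1]
  symm
  refine Finset.sum_subset hsub fun i _ hi => ?_
  rw [Finsupp.notMem_support_iff.mp hi, zero_smul]

/-- the coordinates of an element reducing to zero lie in the kernel of `π`. -/
theorem π_coord_eq_zero_of_red_eq_zero {x : M} (hx : D.red x = 0) (i : ℕ) :
    π (D.coord i x) = 0 := by
  rw [← D.coordBar_red, hx, map_zero]

theorem π_coord_eq_of_red_eq {x y : M} (hxy : D.red x = D.red y) (i : ℕ) :
    π (D.coord i x) = π (D.coord i y) := by
  rw [← D.coordBar_red, ← D.coordBar_red, hxy]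

end Frame

/-! ### Two filtered reductions with the same frame -/

section Two

variable {RS R : Type*} [CommRing RS] [IsDomain RS] [ValuationRing RS]
  [CommRing R] [IsDomain R] [ValuationRing R] {k : Type*} [Field k]
  {πS : RS →+* k} {π : R →+* k}
  {B₀ : Type*} [CommRing B₀] [Algebra RS B₀] [NoZeroSMulDivisors RS B₀]
  {BP : Type*} [CommRing BP] [Algebra R BP] [NoZeroSMulDivisors R BP]
  {Bbar : Type*} [CommRing Bbar] [Algebra k Bbar]
  (DS : FiltRed πS B₀ Bbar) (DP : FiltRed π BP Bbar) (ψ : RS →+* R) (ι : B₀ →+* BP)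

/-- the coordinates over `R` of the image of an element of `B₀` are the images of its coordinates
over `RS`, provided the two frames agree. -/
theorem coord_map (hι : ∀ a : RS, ι (algebraMap RS B₀ a) = algebraMap R BP (ψ a))
    (hframe : ∀ i, DP.frame i = ι (DS.frame i)) (i : ℕ) (b : B₀) :
    DP.coord i (ι b) = ψ (DS.coord i b) := by
  classical
  have hb : b = ∑ i ∈ (DS.frameBasis.repr b).support, DS.frameBasis.repr b i • DS.frame i := by
    conv_lhs => rw [← DS.frameBasis.linearCombination_repr b]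
    rw [Finsupp.linearCombination_apply, Finsupp.sum]
    exact Finset.sum_congr rfl fun i _ => by rw [DS.frameBasis_apply]
  have h1 : ι b = Finsupp.linearCombination R DP.frameBasis
      ((DS.frameBasis.repr b).mapRange ψ (map_zero ψ)) := by
    rw [Finsupp.linearCombination_apply, Finsupp.sum_mapRange_index (by intro i; simp)]
    conv_lhs => rw [hb]
    rw [map_sum, Finsupp.sum]
    refine Finset.sum_congr rfl fun i _ => ?_
    rw [Algebra.smul_def, map_mul, hι, DP.frameBasis_apply, hframe, Algebra.smul_def]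
  rw [FiltRed.coord, FiltRed.coord, Module.Basis.coord_apply, Module.Basis.coord_apply, h1,
    Module.Basis.repr_linearCombination]
  rfl

end Two

/-! ### The base configuration in frame form -/

section Main

open AlgebraicCurve Module MvPolynomial
open Fermat.Agent.S27x.Lift.NiceRep Fermat.Agent.S27x.Lift.JacInj
  Fermat.Agent.S19x.Geo.JacKerMult Fermat.Agent.S19x.Geo.ResidualCore

variable {RS R : Type*} [CommRing RS] [IsDomain RS] [ValuationRing RS]
  [CommRing R] [IsDomain R] [ValuationRing R] {k : Type*} [Field k]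
  {πS : RS →+* k} {π : R →+* k}
  {B₀ : Type*} [CommRing B₀] [Algebra RS B₀] [NoZeroSMulDivisors RS B₀]
  {BP : Type*} [CommRing BP] [Algebra R BP] [NoZeroSMulDivisors R BP]
  {Bbar : Type*} [CommRing Bbar] [Algebra k Bbar]
  {κ : Type*} [Field κ] [Algebra k κ]

/-- pole order at most `n` at `P`, regular elsewhere. -/
def PoleLE (P : Place k κ) (n : ℕ) (f : κ) : Prop :=
  (∀ w : Place k κ, w ≠ P → f ∈ w.toValuationSubring) ∧ OrdGE P f (-(n : ℤ))

theorem poleLE_iff_mem_rr {P : Place k κ} {n : ℕ} {f : κ} :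
    f ∈ riemannRochSpace (Finsupp.single P (n : ℤ) : Divisor k κ) ↔ PoleLE P n f := by
  classical
  constructor
  · intro hf
    rw [mem_riemannRochSpace_iff_ordGE] at hf
    refine ⟨fun w hw => ?_, ?_⟩
    · have h1 := hf w
      rw [Finsupp.single_apply, if_neg (Ne.symm hw), neg_zero] at h1
      exact h1.mem
    · have h1 := hf P
      rwa [Finsupp.single_apply, if_pos rfl] at h1
  · rintro ⟨h1, h2⟩
    rw [mem_riemannRochSpace_iff_ordGE]
    intro w
    by_cases hw : w = P
    · subst hw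
      rwa [Finsupp.single_apply, if_pos rfl]
    · rw [Finsupp.single_apply, if_neg (Ne.symm hw), neg_zero]
      exact OrdGE.of_mem (h1 w hw)

namespace PoleLE

variable {P : Place k κ} {n n' : ℕ} {f f' : κ}

theorem mono (hf : PoleLE P n f) (hn : n ≤ n') : PoleLE P n' f :=
  ⟨hf.1, hf.2.mono (by exact_mod_cast neg_le_neg (Int.ofNat_le.mpr hn))⟩

theorem zero (P : Place k κ) (n : ℕ) : PoleLE P n (0 : κ) :=
  ⟨fun w _ => zero_mem _, OrdGE.zero _ _⟩

theorem add (hf : PoleLE P n f) (hf' : PoleLE P n f') : PoleLE P n (f + f') :=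
  ⟨fun w hw => add_mem (hf.1 w hw) (hf'.1 w hw), hf.2.add hf'.2⟩

theorem sub (hf : PoleLE P n f) (hf' : PoleLE P n f') : PoleLE P n (f - f') :=
  ⟨fun w hw => sub_mem (hf.1 w hw) (hf'.1 w hw), hf.2.sub hf'.2⟩

theorem mul (hf : PoleLE P n f) (hf' : PoleLE P n' f') : PoleLE P (n + n') (f * f') := by
  refine ⟨fun w hw => mul_mem (hf.1 w hw) (hf'.1 w hw), ?_⟩
  have := hf.2.mul hf'.2
  rwa [← neg_add, ← Nat.cast_add] at this

theorem algebraMap (P : Place k κ) (c : k) : PoleLE P 0 (algebraMap k κ c) :=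
  ⟨fun w _ => w.algebraMap_mem' c, by simpa using OrdGE.algebraMap P c⟩

theorem smul (c : k) (hf : PoleLE P n f) : PoleLE P n (c • f) := by
  rw [Algebra.smul_def]
  have := (PoleLE.algebraMap P c).mul hf
  rwa [zero_add] at this

theorem sum {J : Type*} (s : Finset J) (x : J → κ) (hx : ∀ j ∈ s, PoleLE P n (x j)) :
    PoleLE P n (∑ j ∈ s, x j) := by
  classical
  induction s using Finset.induction_on with
  | empty => simpa using PoleLE.zero P n
  | insert a s ha ih =>
    rw [Finset.sum_insert ha]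
    exact (hx a (Finset.mem_insert_self a s)).add
      (ih fun j hj => hx j (Finset.mem_insert_of_mem hj))

theorem pow (hf : PoleLE P n f) (i : ℕ) : PoleLE P (n * i) (f ^ i) := by
  induction i with
  | zero => simpa using PoleLE.algebraMap P (1 : k)
  | succ i ih =>
    rw [pow_succ, Nat.mul_succ]
    exact ih.mul hf

theorem aeval (hf : PoleLE P n f) (p : k[X]) {d : ℕ} (hd : p.natDegree ≤ d) :
    PoleLE P (n * d) (Polynomial.aeval f p) := by
  rw [Polynomial.aeval_eq_sum_range]
  refine PoleLE.sum _ _ fun i hi => ?_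
  have hi' : i ≤ d := (Nat.lt_succ_iff.mp (Finset.mem_range.mp hi)).trans hd
  exact ((hf.pow i).mono (Nat.mul_le_mul_left n hi')).smul _

end PoleLE

/-- **The hypotheses of the Residual Theorem in frame form** (see the file header; levels:
`m = N0 + j1` for `u`, `N2 = N0 + j2` for `u'`, `e * m = N0 + j3` for the equations). -/
structure Hyp (DS : FiltRed πS B₀ Bbar) (DP : FiltRed π BP Bbar) (ψ : RS →+* R) (ι : B₀ →+* BP)
    (jbar : Bbar →ₐ[k] κ) (oob : Place k κ) (g dW m e N2 j1 j2 j3 : ℕ)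
    (z u0 u0' : B₀) (ρW0 ρDc : RS[X])
    (Uvar Ufix : Finset (Place k κ)) (μ : Place k κ → ℕ) (val : Place k κ → k) : Prop where
  π_ψ : ∀ a, π (ψ a) = πS a
  ι_alg : ∀ a : RS, ι (algebraMap RS B₀ a) = algebraMap R BP (ψ a)
  red_one : DS.red 1 = 1
  red_mul : ∀ x y, DS.red (x * y) = DS.red x * DS.red y
  red_ι : ∀ b, DP.red (ι b) = DS.red b
  frame_ι : ∀ i, DP.frame i = ι (DS.frame i)
  N0_eq : DP.N0 = DS.N0
  r0_eq : DP.r0 = DS.r0
  rank : DS.r0 + g = DS.N0 + 1
  level_m : DS.N0 + j1 = m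
  level_N2 : DS.N0 + j2 = N2
  level_em : DS.N0 + j3 = e * m
  m_eq : m = dW + g
  N2_eq : N2 + m = e * m
  jbar_inj : Function.Injective jbar
  Lbar_iff : ∀ (j : ℕ) (y : Bbar), y ∈ DS.Lbar (DS.N0 + j) ↔
    jbar y ∈ riemannRochSpace (Finsupp.single oob ((DS.N0 + j : ℕ) : ℤ) : Divisor k κ)
  zbar_mem : jbar (DS.red z) ∈ riemannRochSpace (Finsupp.single oob (e : ℤ) : Divisor k κ)
  u0_mem : u0 ∈ DS.L m
  u0'_mem : u0' ∈ DS.L N2
  ρW0_monic : ρW0.Monic
  ρW0_deg : ρW0.natDegree = dW
  ρDc_monic : ρDc.Monic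
  ρDc_deg : ρDc.natDegree = g
  base_eq : u0 * u0' = aeval z ρW0 * aeval z ρDc
  resSol : ResSolM oob Uvar Ufix μ (jbar (DS.red z)) val (jbar (DS.red u0)) (jbar (DS.red u0'))
  card_Uvar : Uvar.card = g
  nonspecial : finrank k (riemannRochSpace (finDiv Uvar)) = 1
  ρW0_red : ρW0.map πS = rootPolyMult val Ufix μ
  ord_u0 : oob.ord (jbar (DS.red u0)) = -(m : ℤ)
  ord_u0' : oob.ord (jbar (DS.red u0')) = -(N2 : ℤ)

/-- the factorisation system of the base configuration: frames, `z`, `R_fix(z) = ρ_{W0}(z)`,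
exponent `1`, coordinate functionals, normalised coordinate `t0`. -/
def dataOf (DS : FiltRed πS B₀ Bbar) (j1 j2 j3 : ℕ) (z u0 : B₀) (ρW0 : RS[X])
    (t0 : Fin (DS.r0 + j1)) :
    Data RS B₀ (Fin (DS.r0 + j1)) (Fin (DS.r0 + j2)) (Fin (DS.r0 + j3)) where
  b1 := fun s => DS.frame s
  b2 := fun t => DS.frame t
  z := z
  rfix := aeval z ρW0
  n := 1
  φ := fun w => DS.coord w
  t0 := t0
  α0 := DS.coord t0 u0

/-- the base solution: the coordinates of `u0`, of `u0'`, and the lower coefficients of `ρ_Dc`. -/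
def basePoint (DS : FiltRed πS B₀ Bbar) (j1 j2 g : ℕ) (u0 u0' : B₀) (ρDc : RS[X]) :
    Idx (Fin (DS.r0 + j1)) (Fin (DS.r0 + j2)) g → RS :=
  Sum.elim (fun s => DS.coord s u0) (Sum.elim (fun t => DS.coord t u0') (fun l => ρDc.coeff l))

/-- `R_var(z)` at a point whose `r`-coordinates are the lower coefficients of a monic polynomial of
degree `g` is the value of that polynomial. -/
theorem rvar_eq_aeval {A B : Type*} [CommRing A] [CommRing B] [Algebra A B] {I1 I2 : Type*}
    {g : ℕ} (K : Core B I1 I2) (y : Idx I1 I2 g → B) (p : A[X]) (hp : p.Monic)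
    (hdeg : p.natDegree = g) (hy : ∀ l : Fin g, y (rIdx l) = algebraMap A B (p.coeff l)) :
    K.rvar y = aeval K.z p := by
  rw [Core.rvar_eq_eval]
  have h1 : (rvarPoly fun l : Fin g => y (rIdx l)) = p.map (algebraMap A B) := by
    have : (fun l : Fin g => y (rIdx l)) = fun l : Fin g => algebraMap A B (p.coeff l) :=
      funext hy
    rw [this, ← rvarPoly_map, rvarPoly_coeff_eq hp hdeg]
  rw [h1, Polynomial.eval_map_algebraMap]

variable {DS : FiltRed πS B₀ Bbar} {DP : FiltRed π BP Bbar} {ψ : RS →+* R} {ι : B₀ →+* BP}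
  {jbar : Bbar →ₐ[k] κ} {oob : Place k κ} {g dW m e N2 j1 j2 j3 : ℕ}
  {z u0 u0' : B₀} {ρW0 ρDc : RS[X]}
  {Uvar Ufix : Finset (Place k κ)} {μ : Place k κ → ℕ} {val : Place k κ → k}

namespace Hyp

variable (h : Hyp DS DP ψ ι jbar oob g dW m e N2 j1 j2 j3 z u0 u0' ρW0 ρDc Uvar Ufix μ val)
include h

/-- the reduction as a ring homomorphism. -/
def redHom : B₀ →+* Bbar where
  toFun := DS.red
  map_one' := h.red_one
  map_mul' := h.red_mul
  map_zero' := map_zero _
  map_add' := map_add _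

theorem redHom_apply (b : B₀) : h.redHom b = DS.red b := rfl

theorem red_algebraMap (a : RS) : DS.red (algebraMap RS B₀ a) = algebraMap k Bbar (πS a) := by
  rw [Algebra.algebraMap_eq_smul_one, DS.red_smul, h.red_one, Algebra.algebraMap_eq_smul_one]

theorem redHom_comp_algebraMap :
    h.redHom.comp (algebraMap RS B₀) = (algebraMap k Bbar).comp πS :=
  RingHom.ext fun a => h.red_algebraMap a

theorem red_aeval (x : B₀) (p : RS[X]) :
    DS.red (aeval x p) = aeval (DS.red x) (p.map πS) := by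
  rw [← h.redHom_apply, Polynomial.aeval_def, Polynomial.hom_eval₂, h.redHom_comp_algebraMap,
    Polynomial.aeval_def, Polynomial.eval₂_map]
  rfl

theorem u0_mem' : u0 ∈ DS.L (DS.N0 + j1) := by rw [h.level_m]; exact h.u0_mem

theorem u0'_mem' : u0' ∈ DS.L (DS.N0 + j2) := by rw [h.level_N2]; exact h.u0'_mem

theorem uOf_basePoint (t0 : Fin (DS.r0 + j1)) :
    (dataOf DS j1 j2 j3 z u0 ρW0 t0).toCore.uOf (Data.pt (basePoint DS j1 j2 g u0 u0' ρDc)) = u0 := by
  have := sum_coord_smul_frame DS h.u0_mem'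
  rw [Core.uOf]
  conv_rhs => rw [← this]
  refine Finset.sum_congr rfl fun s _ => ?_
  rw [Algebra.smul_def]
  rfl

theorem vOf_basePoint (t0 : Fin (DS.r0 + j1)) :
    (dataOf DS j1 j2 j3 z u0 ρW0 t0).toCore.vOf (Data.pt (basePoint DS j1 j2 g u0 u0' ρDc)) = u0' := by
  have := sum_coord_smul_frame DS h.u0'_mem'
  rw [Core.vOf]
  conv_rhs => rw [← this]
  refine Finset.sum_congr rfl fun s _ => ?_
  rw [Algebra.smul_def]
  rfl

theorem rvar_basePoint (t0 : Fin (DS.r0 + j1)) :
    (dataOf DS j1 j2 j3 z u0 ρW0 t0).toCore.rvar (Data.pt (basePoint DS j1 j2 g u0 u0' ρDc))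
      = aeval z ρDc :=
  rvar_eq_aeval _ _ ρDc h.ρDc_monic h.ρDc_deg fun l => rfl

/-- the base point solves the system. -/
theorem isSol_basePoint (t0 : Fin (DS.r0 + j1)) :
    (dataOf DS j1 j2 j3 z u0 ρW0 t0).IsSol (basePoint DS j1 j2 g u0 u0' ρDc) := by
  refine ⟨?_, rfl⟩
  rw [h.uOf_basePoint, h.vOf_basePoint, h.rvar_basePoint]
  show u0 * u0' = (aeval z ρW0 * aeval z ρDc) ^ 1
  rw [pow_one, h.base_eq]

/-! ### The Jacobian -/

theorem zbar_poleLE : PoleLE oob e (jbar (DS.red z)) := poleLE_iff_mem_rr.mp h.zbar_mem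

theorem poleLE_of_mem_Lbar {j : ℕ} {y : Bbar} (hy : y ∈ DS.Lbar (DS.N0 + j)) :
    PoleLE oob (DS.N0 + j) (jbar y) := poleLE_iff_mem_rr.mp ((h.Lbar_iff j y).mp hy)

theorem mem_Lbar_of_poleLE {j : ℕ} {y : Bbar} (hy : PoleLE oob (DS.N0 + j) (jbar y)) :
    y ∈ DS.Lbar (DS.N0 + j) := (h.Lbar_iff j y).mpr (poleLE_iff_mem_rr.mpr hy)

section Core

variable {I1 I2 I3 : Type*} [Fintype I1] [Fintype I2]
  (D : Data RS B₀ I1 I2 I3) (x : Idx I1 I2 g → RS)

theorem map_uOf_pt :
    (D.toCore.map h.redHom).uOf (ptbar fun i => πS (x i)) = DS.red (D.toCore.uOf (Data.pt x)) := by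
  simp only [Core.uOf, Core.map, ptbar, Data.pt]
  rw [map_sum]
  refine Finset.sum_congr rfl fun s _ => ?_
  rw [h.red_mul, h.red_algebraMap]
  rfl

theorem map_vOf_pt :
    (D.toCore.map h.redHom).vOf (ptbar fun i => πS (x i)) = DS.red (D.toCore.vOf (Data.pt x)) := by
  simp only [Core.vOf, Core.map, ptbar, Data.pt]
  rw [map_sum]
  refine Finset.sum_congr rfl fun s _ => ?_
  rw [h.red_mul, h.red_algebraMap]
  rfl

end Core

/-- a coordinate of `u0` with unit value. -/
theorem exists_t0 : ∃ t0 : Fin (DS.r0 + j1), πS (DS.coord t0 u0) ≠ 0 := by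
  by_contra hcon
  simp only [not_exists, not_not] at hcon
  have hmem : DS.red u0 ∈ DS.Lbar (DS.N0 + j1) := DS.red_mem _ _ h.u0_mem'
  have h0 : DS.red u0 = 0 := by
    refine DS.eq_zero_of_coordBar_eq_zero hmem fun i hi => ?_
    rw [DS.coordBar_red]
    exact hcon ⟨i, hi⟩
  apply h.resSol.u_ne
  rw [h0, map_zero]

theorem card_eq :
    Fintype.card (Fin (DS.r0 + j3) ⊕ Unit)
      = Fintype.card (Idx (Fin (DS.r0 + j1)) (Fin (DS.r0 + j2)) g) := by
  simp only [Fintype.card_sum, Fintype.card_unit, Fintype.card_fin]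
  have h1 := h.rank
  have h2 := h.level_m
  have h3 := h.level_N2
  have h4 := h.level_em
  have h5 := h.N2_eq
  omega

/-- the identification of equations and unknowns (the system is square). -/
def equiv : Fin (DS.r0 + j3) ⊕ Unit ≃ Idx (Fin (DS.r0 + j1)) (Fin (DS.r0 + j2)) g :=
  Fintype.equivOfCardEq h.card_eq

theorem frameBar_poleLE_m (s : Fin (DS.r0 + j1)) :
    PoleLE oob m (jbar (DS.red (DS.frame s))) := by
  have := h.poleLE_of_mem_Lbar (DS.frameBar_mem j1 s.2)
  rwa [h.level_m] at this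

theorem frameBar_poleLE_N2 (t : Fin (DS.r0 + j2)) :
    PoleLE oob N2 (jbar (DS.red (DS.frame t))) := by
  have := h.poleLE_of_mem_Lbar (DS.frameBar_mem j2 t.2)
  rwa [h.level_N2] at this

theorem linearIndependent_jbar_frameBar (n : ℕ) :
    LinearIndependent k fun s : Fin n => jbar (DS.red (DS.frame s)) := by
  have h1 : LinearIndependent k fun s : Fin n => DS.frameBar s :=
    DS.linearIndependent_frameBar.comp _ Fin.val_injective
  have h2 := h1.map' jbar.toLinearMap (LinearMap.ker_eq_bot.mpr h.jbar_inj)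
  exact h2

theorem natDegree_dirPoly_le (v : Idx (Fin (DS.r0 + j1)) (Fin (DS.r0 + j2)) g → k) :
    (KerDict.dirPoly v).natDegree ≤ g - 1 := by
  rcases Nat.eq_zero_or_pos g with hg | hg
  · subst hg
    simp [KerDict.dirPoly]
  · have h1 := KerDict.degree_dirPoly_lt v
    by_cases h0 : KerDict.dirPoly v = 0
    · rw [h0, Polynomial.natDegree_zero]; exact Nat.zero_le _
    · have h2 := (Polynomial.natDegree_lt_iff_degree_lt h0).mpr h1
      omega

/-- the differential of the reduced system lies in the level `e * m` of the special fibre. -/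
theorem dval_mem (t0 : Fin (DS.r0 + j1)) (y v : Idx (Fin (DS.r0 + j1)) (Fin (DS.r0 + j2)) g → k) :
    ((dataOf DS j1 j2 j3 z u0 ρW0 t0).toCore.map h.redHom).dval (ptbar y) (ptbar v)
      ∈ DS.Lbar (DS.N0 + j3) := by
  apply h.mem_Lbar_of_poleLE
  rw [h.level_em]
  set K := (dataOf DS j1 j2 j3 z u0 ρW0 t0).toCore.map h.redHom with hK
  have huOf : ∀ w : Idx (Fin (DS.r0 + j1)) (Fin (DS.r0 + j2)) g → k,
      PoleLE oob m (jbar (K.uOf (ptbar w))) := by
    intro w
    rw [KerDict.map_uOf]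
    exact PoleLE.sum _ _ fun s _ => (h.frameBar_poleLE_m s).smul _
  have hvOf : ∀ w : Idx (Fin (DS.r0 + j1)) (Fin (DS.r0 + j2)) g → k,
      PoleLE oob N2 (jbar (K.vOf (ptbar w))) := by
    intro w
    rw [KerDict.map_vOf]
    exact PoleLE.sum _ _ fun s _ => (h.frameBar_poleLE_N2 s).smul _
  have hzK : jbar K.z = jbar (DS.red z) := rfl
  have hrfix : jbar K.rfix = Polynomial.aeval (jbar (DS.red z)) (rootPolyMult val Ufix μ) := by
    show jbar (DS.red (Polynomial.aeval z ρW0)) = _
    rw [h.red_aeval, h.ρW0_red, ← Polynomial.aeval_algHom_apply]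
  have hmN : m + N2 = e * m := by rw [add_comm]; exact h.N2_eq
  rw [KerDict.dval_of_n_eq_one K rfl, map_sub, map_add, map_mul, map_mul, map_mul]
  refine PoleLE.sub (PoleLE.add ?_ ?_) ?_
  · rw [← hmN]
    exact (huOf v).mul (hvOf y)
  · rw [← hmN]
    exact (huOf y).mul (hvOf v)
  · rw [hrfix, KerDict.map_rdot, hzK, ← map_mul]
    refine (h.zbar_poleLE.aeval _ (d := dW + (g - 1)) ?_).mono ?_
    · refine Polynomial.natDegree_mul_le.trans (add_le_add ?_ (h.natDegree_dirPoly_le v))
      rw [natDegree_rootPolyMult, ← natDegree_rootPolyMult val, ← h.ρW0_red]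
      exact (Polynomial.natDegree_map_le).trans h.ρW0_deg.le
    · rw [h.m_eq]
      exact Nat.mul_le_mul_left e (by omega)

/-- **the Jacobian of the base system at the base solution is a unit.** -/
theorem isUnit_det_jacobian (t0 : Fin (DS.r0 + j1)) (ht0 : πS (DS.coord t0 u0) ≠ 0)
    (e' : Fin (DS.r0 + j3) ⊕ Unit ≃ Idx (Fin (DS.r0 + j1)) (Fin (DS.r0 + j2)) g) :
    IsUnit (Matrix.det (Matrix.of fun i j =>
      MvPolynomial.eval (basePoint DS j1 j2 g u0 u0' ρDc)
        (MvPolynomial.pderiv i (FactorJac.sq (dataOf DS j1 j2 j3 z u0 ρW0 t0) e' j)))) := by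
  have hu : ((dataOf DS j1 j2 j3 z u0 ρW0 t0).toCore.map h.redHom).uOf
      (ptbar fun i => πS (basePoint DS j1 j2 g u0 u0' ρDc i)) = DS.red u0 := by
    rw [h.map_uOf_pt, h.uOf_basePoint]
  have hv : ((dataOf DS j1 j2 j3 z u0 ρW0 t0).toCore.map h.redHom).vOf
      (ptbar fun i => πS (basePoint DS j1 j2 g u0 u0' ρDc i)) = DS.red u0' := by
    rw [h.map_vOf_pt, h.vOf_basePoint]
  refine KerDict.isUnit_det_jacobian_of_resSolM jbar πS DS.π_surj
    (dataOf DS j1 j2 j3 z u0 ρW0 t0) e' h.redHom (fun w => DS.coordBar w)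
    (fun w b => DS.coordBar_red w b) (basePoint DS j1 j2 g u0 u0' ρDc) rfl
    (P := oob) (Uvar := Uvar) (Ufix := Ufix) (μ := μ) (val := val) h.card_Uvar ?_ ?_ h.nonspecial
    (h.linearIndependent_jbar_frameBar _) (h.linearIndependent_jbar_frameBar _)
    ?_ ?_ ?_ ?_ ht0 ?_
  · show jbar (DS.red (aeval z ρW0)) = _
    rw [h.red_aeval, h.ρW0_red, ← Polynomial.aeval_algHom_apply]
    rfl
  · rw [hu, hv]
    exact h.resSol
  · intro s w hw
    exact (h.frameBar_poleLE_m s).1 w hw
  · intro s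
    rw [hu, h.ord_u0]
    exact (h.frameBar_poleLE_m s).2
  · intro t w hw
    exact (h.frameBar_poleLE_N2 t).1 w hw
  · intro t
    rw [hv, h.ord_u0']
    exact (h.frameBar_poleLE_N2 t).2
  · intro v hv0
    refine DS.eq_zero_of_coordBar_eq_zero (h.dval_mem t0 _ v) fun i hi => ?_
    exact hv0 ⟨i, hi⟩

/-! ### The Residual Theorem in frame form -/

theorem sub_mem_maximalIdeal_of_π_eq {x y : R} (hxy : π x = π y) :
    x - y ∈ maximalIdeal R := by
  rw [← IsLocalRing.ker_eq_maximalIdeal π DP.π_surj, RingHom.mem_ker, map_sub, hxy, sub_self]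

theorem coordP_ι (i : ℕ) (b : B₀) : DP.coord i (ι b) = ψ (DS.coord i b) :=
  coord_map DS DP ψ ι h.ι_alg h.frame_ι i b

/-- expansion over `R` of an element of the level `N0 + j` of `BP` in the common frame. -/
theorem sum_coordP_smul {j : ℕ} {x : BP} (hx : x ∈ DP.L (DS.N0 + j)) :
    ∑ i : Fin (DS.r0 + j), algebraMap R BP (DP.coord i x) * ι (DS.frame i) = x := by
  have hx' : x ∈ DP.L (DP.N0 + j) := by rw [h.N0_eq]; exact hx
  have h1 := sum_coord_smul_frame DP hx'
  rw [Fin.sum_univ_eq_sum_range (fun i => DP.coord i x • DP.frame i) (DP.r0 + j), h.r0_eq] at h1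
  rw [Fin.sum_univ_eq_sum_range (fun i => algebraMap R BP (DP.coord i x) * ι (DS.frame i))
    (DS.r0 + j)]
  conv_rhs => rw [← h1]
  refine Finset.sum_congr rfl fun i _ => ?_
  rw [Algebra.smul_def, h.frame_ι]

/-- **The Residual Theorem in frame form.**  For every `n` there are polynomials `Θ l` over `RS` in
`dW` parameters, with zero constant term, such that for every parameter value `a` in an ideal
`𝔞 ≤ 𝔪_R` and every true solution `(us, us', ρE)` over `R` of the system with fixed factor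
`ρ_{W0} + ∑ a_l T^l`, congruent to the base solution modulo `𝔪_R`, the lower coefficients of `ρE`
are `ρDc.coeff l + Θ_l(a)` modulo `𝔞 ^ (n + 1)`. -/
theorem spec_of_frames (n : ℕ) :
    ∃ Θ : Fin g → MvPolynomial (Fin dW) RS, (∀ l, MvPolynomial.constantCoeff (Θ l) = 0) ∧
      ∀ (a : Fin dW → R) (𝔞 : Ideal R), 𝔞 ≤ maximalIdeal R → (∀ l, a l ∈ 𝔞) →
        ∀ (us us' : BP) (ρE : R[X]), us ∈ DP.L m → us' ∈ DP.L N2 → ρE.Monic →
          ρE.natDegree = g → DP.red us = DS.red u0 → DP.red us' = DS.red u0' →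
          (∀ l : Fin g, π (ρE.coeff l) = πS (ρDc.coeff l)) →
          us * us' = (ι (aeval z ρW0) + ∑ l : Fin dW, algebraMap R BP (a l) * ι z ^ (l : ℕ))
            * aeval (ι z) ρE →
          ∀ l : Fin g, ρE.coeff l - ψ (ρDc.coeff l) - MvPolynomial.eval₂ ψ a (Θ l) ∈ 𝔞 ^ (n + 1) := by
  classical
  obtain ⟨t0, ht0⟩ := h.exists_t0
  set D := dataOf DS j1 j2 j3 z u0 ρW0 t0 with hD
  set x0 := basePoint DS j1 j2 g u0 u0' ρDc with hx0def
  have hx0 : D.IsSol x0 := h.isSol_basePoint t0
  have hJ := h.isUnit_det_jacobian t0 ht0 h.equiv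
  set d : Fin dW → ℕ := fun l => (l : ℕ) with hd
  -- the Newton approximants
  have hbase : ∀ j, MvPolynomial.eval (Alg.NewtonApproxB.basePt (κ := Fin dW) x0)
      (sqP D d h.equiv j) = 0 := fun j => eval_GP_base_eq_zero D d x0 hx0 (h.equiv.symm j)
  have hJ' : IsUnit (Alg.NewtonApproxB.baseJac (sqP D d h.equiv) x0).det := by
    have := baseJac_sqP D d h.equiv x0
    rw [Alg.NewtonApproxB.baseJac]
    rw [show (Matrix.of fun i j => MvPolynomial.eval (Alg.NewtonApproxB.basePt (κ := Fin dW) x0)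
        (MvPolynomial.pderiv (Sum.inl i) (sqP D d h.equiv j)))
        = Matrix.of fun i j => MvPolynomial.eval x0 (MvPolynomial.pderiv i (FactorJac.sq D h.equiv j))
        from this]
    exact hJ
  have hφ : ∀ (w : Fin (DS.r0 + j3)) (b : B₀), DP.coord w (ι b) = ψ (D.φ w b) :=
    fun w b => h.coordP_ι w b
  obtain ⟨Θ, hΘ0, hΘ⟩ := residual_core (P := R) (BP := BP) D rfl d h.equiv ψ ι
    (fun w => DP.coord w) hφ x0 n
    (Alg.NewtonApproxB.approx (sqP D d h.equiv) x0 n)
    (fun i => Alg.NewtonApproxB.constantCoeff_approx _ _ hbase n i)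
    (fun a 𝔞 h𝔞 ha sstar hsol hnear =>
      Alg.NewtonApproxB.approx_spec ψ (sqP D d h.equiv) x0 hbase hJ' n a 𝔞 h𝔞 ha sstar hsol hnear)
  refine ⟨Θ, hΘ0, ?_⟩
  intro a 𝔞 h𝔞 ha us us' ρE hus hus' hρm hρd hredu hredu' hρred heq l
  -- the normalising unit
  have hα0 : πS D.α0 ≠ 0 := ht0
  have hπcu : π (DP.coord t0 us) = πS D.α0 := by
    rw [← h.π_ψ]
    show π (DP.coord t0 us) = π (ψ (DS.coord t0 u0))
    rw [← h.coordP_ι]
    exact π_coord_eq_of_red_eq DP (by rw [hredu, h.red_ι]) t0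
  have hunit : ∀ r : R, π r ≠ 0 → IsUnit r := by
    intro r hr
    by_contra hnu
    have : r ∈ maximalIdeal R := (IsLocalRing.mem_maximalIdeal r).mpr hnu
    rw [← IsLocalRing.ker_eq_maximalIdeal π DP.π_surj, RingHom.mem_ker] at this
    exact hr this
  obtain ⟨vu, hvu⟩ := hunit (DP.coord t0 us) (by rw [hπcu]; exact hα0)
  obtain ⟨wu, hwu⟩ := hunit (ψ D.α0) (by rw [h.π_ψ]; exact hα0)
  set c : Rˣ := wu * vu⁻¹ with hc
  have hcmul : (c : R) * DP.coord t0 us = ψ D.α0 := by
    rw [← hvu, ← hwu, hc]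
    simp [mul_assoc]
  have hπc : π (c : R) = 1 := by
    have h1 : π (c : R) * π (DP.coord t0 us) = π (ψ D.α0) := by rw [← map_mul, hcmul]
    rw [hπcu, h.π_ψ] at h1
    exact mul_right_cancel₀ hα0 (by rw [h1, one_mul])
  have hπc' : π ((c⁻¹ : Rˣ) : R) = 1 := by
    have h1 : π (c : R) * π ((c⁻¹ : Rˣ) : R) = 1 := by rw [← map_mul, Units.mul_inv, map_one]
    rwa [hπc, one_mul] at h1
  -- the coordinates of the normalised true solution
  have hm' : DS.N0 + j1 = m := h.level_m
  have hN2' : DS.N0 + j2 = N2 := h.level_N2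
  have hcus : (c : R) • us ∈ DP.L (DS.N0 + j1) := by
    rw [hm']; exact (DP.L m).smul_mem _ hus
  have hcus' : ((c⁻¹ : Rˣ) : R) • us' ∈ DP.L (DS.N0 + j2) := by
    rw [hN2']; exact (DP.L N2).smul_mem _ hus'
  set xs : Idx (Fin (DS.r0 + j1)) (Fin (DS.r0 + j2)) g → R :=
    Sum.elim (fun s => DP.coord s ((c : R) • us))
      (Sum.elim (fun t => DP.coord t (((c⁻¹ : Rˣ) : R) • us')) (fun l => ρE.coeff l)) with hxs
  have hsol : IsSolP D ψ ι d a xs := by
    refine ⟨?_, ?_⟩
    · have h1 : (coreP D ι d a).uOf (ptP xs) = (c : R) • us := by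
        rw [Core.uOf]
        exact h.sum_coordP_smul hcus
      have h2 : (coreP D ι d a).vOf (ptP xs) = ((c⁻¹ : Rˣ) : R) • us' := by
        rw [Core.vOf]
        exact h.sum_coordP_smul hcus'
      have h3 : (coreP D ι d a).rvar (ptP xs) = aeval (ι z) ρE :=
        rvar_eq_aeval (coreP D ι d a) (ptP xs) ρE hρm hρd fun l => rfl
      rw [h1, h2, h3, smul_mul_smul_comm, Units.mul_inv, one_smul, heq]
      rfl
    · show DP.coord t0 ((c : R) • us) = ψ D.α0
      rw [map_smul, smul_eq_mul, hcmul]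
  have hnear : ∀ i, xs i - ψ (x0 i) ∈ maximalIdeal R := by
    intro i
    rcases i with s | t | l'
    · refine h.sub_mem_maximalIdeal_of_π_eq ?_
      show π (DP.coord s ((c : R) • us)) = π (ψ (DS.coord s u0))
      rw [← h.coordP_ι]
      refine π_coord_eq_of_red_eq DP ?_ s
      rw [DP.red_smul, hπc, one_smul, hredu, h.red_ι]
    · refine h.sub_mem_maximalIdeal_of_π_eq ?_
      show π (DP.coord t (((c⁻¹ : Rˣ) : R) • us')) = π (ψ (DS.coord t u0'))
      rw [← h.coordP_ι]
      refine π_coord_eq_of_red_eq DP ?_ t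
      rw [DP.red_smul, hπc', one_smul, hredu', h.red_ι]
    · refine h.sub_mem_maximalIdeal_of_π_eq ?_
      show π (ρE.coeff l') = π (ψ (ρDc.coeff l'))
      rw [hρred, h.π_ψ]
  exact hΘ a 𝔞 h𝔞 ha xs hsol hnear l

end Hyp

end Main

end Fermat.Agent.S19x.Geo.ResidualFrames
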