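import Fermat.Agent.S19x.Geo.ResidualFrames
import Fermat.Agent.S19x.Geo.FrameA
import Fermat.Agent.S19x.Geo.FrameFacts
import Fermat.Agent.S19x.Geo.TrueSolOut
import Fermat.Agent.S19x.Geo.TrueSolInt
import Fermat.Agent.S19x.Geo.Residual.Glue

/-!
# P-S19, block A, leaf L6 (helper89): the Residual Theorem at a geometric configuration

Instantiation of `Geo/ResidualFrames.Hyp.spec_of_frames` at the frames of `Geo/Frame` / `Geo/FrameA`
(`DS := Frame.frameData H hN0` over `A^S`, `DP := FrameA.frameDataA H hN0` over `A`), with the true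
solutions of `Geo/TrueSolOut`, and the wrapper to the literal `ResidualOut I` of `Geo/Targets`.

* `exists_fixed_poly` : a monic polynomial over `K` with `S`-fixed integral coefficients comes from
  a monic polynomial over `A^S`;
* `exists_residualOut` : **the Residual Theorem** for a configuration given by a `TrueSol.Input`
  together with `S`-fixed base functions `u0`, `u0'` and base divisors `W0`, `Dc`.
-/

set_option autoImplicit false
set_option linter.unusedSectionVars false
set_option linter.unusedVariables false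

noncomputable section

namespace Fermat.Agent.S19x.Geo.ResidualOfFrames

open AlgebraicCurve IsLocalRing Module Polynomial
open Fermat.Agent.Gateway.C0 Fermat.Agent.Gateway.Red
  Fermat.Agent.S27x.Lift.NiceRep Fermat.Agent.S27x.Lift.JacInj
  Fermat.Agent.S19x.Geo Fermat.Agent.S19x.Geo.Lattice Fermat.Agent.S19x.Geo.Frame
  Fermat.Agent.S19x.Geo.FrameA Fermat.Agent.S19x.Geo.FrameAlg
  Fermat.Agent.S19x.Geo.JacKerMult Fermat.Agent.S19x.Geo.TrueSol
  Fermat.Agent.S19x.Geo.ResidualFrames Fermat.Agent.S19x.Geo.Residual.Glue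

universe u v w z

variable {K : Type u} [Field K] {A : ValuationSubring K}
  {F : Type v} [Field F] [Algebra K F] {O : ValuationSubring F}
  {k : Type w} {κ : Type z} [Field k] [Field κ] [Algebra k κ]
  {G : GeoSetting A O k κ}

/-! ### Polynomials with fixed integral coefficients -/

/-- a monic polynomial over `K` whose coefficients are `S`-fixed elements of `A` comes from a monic
polynomial over `A^S`. -/
theorem exists_fixed_poly (I : InertiaData G) {p : K[X]} (hp : p.Monic)
    (hfix : ∀ l, I.IsFixedInt (p.coeff l)) :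
    ∃ q : I.fixedRing[X], q.Monic ∧ q.natDegree = p.natDegree ∧ q.map (ψK I) = p := by
  have hl : p ∈ Polynomial.lifts (ψK I) := by
    rw [Polynomial.lifts_iff_coeff_lifts]
    intro n
    obtain ⟨ha, hmem⟩ := hfix n
    exact ⟨⟨⟨p.coeff n, ha⟩, hmem⟩, rfl⟩
  obtain ⟨q, h1, h2, h3⟩ := Polynomial.lifts_and_natDegree_eq_and_monic hl hp
  exact ⟨q, h3, h2, h1⟩

section Main

variable [HasPrincipalDivisors K F] [∀ v : Place K F, v.FiniteResidue]
  [HasPrincipalDivisors k κ] [∀ v : Place k κ, v.FiniteResidue]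
  {I : InertiaData G} {N0 : ℕ}

/-- the value of a polynomial over `A^S` at an element of `F`, through `K`. -/
theorem aeval_fixed_eq (I : InertiaData G) (x : F) (p : I.fixedRing[X]) :
    aeval x p = aeval x (p.map (ψK I)) := by
  rw [Polynomial.aeval_def, Polynomial.aeval_def, Polynomial.eval₂_map]
  rfl

/-- the value of a polynomial over `A` at an element of `F`, through `K`. -/
theorem aeval_int_eq (x : F) (p : A[X]) :
    aeval x p = aeval x (p.map A.subtype) := by
  rw [Polynomial.aeval_def, Polynomial.aeval_def, Polynomial.eval₂_map]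
  rfl

variable (H : FixedLatticeFacts G I N0) (hN0 : 2 * (G.g : ℤ) - 1 ≤ N0)
  {m e N2 dW : ℕ} {z : F} {zb : κ} {Uvar Ufix : Finset (Place k κ)}
  {μ : Place k κ → ℕ} {val : Place k κ → k} {ub ub' : κ}
  (Inp : Input G m e z zb (fun Q => valAt Q z) Uvar Ufix μ val ub ub')

include Inp in
/-- `z ∈ Λ(e∞)^S`. -/
theorem z_mem_LamS (hzfix : I.IsFixed z) : z ∈ LamS G I e :=
  ⟨⟨Inp.z_rrs, Inp.z_mem⟩, hzfix⟩

/-- **The hypotheses of the frame form of the Residual Theorem** at a geometric configuration. -/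
theorem hyp_of_input (hzfix : I.IsFixed z) (hN2 : N2 + m = e * m)
    {u0 u0' : F} (hu0 : u0 ∈ LamS G I m) (hu0' : u0' ∈ LamS G I N2)
    (hres0 : G.R.res ⟨u0, hu0.1.2⟩ = ub) (hres0' : G.R.res ⟨u0', hu0'.1.2⟩ = ub')
    (hord' : G.oob.ord ub' = -(N2 : ℤ)) (hN0m : N0 ≤ m) (hN0N2 : N0 ≤ N2)
    {W0 Dc : Divisor K F} (hW0 : 0 ≤ W0) (hspW0 : G.spDiv W0 = multDiv Ufix μ)
    (hDc : 0 ≤ Dc) (hspDc : G.spDiv Dc = finDiv Uvar)
    {ρW0 ρDc : I.fixedRing[X]} (hρW0m : ρW0.Monic) (hρW0 : ρW0.map (ψK I) = divPoly z W0)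
    (hρW0d : ρW0.natDegree = dW)
    (hρDcm : ρDc.Monic) (hρDc : ρDc.map (ψK I) = divPoly z Dc)
    (hbase : u0 * u0' = aeval z (divPoly z W0) * aeval z (divPoly z Dc)) :
    Hyp (frameData H hN0) (frameDataA H hN0) (ψA I) (ιBA G I) (Bbar G).val G.oob G.g dW m e N2
      (m - N0) (N2 - N0) (e * m - N0)
      (⟨z, mem_BS_of_mem_LamS G I (z_mem_LamS Inp hzfix)⟩ : BS G I)
      (⟨u0, mem_BS_of_mem_LamS G I hu0⟩ : BS G I) (⟨u0', mem_BS_of_mem_LamS G I hu0'⟩ : BS G I)
      ρW0 ρDc Uvar Ufix μ val := by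
  classical
  have hne := G.nonempty_placeκ
  have hNN : (frameData H hN0).N0 = N0 := frameData_N0 H hN0
  have hem : m ≤ e * m := by omega
  -- degrees
  have hdegDc : (divPoly z Dc).natDegree = G.g := by
    have h1 := natDegree_divPoly_of_nonneg z hDc G.rrF.deg_one
    have h2 : Divisor.degree (finDiv Uvar) = Uvar.card := G.rrκ.degree_sum_single Uvar
    rw [← G.degree_spDiv, hspDc, h2, Inp.card_var] at h1
    exact_mod_cast h1
  have hdegW0 : ((divPoly z W0).natDegree : ℤ) = ∑ Q ∈ Ufix, (μ Q : ℤ) := by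
    have h1 := natDegree_divPoly_of_nonneg z hW0 G.rrF.deg_one
    rw [← G.degree_spDiv, hspW0, Inp.degree_multDiv] at h1
    exact h1
  have hψK_inj : Function.Injective (ψK I) := fun a b hab => Subtype.ext (Subtype.ext hab)
  have hnatW0 : ρW0.natDegree = (divPoly z W0).natDegree := by
    rw [← hρW0, Polynomial.natDegree_map_eq_of_injective hψK_inj]
  have hnatDc : ρDc.natDegree = (divPoly z Dc).natDegree := by
    rw [← hρDc, Polynomial.natDegree_map_eq_of_injective hψK_inj]
  -- the reduction of `ρ_W0`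
  obtain ⟨q, hqm, hq1, hq2⟩ := TrueSolInt.exists_monic_map_eq_fix Inp hW0 hspW0
  have hqρ : ρW0.map (ψA I) = q := by
    apply Polynomial.map_injective A.subtype Subtype.val_injective
    rw [Polynomial.map_map, hq1]
    exact hρW0
  refine
    { π_ψ := fun a => rfl
      ι_alg := fun a => rfl
      red_one := by rw [frameData_red, map_one]
      red_mul := fun x y => by rw [frameData_red, frameData_red, frameData_red, map_mul]
      red_ι := fun b => by rw [frameDataA_red, resBA_ιBA, frameData_red]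
      frame_ι := frameA_eq H hN0
      N0_eq := rfl
      r0_eq := rfl
      rank := by
        have h1 := frameData_r0 H hN0
        rw [hNN]
        omega
      level_m := by rw [hNN]; omega
      level_N2 := by rw [hNN]; omega
      level_em := by rw [hNN]; omega
      m_eq := by
        have h1 := Inp.m_eq
        rw [Inp.card_var, ← hdegW0, ← hnatW0, hρW0d] at h1
        exact_mod_cast h1
      N2_eq := hN2
      jbar_inj := Subtype.val_injective
      Lbar_iff := fun j y => by
        rw [mem_frameData_Lbar, hNN]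
        rfl
      zbar_mem := by
        rw [frameData_red]
        exact res_mem_rrs_of_mem_LamS G I (z_mem_LamS Inp hzfix)
      u0_mem := by
        have h1 : (frameData H hN0).N0 + (m - N0) = m := by rw [hNN]; omega
        have h2 : N0 + (m - N0) = m := by omega
        have h3 := (mem_frameData_L H hN0 (m - N0)
          (⟨u0, mem_BS_of_mem_LamS G I hu0⟩ : BS G I)).mpr (by rw [h2]; exact hu0)
        rw [h1] at h3
        exact h3
      u0'_mem := by
        have h1 : (frameData H hN0).N0 + (N2 - N0) = N2 := by rw [hNN]; omega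
        have h2 : N0 + (N2 - N0) = N2 := by omega
        have h3 := (mem_frameData_L H hN0 (N2 - N0)
          (⟨u0', mem_BS_of_mem_LamS G I hu0'⟩ : BS G I)).mpr (by rw [h2]; exact hu0')
        rw [h1] at h3
        exact h3
      ρW0_monic := hρW0m
      ρW0_deg := hρW0d
      ρDc_monic := hρDcm
      ρDc_deg := by rw [hnatDc, hdegDc]
      base_eq := by
        apply Subtype.ext
        rw [Subalgebra.coe_mul, Subalgebra.coe_mul, Polynomial.aeval_subalgebra_coe,
          Polynomial.aeval_subalgebra_coe, aeval_fixed_eq, aeval_fixed_eq, hρW0, hρDc]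
        exact hbase
      resSol := by
        rw [frameData_red, frameData_red, frameData_red]
        have h1 : (Bbar G).val (resB G I ⟨z, mem_BS_of_mem_LamS G I (z_mem_LamS Inp hzfix)⟩) = zb :=
          Inp.res_z
        have h2 : (Bbar G).val (resB G I ⟨u0, mem_BS_of_mem_LamS G I hu0⟩) = ub := hres0
        have h3 : (Bbar G).val (resB G I ⟨u0', mem_BS_of_mem_LamS G I hu0'⟩) = ub' := hres0'
        rw [h1, h2, h3]
        exact Inp.resSol
      card_Uvar := Inp.card_var
      nonspecial := Inp.nonspecial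
      ρW0_red := by
        have : ρW0.map (πS G I) = (ρW0.map (ψA I)).map G.R.π := by
          rw [Polynomial.map_map]
          rfl
        rw [this, hqρ, hq2]
      ord_u0 := by
        rw [frameData_red]
        have h2 : (Bbar G).val (resB G I ⟨u0, mem_BS_of_mem_LamS G I hu0⟩) = ub := hres0
        rw [h2]
        exact Inp.ord_oob
      ord_u0' := by
        rw [frameData_red]
        have h3 : (Bbar G).val (resB G I ⟨u0', mem_BS_of_mem_LamS G I hu0'⟩) = ub' := hres0'
        rw [h3]
        exact hord' }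

include H hN0 Inp in
/-- **The Residual Theorem** (leaf L6) for the configuration `(z, m, W0, Dc)`: the geometric data
is a `TrueSol.Input` (the function `z`, the residue solution `(ub, ub')` on the special fibre),
`S`-fixed base functions `u0 ∈ Λ(m∞)^S`, `u0' ∈ Λ(N2∞)^S` (`N2 = e m - m`) reducing to `ub`, `ub'`
with `u0 u0' = ρ_{W0}(z) ρ_{Dc}(z)`, the base divisors `W0` (specialising to `∑ μ Q • Q`) and `Dc`
(specialising to `∑ Uvar`) with `S`-fixed integral root polynomials. -/
theorem exists_residualOut (hzfix : I.IsFixed z) (hN2 : N2 + m = e * m)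
    {u0 u0' : F} (hu0 : u0 ∈ LamS G I m) (hu0' : u0' ∈ LamS G I N2)
    (hres0 : G.R.res ⟨u0, hu0.1.2⟩ = ub) (hres0' : G.R.res ⟨u0', hu0'.1.2⟩ = ub')
    (hord' : G.oob.ord ub' = -(N2 : ℤ)) (hN0m : N0 ≤ m) (hN0N2 : N0 ≤ N2)
    {W0 Dc : Divisor K F} (hW0 : 0 ≤ W0) (hspW0 : G.spDiv W0 = multDiv Ufix μ)
    (hDc : 0 ≤ Dc) (hspDc : G.spDiv Dc = finDiv Uvar)
    (hfixW0 : ∀ l, I.IsFixedInt ((divPoly z W0).coeff l))
    (hfixDc : ∀ l, I.IsFixedInt ((divPoly z Dc).coeff l))
    (hbase : u0 * u0' = aeval z (divPoly z W0) * aeval z (divPoly z Dc))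
    (hprinc : Divisor.IsPrincipal (W0 + Dc - G.mulOo m)) :
    ∃ R : ResidualOut I, R.z = z ∧ R.m = m ∧ R.W0 = W0 ∧ R.Dc = Dc := by
  classical
  have hne := G.nonempty_placeκ
  -- the root polynomials over `A^S`
  obtain ⟨ρW0, hρW0m, hρW0d, hρW0⟩ := exists_fixed_poly I (divPoly_monic z W0) hfixW0
  obtain ⟨ρDc, hρDcm, hρDcd, hρDc⟩ := exists_fixed_poly I (divPoly_monic z Dc) hfixDc
  set dW : ℕ := (divPoly z W0).natDegree with hdW
  have h := hyp_of_input H hN0 Inp hzfix hN2 hu0 hu0' hres0 hres0' hord' hN0m hN0N2 hW0 hspW0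
    hDc hspDc hρW0m hρW0 hρW0d hρDcm hρDc hbase
  have hNN : (frameData H hN0).N0 = N0 := frameData_N0 H hN0
  have hdegW0 : Divisor.degree W0 = dW := (natDegree_divPoly_of_nonneg z hW0 G.rrF.deg_one).symm
  have hdegDc : Divisor.degree Dc = G.g := by
    have h2 : Divisor.degree (finDiv Uvar) = Uvar.card := G.rrκ.degree_sum_single Uvar
    rw [← G.degree_spDiv, hspDc, h2, Inp.card_var]
  have hgDc : (divPoly z Dc).natDegree = G.g := by
    have h1 := natDegree_divPoly_of_nonneg z hDc G.rrF.deg_one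
    rw [hdegDc] at h1
    exact_mod_cast h1
  -- the integral model of `ρ_Dc` and its reduction
  obtain ⟨qDc, hqDcm, hqDc1, hqDc2⟩ := TrueSolInt.exists_monic_map_eq_var Inp hDc hspDc
  have hqDcρ : ρDc.map (ψA I) = qDc := by
    apply Polynomial.map_injective A.subtype Subtype.val_injective
    rw [Polynomial.map_map, hqDc1]
    exact hρDc
  refine ⟨{ z := z, m := m, W0 := W0, Dc := Dc, dW := dW, W0_nonneg := hW0, W0_deg := hdegW0,
            Dc_nonneg := hDc, Dc_deg := hdegDc, base_principal := hprinc, spec := ?_ },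
    rfl, rfl, rfl, rfl⟩
  intro n
  obtain ⟨Θ, hΘ0, hΘ⟩ := h.spec_of_frames n
  refine ⟨Θ, hΘ0, ?_⟩
  intro W hW hspW
  have hspW' : G.spDiv W = multDiv Ufix μ := hspW.trans hspW0
  obtain ⟨Es, u, u', hEs, hEsdeg, hspEs, hpr, huLam, hu'Lam, ⟨huO, hu'O, hresu, hresu'⟩, hprod⟩ :=
    exists_trueSol_divPoly Inp hW hspW'
  refine ⟨Es, hEs, hEsdeg, hpr, hspEs.trans hspDc.symm, ?_⟩
  -- integral models
  obtain ⟨qW, hqWm, hqW1, -⟩ := TrueSolInt.exists_monic_map_eq_fix Inp hW hspW'
  obtain ⟨qE, hqEm, hqE1, hqE2⟩ := TrueSolInt.exists_monic_map_eq_var Inp hEs hspEs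
  have hqW1' : qW.map A.subtype = divPoly z W := hqW1
  have hqE1' : qE.map A.subtype = divPoly z Es := hqE1
  have hWnat : (divPoly z W).natDegree = dW :=
    natDegree_divPoly_of_spDiv z hW hspW hdegW0
  have hEnat : (divPoly z Es).natDegree = G.g := by
    have h1 := natDegree_divPoly_of_nonneg z hEs G.rrF.deg_one
    rw [hEsdeg] at h1
    exact_mod_cast h1
  have hqEnat : qE.natDegree = G.g := by
    rw [← hEnat, ← hqE1', Polynomial.natDegree_map_eq_of_injective Subtype.val_injective]
  -- the parameters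
  set a : Fin dW → A := fun j => qW.coeff j - (ρW0.map (ψA I)).coeff j with ha
  have hacoe : ∀ j : Fin dW,
      ((a j : A) : K) = (divPoly z W).coeff j - (divPoly z W0).coeff j := by
    intro j
    rw [← hqW1', ← hρW0, Polynomial.coeff_map, Polynomial.coeff_map]
    show ((qW.coeff j - (ρW0.map (ψA I)).coeff j : A) : K) = _
    rw [Polynomial.coeff_map]
    rfl
  -- the true solution in `B_A`
  have hN2int : ((N2 : ℕ) : ℤ) = (e : ℤ) * m - m := by
    have : ((N2 + m : ℕ) : ℤ) = ((e * m : ℕ) : ℤ) := by rw [hN2]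
    push_cast at this
    linarith
  have hu'Lam' : u' ∈ Lam G.R (nOo G N2) := by
    unfold nOo
    rw [hN2int]
    exact hu'Lam
  set us : BA G := ⟨u, ⟨m, huLam⟩⟩ with hus
  set us' : BA G := ⟨u', ⟨N2, hu'Lam'⟩⟩ with hus'
  have hlm : (frameDataA H hN0).N0 + (m - N0) = m := by
    rw [frameDataA_N0]; omega
  have hlN2 : (frameDataA H hN0).N0 + (N2 - N0) = N2 := by
    rw [frameDataA_N0]; omega
  have husL : us ∈ (frameDataA H hN0).L m := by
    have h3 := (mem_frameDataA_L H hN0 (m - N0) us).mpr (by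
      have h2 : N0 + (m - N0) = m := by omega
      rw [h2]
      exact huLam)
    rw [hlm] at h3
    exact h3
  have husL' : us' ∈ (frameDataA H hN0).L N2 := by
    have h3 := (mem_frameDataA_L H hN0 (N2 - N0) us').mpr (by
      have h2 : N0 + (N2 - N0) = N2 := by omega
      rw [h2]
      exact hu'Lam')
    rw [hlN2] at h3
    exact h3
  have hredu : (frameDataA H hN0).red us
      = (frameData H hN0).red (⟨u0, mem_BS_of_mem_LamS G I hu0⟩ : BS G I) := by
    rw [frameDataA_red, frameData_red]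
    apply Subtype.ext
    show G.R.res ⟨u, _⟩ = G.R.res ⟨u0, _⟩
    rw [hresu]
    exact hres0.symm
  have hredu' : (frameDataA H hN0).red us'
      = (frameData H hN0).red (⟨u0', mem_BS_of_mem_LamS G I hu0'⟩ : BS G I) := by
    rw [frameDataA_red, frameData_red]
    apply Subtype.ext
    show G.R.res ⟨u', _⟩ = G.R.res ⟨u0', _⟩
    rw [hresu']
    exact hres0'.symm
  have hρred : ∀ l : Fin G.g, G.R.π (qE.coeff l) = πS G I (ρDc.coeff l) := by
    intro l
    have h1 : G.R.π (qE.coeff l) = (qE.map G.R.π).coeff l := (Polynomial.coeff_map _ _).symm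
    have h2 : G.R.π (qDc.coeff l) = (qDc.map G.R.π).coeff l := (Polynomial.coeff_map _ _).symm
    rw [h1, hqE2, ← hqDc2, ← h2, ← hqDcρ, Polynomial.coeff_map]
    rfl
  have heq : us * us' = (ιBA G I (aeval (⟨z, mem_BS_of_mem_LamS G I (z_mem_LamS Inp hzfix)⟩ : BS G I)
        ρW0)
      + ∑ l : Fin dW, algebraMap A (BA G) (a l)
          * ιBA G I (⟨z, mem_BS_of_mem_LamS G I (z_mem_LamS Inp hzfix)⟩ : BS G I) ^ (l : ℕ))
      * aeval (ιBA G I (⟨z, mem_BS_of_mem_LamS G I (z_mem_LamS Inp hzfix)⟩ : BS G I)) qE := by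
    apply Subtype.ext
    rw [Subalgebra.coe_mul, Subalgebra.coe_mul, Subalgebra.coe_add, Polynomial.aeval_subalgebra_coe,
      coe_ιBA, Polynomial.aeval_subalgebra_coe, aeval_fixed_eq, hρW0, aeval_int_eq, hqE1',
      AddSubmonoidClass.coe_finsetSum]
    show u * u' = _
    rw [hprod, aeval_sub_of_monic (divPoly_monic z W) hWnat (divPoly_monic z W0) hdW.symm z]
    congr 2
    refine Finset.sum_congr rfl fun j _ => ?_
    rw [Subalgebra.coe_mul, Subalgebra.coe_pow, coe_ιBA, ← hacoe j]
    rfl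
  intro t ht hdiv l
  -- the value to be estimated, as an element of `A`
  have hval : (divPoly z Es).coeff l - (divPoly z Dc).coeff l -
      MvPolynomial.aeval (fun j : Fin dW => (divPoly z W).coeff j - (divPoly z W0).coeff j) (Θ l)
      = ((qE.coeff l - ψA I (ρDc.coeff l) - MvPolynomial.eval₂ (ψA I) a (Θ l) : A) : K) := by
    rw [MvPolynomial.aeval_def, algebraMap_fixedRing_K]
    have h1 : (fun j : Fin dW => (divPoly z W).coeff j - (divPoly z W0).coeff j)
        = fun j => ((a j : A) : K) := funext fun j => (hacoe j).symm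
    rw [h1, ← coe_eval₂]
    rw [← hqE1', ← hρDc, Polynomial.coeff_map, Polynomial.coeff_map]
    rfl
  rw [hval]
  by_cases htu : IsUnit (⟨t, ht⟩ : A)
  · exact dvdInA_of_isUnit ht htu (n + 1) _
  · -- the ideal `t A`
    set t' : A := ⟨t, ht⟩ with ht'
    have h𝔞 : Ideal.span {t'} ≤ maximalIdeal A := by
      rw [Ideal.span_le]
      intro x hx
      rw [Set.mem_singleton_iff] at hx
      rw [hx]
      exact (IsLocalRing.mem_maximalIdeal _).mpr htu
    have ha𝔞 : ∀ j, a j ∈ Ideal.span {t'} := by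
      intro j
      obtain ⟨c, hc, hce⟩ := hdiv j
      rw [Ideal.mem_span_singleton]
      refine ⟨⟨c, hc⟩, Subtype.ext ?_⟩
      rw [hacoe j, hce]
      rfl
    have key := hΘ a (Ideal.span {t'}) h𝔞 ha𝔞 us us' qE husL husL' hqEm hqEnat hredu hredu' hρred
      heq l
    rw [Ideal.span_singleton_pow, Ideal.mem_span_singleton] at key
    obtain ⟨c, hc⟩ := key
    refine ⟨(c : K), c.2, ?_⟩
    rw [hc]
    rfl

end Main

end Fermat.Agent.S19x.Geo.ResidualOfFrames
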