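/-
P-S19, BLOCK A, leaf (L6), LAST PLUG (helper22, racing backup of the Builder files): the
Residual builder `ConfigOfLeaves.ResidualBuilder G I` from the Residual Theorem at a base
configuration (`Residual/Main.exists_residualOut_of_base`, helper33) and the base data of a lifted
configuration (`Residual/BaseData`, helper41), hence `residualTarget : ResidualTarget`.
-/
import Fermat.Agent.S19x.Geo.Residual.Main
import Fermat.Agent.S19x.Geo.Residual.BaseData
import Fermat.Agent.S19x.Geo.BaseCfgExact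
import Fermat.Agent.S19x.Geo.FrameFacts
import Fermat.Agent.S19x.Geo.ResidualGenusZero
import Fermat.Agent.S19x.Geo.AbsMain

set_option autoImplicit false
set_option linter.unusedSectionVars false
set_option linter.unusedVariables false
set_option linter.style.haveILetI false

noncomputable section

namespace Fermat.Agent.S19x.Geo.ResidualPlug

open AlgebraicCurve Polynomial Module IsLocalRing
open Fermat.Agent.Gateway.C0 Fermat.Agent.Gateway.Red Fermat.Agent.S27x.Spec.Inj
  Fermat.Agent.S27x.Spec.Disc Fermat.Agent.S27x.Lift.NiceRep Fermat.Agent.S27x.Lift.JacInj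
  Fermat.Agent.S19x.Geo Fermat.Agent.S19x.Geo.JacKerMult Fermat.Agent.S19x.Geo.Lattice
  Fermat.Agent.S19x.Geo.TrueSol
  Fermat.Agent.S19x.Geo.NiceRepL Fermat.Agent.S19x.Geo.LiftCfg
  Fermat.Agent.S19x.Geo.ConfigOfLeaves Fermat.Agent.S19x.Geo.BaseCfgResSol
  Fermat.Agent.S19x.Geo.Frame Fermat.Agent.S19x.Geo.Residual.BaseData
  Fermat.Agent.S19x.Geo.Residual.Glue Fermat.Agent.S19x.Geo.Residual.Main

universe u v w z

variable {K : Type u} [Field K] {A : ValuationSubring K}
  {F : Type v} [Field F] [Algebra K F] {O : ValuationSubring F}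
  {k : Type w} {κ : Type z} [Field k] [Field κ] [Algebra k κ]
  [HasPrincipalDivisors K F] [∀ v : Place K F, v.FiniteResidue]
  [HasPrincipalDivisors k κ] [∀ v : Place k κ, v.FiniteResidue]

theorem resSolM_congr {P : Place k κ} {Uvar Ufix : Finset (Place k κ)} {μ : Place k κ → ℕ}
    {val : Place k κ → k} {a a' b b' d d' : κ} (ha : a' = a) (hb : b' = b) (hd : d' = d)
    (h : ResSolM P Uvar Ufix μ a val b d) : ResSolM P Uvar Ufix μ a' val b' d' := by
  subst ha hb hd
  exact h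

section Cfg

variable [Nonempty (Place k κ)] [IsAlgClosed k] {G : GeoSetting A O k κ} {I : InertiaData G}
  {m m' : ℕ} {e : ℤ} {c : BaseCfg G.oob m m' e} (L : LiftedCfg (I := I) c)
  {ez : ℕ} (he : e = (ez : ℤ))

include he in
/-- the base configuration of `Cfg1` -/
theorem base1 (hez : 1 ≤ ez) (hordz : G.oob.ord c.z = -e) {N0 j1 j2 : ℕ} (hj1 : N0 + j1 = m)
    (hj2 : N0 + j2 = ez * m - m) {ρW ρD : Polynomial I.fixedRing}
    (hW : ρW.map (ψK I) = divPoly L.z (W1 L)) (hD : ρD.map (ψK I) = divPoly L.z (D1 L)) :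
    Base I N0 ez m (ez * m - m) j1 j2 L.z L.u0 (cof1 L) (W1 L) (D1 L) ρW ρD
      c.D1 (fix1 c) (mu1 c) c.val where
  hj1 := hj1
  hj2 := hj2
  hN2 := Nat.sub_add_cancel (Nat.le_mul_of_pos_left m hez)
  hz := z_mem_LamS L he
  hu0 := u0_mem_LamS L he
  hu0' := cof1_mem_LamS L he hez
  W0_nonneg := W1_nonneg L
  Dc_nonneg := D1_nonneg L
  base_principal := isPrincipal_W1 L
  hρ0 := hW
  hρc := hD
  hprod := u0_mul_cof1 L he
  resSol := resSolM_congr L.res_z L.res_u0 (res_cof1 L he) (resSolM1 c)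
  nonspecial := c.nonspecial_D1
  card_var := by rw [c.card_D1, BaseCfgGeo.genusFF_special G]
  ord_u0 := by
    have h : G.R.res ⟨L.u0, L.hu0⟩ = c.u0 := L.res_u0
    rw [h]
    exact ord_u0_oo c
  ord_u0' := by
    have h : G.R.res ⟨cof1 L, (isTrueSol1 L he).u'_mem⟩ = u1' c := res_cof1 L he
    rw [h, BaseCfgExact.ord_u1'_oo c (by rw [he]; exact_mod_cast hez) hordz, he,
      cast_sub_eq m hez]
  spW0 := spDiv_W1_eq L
  spDc := spDiv_D1 L

include he in
/-- the base configuration of `Cfg2` -/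
theorem base2 (hez : 1 ≤ ez) (hordz : G.oob.ord c.z = -e) {N0 j1 j2 : ℕ} (hj1 : N0 + j1 = m')
    (hj2 : N0 + j2 = ez * m' - m') {ρW ρD : Polynomial I.fixedRing}
    (hW : ρW.map (ψK I) = divPoly L.z (W2 L)) (hD : ρD.map (ψK I) = divPoly L.z (D0 L)) :
    Base I N0 ez m' (ez * m' - m') j1 j2 L.z L.u0' (cof2 L) (W2 L) (D0 L) ρW ρD
      c.D0 (fix2 c) (mu2 c) c.val where
  hj1 := hj1
  hj2 := hj2
  hN2 := Nat.sub_add_cancel (Nat.le_mul_of_pos_left m' hez)
  hz := z_mem_LamS L he
  hu0 := u0'_mem_LamS L he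
  hu0' := cof2_mem_LamS L he hez
  W0_nonneg := W2_nonneg L
  Dc_nonneg := D0_nonneg L
  base_principal := isPrincipal_W2 L
  hρ0 := hW
  hρc := hD
  hprod := u0'_mul_cof2 L he
  resSol := resSolM_congr L.res_z L.res_u0' (res_cof2 L he) (resSolM2 c)
  nonspecial := c.nonspecial_D0
  card_var := by rw [c.card_D0, BaseCfgGeo.genusFF_special G]
  ord_u0 := by
    have h : G.R.res ⟨L.u0', L.hu0'⟩ = c.u0' := L.res_u0'
    rw [h]
    exact ord_u0'_oo c
  ord_u0' := by
    have h : G.R.res ⟨cof2 L, (isTrueSol2 L he).u'_mem⟩ = u2' c := res_cof2 L he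
    rw [h, BaseCfgExact.ord_u2'_oo c (by rw [he]; exact_mod_cast hez) hordz, he,
      cast_sub_eq m' hez]
  spW0 := spDiv_W2_eq L
  spDc := spDiv_D0 L

end Cfg

section Builder

variable [IsAlgClosed k] (G : GeoSetting A O k κ) (I : InertiaData G)

/-- **The Residual builder in positive genus.** -/
theorem residualBuilder_of_pos
    (hD : LatticeFixed.FixData G.R (I.S : Set (SemilinearAut K F)))
    (hF : Submodule.span K {f : F | LatticeFixed.IsFixed (I.S : Set (SemilinearAut K F)) f} = ⊤)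
    (hg : 0 < G.g) : ConfigOfLeaves.ResidualBuilder G I := by
  haveI := G.nonempty_placeκ
  intro m m' e c L hm hm' he hordz
  have he0 : (0 : ℤ) ≤ e := by
    have : (0 : ℤ) ≤ (m : ℤ) + m' := by positivity
    omega
  obtain ⟨ez, rfl⟩ : ∃ ez : ℕ, e = (ez : ℤ) := ⟨e.toNat, (Int.toNat_of_nonneg he0).symm⟩
  have hez2 : 2 ≤ ez := by
    have h1 : (1 : ℤ) ≤ (m : ℤ) := by
      have : 1 ≤ m := by omega
      exact_mod_cast this
    have h2 : (0 : ℤ) ≤ (m' : ℤ) := Int.natCast_nonneg _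
    have : (2 : ℤ) ≤ (ez : ℤ) := by omega
    exact_mod_cast this
  have hez : 1 ≤ ez := by omega
  have hN0 : 2 * (G.g : ℤ) - 1 ≤ ((2 * G.g - 1 : ℕ) : ℤ) := by omega
  have H := FrameFacts.fixedLatticeFacts I hD hF hN0
  have hmul : 2 * m ≤ ez * m := Nat.mul_le_mul_right m hez2
  have hmul' : 2 * m' ≤ ez * m' := Nat.mul_le_mul_right m' hez2
  refine ⟨?_, ?_⟩
  · obtain ⟨ρW, ρD, -, -, hW, hDm, -, -, -, -⟩ := exists_rho1 L rfl
    have B1 := base1 L rfl hez hordz (N0 := 2 * G.g - 1) (j1 := m - (2 * G.g - 1))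
      (j2 := ez * m - m - (2 * G.g - 1)) (by omega) (by omega) hW hDm
    obtain ⟨R, hz, hm1, hW0, hDc, -⟩ := exists_residualOut_of_base H hN0 B1
    exact ⟨R, hz, hm1, hW0, hDc⟩
  · obtain ⟨ρW, ρD, -, -, hW, hDm, -, -, -, -⟩ := exists_rho2 L rfl
    have B2 := base2 L rfl hez hordz (N0 := 2 * G.g - 1) (j1 := m' - (2 * G.g - 1))
      (j2 := ez * m' - m' - (2 * G.g - 1)) (by omega) (by omega) hW hDm
    obtain ⟨R, hz, hm1, hW0, hDc, -⟩ := exists_residualOut_of_base H hN0 B2
    exact ⟨R, hz, hm1, hW0, hDc⟩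

/-- **The Residual builder.** -/
theorem residualBuilder
    (hD : LatticeFixed.FixData G.R (I.S : Set (SemilinearAut K F)))
    (hF : Submodule.span K {f : F | LatticeFixed.IsFixed (I.S : Set (SemilinearAut K F)) f} = ⊤) :
    ConfigOfLeaves.ResidualBuilder G I :=
  ResidualGenusZero.residualBuilder_of_pos fun hg => residualBuilder_of_pos G I hD hF hg

end Builder

end Fermat.Agent.S19x.Geo.ResidualPlug

namespace Fermat.Agent.S19x.Geo

/-- **The Residual leaf (L6) is proved.** -/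
theorem residualTarget_plug : ResidualTarget := fun G I hD hF =>
  ResidualPlug.residualBuilder G I hD hF

end Fermat.Agent.S19x.Geo
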