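import Fermat.Agent.S19x.Geo.Setting
import Fermat.Agent.S19x.Geo.Lattice
import Fermat.Agent.S19x.Geo.JacKerMult

/-!
# P-S19, block A, a piece of leaf L6: the TRUE SOLUTION of the residual system (helper72)

Setting: `G : GeoSetting A O k κ`, a function `z ∈ O` regular off `G.oo` with pole order `≤ e`
there and reduction `zb`; on the special fibre a residue solution
`S : ResSolM G.oob Uvar Ufix μ zb val ub ub'` of the factorisation system (`JacKerMult`), with
`Uvar` non-special of cardinality `g` and `ord_oob ub = -m`.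

For every effective divisor `W` of the generic fibre with `sp W = ∑ μ Q • Q` there are an effective
divisor `E` with `sp E = Uvar` and functions `u ∈ Λ(m oo - W - E)`, `u' ∈ Λ((e m - m) oo)` with

  `res u = ub`,  `res u' = ub'`,  `div u = W + E - m oo`,  `u * u' = ρ_W(z) * ρ_E(z)`,

where `ρ_D = ∏_Q (T - z(Q)) ^ D(Q)` (`rhoV vF D`, the values `z(Q)` being given by a function `vF`).
No Hensel: `u` spans `L(m oo - W)` (Riemann's inequality), its reduction is a constant multiple of
`ub` because `Uvar` is non-special.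
-/

set_option autoImplicit false
set_option linter.unusedSectionVars false
set_option linter.style.haveILetI false

noncomputable section

namespace Fermat.Agent.S19x.Geo.TrueSol

open AlgebraicCurve Polynomial Module IsLocalRing
open Fermat.Agent.Gateway.C0 Fermat.Agent.Gateway.Red Fermat.Agent.S27x.Spec.Inj
  Fermat.Agent.S27x.Spec.Disc Fermat.Agent.S27x.Lift.NiceRep Fermat.Agent.S27x.Lift.JacInj
  Fermat.Agent.S19x.Geo.JacKerMult Fermat.Agent.S19x.Geo.Lattice Fermat.Agent.S24.ZP

universe u v w z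

/-! ### The root polynomial of an effective divisor -/

section Rho

variable {K : Type u} {F : Type v} [Field K] [Field F] [Algebra K F]

/-- `ρ_W = ∏_Q (T - vF Q) ^ W(Q)` (for us `vF Q = z(Q)`). -/
def rhoV (vF : Place K F → K) (W : Divisor K F) : K[X] :=
  ∏ Q ∈ W.support, (X - C (vF Q)) ^ (W Q).toNat

theorem aeval_rhoV (vF : Place K F → K) (W : Divisor K F) (z : F) :
    aeval z (rhoV vF W) = ∏ Q ∈ W.support, (z - algebraMap K F (vF Q)) ^ (W Q).toNat := by
  unfold rhoV
  rw [map_prod]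
  refine Finset.prod_congr rfl fun Q _ => ?_
  rw [map_pow, map_sub, aeval_X, aeval_C]

theorem monic_rhoV (vF : Place K F → K) (W : Divisor K F) : (rhoV vF W).Monic :=
  monic_prod_of_monic _ _ fun Q _ => (monic_X_sub_C (vF Q)).pow _

theorem natDegree_rhoV (vF : Place K F → K) (W : Divisor K F) :
    (rhoV vF W).natDegree = ∑ Q ∈ W.support, (W Q).toNat := by
  unfold rhoV
  rw [natDegree_prod_of_monic _ _ fun Q _ => (monic_X_sub_C (vF Q)).pow _]
  refine Finset.sum_congr rfl fun Q _ => ?_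
  rw [natDegree_pow, natDegree_X_sub_C, mul_one]

/-- `ρ_W(z)` vanishes to order `≥ W(Q)` at every place `Q` where `z` is regular, if the values
are correct on the support of `W`. -/
theorem ordGE_aeval_rhoV {vF : Place K F → K} {W : Divisor K F} {z : F}
    (hv : ∀ Q ∈ W.support, HasValue Q z (vF Q)) (Q0 : Place K F)
    (hz : z ∈ Q0.toValuationSubring) : OrdGE Q0 (aeval z (rhoV vF W)) (W Q0) := by
  classical
  rw [aeval_rhoV]
  have hreg : ∀ Q : Place K F, OrdGE Q0 (z - algebraMap K F (vF Q)) 0 := fun Q =>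
    (OrdGE.of_mem hz).sub (OrdGE.algebraMap Q0 _)
  by_cases hQ0 : Q0 ∈ W.support
  · rw [← Finset.mul_prod_erase _ _ hQ0]
    have h1 : OrdGE Q0 ((z - algebraMap K F (vF Q0)) ^ (W Q0).toNat) ((W Q0).toNat : ℤ) := by
      rcases eq_or_ne (z - algebraMap K F (vF Q0)) 0 with h0 | h0
      · rcases Nat.eq_zero_or_pos (W Q0).toNat with hn | hn
        · rw [hn, pow_zero]
          exact Or.inr (by simp)
        · rw [h0, zero_pow (by omega)]
          exact OrdGE.zero _ _
      · refine Or.inr ?_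
        rw [ord_pow]
        have hpos : 0 < Q0.ord (z - algebraMap K F (vF Q0)) :=
          (mem_nonunits_iff_ord_pos Q0 h0).mp (hv Q0 hQ0)
        have : (0 : ℤ) ≤ ((W Q0).toNat : ℤ) := Int.natCast_nonneg _
        nlinarith
    have h2 : OrdGE Q0 (∏ Q ∈ W.support.erase Q0,
        (z - algebraMap K F (vF Q)) ^ (W Q).toNat) 0 := by
      apply OrdGE.of_mem
      exact Subring.prod_mem _ fun Q _ => pow_mem (hreg Q).mem _
    refine (h1.mul h2).mono ?_
    have := Int.self_le_toNat (W Q0)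
    omega
  · rw [Finsupp.notMem_support_iff.mp hQ0]
    apply OrdGE.of_mem
    exact Subring.prod_mem _ fun Q _ => pow_mem (hreg Q).mem _

/-- the pole order of `ρ_W(z)` at a place where `z` has pole order `≤ e`. -/
theorem ordGE_aeval_rhoV_pole (vF : Place K F → K) (W : Divisor K F) {z : F}
    (Q0 : Place K F) {e : ℕ} (hz : OrdGE Q0 z (-(e : ℤ))) :
    OrdGE Q0 (aeval z (rhoV vF W)) (-((e : ℤ) * ∑ Q ∈ W.support, ((W Q).toNat : ℤ))) := by
  classical
  rw [aeval_rhoV]
  have hfac : ∀ Q : Place K F, OrdGE Q0 (z - algebraMap K F (vF Q)) (-(e : ℤ)) := fun Q =>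
    hz.sub ((OrdGE.algebraMap Q0 _).mono (by omega))
  have hpow : ∀ (x : F) (n : ℕ), OrdGE Q0 x (-(e : ℤ)) → OrdGE Q0 (x ^ n) (-((e : ℤ) * n)) := by
    intro x n hx
    induction n with
    | zero =>
      rw [pow_zero]
      exact Or.inr (by simp)
    | succ n ih =>
      rw [pow_succ]
      refine (ih.mul hx).mono ?_
      push_cast
      ring_nf
      exact le_refl _
  induction W.support using Finset.induction_on with
  | empty =>
    rw [Finset.prod_empty, Finset.sum_empty]
    exact Or.inr (by simp)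
  | insert a s ha ih =>
    rw [Finset.prod_insert ha, Finset.sum_insert ha]
    refine ((hpow _ _ (hfac a)).mul ih).mono ?_
    ring_nf
    exact le_refl _

end Rho

/-! ### Fibrewise products along a specialisation map -/

section Fibre

variable {K : Type u} {F : Type v} [Field K] [Field F] [Algebra K F]
  {k : Type w} {κ : Type z} [Field k] [Field κ] [Algebra k κ]

/-- the points of an effective divisor specialise into the support of its specialisation. -/
theorem sp_mem_of_mem_support (sp : Place K F → Place k κ) {W : Divisor K F} (hW : 0 ≤ W)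
    {U : Finset (Place k κ)} {μ : Place k κ → ℕ} (h : spD sp W = multDiv U μ)
    {Q : Place K F} (hQ : Q ∈ W.support) : sp Q ∈ U := by
  classical
  by_contra hnot
  have h0 : spD sp W (sp Q) = 0 := by rw [h, multDiv_apply_of_notMem hnot]
  rw [spD_apply_eq_sum] at h0
  have hle : W Q ≤ ∑ Q' ∈ W.support.filter (fun Q' => sp Q' = sp Q), W Q' :=
    Finset.single_le_sum (f := fun Q' => W Q') (fun Q' _ => hW Q')
      (Finset.mem_filter.mpr ⟨hQ, rfl⟩)
  have hpos : 0 < W Q := lt_of_le_of_ne (hW Q) (Ne.symm (Finsupp.mem_support_iff.mp hQ))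
  omega

/-- **Fibrewise product**: if `sp W = ∑ μ w • w` then
`∏_Q f (sp Q) ^ W(Q) = ∏_w f w ^ μ w`. -/
theorem prod_fibre {M : Type*} [CommMonoid M] (sp : Place K F → Place k κ) (f : Place k κ → M)
    {W : Divisor K F} (hW : 0 ≤ W) {U : Finset (Place k κ)} {μ : Place k κ → ℕ}
    (h : spD sp W = multDiv U μ) :
    ∏ Q ∈ W.support, f (sp Q) ^ (W Q).toNat = ∏ w ∈ U, f w ^ μ w := by
  classical
  rw [← Finset.prod_fiberwise_of_maps_to (fun Q hQ => sp_mem_of_mem_support sp hW h hQ)]
  refine Finset.prod_congr rfl fun w hw => ?_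
  have h1 : ∀ Q ∈ W.support.filter (fun Q => sp Q = w),
      f (sp Q) ^ (W Q).toNat = f w ^ (W Q).toNat := fun Q hQ => by
    rw [(Finset.mem_filter.mp hQ).2]
  rw [Finset.prod_congr rfl h1, Finset.prod_pow_eq_pow_sum]
  congr 1
  have h2 : ((∑ Q ∈ W.support.filter (fun Q => sp Q = w), (W Q).toNat : ℕ) : ℤ) = (μ w : ℤ) := by
    rw [Nat.cast_sum, ← multDiv_apply_of_mem (μ := μ) hw, ← h, spD_apply_eq_sum]
    exact Finset.sum_congr rfl fun Q _ => Int.toNat_of_nonneg (hW Q)
  exact_mod_cast h2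

/-- the sum of the multiplicities of an effective divisor is the sum of the `μ`. -/
theorem sum_toNat_eq (sp : Place K F → Place k κ) {W : Divisor K F} (hW : 0 ≤ W)
    {U : Finset (Place k κ)} {μ : Place k κ → ℕ} (h : spD sp W = multDiv U μ) :
    ∑ Q ∈ W.support, (W Q).toNat = ∑ w ∈ U, μ w := by
  have := prod_fibre (M := Multiplicative ℕ) sp (fun _ => Multiplicative.ofAdd 1) hW h
  have h2 := congrArg Multiplicative.toAdd this
  simpa [toAdd_prod, toAdd_pow] using h2

theorem multDiv_one (U : Finset (Place k κ)) : multDiv U (fun _ => 1) = finDiv U := by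
  unfold multDiv finDiv
  simp

end Fibre

/-! ### Reduction of products -/

section ResProd

variable {K : Type u} [Field K] {A : ValuationSubring K}
  {F : Type v} [Field F] [Algebra K F] {O : ValuationSubring F}
  {k : Type w} {κ : Type z} [Field k] [Field κ] [Algebra k κ]
  (R : RedSetup A O k κ)

theorem res_prod_pow {ι : Type*} (s : Finset ι) (f : ι → F) (n : ι → ℕ) (g : ι → κ)
    (hf : ∀ i ∈ s, ∃ h : f i ∈ O, R.res ⟨f i, h⟩ = g i) :
    ∃ h : ∏ i ∈ s, f i ^ n i ∈ O, R.res ⟨∏ i ∈ s, f i ^ n i, h⟩ = ∏ i ∈ s, g i ^ n i := by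
  classical
  induction s using Finset.induction_on with
  | empty =>
    refine ⟨by rw [Finset.prod_empty]; exact O.one_mem, ?_⟩
    have : (⟨∏ i ∈ (∅ : Finset ι), f i ^ n i, by rw [Finset.prod_empty]; exact O.one_mem⟩ : O)
        = 1 := Subtype.ext (by simp)
    rw [this, map_one, Finset.prod_empty]
  | insert a s ha ih =>
    obtain ⟨h1, h2⟩ := ih fun i hi => hf i (Finset.mem_insert_of_mem hi)
    obtain ⟨h3, h4⟩ := hf a (Finset.mem_insert_self a s)
    have hmem : ∏ i ∈ insert a s, f i ^ n i ∈ O := by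
      rw [Finset.prod_insert ha]
      exact O.mul_mem _ _ (pow_mem h3 _) h1
    refine ⟨hmem, ?_⟩
    have : (⟨∏ i ∈ insert a s, f i ^ n i, hmem⟩ : O)
        = ⟨f a, h3⟩ ^ n a * ⟨∏ i ∈ s, f i ^ n i, h1⟩ :=
      Subtype.ext (by
        show ∏ i ∈ insert a s, f i ^ n i = f a ^ n a * ∏ i ∈ s, f i ^ n i
        exact Finset.prod_insert ha)
    rw [this, map_mul, map_pow, h4, h2, Finset.prod_insert ha]

end ResProd

/-! ### The input data and the true solution -/

section Main

variable {K : Type u} [Field K] {A : ValuationSubring K}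
  {F : Type v} [Field F] [Algebra K F] {O : ValuationSubring F}
  {k : Type w} {κ : Type z} [Field k] [Field κ] [Algebra k κ]
  [HasPrincipalDivisors K F] [∀ v : Place K F, v.FiniteResidue]
  [HasPrincipalDivisors k κ] [∀ v : Place k κ, v.FiniteResidue]

/-- **The input of the residual system**: a function `z ∈ O ∩ L(e oo)` with reduction `zb`, a value
function `vF` for `z`, and a residue solution `(ub, ub')` of the factorisation system on the
special fibre with non-special variable part of cardinality `g` and pole order `m` at `oob`. -/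
structure Input (G : GeoSetting A O k κ) (m e : ℕ) (z : F) (zb : κ) (vF : Place K F → K)
    (Uvar Ufix : Finset (Place k κ)) (μ : Place k κ → ℕ) (val : Place k κ → k)
    (ub ub' : κ) : Prop where
  z_mem : z ∈ O
  res_z : G.R.res ⟨z, z_mem⟩ = zb
  z_rrs : z ∈ riemannRochSpace (Finsupp.single G.oo (e : ℤ))
  vF_spec : ∀ Q : Place K F, Q ≠ G.oo → HasValue Q z (vF Q)
  resSol : ResSolM G.oob Uvar Ufix μ zb val ub ub'
  nonspecial : finrank k (riemannRochSpace (finDiv Uvar)) = 1
  card_var : Uvar.card = G.g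
  ord_oob : G.oob.ord ub = -(m : ℤ)
  m_eq : (m : ℤ) = ∑ Q ∈ Ufix, (μ Q : ℤ) + Uvar.card

/-- **A true solution** of the residual system for the effective divisor `W`: the residual
divisor `E` and the two functions `u`, `u'`. -/
structure IsTrueSol (G : GeoSetting A O k κ) (m e : ℕ) (z : F) (vF : Place K F → K)
    (Uvar : Finset (Place k κ)) (ub ub' : κ) (W E : Divisor K F) (u u' : F) : Prop where
  E_nonneg : 0 ≤ E
  sp_E : G.spDiv E = finDiv Uvar
  u_ne : u ≠ 0
  ord_u : ∀ v : Place K F, v.ord u = (W + E - Finsupp.single G.oo (m : ℤ)) v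
  u_mem : u ∈ O
  u'_mem : u' ∈ O
  u'_rrs : u' ∈ riemannRochSpace (Finsupp.single G.oo ((e : ℤ) * m - m))
  res_u : G.R.res ⟨u, u_mem⟩ = ub
  res_u' : G.R.res ⟨u', u'_mem⟩ = ub'
  prod : u * u' = aeval z (rhoV vF W) * aeval z (rhoV vF E)

namespace Input

variable {G : GeoSetting A O k κ} {m e : ℕ} {z : F} {zb : κ} {vF : Place K F → K}
  {Uvar Ufix : Finset (Place k κ)} {μ : Place k κ → ℕ} {val : Place k κ → k} {ub ub' : κ}
  (I : Input G m e z zb vF Uvar Ufix μ val ub ub')
include I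

theorem ne_oo {Q : Place K F} (h : G.sp Q ≠ G.oob) : Q ≠ G.oo := by
  rintro rfl
  exact h rfl

theorem z_reg {Q : Place K F} (hQ : Q ≠ G.oo) : z ∈ Q.toValuationSubring := by
  have h := mem_riemannRochSpace_iff.mp I.z_rrs Q
  rcases h with h | h
  · rw [h]
    exact Q.toValuationSubring.zero_mem
  · rw [Finsupp.single_eq_of_ne hQ, neg_zero] at h
    exact mem_of_ord_nonneg Q h

theorem z_pole : OrdGE G.oo z (-(e : ℤ)) := by
  have h := mem_riemannRochSpace_iff.mp I.z_rrs G.oo
  rwa [Finsupp.single_eq_same] at h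

theorem regularOn {w : Place k κ} (hw : w ≠ G.oob) : RegularOn G.sp w z :=
  fun _ hQ => I.z_reg (I.ne_oo (hQ ▸ hw))

theorem vF_mem {Q : Place K F} (h : G.sp Q ≠ G.oob) : vF Q ∈ A :=
  mem_of_hasValue G.spCompat I.z_mem (I.regularOn h) rfl (I.vF_spec Q (I.ne_oo h))

theorem ne_oob_of_mem {w : Place k κ} (hw : w ∈ Uvar ∨ w ∈ Ufix) : w ≠ G.oob :=
  I.resSol.ne_P_of_mem hw

theorem π_vF {Q : Place K F} (hQ : G.sp Q ∈ Uvar ∨ G.sp Q ∈ Ufix) :
    G.R.π ⟨vF Q, I.vF_mem (I.ne_oob_of_mem hQ)⟩ = val (G.sp Q) := by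
  have hne := I.ne_oob_of_mem hQ
  have h1 := hasValue_sp G.spCompat I.z_mem (I.regularOn hne) rfl
    (a := ⟨vF Q, I.vF_mem hne⟩) (I.vF_spec Q (I.ne_oo hne))
  rw [I.res_z] at h1
  exact h1.unique (hasValue_of_unif (I.resSol.unram.unif _ hQ))

/-- the factor `z - z(Q)` lies in `O` and reduces to `zb - val (sp Q)`. -/
theorem res_factor {Q : Place K F} (hQ : G.sp Q ∈ Uvar ∨ G.sp Q ∈ Ufix) :
    ∃ h : z - algebraMap K F (vF Q) ∈ O,
      G.R.res ⟨z - algebraMap K F (vF Q), h⟩ = zb - algebraMap k κ (val (G.sp Q)) := by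
  have hne := I.ne_oob_of_mem hQ
  have hc : algebraMap K F (vF Q) ∈ O := G.R.algebraMap_mem ⟨vF Q, I.vF_mem hne⟩
  refine ⟨sub_mem I.z_mem hc, ?_⟩
  have e : (⟨z - algebraMap K F (vF Q), sub_mem I.z_mem hc⟩ : O)
      = ⟨z, I.z_mem⟩ - ⟨algebraMap K F ((⟨vF Q, I.vF_mem hne⟩ : A) : K), hc⟩ := Subtype.ext rfl
  rw [e, map_sub, G.R.res_algebraMap, I.res_z, I.π_vF hQ]

/-- **Reduction of `ρ_W(z)`**: for an effective `W` with `sp W = ∑ μ' w • w` supported in
`Uvar ∪ Ufix`. -/
theorem res_aeval_rhoV {W : Divisor K F} (hW : 0 ≤ W) {U : Finset (Place k κ)}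
    {μ' : Place k κ → ℕ} (hspW : G.spDiv W = multDiv U μ')
    (hU : ∀ w ∈ U, w ∈ Uvar ∨ w ∈ Ufix) :
    ∃ h : aeval z (rhoV vF W) ∈ O,
      G.R.res ⟨aeval z (rhoV vF W), h⟩ = ∏ w ∈ U, (zb - algebraMap k κ (val w)) ^ μ' w := by
  have hmem : ∀ Q ∈ W.support, G.sp Q ∈ Uvar ∨ G.sp Q ∈ Ufix := fun Q hQ =>
    hU _ (sp_mem_of_mem_support G.sp hW hspW hQ)
  obtain ⟨h1, h2⟩ := res_prod_pow G.R W.support (fun Q => z - algebraMap K F (vF Q))
    (fun Q => (W Q).toNat) (fun Q => zb - algebraMap k κ (val (G.sp Q)))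
    (fun Q hQ => I.res_factor (hmem Q hQ))
  have h3 : aeval z (rhoV vF W) ∈ O := by rw [aeval_rhoV]; exact h1
  refine ⟨h3, ?_⟩
  have e : (⟨aeval z (rhoV vF W), h3⟩ : O)
      = ⟨∏ Q ∈ W.support, (z - algebraMap K F (vF Q)) ^ (W Q).toNat, h1⟩ :=
    Subtype.ext (aeval_rhoV vF W z)
  rw [e, h2]
  exact prod_fibre G.sp (fun w => zb - algebraMap k κ (val w)) hW hspW

omit I in
/-- the constant function `1` lies in `L(Uvar)`. -/
theorem one_mem_rrs_finDiv (U : Finset (Place k κ)) :
    (1 : κ) ∈ riemannRochSpace (finDiv U) := by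
  rw [mem_riemannRochSpace_iff_ordGE]
  intro w
  refine Or.inr ?_
  rw [Place.ord_one]
  have := finDiv_nonneg U w
  simp only [Finsupp.coe_zero, Pi.zero_apply] at this
  omega

/-- **Non-speciality**: every element of `L(m oob - ∑ μ Q • Q)` is a constant multiple of `ub`. -/
theorem exists_smul_eq_of_mem {y : κ}
    (hy : y ∈ riemannRochSpace (Finsupp.single G.oob (m : ℤ) - multDiv Ufix μ)) :
    ∃ c : k, y = c • ub := by
  classical
  have S := I.resSol
  have hq : y / ub ∈ riemannRochSpace (finDiv Uvar) := by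
    rw [mem_riemannRochSpace_iff_ordGE]
    intro w
    have h1 : OrdGE w y (-(Finsupp.single G.oob (m : ℤ) - multDiv Ufix μ) w) :=
      mem_riemannRochSpace_iff_ordGE.mp hy w
    rw [div_eq_mul_inv]
    by_cases hw : w = G.oob
    · rw [hw] at h1 ⊢
      rw [Finsupp.sub_apply, Finsupp.single_eq_same, multDiv_apply_of_notMem S.P_notMem_fix,
        sub_zero] at h1
      rw [finDiv_apply_of_notMem S.P_notMem_var]
      have h2 : OrdGE G.oob ub⁻¹ (-(-(m : ℤ))) := OrdGE.inv I.ord_oob
      exact (h1.mul h2).mono (by omega)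
    · rw [Finsupp.sub_apply, Finsupp.single_eq_of_ne hw, zero_sub, neg_neg] at h1
      have h2 : OrdGE w ub⁻¹ (-(finDiv Uvar w + multDiv Ufix μ w)) := OrdGE.inv (S.ord_u w hw)
      exact (h1.mul h2).mono (by omega)
  have hne : (⟨1, one_mem_rrs_finDiv Uvar⟩ : riemannRochSpace (finDiv Uvar)) ≠ 0 := by
    intro h0
    have := congrArg Subtype.val h0
    simp at this
  obtain ⟨c, hc⟩ := (finrank_eq_one_iff_of_nonzero' _ hne).mp I.nonspecial ⟨y / ub, hq⟩
  refine ⟨c, ?_⟩
  have hc' : c • (1 : κ) = y / ub := congrArg Subtype.val hc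
  rw [eq_div_iff S.u_ne] at hc'
  rw [← hc', smul_mul_assoc, one_mul]

/-- the degree of `∑ μ Q • Q`. -/
theorem degree_multDiv : Divisor.degree (multDiv Ufix μ) = ∑ Q ∈ Ufix, (μ Q : ℤ) := by
  unfold multDiv
  rw [map_sum]
  refine Finset.sum_congr rfl fun Q _ => ?_
  rw [Divisor.degree_single, G.rrκ.deg_one, Nat.cast_one, mul_one]

/-- **Existence of the true solution.** -/
theorem exists_isTrueSol {W : Divisor K F} (hW : 0 ≤ W)
    (hspW : G.spDiv W = multDiv Ufix μ) :
    ∃ (E : Divisor K F) (u u' : F), IsTrueSol G m e z vF Uvar ub ub' W E u u' := by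
  classical
  haveI := G.nonempty_placeF
  haveI := G.nonempty_placeκ
  have S := I.resSol
  -- the divisor `D = m oo - W` has degree `g`
  have hdegW : Divisor.degree W = ∑ Q ∈ Ufix, (μ Q : ℤ) := by
    rw [← G.degree_spDiv, hspW, I.degree_multDiv]
  set D : Divisor K F := Finsupp.single G.oo (m : ℤ) - W with hD
  have hdegD : Divisor.degree D = G.g := by
    rw [hD, map_sub, Divisor.degree_single, G.rrF.deg_one, hdegW, I.m_eq, I.card_var]
    push_cast
    ring
  have hl : 0 < finrank K (riemannRochSpace D) := by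
    have := G.rrF.le_finrank D
    rw [hdegD] at this
    omega
  obtain ⟨x, hx0⟩ : ∃ x : riemannRochSpace D, x ≠ 0 :=
    Module.finrank_pos_iff_exists_ne_zero.mp hl
  obtain ⟨c, -, hcΛ, hcv⟩ := exists_smul_mem_Lam G.R x.2 (fun h => hx0 (Subtype.ext h))
  set u1 : F := c • (x : F) with hu1
  have hu1O : u1 ∈ O := hcΛ.2
  have hres1 : G.R.res ⟨u1, hu1O⟩ ≠ 0 := res_ne_of_valuation_eq_one hu1O hcv
  have hspD : G.spDiv D = Finsupp.single G.oob (m : ℤ) - multDiv Ufix μ := by
    rw [hD, map_sub, G.spDiv_single, hspW]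
    rfl
  have hres1L : G.R.res ⟨u1, hu1O⟩ ∈
      riemannRochSpace (Finsupp.single G.oob (m : ℤ) - multDiv Ufix μ) := by
    rw [← hspD]
    exact res_mem_rrs G.spCompat hu1O hcΛ.1
  obtain ⟨cb, hcb⟩ := I.exists_smul_eq_of_mem hres1L
  have hcb0 : cb ≠ 0 := by
    rintro rfl
    rw [zero_smul] at hcb
    exact hres1 hcb
  -- normalise
  obtain ⟨a, ha⟩ := G.R.π_surj cb⁻¹
  set u : F := a • u1 with hu
  have huΛ : u ∈ Lam G.R D := (Lam G.R D).smul_mem a hcΛ
  have huO : u ∈ O := huΛ.2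
  have hres_u : G.R.res ⟨u, huO⟩ = ub := by
    have := G.R.res_smul a hu1O
    rw [ha, hcb, smul_smul, inv_mul_cancel₀ hcb0, one_smul] at this
    exact this
  have hub0 : ub ≠ 0 := S.u_ne
  have hvalu : O.valuation u = 1 :=
    valuation_eq_one_of_res_ne huO (by rw [hres_u]; exact hub0)
  have hu0 : u ≠ 0 := ne_zero_of_valuation_eq_one hvalu
  -- the divisor of `u`
  obtain ⟨Eu, hEu, -⟩ := HasPrincipalDivisors.exists_divisor (K := K) u hu0
  set E : Divisor K F := Eu + D with hE
  have hE0 : 0 ≤ E := by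
    intro v
    have := (mem_riemannRochSpace_iff.mp huΛ.1 v).resolve_left hu0
    rw [hE, Finsupp.add_apply, hEu v, Finsupp.zero_apply]
    omega
  have hspEu : ∀ w : Place k κ, G.spDiv Eu w = w.ord ub := fun w => by
    rw [← hres_u]
    exact G.spCompat u huO hvalu Eu hEu w
  have hspE : G.spDiv E = finDiv Uvar := by
    ext w
    rw [hE, map_add, Finsupp.add_apply, hspEu, hspD, Finsupp.sub_apply]
    by_cases hw : w = G.oob
    · rw [hw, Finsupp.single_eq_same, I.ord_oob, multDiv_apply_of_notMem S.P_notMem_fix,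
        finDiv_apply_of_notMem S.P_notMem_var]
      ring
    · rw [Finsupp.single_eq_of_ne hw, S.ord_u w hw]
      ring
  have hordu : ∀ v : Place K F, v.ord u = (W + E - Finsupp.single G.oo (m : ℤ)) v := by
    intro v
    rw [← hEu v, hE, hD]
    simp only [Finsupp.add_apply, Finsupp.sub_apply]
    ring
  -- supports
  have hspE' : G.spDiv E = multDiv Uvar (fun _ => 1) := by rw [hspE, multDiv_one]
  have hsuppW : ∀ Q ∈ W.support, G.sp Q ∈ Ufix := fun Q hQ =>
    sp_mem_of_mem_support G.sp hW hspW hQ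
  have hsuppE : ∀ Q ∈ E.support, G.sp Q ∈ Uvar := fun Q hQ =>
    sp_mem_of_mem_support G.sp hE0 hspE' hQ
  have hWoo : W G.oo = 0 := by
    by_contra h
    exact S.P_notMem_fix (hsuppW G.oo (Finsupp.mem_support_iff.mpr h))
  have hEoo : E G.oo = 0 := by
    by_contra h
    exact S.P_notMem_var (hsuppE G.oo (Finsupp.mem_support_iff.mpr h))
  have hvW : ∀ Q ∈ W.support, HasValue Q z (vF Q) := fun Q hQ =>
    I.vF_spec Q (I.ne_oo (I.ne_oob_of_mem (Or.inr (hsuppW Q hQ))))
  have hvE : ∀ Q ∈ E.support, HasValue Q z (vF Q) := fun Q hQ =>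
    I.vF_spec Q (I.ne_oo (I.ne_oob_of_mem (Or.inl (hsuppE Q hQ))))
  -- reductions of the two root polynomials
  obtain ⟨hρWO, hρWres⟩ := I.res_aeval_rhoV hW hspW (fun w hw => Or.inr hw)
  obtain ⟨hρEO, hρEres⟩ := I.res_aeval_rhoV hE0 hspE' (fun w hw => Or.inl hw)
  set ρW : F := aeval z (rhoV vF W) with hρW
  set ρE : F := aeval z (rhoV vF E) with hρE
  -- the cofactor
  set u' : F := ρW * ρE / u with hu'
  have hprod : u * u' = ρW * ρE := by
    rw [hu', mul_div_cancel₀ _ hu0]
  have hu'O : u' ∈ O := by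
    rw [← O.valuation_le_one_iff, hu', map_div₀, hvalu, div_one, map_mul]
    exact mul_le_one' ((O.valuation_le_one_iff _).mpr hρWO) ((O.valuation_le_one_iff _).mpr hρEO)
  have hres_u' : G.R.res ⟨u', hu'O⟩ = ub' := by
    have e1 : (⟨u, huO⟩ : O) * ⟨u', hu'O⟩ = ⟨ρW, hρWO⟩ * ⟨ρE, hρEO⟩ := Subtype.ext hprod
    have e2 := congrArg G.R.res e1
    rw [map_mul, map_mul, hres_u, hρWres, hρEres] at e2
    have e3 : ub * ub' = ub * G.R.res ⟨u', hu'O⟩ := by
      rw [e2, S.prod, aeval_rootPolyMult, aeval_rootPoly]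
      simp only [pow_one]
    exact (mul_left_cancel₀ hub0 e3).symm
  -- the pole order of `u'`
  have hsumW : (∑ Q ∈ W.support, ((W Q).toNat : ℤ)) = ∑ Q ∈ Ufix, (μ Q : ℤ) := by
    have := sum_toNat_eq G.sp hW hspW
    exact_mod_cast this
  have hsumE : (∑ Q ∈ E.support, ((E Q).toNat : ℤ)) = Uvar.card := by
    have := sum_toNat_eq G.sp hE0 hspE'
    rw [Finset.sum_const, smul_eq_mul, mul_one] at this
    exact_mod_cast this
  have hu'L : u' ∈ riemannRochSpace (Finsupp.single G.oo ((e : ℤ) * m - m)) := by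
    rw [mem_riemannRochSpace_iff_ordGE]
    intro v
    rw [hu', div_eq_mul_inv]
    by_cases hv : v = G.oo
    · rw [hv, Finsupp.single_eq_same]
      have h1 := ordGE_aeval_rhoV_pole vF W G.oo I.z_pole
      have h2 := ordGE_aeval_rhoV_pole vF E G.oo I.z_pole
      rw [hsumW] at h1
      rw [hsumE] at h2
      have h3 : OrdGE G.oo u⁻¹ (-(-(m : ℤ))) := by
        apply OrdGE.inv
        rw [hordu G.oo]
        simp only [Finsupp.add_apply, Finsupp.sub_apply, Finsupp.single_eq_same, hWoo, hEoo]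
        ring
      refine ((h1.mul h2).mul h3).mono ?_
      rw [I.m_eq]
      ring_nf
      exact le_refl _
    · rw [Finsupp.single_eq_of_ne hv, neg_zero]
      have hz := I.z_reg hv
      have h1 := ordGE_aeval_rhoV hvW v hz
      have h2 := ordGE_aeval_rhoV hvE v hz
      have h3 : OrdGE v u⁻¹ (-(W v + E v)) := by
        apply OrdGE.inv
        rw [hordu v]
        simp only [Finsupp.add_apply, Finsupp.sub_apply, Finsupp.single_eq_of_ne hv]
        ring
      exact ((h1.mul h2).mul h3).mono (by omega)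
  exact ⟨E, u, u', hE0, hspE, hu0, hordu, huO, hu'O, hu'L, hres_u, hres_u', hprod⟩

end Input

end Main

end Fermat.Agent.S19x.Geo.TrueSol
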